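/-
Programme MW (S17), brick (CL) (helper2, prefix `s17c_`): THE DIAGONAL LEMMA, abstract form
(Mathlib only).

`V` a `K`-algebra ("the local ring `O_P`", essentially of finite type: every element is `G / t`
with `G, t ∈ K[σ]`, `σ` finite, `t(P) ≠ 0`) with a point `res : V → K` and a "uniformiser" `τ`
(`g = g(P) + τ g₁`).  `a, b : V → T` two copies of `V` in a domain `T` with a point `e : T → K`
restricting to `res` on both copies.  Then `a g - b g ∈ (a τ - b τ) · T_{ker e}` for all `g`:
the diagonal is cut out by ONE equation near the point.  (Twisted Leibniz rule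
`D(xy) = a x · D y + b y · D x`; the ideal `(D y)_{y ∈ σ}` of the local ring is finitely generated
and equal to `(D τ) + 𝔪 · itself`; Nakayama.)
-/
import Mathlib

set_option autoImplicit false
set_option linter.unusedSectionVars false
set_option linter.unusedVariables false
set_option linter.style.haveILetI false

noncomputable section

namespace Fermat.Agent.Lib.S17

open IsLocalRing

theorem s17c_nakayama_diag {K V T : Type*} [Field K] [CommRing V] [Algebra K V] [CommRing T]
    [IsDomain T] [Algebra K T] (a b : V →ₐ[K] T) (e : T →ₐ[K] K) (res : V →ₐ[K] K)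
    (ha : ∀ g, e (a g) = res g) (hb : ∀ g, e (b g) = res g)
    (τ : V) (hτ : res τ = 0)
    (htaylor : ∀ g : V, ∃ g₁ : V, g = algebraMap K V (res g) + τ * g₁)
    (σ : Finset V)
    (hess : ∀ g : V, ∃ t ∈ Algebra.adjoin K (σ : Set V), ∃ G ∈ Algebra.adjoin K (σ : Set V),
      res t ≠ 0 ∧ g * t = G)
    (g : V) : ∃ u v : T, e v ≠ 0 ∧ (a g - b g) * v = (a τ - b τ) * u := by
  classical
  let 𝔭 : Ideal T := RingHom.ker (e : T →+* K)
  haveI h𝔭 : 𝔭.IsPrime := RingHom.ker_isPrime (e : T →+* K)
  let R := Localization.AtPrime 𝔭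
  let φ : T →+* R := algebraMap T R
  let D : V → T := fun x => a x - b x
  have hD_add : ∀ x y, D (x + y) = D x + D y := fun x y => by
    simp only [D, map_add]; ring
  have hD_mul : ∀ x y, D (x * y) = a x * D y + b y * D x := fun x y => by
    simp only [D, map_mul]; ring
  have hD_alg : ∀ r : K, D (algebraMap K V r) = 0 := fun r => by
    simp only [D, AlgHom.commutes, sub_self]
  let N : Ideal R := Ideal.span ((fun y => φ (D y)) '' (σ : Set V))
  -- Step A
  have hA : ∀ s ∈ Algebra.adjoin K (σ : Set V), φ (D s) ∈ N := by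
    intro s hs
    induction hs using Algebra.adjoin_induction with
    | mem y hy => exact Ideal.subset_span ⟨y, hy, rfl⟩
    | algebraMap r => rw [hD_alg, map_zero]; exact N.zero_mem
    | add x y _ _ hx hy => rw [hD_add, map_add]; exact N.add_mem hx hy
    | mul x y _ _ hx hy =>
      rw [hD_mul, map_add, map_mul, map_mul]
      exact N.add_mem (N.mul_mem_left _ hy) (N.mul_mem_left _ hx)
  have hmem𝔭 : ∀ x : T, x ∈ 𝔭 ↔ e x = 0 := fun x => RingHom.mem_ker
  -- Step B
  have hB : ∀ g : V, φ (D g) ∈ N := by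
    intro g
    obtain ⟨t, ht, G, hG, hres, hgt⟩ := hess g
    have h1 : φ (b t) * φ (D g) = φ (D G) - φ (a g) * φ (D t) := by
      rw [← hgt, hD_mul, map_add, map_mul, map_mul]; ring
    have hunit : IsUnit (φ (b t)) := by
      apply (IsLocalization.AtPrime.isUnit_to_map_iff R 𝔭 (b t)).mpr
      show b t ∉ 𝔭
      rw [hmem𝔭, hb]
      exact hres
    have h2 : φ (b t) * φ (D g) ∈ N := by
      rw [h1]
      exact N.sub_mem (hA G hG) (N.mul_mem_left _ (hA t ht))
    exact (Ideal.unit_mul_mem_iff_mem N hunit).mp h2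
  -- Step C
  have hC : ∀ g : V, φ (D g) ∈ Ideal.span {φ (D τ)} ⊔ maximalIdeal R • N := by
    intro g
    obtain ⟨g₁, hg₁⟩ := htaylor g
    have h1 : D g = a τ * D g₁ + b g₁ * D τ := by
      conv_lhs => rw [hg₁]
      rw [hD_add, hD_alg, zero_add, hD_mul]
    rw [h1, map_add, map_mul, map_mul, add_comm]
    refine Submodule.add_mem_sup ?_ ?_
    · exact Ideal.mul_mem_left _ _ (Ideal.subset_span (Set.mem_singleton _))
    · have hm : φ (a τ) ∈ maximalIdeal R := by
        apply (IsLocalization.AtPrime.to_map_mem_maximal_iff R 𝔭 (a τ)).mpr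
        rw [hmem𝔭, ha]
        exact hτ
      rw [smul_eq_mul]
      exact Ideal.mul_mem_mul hm (hB g₁)
  -- Step D + Nakayama
  have hNfg : (N : Submodule R R).FG :=
    Submodule.fg_span ((σ : Set V).toFinite.image _)
  have hD : N ≤ Ideal.span {φ (D τ)} ⊔ maximalIdeal R • N := by
    refine Ideal.span_le.mpr ?_
    rintro _ ⟨y, hy, rfl⟩
    exact hC y
  have hNak : N ≤ Ideal.span {φ (D τ)} :=
    Submodule.le_of_le_smul_of_le_jacobson_bot hNfg (IsLocalRing.maximalIdeal_le_jacobson _) hD
  -- conclusion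
  obtain ⟨ρ, hρ⟩ := Ideal.mem_span_singleton'.mp (hNak (hB g))
  obtain ⟨⟨u, v⟩, huv⟩ := IsLocalization.surj 𝔭.primeCompl ρ
  refine ⟨u, (v : T), ?_, ?_⟩
  · have := v.2
    intro h0
    exact this ((hmem𝔭 _).mpr h0)
  · have hinj : Function.Injective φ :=
      IsLocalization.injective R (Ideal.primeCompl_le_nonZeroDivisors 𝔭)
    apply hinj
    show φ (D g * v) = φ (D τ * u)
    rw [map_mul, map_mul, ← hρ, ← huv]
    ring

end Fermat.Agent.Lib.S17
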