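/-
Programme MW (S17) — SUB-INTERFACE for the geometry of `C^m` (bricks [MODEL], [DD], [CLv], [LINv];
architect: helper6; owners: helper2 = model + local rings + [DD] + [LINv], helper9 = [CLv],
helper1 = the power-series divided differences used in [DD]).  The owners may amend the shapes
below (post the amendment); what is FROZEN is `s17_CL` and `s17_LIN` of `Iface.lean`.

* `s17_Model K F m` : a model of the function field `K(C^m)`: a field `FF` with `m` embeddings
  `ι i : F →ₐ[K] FF` such that any family of `K`-algebra maps `S i → R` on subalgebras `S i ⊆ F`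
  extends to the subalgebra generated by the `ι i (S i)` (i.e. `⊗ S i → FF` is injective), and
  `FF` is the field of fractions of the subalgebra generated by the `ι i F`.
* `s17_TA M A` : the subalgebra generated by the `ι i (O_{A i})`; `s17_IsEvalAt M X A e` : `e` is
  the evaluation at the point `A`; `s17_HasVal M X A r c` : `r ∈ FF` is regular at `A` (an element
  of the local ring `O_A = {u/v : u, v ∈ T_A, v(A) ≠ 0}`) with value `c`.
* `s17_secElem M l` : the element of `FF` defined by a section `l`.
-/
import Fermat.Agent.Lib.S17.Iface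

set_option autoImplicit false
set_option linter.unusedSectionVars false
set_option linter.unusedVariables false

noncomputable section

namespace Fermat.Agent.Lib.S17

open AlgebraicCurve Fermat.Agent.Lib.S19

variable {K F : Type} [Field K] [Field F] [Algebra K F]

/-- the valuation ring of a place, as a `K`-subalgebra of `F`. -/
def s17_OP (P : Place K F) : Subalgebra K F :=
  { P.toValuationSubring.toSubring with algebraMap_mem' := P.algebraMap_mem' }

/-- **a model of the function field of `C^m`.** -/
structure s17_Model (K F : Type) [Field K] [Field F] [Algebra K F] (m : ℕ) where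
  FF : Type
  [instField : Field FF]
  [instAlgebra : Algebra K FF]
  ι : Fin m → F →ₐ[K] FF
  /-- joint specialisation = injectivity of the tensor product of subalgebras. -/
  spec : ∀ (S : Fin m → Subalgebra K F) (R : Type) [CommRing R] [Algebra K R]
    (h : ∀ i, ↥(S i) →ₐ[K] R),
    ∃ H : ↥(⨆ i, (S i).map (ι i)) →ₐ[K] R, ∀ (i : Fin m) (f : F) (hf : f ∈ S i)
      (hmem : ι i f ∈ ⨆ i, (S i).map (ι i)), H ⟨ι i f, hmem⟩ = h i ⟨f, hf⟩
  /-- `FF` is generated as a field. -/
  gen : ∀ x : FF, ∃ u v : FF, u ∈ (⨆ i, (⊤ : Subalgebra K F).map (ι i)) ∧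
    v ∈ (⨆ i, (⊤ : Subalgebra K F).map (ι i)) ∧ v ≠ 0 ∧ x * v = u

attribute [instance] s17_Model.instField s17_Model.instAlgebra

variable {m : ℕ}

/-- the subalgebra generated by the local rings of the coordinates of `A`. -/
def s17_TA (M : s17_Model K F m) (A : Fin m → Place K F) : Subalgebra K M.FF :=
  ⨆ i, (s17_OP (A i)).map (M.ι i)

/-- `e` is the evaluation at the point `A ∈ C^m`. -/
def s17_IsEvalAt (M : s17_Model K F m) (X : s17_Charts K F) (A : Fin m → Place K F)
    (e : ↥(s17_TA M A) →ₐ[K] K) : Prop :=
  ∀ (i : Fin m) (f : F) (hf : f ∈ s17_OP (A i)) (hmem : M.ι i f ∈ s17_TA M A),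
    e ⟨M.ι i f, hmem⟩ = (X.exp (A i) f).coeff 0

/-- `r` is regular at `A` with value `c`. -/
def s17_HasVal (M : s17_Model K F m) (X : s17_Charts K F) (A : Fin m → Place K F)
    (r : M.FF) (c : K) : Prop :=
  ∃ e : ↥(s17_TA M A) →ₐ[K] K, s17_IsEvalAt M X A e ∧
    ∃ u v : ↥(s17_TA M A), e v ≠ 0 ∧ r * (v : M.FF) = (u : M.FF) ∧ e u = c * e v

/-- the element of `K(C^m)` defined by a block. -/
def s17_blkElem (M : s17_Model K F m) (b : s17_Blk K F m) : M.FF :=
  Matrix.det fun (i k : Fin b.S.card) => M.ι (b.S.orderEmbOfFin rfl i) (b.f k)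

/-- the element of `K(C^m)` defined by a section. -/
def s17_secElem (M : s17_Model K F m) (l : List (s17_Blk K F m)) : M.FF :=
  (l.map fun b => s17_blkElem M b).prod

/-- [MODEL] models exist (the construction may use a chart). -/
def s17_ModelExists : Prop :=
  ∀ (K F : Type) [Field K] [Field F] [Algebra K F] [IsAlgClosed K] (g : ℕ),
    s17_Curve K F g → s17_Charts K F → ∀ m : ℕ, Nonempty (s17_Model K F m)

/-- [DD] **local generators**: for every type (represented by a section `l₀`) there is a local
generator `γ A` at every `A`, a unit at generic `A`, such that every section of this type divided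
by `γ A` is regular at `A` with value its confluent chart value. -/
def s17_DD : Prop :=
  ∀ (K F : Type) [Field K] [Field F] [Algebra K F] [IsAlgClosed K] (g : ℕ),
    s17_Curve K F g → ∀ (X : s17_Charts K F) (m : ℕ) (M : s17_Model K F m)
      (l₀ : List (s17_Blk K F m)),
      ∃ (γ : (Fin m → Place K F) → M.FF) (E₀ : Finset (Place K F)),
        (∀ A, γ A ≠ 0) ∧
        (∀ A, Function.Injective A → (∀ i, A i ∉ E₀) → ∃ c : K, c ≠ 0 ∧ s17_HasVal M X A (γ A) c) ∧
        ∀ l : List (s17_Blk K F m), (∀ b ∈ l, b.Ok) → s17_SameTy l l₀ → ∀ A,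
          s17_HasVal M X A (s17_secElem M l / γ A) (s17_secVal X l A)

/-- [CLv] **the valuative criterion**: a finite family of elements of `K(C^m)` which has, at every
point `A`, a common denominator `γ A` making all members regular at `A` with values `U A a`, not
all zero, has Zariski-closed value set. -/
def s17_CLv : Prop :=
  ∀ (K F : Type) [Field K] [Field F] [Algebra K F] [IsAlgClosed K] (g : ℕ),
    s17_Curve K F g → ∀ (X : s17_Charts K F) (m : ℕ) (M : s17_Model K F m) (ι : Type)
      [Fintype ι] (r : ι → M.FF) (U : (Fin m → Place K F) → ι → K),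
      (∀ A, ∃ γ : M.FF, γ ≠ 0 ∧ ∀ a, s17_HasVal M X A (r a / γ) (U A a)) →
      (∀ A, ∃ a, U A a ≠ 0) →
      ∀ z : ι → K,
        (∀ (d : ℕ) (p : MvPolynomial ι K), p.IsHomogeneous d →
          (∀ A : Fin m → Place K F, MvPolynomial.aeval (U A) p = 0) →
          MvPolynomial.aeval z p = 0) →
        z = 0 ∨ ∃ A : Fin m → Place K F, ∃ t : K, z = t • U A

/-- [LINv] **density**: a linear combination whose values vanish at all generic points vanishes
(as an element of `K(C^m)`, hence its values vanish at all points). -/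
def s17_LINv : Prop :=
  ∀ (K F : Type) [Field K] [Field F] [Algebra K F] [IsAlgClosed K] (g : ℕ),
    s17_Curve K F g → ∀ (X : s17_Charts K F) (m : ℕ) (M : s17_Model K F m) (ι : Type)
      [Fintype ι] (r : ι → M.FF) (U : (Fin m → Place K F) → ι → K)
      (γ : (Fin m → Place K F) → M.FF) (E₀ : Finset (Place K F)),
      (∀ A, γ A ≠ 0) →
      (∀ A, Function.Injective A → (∀ i, A i ∉ E₀) → ∃ c : K, c ≠ 0 ∧ s17_HasVal M X A (γ A) c) →
      (∀ A a, s17_HasVal M X A (r a / γ A) (U A a)) →
      ∀ (c : ι → K) (E : Finset (Place K F)),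
        (∀ A : Fin m → Place K F, Function.Injective A → (∀ i, A i ∉ E) →
          ∑ a, c a * U A a = 0) →
        ∀ A : Fin m → Place K F, ∑ a, c a * U A a = 0

end Fermat.Agent.Lib.S17
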