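/-
Programme MW (S17), brick (CL) (helper2, prefix `s17c_`): ONE-VARIABLE PREPARATIONS.

For a chart system `X` and a place `P`:
* `s17c_expAlg X P : F →ₐ[K] LaurentSeries K`, the chart as an algebra map;
* `s17c_chartPS X P : ↥(s17_OP P) →ₐ[K] PowerSeries K`, the Taylor expansion of the functions
  regular at `P`; `s17c_res X P : ↥(s17_OP P) →ₐ[K] K`, the value at `P`;
* `s17c_exists_unif` : a uniformiser `τ` with `coeff 1 = 1` in the chart;
* `s17c_exists_div` : `f ∈ O_P` with `f(P) = 0` is `τ * g`, `g ∈ O_P`.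
-/
import Fermat.Agent.Lib.S17.CIface
import Fermat.Agent.Lib.FF.FFBasicPlace

set_option autoImplicit false
set_option linter.unusedSectionVars false
set_option linter.unusedVariables false
set_option linter.style.haveILetI false

noncomputable section

namespace Fermat.Agent.Lib.S17

open AlgebraicCurve Fermat.Agent.Lib.S19 Fermat.Agent.Lib.FF HahnSeries

variable {K F : Type} [Field K] [Field F] [Algebra K F]

/-- membership in the valuation ring of a place, as a subalgebra. -/
theorem s17c_mem_OP (P : Place K F) (f : F) : f ∈ s17_OP P ↔ f ∈ P.toValuationSubring :=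
  Iff.rfl

theorem s17c_exp_injective (X : s17_Charts K F) (P : Place K F) :
    Function.Injective (X.exp P) := (X.exp P).injective

/-- a function regular at `P` has a power series expansion. -/
theorem s17c_exp_mem_range (X : s17_Charts K F) (P : Place K F) (f : F) (hf : f ∈ s17_OP P) :
    ∃ p : PowerSeries K, HahnSeries.ofPowerSeries ℤ K p = X.exp P f := by
  by_cases h0 : f = 0
  · exact ⟨0, by rw [h0, map_zero, map_zero]⟩
  · have hord : 0 ≤ (X.exp P f).order := by
      rw [X.exp_ord P f h0]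
      exact (ff_mem_iff_ord_nonneg P h0).mp hf
    obtain ⟨n, hn⟩ := Int.eq_ofNat_of_zero_le hord
    exact ⟨PowerSeries.X ^ n * (X.exp P f).powerSeriesPart,
      LaurentSeries.X_order_mul_powerSeriesPart hn.symm⟩

/-- the Taylor expansion of a function (meaningful on the valuation ring of `P`). -/
def s17c_T (X : s17_Charts K F) (P : Place K F) (f : F) : PowerSeries K :=
  PowerSeries.mk fun n => (X.exp P f).coeff (n : ℤ)

theorem s17c_T_coe (X : s17_Charts K F) (P : Place K F) (f : F) (hf : f ∈ s17_OP P) :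
    HahnSeries.ofPowerSeries ℤ K (s17c_T X P f) = X.exp P f := by
  obtain ⟨p, hp⟩ := s17c_exp_mem_range X P f hf
  have : s17c_T X P f = p := by
    ext n
    rw [s17c_T, PowerSeries.coeff_mk, ← hp, HahnSeries.ofPowerSeries_apply_coeff]
  rw [this, hp]

theorem s17c_T_coe' (X : s17_Charts K F) (P : Place K F) (f : ↥(s17_OP P)) :
    HahnSeries.ofPowerSeries ℤ K (s17c_T X P (f : F)) = X.exp P (f : F) :=
  s17c_T_coe X P _ f.2

/-- the Taylor expansion on the valuation ring of `P`. -/
def s17c_chartPS (X : s17_Charts K F) (P : Place K F) : ↥(s17_OP P) →ₐ[K] PowerSeries K where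
  toFun f := s17c_T X P (f : F)
  map_one' := by
    apply HahnSeries.ofPowerSeries_injective (Γ := ℤ) (R := K)
    rw [s17c_T_coe' X P 1, OneMemClass.coe_one, map_one, map_one]
  map_mul' f g := by
    apply HahnSeries.ofPowerSeries_injective (Γ := ℤ) (R := K)
    rw [map_mul, s17c_T_coe' X P f, s17c_T_coe' X P g, s17c_T_coe' X P (f * g),
      MulMemClass.coe_mul, map_mul]
  map_zero' := by
    apply HahnSeries.ofPowerSeries_injective (Γ := ℤ) (R := K)
    rw [s17c_T_coe' X P 0, ZeroMemClass.coe_zero, map_zero, map_zero]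
  map_add' f g := by
    apply HahnSeries.ofPowerSeries_injective (Γ := ℤ) (R := K)
    rw [map_add, s17c_T_coe' X P f, s17c_T_coe' X P g, s17c_T_coe' X P (f + g),
      AddMemClass.coe_add, map_add]
  commutes' c := by
    apply HahnSeries.ofPowerSeries_injective (Γ := ℤ) (R := K)
    rw [s17c_T_coe' X P (algebraMap K ↥(s17_OP P) c)]
    show X.exp P (algebraMap K F c) = _
    rw [X.exp_alg, PowerSeries.algebraMap_apply, HahnSeries.ofPowerSeries_C]
    rfl

theorem s17c_chartPS_coe (X : s17_Charts K F) (P : Place K F) (f : ↥(s17_OP P)) :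
    HahnSeries.ofPowerSeries ℤ K (s17c_chartPS X P f) = X.exp P (f : F) :=
  s17c_T_coe X P _ f.2

theorem s17c_chartPS_coeff (X : s17_Charts K F) (P : Place K F) (f : ↥(s17_OP P)) (n : ℕ) :
    PowerSeries.coeff n (s17c_chartPS X P f) = (X.exp P (f : F)).coeff (n : ℤ) := by
  show PowerSeries.coeff n (s17c_T X P (f : F)) = _
  rw [s17c_T, PowerSeries.coeff_mk]

/-- the constant coefficient as an algebra map. -/
def s17c_cc : PowerSeries K →ₐ[K] K :=
  { PowerSeries.constantCoeff (R := K) with
    commutes' := fun c => by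
      show PowerSeries.constantCoeff (algebraMap K (PowerSeries K) c) = algebraMap K K c
      rw [PowerSeries.algebraMap_apply, PowerSeries.constantCoeff_C] }

theorem s17c_cc_apply (p : PowerSeries K) : s17c_cc p = PowerSeries.constantCoeff p := rfl

/-- the value at `P`. -/
def s17c_res (X : s17_Charts K F) (P : Place K F) : ↥(s17_OP P) →ₐ[K] K :=
  s17c_cc.comp (s17c_chartPS X P)

theorem s17c_res_apply (X : s17_Charts K F) (P : Place K F) (f : ↥(s17_OP P)) :
    s17c_res X P f = (X.exp P (f : F)).coeff 0 := by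
  show PowerSeries.constantCoeff (s17c_chartPS X P f) = _
  rw [← PowerSeries.coeff_zero_eq_constantCoeff_apply, s17c_chartPS_coeff]
  rfl

/-- the order of a non-zero constant is `0`. -/
theorem s17c_ord_const (X : s17_Charts K F) (P : Place K F) {c : K} (hc : c ≠ 0) :
    P.ord (algebraMap K F c) = 0 := by
  have h0 : algebraMap K F c ≠ 0 := (map_ne_zero _).mpr hc
  rw [← X.exp_ord P _ h0, X.exp_alg]
  exact HahnSeries.order_C

/-- a regular function vanishes at `P` iff it is `0` or of positive order. -/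
theorem s17c_res_eq_zero_iff (X : s17_Charts K F) (P : Place K F) (f : ↥(s17_OP P))
    (hf : (f : F) ≠ 0) : s17c_res X P f = 0 ↔ 0 < P.ord (f : F) := by
  rw [s17c_res_apply]
  have hord : (X.exp P (f : F)).order = P.ord (f : F) := X.exp_ord P _ hf
  have hnn : 0 ≤ P.ord (f : F) := (ff_mem_iff_ord_nonneg P hf).mp f.2
  have hne : X.exp P (f : F) ≠ 0 := (map_ne_zero _).mpr hf
  constructor
  · intro h
    rcases hnn.lt_or_eq with h1 | h1
    · exact h1
    · exfalso
      have h2 := (HahnSeries.leadingCoeff_eq (x := X.exp P _) ▸ HahnSeries.leadingCoeff_ne_zero.mpr hne)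
      rw [hord, ← h1] at h2
      exact h2 h
  · intro h
    apply HahnSeries.coeff_eq_zero_of_lt_order
    rw [hord]
    exact h

/-- a uniformiser at `P`, normalised in the chart. -/
theorem s17c_exists_unif (X : s17_Charts K F) (P : Place K F) :
    ∃ τ : F, P.ord τ = 1 ∧ (X.exp P τ).coeff 1 = 1 := by
  obtain ⟨π, hπ⟩ := IsDiscreteValuationRing.exists_irreducible ↥P.toValuationSubring
  have h1 : P.ord (π : F) = 1 := P.ord_coe_irreducible hπ
  have hπ0 : (π : F) ≠ 0 := by
    intro h
    rw [h, Place.ord_zero] at h1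
    exact zero_ne_one h1
  have hne : X.exp P (π : F) ≠ 0 := (map_ne_zero _).mpr hπ0
  have hc : (X.exp P (π : F)).coeff 1 ≠ 0 := by
    have h2 := (HahnSeries.leadingCoeff_eq (x := X.exp P _) ▸ HahnSeries.leadingCoeff_ne_zero.mpr hne)
    rwa [X.exp_ord P _ hπ0, h1] at h2
  set c := (X.exp P (π : F)).coeff 1 with hcdef
  have hcinv : c⁻¹ ≠ 0 := inv_ne_zero hc
  refine ⟨algebraMap K F c⁻¹ * (π : F), ?_, ?_⟩
  · rw [P.ord_mul ((map_ne_zero _).mpr hcinv) hπ0, s17c_ord_const X P hcinv, h1, zero_add]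
  · rw [map_mul, X.exp_alg, HahnSeries.C_mul_eq_smul, HahnSeries.coeff_smul, smul_eq_mul,
      ← hcdef, inv_mul_cancel₀ hc]

/-- division by a uniformiser. -/
theorem s17c_exists_div (X : s17_Charts K F) (P : Place K F) {τ : F} (hτ : P.ord τ = 1)
    (f : ↥(s17_OP P)) (hf : s17c_res X P f = 0) :
    ∃ g : ↥(s17_OP P), (f : F) = τ * (g : F) := by
  by_cases h0 : (f : F) = 0
  · exact ⟨0, by rw [h0]; simp⟩
  · have hτ0 : τ ≠ 0 := by
      intro h
      rw [h, Place.ord_zero] at hτ
      exact zero_ne_one hτ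
    have hpos := (s17c_res_eq_zero_iff X P f h0).mp hf
    have hg0 : τ⁻¹ * (f : F) ≠ 0 := mul_ne_zero (inv_ne_zero hτ0) h0
    have hmem : τ⁻¹ * (f : F) ∈ s17_OP P := by
      rw [s17c_mem_OP, ff_mem_iff_ord_nonneg P hg0, P.ord_mul (inv_ne_zero hτ0) h0, P.ord_inv, hτ]
      omega
    refine ⟨⟨_, hmem⟩, ?_⟩
    show (f : F) = τ * (τ⁻¹ * (f : F))
    rw [← mul_assoc, mul_inv_cancel₀ hτ0, one_mul]

/-- Taylor step: `f = f(P) + τ g`. -/
theorem s17c_exists_taylor (X : s17_Charts K F) (P : Place K F) {τ : F} (hτ : P.ord τ = 1)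
    (f : ↥(s17_OP P)) :
    ∃ g : ↥(s17_OP P), (f : F) = algebraMap K F (s17c_res X P f) + τ * (g : F) := by
  obtain ⟨g, hg⟩ := s17c_exists_div X P hτ (f - algebraMap K ↥(s17_OP P) (s17c_res X P f)) (by
    rw [map_sub, AlgHom.commutes, Algebra.algebraMap_self_apply, sub_self])
  refine ⟨g, ?_⟩
  rw [← hg]
  simp

end Fermat.Agent.Lib.S17
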