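/-
Programme MW (S17), brick (CL) (helper2, prefix `s17c_`): EVALUATION AT A POINT OF `C^m` AND THE
API OF `s17_HasVal`.

* `s17c_spec_TA` : joint specialisation on `T_A = ⨆ ι_i(O_{A i})` (from `s17_Model.spec`);
* `s17c_ev M X A : ↥(s17_TA M A) →ₐ[K] K`, THE evaluation at `A` (`s17c_ev_isEvalAt`,
  `s17c_eval_unique`), `s17c_hasVal_iff`;
* ring operations, inverses, uniqueness of values for `s17_HasVal`.
-/
import Fermat.Agent.Lib.S17.CChart

set_option autoImplicit false
set_option linter.unusedSectionVars false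
set_option linter.unusedVariables false
set_option linter.style.haveILetI false

noncomputable section

namespace Fermat.Agent.Lib.S17

open AlgebraicCurve Fermat.Agent.Lib.S19 Fermat.Agent.Lib.FF HahnSeries

variable {K F : Type} [Field K] [Field F] [Algebra K F] {m : ℕ}

/-- the `i`-th copy of `O_{A i}` lies in `T_A`. -/
theorem s17c_mem_TA (M : s17_Model K F m) (A : Fin m → Place K F) (i : Fin m) (f : F)
    (hf : f ∈ s17_OP (A i)) : M.ι i f ∈ s17_TA M A :=
  Algebra.mem_iSup_of_mem (S := fun i => (s17_OP (A i)).map (M.ι i)) i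
    (Subalgebra.mem_map.mpr ⟨f, hf, rfl⟩)

/-- joint specialisation on `T_A`. -/
theorem s17c_spec_TA (M : s17_Model K F m) (A : Fin m → Place K F) (R : Type) [CommRing R]
    [Algebra K R] (h : ∀ i, ↥(s17_OP (A i)) →ₐ[K] R) :
    ∃ H : ↥(s17_TA M A) →ₐ[K] R, ∀ (i : Fin m) (f : F) (hf : f ∈ s17_OP (A i)),
      H ⟨M.ι i f, s17c_mem_TA M A i f hf⟩ = h i ⟨f, hf⟩ := by
  obtain ⟨H, hH⟩ := M.spec (fun i => s17_OP (A i)) R h
  exact ⟨H, fun i f hf => hH i f hf _⟩

/-- two algebra maps on `T_A` which agree on the generators are equal. -/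
theorem s17c_algHom_ext_TA (M : s17_Model K F m) (A : Fin m → Place K F) {R : Type}
    [CommRing R] [Algebra K R] (H H' : ↥(s17_TA M A) →ₐ[K] R)
    (h : ∀ (i : Fin m) (f : F) (hf : f ∈ s17_OP (A i)),
      H ⟨M.ι i f, s17c_mem_TA M A i f hf⟩ = H' ⟨M.ι i f, s17c_mem_TA M A i f hf⟩) : H = H' := by
  ext ⟨x, hx⟩
  refine Algebra.iSup_induction' (S := fun i => (s17_OP (A i)).map (M.ι i))
    (motive := fun x hx => H ⟨x, hx⟩ = H' ⟨x, hx⟩) hx ?_ ?_ ?_ ?_
  · intro i y hy
    obtain ⟨f, hf, rfl⟩ := Subalgebra.mem_map.mp hy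
    exact h i f hf
  · intro x y hx hy h1 h2
    have : (⟨x + y, add_mem hx hy⟩ : ↥(s17_TA M A)) = ⟨x, hx⟩ + ⟨y, hy⟩ := rfl
    rw [this, map_add, map_add, h1, h2]
  · intro x y hx hy h1 h2
    have : (⟨x * y, mul_mem hx hy⟩ : ↥(s17_TA M A)) = ⟨x, hx⟩ * ⟨y, hy⟩ := rfl
    rw [this, map_mul, map_mul, h1, h2]
  · intro r
    have : (⟨algebraMap K M.FF r, Subalgebra.algebraMap_mem _ r⟩ : ↥(s17_TA M A)) =
        algebraMap K ↥(s17_TA M A) r := rfl
    rw [this, AlgHom.commutes, AlgHom.commutes]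

/-- an evaluation at `A` exists. -/
theorem s17c_exists_eval (M : s17_Model K F m) (X : s17_Charts K F) (A : Fin m → Place K F) :
    ∃ e : ↥(s17_TA M A) →ₐ[K] K, s17_IsEvalAt M X A e := by
  obtain ⟨H, hH⟩ := s17c_spec_TA M A K (fun i => s17c_res X (A i))
  refine ⟨H, fun i f hf hmem => ?_⟩
  rw [hH i f hf, s17c_res_apply]

/-- the evaluation at `A` is unique. -/
theorem s17c_eval_unique (M : s17_Model K F m) (X : s17_Charts K F) (A : Fin m → Place K F)
    {e e' : ↥(s17_TA M A) →ₐ[K] K} (he : s17_IsEvalAt M X A e) (he' : s17_IsEvalAt M X A e') :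
    e = e' :=
  s17c_algHom_ext_TA M A e e' fun i f hf => by rw [he i f hf, he' i f hf]

/-- THE evaluation at `A`. -/
def s17c_ev (M : s17_Model K F m) (X : s17_Charts K F) (A : Fin m → Place K F) :
    ↥(s17_TA M A) →ₐ[K] K :=
  (s17c_exists_eval M X A).choose

theorem s17c_ev_isEvalAt (M : s17_Model K F m) (X : s17_Charts K F) (A : Fin m → Place K F) :
    s17_IsEvalAt M X A (s17c_ev M X A) :=
  (s17c_exists_eval M X A).choose_spec

theorem s17c_ev_iota (M : s17_Model K F m) (X : s17_Charts K F) (A : Fin m → Place K F)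
    (i : Fin m) (f : F) (hf : f ∈ s17_OP (A i)) :
    s17c_ev M X A ⟨M.ι i f, s17c_mem_TA M A i f hf⟩ = (X.exp (A i) f).coeff 0 :=
  s17c_ev_isEvalAt M X A i f hf _

theorem s17c_hasVal_iff (M : s17_Model K F m) (X : s17_Charts K F) (A : Fin m → Place K F)
    (r : M.FF) (c : K) :
    s17_HasVal M X A r c ↔ ∃ u v : ↥(s17_TA M A), s17c_ev M X A v ≠ 0 ∧
      r * (v : M.FF) = (u : M.FF) ∧ s17c_ev M X A u = c * s17c_ev M X A v := by
  constructor
  · rintro ⟨e, he, u, v, h1, h2, h3⟩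
    have := s17c_eval_unique M X A he (s17c_ev_isEvalAt M X A)
    subst this
    exact ⟨u, v, h1, h2, h3⟩
  · rintro ⟨u, v, h1, h2, h3⟩
    exact ⟨_, s17c_ev_isEvalAt M X A, u, v, h1, h2, h3⟩

section API

variable (M : s17_Model K F m) (X : s17_Charts K F) (A : Fin m → Place K F)

theorem s17c_ne_zero_of_ev_ne_zero {v : ↥(s17_TA M A)} (hv : s17c_ev M X A v ≠ 0) :
    (v : M.FF) ≠ 0 := by
  intro h
  apply hv
  have : v = 0 := Subtype.ext h
  rw [this, map_zero]

/-- elements of `T_A` are regular at `A`. -/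
theorem s17c_hasVal_of_mem (u : ↥(s17_TA M A)) :
    s17_HasVal M X A (u : M.FF) (s17c_ev M X A u) := by
  rw [s17c_hasVal_iff]
  refine ⟨u, 1, ?_, ?_, ?_⟩
  · rw [map_one]; exact one_ne_zero
  · rw [OneMemClass.coe_one, mul_one]
  · rw [map_one, mul_one]

theorem s17c_hasVal_iota (i : Fin m) (f : F) (hf : f ∈ s17_OP (A i)) :
    s17_HasVal M X A (M.ι i f) ((X.exp (A i) f).coeff 0) := by
  have := s17c_hasVal_of_mem M X A ⟨M.ι i f, s17c_mem_TA M A i f hf⟩
  rw [s17c_ev_iota M X A i f hf] at this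
  exact this

theorem s17c_hasVal_const (c : K) : s17_HasVal M X A (algebraMap K M.FF c) c := by
  have := s17c_hasVal_of_mem M X A (algebraMap K ↥(s17_TA M A) c)
  rwa [AlgHom.commutes] at this

theorem s17c_hasVal_one : s17_HasVal M X A (1 : M.FF) 1 := by
  have := s17c_hasVal_const M X A (1 : K)
  rwa [map_one] at this

theorem s17c_hasVal_zero : s17_HasVal M X A (0 : M.FF) 0 := by
  have := s17c_hasVal_const M X A (0 : K)
  rwa [map_zero] at this

variable {M X A}

theorem s17c_hasVal_mul {r r' : M.FF} {c c' : K} (h : s17_HasVal M X A r c)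
    (h' : s17_HasVal M X A r' c') : s17_HasVal M X A (r * r') (c * c') := by
  rw [s17c_hasVal_iff] at h h' ⊢
  obtain ⟨u, v, h1, h2, h3⟩ := h
  obtain ⟨u', v', h1', h2', h3'⟩ := h'
  refine ⟨u * u', v * v', ?_, ?_, ?_⟩
  · rw [map_mul]; exact mul_ne_zero h1 h1'
  · rw [MulMemClass.coe_mul, MulMemClass.coe_mul, ← h2, ← h2']; ring
  · rw [map_mul, map_mul, h3, h3']; ring

theorem s17c_hasVal_add {r r' : M.FF} {c c' : K} (h : s17_HasVal M X A r c)
    (h' : s17_HasVal M X A r' c') : s17_HasVal M X A (r + r') (c + c') := by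
  rw [s17c_hasVal_iff] at h h' ⊢
  obtain ⟨u, v, h1, h2, h3⟩ := h
  obtain ⟨u', v', h1', h2', h3'⟩ := h'
  refine ⟨u * v' + u' * v, v * v', ?_, ?_, ?_⟩
  · rw [map_mul]; exact mul_ne_zero h1 h1'
  · simp only [MulMemClass.coe_mul, AddMemClass.coe_add]
    rw [← h2, ← h2']; ring
  · rw [map_add, map_mul, map_mul, map_mul, h3, h3']; ring

theorem s17c_hasVal_neg {r : M.FF} {c : K} (h : s17_HasVal M X A r c) :
    s17_HasVal M X A (-r) (-c) := by
  have := s17c_hasVal_mul (s17c_hasVal_const M X A (-1 : K)) h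
  simpa using this

theorem s17c_hasVal_sub {r r' : M.FF} {c c' : K} (h : s17_HasVal M X A r c)
    (h' : s17_HasVal M X A r' c') : s17_HasVal M X A (r - r') (c - c') := by
  rw [sub_eq_add_neg, sub_eq_add_neg]
  exact s17c_hasVal_add h (s17c_hasVal_neg h')

theorem s17c_hasVal_inv {r : M.FF} {c : K} (h : s17_HasVal M X A r c) (hc : c ≠ 0) :
    s17_HasVal M X A r⁻¹ c⁻¹ := by
  rw [s17c_hasVal_iff] at h ⊢
  obtain ⟨u, v, h1, h2, h3⟩ := h
  have hu : s17c_ev M X A u ≠ 0 := by rw [h3]; exact mul_ne_zero hc h1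
  have hv0 := s17c_ne_zero_of_ev_ne_zero M X A h1
  have hu0 := s17c_ne_zero_of_ev_ne_zero M X A hu
  have hr0 : r ≠ 0 := by
    intro h0
    rw [h0, zero_mul] at h2
    exact hu0 h2.symm
  refine ⟨v, u, hu, ?_, ?_⟩
  · rw [← h2]; field_simp
  · rw [h3]; field_simp

theorem s17c_hasVal_div {r r' : M.FF} {c c' : K} (h : s17_HasVal M X A r c)
    (h' : s17_HasVal M X A r' c') (hc : c' ≠ 0) : s17_HasVal M X A (r / r') (c / c') := by
  rw [div_eq_mul_inv, div_eq_mul_inv]
  exact s17c_hasVal_mul h (s17c_hasVal_inv h' hc)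

/-- the value is unique. -/
theorem s17c_hasVal_unique {r : M.FF} {c c' : K} (h : s17_HasVal M X A r c)
    (h' : s17_HasVal M X A r c') : c = c' := by
  rw [s17c_hasVal_iff] at h h'
  obtain ⟨u, v, h1, h2, h3⟩ := h
  obtain ⟨u', v', h1', h2', h3'⟩ := h'
  have hv0 := s17c_ne_zero_of_ev_ne_zero M X A h1
  have key : u * v' = u' * v := by
    apply Subtype.ext
    simp only [MulMemClass.coe_mul]
    rw [← h2, ← h2']; ring
  have := congrArg (s17c_ev M X A) key
  rw [map_mul, map_mul, h3, h3'] at this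
  have h4 : (c - c') * (s17c_ev M X A v * s17c_ev M X A v') = 0 := by linear_combination this
  rcases mul_eq_zero.mp h4 with h5 | h5
  · exact sub_eq_zero.mp h5
  · exact absurd h5 (mul_ne_zero h1 h1')

theorem s17c_hasVal_pow {r : M.FF} {c : K} (h : s17_HasVal M X A r c) (n : ℕ) :
    s17_HasVal M X A (r ^ n) (c ^ n) := by
  induction n with
  | zero => simpa using s17c_hasVal_one M X A
  | succ n ih => rw [pow_succ, pow_succ]; exact s17c_hasVal_mul ih h

theorem s17c_hasVal_list_prod {α : Type} (l : List α) (r : α → M.FF) (c : α → K)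
    (h : ∀ a ∈ l, s17_HasVal M X A (r a) (c a)) :
    s17_HasVal M X A (l.map r).prod (l.map c).prod := by
  induction l with
  | nil => simpa using s17c_hasVal_one M X A
  | cons a l ih =>
    rw [List.map_cons, List.prod_cons, List.map_cons, List.prod_cons]
    exact s17c_hasVal_mul (h a (List.mem_cons_self ..))
      (ih fun b hb => h b (List.mem_cons_of_mem _ hb))

theorem s17c_hasVal_finset_prod {α : Type} (s : Finset α) (r : α → M.FF) (c : α → K)
    (h : ∀ a ∈ s, s17_HasVal M X A (r a) (c a)) :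
    s17_HasVal M X A (∏ a ∈ s, r a) (∏ a ∈ s, c a) := by
  classical
  induction s using Finset.induction_on with
  | empty => simpa using s17c_hasVal_one M X A
  | insert a s ha ih =>
    rw [Finset.prod_insert ha, Finset.prod_insert ha]
    exact s17c_hasVal_mul (h a (Finset.mem_insert_self ..))
      (ih fun b hb => h b (Finset.mem_insert_of_mem hb))

theorem s17c_hasVal_finset_sum {α : Type} (s : Finset α) (r : α → M.FF) (c : α → K)
    (h : ∀ a ∈ s, s17_HasVal M X A (r a) (c a)) :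
    s17_HasVal M X A (∑ a ∈ s, r a) (∑ a ∈ s, c a) := by
  classical
  induction s using Finset.induction_on with
  | empty => simpa using s17c_hasVal_zero M X A
  | insert a s ha ih =>
    rw [Finset.sum_insert ha, Finset.sum_insert ha]
    exact s17c_hasVal_add (h a (Finset.mem_insert_self ..))
      (ih fun b hb => h b (Finset.mem_insert_of_mem hb))

end API

end Fermat.Agent.Lib.S17
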