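/-
Programme MW (S17), brick (CL) (helper2, prefix `s17c_`): THE DIAGONAL LEMMA on `C^m` and the
DIAGONAL SPECIALISATIONS.

For `a ≠ b` with `A a = A b = P`:
* `s17c_diag` : `(ι_b g - ι_a g) · v = (ι_b τ - ι_a τ) · u` with `u, v ∈ T_A`, `v(A) ≠ 0`, for every
  `g ∈ O_P` (`τ` a uniformiser at `P`) — from `s17c_nakayama_diag` and `s17_Curve.ess`;
* `s17c_H M A a b` : the specialisation `ι_b ↦ ι_a` on `T_A` (from `spec`), `s17c_H_iota`,
  `s17c_H_mem`;
* `s17c_ker_H` : `x - H x ∈ (ι_b τ - ι_a τ) · O_A`.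
-/
import Fermat.Agent.Lib.S17.CVal
import Fermat.Agent.Lib.S17.CNak

set_option autoImplicit false
set_option linter.unusedSectionVars false
set_option linter.unusedVariables false
set_option linter.style.haveILetI false

noncomputable section

namespace Fermat.Agent.Lib.S17

open AlgebraicCurve Fermat.Agent.Lib.S19 Fermat.Agent.Lib.FF HahnSeries

variable {K F : Type} [Field K] [Field F] [Algebra K F] {m : ℕ}

/-- the `k`-th copy of `O_P` in `T_A`, when `A k = P`. -/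
def s17c_copy (M : s17_Model K F m) (A : Fin m → Place K F) (k : Fin m) (P : Place K F)
    (hk : A k = P) : ↥(s17_OP P) →ₐ[K] ↥(s17_TA M A) :=
  ((M.ι k).comp (s17_OP P).val).codRestrict (s17_TA M A)
    (fun f => s17c_mem_TA M A k (f : F) (by rw [hk]; exact f.2))

theorem s17c_copy_coe (M : s17_Model K F m) (A : Fin m → Place K F) (k : Fin m) (P : Place K F)
    (hk : A k = P) (f : ↥(s17_OP P)) :
    ((s17c_copy M A k P hk f : ↥(s17_TA M A)) : M.FF) = M.ι k (f : F) := rfl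

theorem s17c_ev_copy (M : s17_Model K F m) (X : s17_Charts K F) (A : Fin m → Place K F)
    (k : Fin m) (P : Place K F) (hk : A k = P) (f : ↥(s17_OP P)) :
    s17c_ev M X A (s17c_copy M A k P hk f) = s17c_res X P f := by
  subst hk
  rw [s17c_res_apply]
  exact s17c_ev_iota M X A k (f : F) f.2

/-- a uniformiser is regular. -/
theorem s17c_unif_mem (P : Place K F) {τ : F} (hτ : P.ord τ = 1) : τ ∈ s17_OP P := by
  have h0 : τ ≠ 0 := by
    intro h
    rw [h, Place.ord_zero] at hτ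
    exact zero_ne_one hτ
  rw [s17c_mem_OP, ff_mem_iff_ord_nonneg P h0, hτ]
  exact zero_le_one

theorem s17c_res_unif (X : s17_Charts K F) (P : Place K F) {τ : F} (hτ : P.ord τ = 1) :
    s17c_res X P ⟨τ, s17c_unif_mem P hτ⟩ = 0 := by
  have h0 : τ ≠ 0 := by
    intro h
    rw [h, Place.ord_zero] at hτ
    exact zero_ne_one hτ
  rw [s17c_res_eq_zero_iff X P _ h0]
  show 0 < P.ord τ
  rw [hτ]
  exact zero_lt_one

/-- **the diagonal lemma.** -/
theorem s17c_diag {g₀ : ℕ} (hC : s17_Curve K F g₀) (M : s17_Model K F m) (X : s17_Charts K F)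
    (A : Fin m → Place K F) (a b : Fin m) (P : Place K F) (ha : A a = P) (hb : A b = P)
    {τ : F} (hτ : P.ord τ = 1) (g : F) (hg : g ∈ s17_OP P) :
    ∃ u v : ↥(s17_TA M A), s17c_ev M X A v ≠ 0 ∧
      (M.ι b g - M.ι a g) * (v : M.FF) = (M.ι b τ - M.ι a τ) * (u : M.FF) := by
  classical
  obtain ⟨σ, hσmem, hσ⟩ := hC.ess P
  -- the generators as elements of `V = O_P`
  let V := ↥(s17_OP P)
  let σV : Finset V := σ.attach.image fun y => (⟨y.1, hσmem y.1 y.2⟩ : V)
  have hadj : ∀ t : F, t ∈ Algebra.adjoin K (σ : Set F) →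
      ∃ t' : V, t' ∈ Algebra.adjoin K (σV : Set V) ∧ (t' : F) = t := by
    intro t ht
    induction ht using Algebra.adjoin_induction with
    | mem y hy =>
      refine ⟨⟨y, hσmem y hy⟩, Algebra.subset_adjoin ?_, rfl⟩
      rw [Finset.mem_coe, Finset.mem_image]
      exact ⟨⟨y, hy⟩, Finset.mem_attach _ _, rfl⟩
    | algebraMap r => exact ⟨algebraMap K V r, Subalgebra.algebraMap_mem _ r, rfl⟩
    | add x y _ _ hx hy =>
      obtain ⟨x', hx', rfl⟩ := hx
      obtain ⟨y', hy', rfl⟩ := hy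
      exact ⟨x' + y', Subalgebra.add_mem _ hx' hy', rfl⟩
    | mul x y _ _ hx hy =>
      obtain ⟨x', hx', rfl⟩ := hx
      obtain ⟨y', hy', rfl⟩ := hy
      exact ⟨x' * y', Subalgebra.mul_mem _ hx' hy', rfl⟩
  have key := s17c_nakayama_diag (K := K) (V := V) (T := ↥(s17_TA M A))
    (s17c_copy M A b P hb) (s17c_copy M A a P ha) (s17c_ev M X A) (s17c_res X P)
    (fun f => s17c_ev_copy M X A b P hb f) (fun f => s17c_ev_copy M X A a P ha f)
    ⟨τ, s17c_unif_mem P hτ⟩ (s17c_res_unif X P hτ)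
    (fun f => by
      obtain ⟨g₁, hg₁⟩ := s17c_exists_taylor X P hτ f
      exact ⟨g₁, Subtype.ext hg₁⟩)
    σV
    (fun f => by
      obtain ⟨t, ht, ht0, htinv, hft⟩ := hσ (f : F) f.2
      obtain ⟨t', ht', htt⟩ := hadj t ht
      obtain ⟨G', hG', hGG⟩ := hadj _ hft
      refine ⟨t', ht', G', hG', ?_, ?_⟩
      · intro h0
        have h1 : t' * (⟨t⁻¹, htinv⟩ : V) = 1 := by
          apply Subtype.ext
          show (t' : F) * t⁻¹ = 1
          rw [htt, mul_inv_cancel₀ ht0]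
        have h2 := congrArg (s17c_res X P) h1
        rw [map_mul, h0, zero_mul, map_one] at h2
        exact zero_ne_one h2
      · apply Subtype.ext
        show (f : F) * (t' : F) = (G' : F)
        rw [htt, hGG])
    ⟨g, hg⟩
  obtain ⟨u, v, hv, huv⟩ := key
  refine ⟨u, v, hv, ?_⟩
  have := congrArg (Subtype.val : ↥(s17_TA M A) → M.FF) huv
  exact this

/-- the index substitution `b ↦ a`. -/
def s17c_sub (a b : Fin m) (k : Fin m) : Fin m := if k = b then a else k

/-- the diagonal specialisation `ι_b ↦ ι_a` on `T_A`. -/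
def s17c_H (M : s17_Model K F m) (A : Fin m → Place K F) (a b : Fin m) :
    ↥(s17_TA M A) →ₐ[K] M.FF :=
  (s17c_spec_TA M A M.FF
    (fun k => (M.ι (s17c_sub a b k)).comp (s17_OP (A k)).val)).choose

theorem s17c_H_iota (M : s17_Model K F m) (A : Fin m → Place K F) (a b : Fin m) (k : Fin m)
    (f : F) (hf : f ∈ s17_OP (A k)) :
    s17c_H M A a b ⟨M.ι k f, s17c_mem_TA M A k f hf⟩ = M.ι (s17c_sub a b k) f :=
  (s17c_spec_TA M A M.FF
    (fun k => (M.ι (s17c_sub a b k)).comp (s17_OP (A k)).val)).choose_spec k f hf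

/-- the diagonal specialisation preserves `T_A` when `A a = A b`. -/
theorem s17c_H_mem (M : s17_Model K F m) (A : Fin m → Place K F) (a b : Fin m) (hab : A a = A b)
    (x : ↥(s17_TA M A)) : s17c_H M A a b x ∈ s17_TA M A := by
  obtain ⟨x, hx⟩ := x
  refine Algebra.iSup_induction' (S := fun i => (s17_OP (A i)).map (M.ι i))
    (motive := fun x hx => s17c_H M A a b ⟨x, hx⟩ ∈ s17_TA M A) hx ?_ ?_ ?_ ?_
  · intro k y hy
    obtain ⟨f, hf, rfl⟩ := Subalgebra.mem_map.mp hy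
    rw [s17c_H_iota M A a b k f hf]
    apply s17c_mem_TA
    unfold s17c_sub
    split_ifs with h
    · rw [hab, ← h]; exact hf
    · exact hf
  · intro x y hx hy h1 h2
    have : (⟨x + y, add_mem hx hy⟩ : ↥(s17_TA M A)) = ⟨x, hx⟩ + ⟨y, hy⟩ := rfl
    rw [this, map_add]
    exact Subalgebra.add_mem _ h1 h2
  · intro x y hx hy h1 h2
    have : (⟨x * y, mul_mem hx hy⟩ : ↥(s17_TA M A)) = ⟨x, hx⟩ * ⟨y, hy⟩ := rfl
    rw [this, map_mul]
    exact Subalgebra.mul_mem _ h1 h2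
  · intro r
    have : (⟨algebraMap K M.FF r, Subalgebra.algebraMap_mem _ r⟩ : ↥(s17_TA M A)) =
        algebraMap K ↥(s17_TA M A) r := rfl
    rw [this, AlgHom.commutes]
    exact Subalgebra.algebraMap_mem _ r

/-- **the kernel of the diagonal specialisation is generated by `ι_b τ - ι_a τ` near `A`.** -/
theorem s17c_ker_H {g₀ : ℕ} (hC : s17_Curve K F g₀) (M : s17_Model K F m) (X : s17_Charts K F)
    (A : Fin m → Place K F) (a b : Fin m) (hab : A a = A b)
    {τ : F} (hτ : (A b).ord τ = 1) (x : ↥(s17_TA M A)) :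
    ∃ u v : ↥(s17_TA M A), s17c_ev M X A v ≠ 0 ∧
      ((x : M.FF) - s17c_H M A a b x) * (v : M.FF) = (M.ι b τ - M.ι a τ) * (u : M.FF) := by
  obtain ⟨x, hx⟩ := x
  refine Algebra.iSup_induction' (S := fun i => (s17_OP (A i)).map (M.ι i))
    (motive := fun x hx => ∃ u v : ↥(s17_TA M A), s17c_ev M X A v ≠ 0 ∧
      (x - s17c_H M A a b ⟨x, hx⟩) * (v : M.FF) = (M.ι b τ - M.ι a τ) * (u : M.FF))
    hx ?_ ?_ ?_ ?_
  · intro k y hy
    obtain ⟨f, hf, rfl⟩ := Subalgebra.mem_map.mp hy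
    rw [s17c_H_iota M A a b k f hf]
    unfold s17c_sub
    split_ifs with h
    · subst h
      exact s17c_diag hC M X A a k (A k) hab rfl hτ f hf
    · refine ⟨0, 1, ?_, ?_⟩
      · rw [map_one]; exact one_ne_zero
      · simp
  · intro x y hx hy h1 h2
    obtain ⟨u, v, hv, huv⟩ := h1
    obtain ⟨u', v', hv', huv'⟩ := h2
    have : (⟨x + y, add_mem hx hy⟩ : ↥(s17_TA M A)) = ⟨x, hx⟩ + ⟨y, hy⟩ := rfl
    rw [this, map_add]
    refine ⟨u * v' + u' * v, v * v', ?_, ?_⟩
    · rw [map_mul]; exact mul_ne_zero hv hv'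
    · simp only [MulMemClass.coe_mul, AddMemClass.coe_add]
      linear_combination (v' : M.FF) * huv + (v : M.FF) * huv'
  · intro x y hx hy h1 h2
    obtain ⟨u, v, hv, huv⟩ := h1
    obtain ⟨u', v', hv', huv'⟩ := h2
    have : (⟨x * y, mul_mem hx hy⟩ : ↥(s17_TA M A)) = ⟨x, hx⟩ * ⟨y, hy⟩ := rfl
    rw [this, map_mul]
    refine ⟨⟨x, hx⟩ * u' * v + ⟨_, s17c_H_mem M A a b hab ⟨y, hy⟩⟩ * u * v', v * v', ?_, ?_⟩
    · rw [map_mul]; exact mul_ne_zero hv hv'
    · simp only [MulMemClass.coe_mul, AddMemClass.coe_add]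
      linear_combination (s17c_H M A a b ⟨y, hy⟩ * (v' : M.FF)) * huv + (x * (v : M.FF)) * huv'
  · intro r
    have : (⟨algebraMap K M.FF r, Subalgebra.algebraMap_mem _ r⟩ : ↥(s17_TA M A)) =
        algebraMap K ↥(s17_TA M A) r := rfl
    rw [this, AlgHom.commutes]
    refine ⟨0, 1, ?_, ?_⟩
    · rw [map_one]; exact one_ne_zero
    · simp

end Fermat.Agent.Lib.S17
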