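/-
Programme MW (S17), brick (CL) (helper2, prefix `s17c_`): NON-VANISHING OF DIFFERENCES AND THE
EXPANSION HOMOMORPHISM.

* `s17c_finite_ord_ne_zero`, `s17c_exists_place_ord_zero` : a non-zero function has finitely many
  zeros and poles;
* `s17c_iota_sub_ne_zero` : `ι_b τ - ι_a τ ≠ 0` for `a ≠ b` and `τ` a uniformiser somewhere;
* `s17c_E M X A : ↥(s17_TA M A) →ₐ[K] MvPowerSeries (Fin m) K`, the joint Taylor expansion at `A`
  (`s17c_E_iota`), with `constantCoeff ∘ E = ev` (`s17c_constantCoeff_E`).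
-/
import Fermat.Agent.Lib.S17.CDiag

set_option autoImplicit false
set_option linter.unusedSectionVars false
set_option linter.unusedVariables false
set_option linter.style.haveILetI false

noncomputable section

namespace Fermat.Agent.Lib.S17

open AlgebraicCurve Fermat.Agent.Lib.S19 Fermat.Agent.Lib.FF HahnSeries

variable {K F : Type} [Field K] [Field F] [Algebra K F] {m : ℕ}

/-- a non-zero function has finitely many zeros and poles. -/
theorem s17c_finite_ord_ne_zero {g₀ : ℕ} (hC : s17_Curve K F g₀) {f : F} (hf : f ≠ 0) :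
    ∃ S : Finset (Place K F), ∀ P : Place K F, P ∉ S → P.ord f = 0 := by
  haveI := hC.pd
  obtain ⟨D, hD, -⟩ := HasPrincipalDivisors.exists_divisor (K := K) f hf
  refine ⟨D.support, fun P hP => ?_⟩
  rw [← hD P]
  exact Finsupp.notMem_support_iff.mp hP

/-- outside a finite set, a given non-zero function is a unit at some place. -/
theorem s17c_exists_place_ord_zero {g₀ : ℕ} (hC : s17_Curve K F g₀) {f : F} (hf : f ≠ 0)
    (E : Finset (Place K F)) : ∃ Q : Place K F, Q ∉ E ∧ Q.ord f = 0 := by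
  classical
  obtain ⟨S, hS⟩ := s17c_finite_ord_ne_zero hC hf
  haveI := hC.inf
  obtain ⟨Q, hQ⟩ := Infinite.exists_notMem_finset (E ∪ S)
  rw [Finset.mem_union, not_or] at hQ
  exact ⟨Q, hQ.1, hS Q hQ.2⟩

theorem s17c_mem_OP_of_ord_nonneg (P : Place K F) {f : F} (hf : 0 ≤ P.ord f) : f ∈ s17_OP P := by
  by_cases h0 : f = 0
  · rw [h0]; exact Subalgebra.zero_mem _
  · exact (ff_mem_iff_ord_nonneg P h0).mpr hf

/-- `ι_b τ - ι_a τ ≠ 0` for `a ≠ b`. -/
theorem s17c_iota_sub_ne_zero {g₀ : ℕ} (hC : s17_Curve K F g₀) (M : s17_Model K F m)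
    (X : s17_Charts K F) (a b : Fin m) (hab : a ≠ b) (P : Place K F) {τ : F} (hτ : P.ord τ = 1) :
    M.ι b τ - M.ι a τ ≠ 0 := by
  classical
  have hτ0 : τ ≠ 0 := by
    intro h
    rw [h, Place.ord_zero] at hτ
    exact zero_ne_one hτ
  obtain ⟨Q, -, hQ⟩ := s17c_exists_place_ord_zero hC hτ0 ∅
  let A' : Fin m → Place K F := fun k => if k = b then Q else P
  have hAb : A' b = Q := if_pos rfl
  have hAa : A' a = P := if_neg hab
  have hb : τ ∈ s17_OP (A' b) := by
    rw [hAb]; exact s17c_mem_OP_of_ord_nonneg Q (by rw [hQ])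
  have ha : τ ∈ s17_OP (A' a) := by
    rw [hAa]; exact s17c_unif_mem P hτ
  intro h0
  have h1 : (⟨M.ι b τ, s17c_mem_TA M A' b τ hb⟩ : ↥(s17_TA M A')) -
      ⟨M.ι a τ, s17c_mem_TA M A' a τ ha⟩ = 0 := Subtype.ext h0
  have h2 := congrArg (s17c_ev M X A') h1
  rw [map_sub, map_zero, s17c_ev_iota M X A' b τ hb, s17c_ev_iota M X A' a τ ha] at h2
  -- value at `P` is zero, value at `Q` is not
  have hP0 : (X.exp (A' a) τ).coeff 0 = 0 := by
    rw [hAa]
    have := s17c_res_unif X P hτ
    rwa [s17c_res_apply] at this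
  have hQ0 : (X.exp (A' b) τ).coeff 0 ≠ 0 := by
    rw [hAb]
    have hmem : τ ∈ s17_OP Q := s17c_mem_OP_of_ord_nonneg Q (by rw [hQ])
    have := (s17c_res_eq_zero_iff X Q ⟨τ, hmem⟩ hτ0).not
    rw [s17c_res_apply] at this
    apply this.mpr
    show ¬ 0 < Q.ord τ
    rw [hQ]
    exact lt_irrefl 0
  rw [hP0, sub_zero] at h2
  exact hQ0 h2

/-- the `k`-th variable expansion. -/
def s17c_Evar (X : s17_Charts K F) (A : Fin m → Place K F) (k : Fin m) :
    ↥(s17_OP (A k)) →ₐ[K] MvPowerSeries (Fin m) K :=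
  (PowerSeries.substAlgHom (R := K) (PowerSeries.HasSubst.X (S := K) k)).comp
    (s17c_chartPS X (A k))

theorem s17c_Evar_apply (X : s17_Charts K F) (A : Fin m → Place K F) (k : Fin m)
    (f : ↥(s17_OP (A k))) :
    s17c_Evar X A k f =
      PowerSeries.subst (MvPowerSeries.X k : MvPowerSeries (Fin m) K) (s17c_chartPS X (A k) f) := by
  show PowerSeries.substAlgHom (R := K) (PowerSeries.HasSubst.X (S := K) k) _ = _
  rw [PowerSeries.coe_substAlgHom]
  rfl

/-- **the joint Taylor expansion at `A`.** -/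
def s17c_E (M : s17_Model K F m) (X : s17_Charts K F) (A : Fin m → Place K F) :
    ↥(s17_TA M A) →ₐ[K] MvPowerSeries (Fin m) K :=
  (s17c_spec_TA M A (MvPowerSeries (Fin m) K) (fun k => s17c_Evar X A k)).choose

theorem s17c_E_iota (M : s17_Model K F m) (X : s17_Charts K F) (A : Fin m → Place K F)
    (k : Fin m) (f : F) (hf : f ∈ s17_OP (A k)) :
    s17c_E M X A ⟨M.ι k f, s17c_mem_TA M A k f hf⟩ =
      PowerSeries.subst (MvPowerSeries.X k : MvPowerSeries (Fin m) K)
        (s17c_chartPS X (A k) ⟨f, hf⟩) := by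
  rw [← s17c_Evar_apply]
  exact (s17c_spec_TA M A (MvPowerSeries (Fin m) K) (fun k => s17c_Evar X A k)).choose_spec k f hf

/-- the constant coefficient, as an algebra map. -/
def s17c_ccMv : MvPowerSeries (Fin m) K →ₐ[K] K :=
  { MvPowerSeries.constantCoeff (σ := Fin m) (R := K) with
    commutes' := fun c => by
      show MvPowerSeries.constantCoeff (algebraMap K (MvPowerSeries (Fin m) K) c) = algebraMap K K c
      rw [MvPowerSeries.algebraMap_apply, MvPowerSeries.constantCoeff_C] }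

theorem s17c_constantCoeff_E (M : s17_Model K F m) (X : s17_Charts K F) (A : Fin m → Place K F)
    (x : ↥(s17_TA M A)) :
    MvPowerSeries.constantCoeff (s17c_E M X A x) = s17c_ev M X A x := by
  classical
  have h : (s17c_ccMv (m := m) (K := K)).comp (s17c_E M X A) = s17c_ev M X A := by
    apply s17c_algHom_ext_TA
    intro k f hf
    rw [AlgHom.comp_apply, s17c_E_iota M X A k f hf, s17c_ev_iota M X A k f hf]
    show MvPowerSeries.constantCoeff _ = _
    rw [← MvPowerSeries.coeff_zero_eq_constantCoeff_apply, PowerSeries.coeff_subst_single]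
    rw [if_pos (by simp)]
    rw [Finsupp.zero_apply, s17c_chartPS_coeff]
    rfl
  have := congrArg (fun H : ↥(s17_TA M A) →ₐ[K] K => H x) h
  exact this

end Fermat.Agent.Lib.S17
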