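/-
Programme MW (S17), brick (CL) / [DD] (helper2, prefix `s17c_`): THE BLOCK LEMMA, part 1
(membership).

For rows `i : Fin n` with variables `s i : Fin m` (`s` injective) and functions `G P k ∈ O_P`
depending on the PLACE only, the determinant `det (ι_{s i} (G (A (s i)) k))` is divisible in the
local ring `O_A` by `∏_{i<j, A (s i) = A (s j)} (ι_{s j} τ - ι_{s i} τ)`:

* `s17c_bmat`, `s17c_bdelta` : the matrix and the differences, as elements of `T_A`;
* `s17c_block_mem` : `det · v = (∏_{q ∈ W} δ_q) · u` with `u, v ∈ T_A`, `v(A) ≠ 0`, for every set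
  `W` of coincident pairs (induction over `W` with the diagonal specialisations `s17c_H`).
-/
import Fermat.Agent.Lib.S17.CExp

set_option autoImplicit false
set_option linter.unusedSectionVars false
set_option linter.unusedVariables false
set_option linter.style.haveILetI false

noncomputable section

namespace Fermat.Agent.Lib.S17

open AlgebraicCurve Fermat.Agent.Lib.S19 Fermat.Agent.Lib.FF HahnSeries

variable {K F : Type} [Field K] [Field F] [Algebra K F] {m : ℕ}

/-- the matrix `ι_{s i} (G (A (s i)) k)` over `T_A`. -/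
def s17c_bmat (M : s17_Model K F m) (A : Fin m → Place K F) {n : ℕ} (s : Fin n → Fin m)
    (G : Place K F → Fin n → F) (hG : ∀ P k, G P k ∈ s17_OP P) :
    Matrix (Fin n) (Fin n) ↥(s17_TA M A) :=
  fun i k => ⟨M.ι (s i) (G (A (s i)) k), s17c_mem_TA M A (s i) _ (hG _ k)⟩

/-- the copy of the uniformiser at `A k` in the `k`-th variable, as an element of `T_A`. -/
def s17c_btau (M : s17_Model K F m) (A : Fin m → Place K F) (τ : Place K F → F)
    (hτ : ∀ P : Place K F, P.ord (τ P) = 1) (k : Fin m) : ↥(s17_TA M A) :=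
  ⟨M.ι k (τ (A k)), s17c_mem_TA M A k _ (s17c_unif_mem _ (hτ _))⟩

/-- the difference `ι_{s j} τ - ι_{s i} τ` for a pair `q = (i, j)`, as an element of `T_A`. -/
def s17c_bdelta (M : s17_Model K F m) (A : Fin m → Place K F) (τ : Place K F → F)
    (hτ : ∀ P : Place K F, P.ord (τ P) = 1) {n : ℕ} (s : Fin n → Fin m) (q : Fin n × Fin n) :
    ↥(s17_TA M A) :=
  s17c_btau M A τ hτ (s q.2) - s17c_btau M A τ hτ (s q.1)

theorem s17c_sub_ne {n : ℕ} (s : Fin n → Fin m) (hs : Function.Injective s) (p q : Fin n × Fin n)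
    (hp : p.1 < p.2) (hq : q.1 < q.2) (hqp : q ≠ p) :
    s17c_sub (s p.1) (s p.2) (s q.1) ≠ s17c_sub (s p.1) (s p.2) (s q.2) := by
  unfold s17c_sub
  by_cases h2 : s q.2 = s p.2
  · have e2 : q.2 = p.2 := hs h2
    have h1 : s q.1 ≠ s p.2 := fun h => by
      have := hs h
      rw [this, e2] at hq
      exact lt_irrefl _ hq
    rw [if_pos h2, if_neg h1]
    intro h
    exact hqp (Prod.ext (hs h) e2)
  · rw [if_neg h2]
    by_cases h1 : s q.1 = s p.2
    · rw [if_pos h1]
      have e1 : q.1 = p.2 := hs h1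
      intro h
      have := hs h
      rw [← this, e1] at hq
      exact lt_asymm hp hq
    · rw [if_neg h1]
      intro h
      have := hs h
      rw [this] at hq
      exact lt_irrefl _ hq

theorem s17c_H_btau (M : s17_Model K F m) (A : Fin m → Place K F) (τ : Place K F → F)
    (hτ : ∀ P : Place K F, P.ord (τ P) = 1) (a b k : Fin m) :
    s17c_H M A a b (s17c_btau M A τ hτ k) = M.ι (s17c_sub a b k) (τ (A k)) :=
  s17c_H_iota M A a b k _ (s17c_unif_mem _ (hτ _))

theorem s17c_H_bdelta_ne_zero {g₀ : ℕ} (hC : s17_Curve K F g₀) (M : s17_Model K F m)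
    (X : s17_Charts K F) (A : Fin m → Place K F) (τ : Place K F → F)
    (hτ : ∀ P : Place K F, P.ord (τ P) = 1) {n : ℕ} (s : Fin n → Fin m)
    (hs : Function.Injective s) (p q : Fin n × Fin n)
    (hp : p.1 < p.2) (hq : q.1 < q.2) (hqA : A (s q.1) = A (s q.2)) (hqp : q ≠ p) :
    s17c_H M A (s p.1) (s p.2) (s17c_bdelta M A τ hτ s q) ≠ 0 := by
  unfold s17c_bdelta
  rw [map_sub, s17c_H_btau, s17c_H_btau, hqA]
  exact s17c_iota_sub_ne_zero hC M X _ _ (s17c_sub_ne s hs p q hp hq hqp) (A (s q.2)) (hτ _)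

theorem s17c_H_det_bmat (M : s17_Model K F m) (A : Fin m → Place K F) {n : ℕ} (s : Fin n → Fin m)
    (hs : Function.Injective s) (G : Place K F → Fin n → F) (hG : ∀ P k, G P k ∈ s17_OP P)
    (p : Fin n × Fin n) (hp : p.1 < p.2) (hpA : A (s p.1) = A (s p.2)) :
    s17c_H M A (s p.1) (s p.2) (s17c_bmat M A s G hG).det = 0 := by
  rw [AlgHom.map_det]
  apply Matrix.det_zero_of_row_eq (ne_of_lt hp)
  funext k
  show s17c_H M A (s p.1) (s p.2) (s17c_bmat M A s G hG p.1 k)
    = s17c_H M A (s p.1) (s p.2) (s17c_bmat M A s G hG p.2 k)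
  unfold s17c_bmat
  rw [s17c_H_iota M A _ _ _ _ (hG _ k), s17c_H_iota M A _ _ _ _ (hG _ k), hpA]
  congr 1
  unfold s17c_sub
  have h1 : s p.1 ≠ s p.2 := fun h => (ne_of_lt hp) (hs h)
  rw [if_neg h1, if_pos rfl]

/-- **membership**: the block determinant is divisible in `O_A` by every product of differences
over coincident pairs. -/
theorem s17c_block_mem {g₀ : ℕ} (hC : s17_Curve K F g₀) (M : s17_Model K F m)
    (X : s17_Charts K F) (A : Fin m → Place K F) (τ : Place K F → F)
    (hτ : ∀ P : Place K F, P.ord (τ P) = 1) {n : ℕ} (s : Fin n → Fin m)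
    (hs : Function.Injective s) (G : Place K F → Fin n → F) (hG : ∀ P k, G P k ∈ s17_OP P)
    (W : Finset (Fin n × Fin n)) (hW : ∀ q ∈ W, q.1 < q.2 ∧ A (s q.1) = A (s q.2)) :
    ∃ u v : ↥(s17_TA M A), s17c_ev M X A v ≠ 0 ∧
      (s17c_bmat M A s G hG).det * v = (∏ q ∈ W, s17c_bdelta M A τ hτ s q) * u := by
  classical
  induction W using Finset.induction_on with
  | empty =>
    refine ⟨(s17c_bmat M A s G hG).det, 1, ?_, ?_⟩
    · rw [map_one]; exact one_ne_zero
    · rw [Finset.prod_empty, mul_one, one_mul]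
  | insert p W hp ih =>
    obtain ⟨u, v, hv, huv⟩ := ih (fun q hq => hW q (Finset.mem_insert_of_mem hq))
    obtain ⟨hp1, hpA⟩ := hW p (Finset.mem_insert_self p W)
    have hdet := s17c_H_det_bmat M A s hs G hG p hp1 hpA
    have hδ : ∀ q ∈ W, s17c_H M A (s p.1) (s p.2) (s17c_bdelta M A τ hτ s q) ≠ 0 := by
      intro q hq
      obtain ⟨hq1, hqA⟩ := hW q (Finset.mem_insert_of_mem hq)
      refine s17c_H_bdelta_ne_zero hC M X A τ hτ s hs p q hp1 hq1 hqA ?_
      rintro rfl
      exact hp hq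
    have hu : s17c_H M A (s p.1) (s p.2) u = 0 := by
      have h := congrArg (s17c_H M A (s p.1) (s p.2)) huv
      rw [map_mul, map_mul, hdet, zero_mul, map_prod] at h
      have hne : ∏ q ∈ W, s17c_H M A (s p.1) (s p.2) (s17c_bdelta M A τ hτ s q) ≠ 0 :=
        Finset.prod_ne_zero_iff.mpr hδ
      rcases mul_eq_zero.mp h.symm with h0 | h0
      · exact absurd h0 hne
      · exact h0
    obtain ⟨u', v', hv', h'⟩ := s17c_ker_H hC M X A (s p.1) (s p.2) hpA (hτ (A (s p.2))) u
    rw [hu, sub_zero] at h'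
    refine ⟨u', v * v', ?_, ?_⟩
    · rw [map_mul]; exact mul_ne_zero hv hv'
    · have h'' : u * v' = s17c_bdelta M A τ hτ s p * u' := by
        apply Subtype.ext
        rw [Subalgebra.coe_mul, Subalgebra.coe_mul, h']
        have e : τ (A (s p.1)) = τ (A (s p.2)) := congrArg τ hpA
        show _ = (M.ι (s p.2) (τ (A (s p.2))) - M.ι (s p.1) (τ (A (s p.1)))) * (u' : M.FF)
        rw [e]
      rw [Finset.prod_insert hp, ← mul_assoc, huv, mul_assoc, h'']
      ring

end Fermat.Agent.Lib.S17
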