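/-
Programme MW (S17), brick [DD-ps] for helper2's `s17_DD` (CIface.lean): confluent determinants of
power series (helper1, prefix `s17d_`).  Mathlib only.

For one-variable series `p κ k` (`κ` = cluster label), variables `T_{v i}` (`v` injective) and the
matrix `M i k = p (c i) k (T_{v i})` (rows of one cluster share the series):
  `det M = ∏_{i<j, c i = c j} (T_{v j} - T_{v i}) · Q`, `Q(0) = det (coeff_{r_i} (p (c i) k))`,
`r_i = #{i' < i | c i' = c i}` — `s17d_dd_ps`.

Proof: divided differences `s17d_dd I p = ∑_n coeff_n(p) h_{n-|I|+1}(T_I)` (defined by their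
coefficients), the recurrence `p[I ∪ y] - p[I ∪ x] = (T_y - T_x) p[I ∪ x ∪ y]` (`s17d_dd_sub`),
Newton's interpolation formula (`s17d_newton`), hence `M = N · DD` with `N` lower triangular with
diagonal `∏_{i'' < i, same cluster} (T_{v i} - T_{v i''})` and `DD i k = p (c i) k [T_{≤ i}]`, whose
constant coefficient is `coeff_{r_i}`.
-/
import Mathlib

set_option autoImplicit false
set_option linter.unusedSectionVars false

noncomputable section

namespace Fermat.Agent.Lib.S17

open MvPowerSeries

variable {R : Type*} [CommRing R] {σ : Type*} [DecidableEq σ]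

def s17d_dd (I : Finset σ) (p : PowerSeries R) : MvPowerSeries σ R :=
  fun e => if e.support ⊆ I then PowerSeries.coeff (e.degree + (I.card - 1)) p else 0

theorem s17d_coeff_dd (I : Finset σ) (p : PowerSeries R) (e : σ →₀ ℕ) :
    coeff e (s17d_dd I p) =
      if e.support ⊆ I then PowerSeries.coeff (e.degree + (I.card - 1)) p else 0 := rfl

theorem s17d_dd_singleton (x : σ) (p : PowerSeries R) :
    s17d_dd {x} p = PowerSeries.subst (X x : MvPowerSeries σ R) p := by
  ext e
  rw [s17d_coeff_dd, PowerSeries.coeff_subst_single]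
  by_cases h : e = Finsupp.single x (e x)
  · rw [if_pos (Finsupp.support_subset_singleton.mpr h), if_pos h, Finset.card_singleton]
    congr 1
    conv_lhs => rw [h]
    simp
  · rw [if_neg (fun h' => h (Finsupp.support_subset_singleton.mp h')), if_neg h]

theorem s17d_constantCoeff_dd (I : Finset σ) (p : PowerSeries R) :
    constantCoeff (s17d_dd I p) = PowerSeries.coeff (I.card - 1) p := by
  rw [← coeff_zero_eq_constantCoeff_apply, s17d_coeff_dd]
  simp

theorem s17d_coeff_X_mul (x : σ) (φ : MvPowerSeries σ R) (e : σ →₀ ℕ) :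
    coeff e (X x * φ) = if 1 ≤ e x then coeff (e - Finsupp.single x 1) φ else 0 := by
  rw [X_def, coeff_monomial_mul, one_mul]
  congr 1
  rw [Finsupp.single_le_iff]

/-- support after removing one unit. -/
theorem s17d_support_sub_subset_iff {e : σ →₀ ℕ} {x : σ} {J : Finset σ} (hx : x ∈ J) :
    (e - Finsupp.single x 1).support ⊆ J ↔ e.support ⊆ J := by
  constructor
  · intro h y hy
    by_cases hyx : y = x
    · rw [hyx]; exact hx
    · apply h
      rw [Finsupp.mem_support_iff] at hy ⊢
      rw [Finsupp.tsub_apply, Finsupp.single_apply, if_neg (Ne.symm hyx), tsub_zero]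
      exact hy
  · intro h y hy
    apply h
    rw [Finsupp.mem_support_iff] at hy ⊢
    intro h0
    apply hy
    rw [Finsupp.tsub_apply, h0, zero_tsub]

theorem s17d_degree_sub {e : σ →₀ ℕ} {x : σ} (hx : 1 ≤ e x) :
    (e - Finsupp.single x 1).degree + 1 = e.degree := by
  have h : Finsupp.single x 1 ≤ e := Finsupp.single_le_iff.mpr hx
  conv_rhs => rw [← tsub_add_cancel_of_le h, map_add, Finsupp.degree_single]

theorem s17d_support_subset_insert_iff {e : σ →₀ ℕ} {x y : σ} {I : Finset σ} (hx : x ∉ I)
    (hxy : x ≠ y) :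
    e.support ⊆ insert y I ↔ (e.support ⊆ insert x (insert y I) ∧ e x = 0) := by
  constructor
  · intro h
    refine ⟨h.trans (Finset.subset_insert _ _), ?_⟩
    by_contra h0
    have := h (Finsupp.mem_support_iff.mpr h0)
    rw [Finset.mem_insert] at this
    rcases this with h1 | h1
    · exact hxy h1
    · exact hx h1
  · rintro ⟨h, h0⟩ z hz
    have := h hz
    rw [Finset.mem_insert] at this
    rcases this with h1 | h1
    · subst h1
      exact absurd h0 (Finsupp.mem_support_iff.mp hz)
    · exact h1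

/-- **the recurrence of divided differences.** -/
theorem s17d_dd_sub (I : Finset σ) {x y : σ} (hx : x ∉ I) (hy : y ∉ I) (hxy : x ≠ y)
    (p : PowerSeries R) :
    s17d_dd (insert y I) p - s17d_dd (insert x I) p =
      (X y - X x) * s17d_dd (insert x (insert y I)) p := by
  ext e
  have hc1 : (insert y I).card - 1 = I.card := by rw [Finset.card_insert_of_notMem hy]; rfl
  have hc2 : (insert x I).card - 1 = I.card := by rw [Finset.card_insert_of_notMem hx]; rfl
  have hc3 : (insert x (insert y I)).card - 1 = I.card + 1 := by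
    rw [Finset.card_insert_of_notMem (by simp [hx, hxy]), Finset.card_insert_of_notMem hy]; rfl
  have hxJ : x ∈ insert x (insert y I) := Finset.mem_insert_self _ _
  have hyJ : y ∈ insert x (insert y I) := by simp
  rw [map_sub, sub_mul, map_sub, s17d_coeff_X_mul, s17d_coeff_X_mul]
  simp only [s17d_coeff_dd, hc1, hc2, hc3]
  have hZx := s17d_support_sub_subset_iff (e := e) hxJ
  have hZy := s17d_support_sub_subset_iff (e := e) hyJ
  have h1 := s17d_support_subset_insert_iff (e := e) hx hxy
  have h2 : e.support ⊆ insert x I ↔ (e.support ⊆ insert x (insert y I) ∧ e y = 0) := by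
    rw [Finset.insert_comm]
    exact s17d_support_subset_insert_iff hy (Ne.symm hxy)
  have hd : ∀ z, 1 ≤ e z →
      Finsupp.degree (e - Finsupp.single z 1) + (I.card + 1) = Finsupp.degree e + I.card := by
    intro z hz
    have := s17d_degree_sub hz
    omega
  by_cases hZ : e.support ⊆ insert x (insert y I)
  · by_cases hex : e x = 0 <;> by_cases hey : e y = 0
    · simp only [h1, h2, hZx, hZy, hZ, hex, hey, and_self, if_true, sub_self,
        show ¬ (1 ≤ 0) by omega, if_false]
    · have hey' : 1 ≤ e y := Nat.one_le_iff_ne_zero.mpr hey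
      simp only [h1, h2, hZx, hZy, hZ, hex, hey, hey', and_self, and_false, if_true,
        if_false, sub_zero, show ¬ (1 ≤ 0) by omega, hd y hey']
    · have hex' : 1 ≤ e x := Nat.one_le_iff_ne_zero.mpr hex
      simp only [h1, h2, hZx, hZy, hZ, hex, hey, hex', and_self, and_false, if_true,
        if_false, zero_sub, show ¬ (1 ≤ 0) by omega, hd x hex']
    · have hex' : 1 ≤ e x := Nat.one_le_iff_ne_zero.mpr hex
      have hey' : 1 ≤ e y := Nat.one_le_iff_ne_zero.mpr hey
      simp only [h1, h2, hZx, hZy, hZ, hex, hey, hex', hey', and_false, if_true,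
        if_false, sub_self, hd x hex', hd y hey']
  · simp only [h1, h2, hZx, hZy, hZ, false_and, if_false, sub_self, ite_self]


/-! ### Newton's interpolation formula -/

section Newton

variable {n : ℕ} {κ : Type*} [DecidableEq κ] (v : Fin n → σ) (c : Fin n → κ)

/-- the members of the cluster `a` with index `< t`. -/
def s17d_B (a : κ) (t : ℕ) : Finset (Fin n) :=
  Finset.univ.filter fun i' : Fin n => i'.val < t ∧ c i' = a

theorem s17d_mem_B {a : κ} {t : ℕ} {i' : Fin n} :
    i' ∈ s17d_B c a t ↔ i'.val < t ∧ c i' = a := by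
  simp [s17d_B]

/-- their variables. -/
def s17d_W (a : κ) (t : ℕ) : Finset σ := (s17d_B c a t).image v

/-- `∏ (T_x - T_{v i''})` over the members of the cluster `a` with index `< t`. -/
def s17d_Pr (a : κ) (t : ℕ) (x : σ) : MvPowerSeries σ R :=
  ∏ i'' ∈ s17d_B c a t, (X x - X (v i''))

theorem s17d_B_zero (a : κ) : s17d_B c a 0 = ∅ := by
  ext i'
  simp [s17d_mem_B]

theorem s17d_notMem_B (a : κ) {t : ℕ} {i : Fin n} (hi : t ≤ i.val) : i ∉ s17d_B c a t := by
  rw [s17d_mem_B]
  omega

theorem s17d_B_succ_of_eq {a : κ} {t : ℕ} (ht : t < n) (h : c ⟨t, ht⟩ = a) :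
    s17d_B c a (t + 1) = insert ⟨t, ht⟩ (s17d_B c a t) := by
  ext i'
  rw [Finset.mem_insert, s17d_mem_B, s17d_mem_B]
  constructor
  · rintro ⟨h1, h2⟩
    by_cases h3 : i'.val = t
    · left; exact Fin.ext h3
    · right; exact ⟨by omega, h2⟩
  · rintro (h1 | ⟨h1, h2⟩)
    · subst h1; exact ⟨Nat.lt_succ_self _, h⟩
    · exact ⟨by omega, h2⟩

theorem s17d_B_succ_of_ne {a : κ} {t : ℕ} (ht : t < n) (h : c ⟨t, ht⟩ ≠ a) :
    s17d_B c a (t + 1) = s17d_B c a t := by
  ext i'
  rw [s17d_mem_B, s17d_mem_B]
  constructor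
  · rintro ⟨h1, h2⟩
    refine ⟨?_, h2⟩
    by_contra h3
    have h4 : i' = ⟨t, ht⟩ := Fin.ext (by simp only; omega)
    rw [h4] at h2
    exact h h2
  · rintro ⟨h1, h2⟩
    exact ⟨by omega, h2⟩

theorem s17d_notMem_W (hv : Function.Injective v) (a : κ) {t : ℕ} {i : Fin n} (hi : t ≤ i.val) :
    v i ∉ s17d_W v c a t := by
  unfold s17d_W
  rw [Finset.mem_image]
  rintro ⟨i', hi', h⟩
  rw [hv h] at hi'
  exact s17d_notMem_B c a hi hi'

theorem s17d_newton_partial (hv : Function.Injective v) (i : Fin n) (q : PowerSeries R) (t : ℕ)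
    (ht : t ≤ i.val) :
    PowerSeries.subst (X (v i) : MvPowerSeries σ R) q =
      ∑ i' ∈ s17d_B c (c i) t,
        s17d_Pr v c (c i) i'.val (v i) * s17d_dd (s17d_W v c (c i) (i'.val + 1)) q +
      s17d_Pr (R := R) v c (c i) t (v i) * s17d_dd (insert (v i) (s17d_W v c (c i) t)) q := by
  induction t with
  | zero =>
    rw [s17d_B_zero, Finset.sum_empty, zero_add]
    unfold s17d_Pr s17d_W
    rw [s17d_B_zero, Finset.prod_empty, one_mul, Finset.image_empty]
    exact (s17d_dd_singleton (v i) q).symm
  | succ t ih =>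
    have ht' : t ≤ i.val := by omega
    have htn : t < n := by omega
    rw [ih ht']
    by_cases hc : c ⟨t, htn⟩ = c i
    · have hB := s17d_B_succ_of_eq c htn hc
      have hnot : (⟨t, htn⟩ : Fin n) ∉ s17d_B c (c i) t := s17d_notMem_B c (c i) (le_refl _)
      have hW : s17d_W v c (c i) (t + 1) = insert (v ⟨t, htn⟩) (s17d_W v c (c i) t) := by
        unfold s17d_W
        rw [hB, Finset.image_insert]
      have hPr : s17d_Pr (R := R) v c (c i) (t + 1) (v i) =
          (X (v i) - X (v ⟨t, htn⟩)) * s17d_Pr v c (c i) t (v i) := by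
        unfold s17d_Pr
        rw [hB, Finset.prod_insert hnot]
      have h1 : v ⟨t, htn⟩ ∉ s17d_W v c (c i) t := s17d_notMem_W v c hv (c i) (le_refl _)
      have h2 : v i ∉ s17d_W v c (c i) t := s17d_notMem_W v c hv (c i) ht'
      have h3 : v ⟨t, htn⟩ ≠ v i := by
        intro h
        have := congrArg Fin.val (hv h)
        simp only at this
        omega
      have hrec := s17d_dd_sub (s17d_W v c (c i) t) h1 h2 h3 q
      rw [hB, Finset.sum_insert hnot, hW, hPr]
      have hrec' : s17d_dd (insert (v i) (s17d_W v c (c i) t)) q =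
          s17d_dd (insert (v ⟨t, htn⟩) (s17d_W v c (c i) t)) q +
            (X (v i) - X (v ⟨t, htn⟩)) *
              s17d_dd (insert (v i) (insert (v ⟨t, htn⟩) (s17d_W v c (c i) t))) q := by
        rw [Finset.insert_comm (v i), ← hrec]; ring
      rw [hrec']
      ring
    · have hB := s17d_B_succ_of_ne c htn hc
      have hW : s17d_W v c (c i) (t + 1) = s17d_W v c (c i) t := by
        unfold s17d_W; rw [hB]
      have hPr : s17d_Pr (R := R) v c (c i) (t + 1) (v i) = s17d_Pr v c (c i) t (v i) := by
        unfold s17d_Pr; rw [hB]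
      rw [hB, hW, hPr]

/-- **Newton's interpolation formula** along a cluster. -/
theorem s17d_newton (hv : Function.Injective v) (i : Fin n) (q : PowerSeries R) :
    PowerSeries.subst (X (v i) : MvPowerSeries σ R) q =
      ∑ i' ∈ s17d_B c (c i) (i.val + 1),
        s17d_Pr v c (c i) i'.val (v i) * s17d_dd (s17d_W v c (c i) (i'.val + 1)) q := by
  have hB := s17d_B_succ_of_eq c i.isLt (a := c i) rfl
  have hnot : (⟨i.val, i.isLt⟩ : Fin n) ∉ s17d_B c (c i) i.val :=
    s17d_notMem_B c (c i) (le_refl _)
  have hW : s17d_W v c (c i) (i.val + 1) = insert (v i) (s17d_W v c (c i) i.val) := by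
    unfold s17d_W
    rw [hB, Finset.image_insert]
  rw [s17d_newton_partial v c hv i q i.val (le_refl _), hB, Finset.sum_insert hnot, hW]
  ring

/-! ### the factorisation `M = N · DD` -/

/-- the lower triangular factor. -/
def s17d_N : Matrix (Fin n) (Fin n) (MvPowerSeries σ R) :=
  Matrix.of fun i i' => if i' ≤ i ∧ c i' = c i then s17d_Pr v c (c i) i'.val (v i) else 0

/-- the matrix of divided differences. -/
def s17d_DD (p : κ → Fin n → PowerSeries R) : Matrix (Fin n) (Fin n) (MvPowerSeries σ R) :=
  Matrix.of fun i' k => s17d_dd (s17d_W v c (c i') (i'.val + 1)) (p (c i') k)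

theorem s17d_M_eq (hv : Function.Injective v) (p : κ → Fin n → PowerSeries R) :
    (Matrix.of fun i k : Fin n => PowerSeries.subst (X (v i) : MvPowerSeries σ R) (p (c i) k)) =
      s17d_N v c * s17d_DD v c p := by
  apply Matrix.ext
  intro i k
  rw [Matrix.of_apply, Matrix.mul_apply, s17d_newton v c hv i (p (c i) k)]
  have hfil : s17d_B c (c i) (i.val + 1) =
      Finset.univ.filter fun i' : Fin n => i' ≤ i ∧ c i' = c i := by
    ext i'
    rw [s17d_mem_B, Finset.mem_filter, Fin.le_def]
    simp only [Finset.mem_univ, true_and]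
    constructor
    · rintro ⟨h1, h2⟩; exact ⟨by omega, h2⟩
    · rintro ⟨h1, h2⟩; exact ⟨by omega, h2⟩
  rw [hfil, Finset.sum_filter]
  apply Finset.sum_congr rfl
  intro i' _
  unfold s17d_N s17d_DD
  rw [Matrix.of_apply, Matrix.of_apply]
  by_cases h : i' ≤ i ∧ c i' = c i
  · rw [if_pos h, if_pos h, h.2]
  · rw [if_neg h, if_neg h, zero_mul]

theorem s17d_det_N :
    (s17d_N (R := R) v c).det =
      ∏ i : Fin n, ∏ j : Fin n,
        if i < j ∧ c i = c j then (X (v j) - X (v i) : MvPowerSeries σ R) else 1 := by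
  have htri : (s17d_N (R := R) v c).BlockTriangular ⇑OrderDual.toDual := by
    intro i j hij
    have hij' : i < j := hij
    unfold s17d_N
    rw [Matrix.of_apply, if_neg]
    rintro ⟨h1, _⟩
    exact absurd hij' (not_lt.mpr h1)
  rw [Matrix.det_of_isLowerTriangular _ htri, Finset.prod_comm]
  refine Finset.prod_congr rfl fun j _ => ?_
  unfold s17d_N
  rw [Matrix.of_apply, if_pos ⟨le_refl _, rfl⟩]
  unfold s17d_Pr
  rw [← Finset.prod_filter]
  refine Finset.prod_congr ?_ fun i _ => rfl
  ext i
  rw [s17d_mem_B, Finset.mem_filter, Fin.lt_def]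
  simp only [Finset.mem_univ, true_and]

theorem s17d_card_W (hv : Function.Injective v) (i : Fin n) :
    (s17d_W v c (c i) (i.val + 1)).card - 1 =
      (Finset.univ.filter fun i' : Fin n => i' < i ∧ c i' = c i).card := by
  unfold s17d_W
  rw [Finset.card_image_of_injective _ hv, s17d_B_succ_of_eq c i.isLt (a := c i) rfl,
    Finset.card_insert_of_notMem (s17d_notMem_B c (c i) (le_refl _)), Nat.add_sub_cancel]
  congr 1

end Newton

/-- **[DD-ps]** confluent determinants of power series. -/
theorem s17d_dd_ps {R : Type*} [CommRing R] {σ : Type*} [DecidableEq σ] {n : ℕ} (v : Fin n → σ)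
    (hv : Function.Injective v) {κ : Type*} [DecidableEq κ] (c : Fin n → κ)
    (p : κ → Fin n → PowerSeries R) :
    ∃ Q : MvPowerSeries σ R,
      Matrix.det (Matrix.of fun i k : Fin n =>
          PowerSeries.subst (X (v i) : MvPowerSeries σ R) (p (c i) k)) =
        (∏ i : Fin n, ∏ j : Fin n,
          if i < j ∧ c i = c j then (X (v j) - X (v i) : MvPowerSeries σ R) else 1) * Q ∧
      constantCoeff Q = Matrix.det (Matrix.of fun i k : Fin n =>
        PowerSeries.coeff ((Finset.univ.filter fun i' : Fin n => i' < i ∧ c i' = c i).card)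
          (p (c i) k)) := by
  refine ⟨(s17d_DD v c p).det, ?_, ?_⟩
  · rw [s17d_M_eq v c hv p, Matrix.det_mul, s17d_det_N]
  · rw [RingHom.map_det]
    congr 1
    apply Matrix.ext
    intro i k
    unfold s17d_DD
    rw [RingHom.mapMatrix_apply, Matrix.map_apply, Matrix.of_apply, Matrix.of_apply,
      s17d_constantCoeff_dd, s17d_card_W v c hv]

end Fermat.Agent.Lib.S17
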