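/-
Programme MW (S17), brick (CL) / [DD] (helper2, prefix `s17c_`): THE BLOCK LEMMA, part 2 (value).

With helper1's confluent determinants of power series (`s17d_dd_ps`, `s17d_dd_sub`) and the joint
Taylor expansion `s17c_E`:

* `s17c_block` : for `G P k ∈ O_P`, `s` injective, `τ P` normalised uniformisers, the quotient
  `det (ι_{s i} (G (A (s i)) k)) / ∏_{i<j, A (s i) = A (s j)} (ι_{s j} τ - ι_{s i} τ)` is regular
  at `A` with value `det (coeff_{rank i} (G (A (s i)) k))`.
-/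
import Fermat.Agent.Lib.S17.CBlock
import Fermat.Agent.Lib.S17.DPs

set_option autoImplicit false
set_option linter.unusedSectionVars false
set_option linter.unusedVariables false
set_option linter.style.haveILetI false

noncomputable section

namespace Fermat.Agent.Lib.S17

open AlgebraicCurve Fermat.Agent.Lib.S19 Fermat.Agent.Lib.FF HahnSeries

variable {K F : Type} [Field K] [Field F] [Algebra K F] {m : ℕ}

/-- a product over a set of pairs as an iterated product. -/
theorem s17c_prod_pairs {R : Type*} [CommMonoid R] {n : ℕ} (P : Fin n → Fin n → Prop)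
    [DecidablePred fun q : Fin n × Fin n => P q.1 q.2] [∀ i j, Decidable (P i j)]
    (g : Fin n → Fin n → R) :
    ∏ q ∈ Finset.univ.filter (fun q : Fin n × Fin n => P q.1 q.2), g q.1 q.2
      = ∏ i, ∏ j, if P i j then g i j else 1 := by
  rw [Finset.prod_filter, ← Finset.univ_product_univ, Finset.prod_product]

/-- `p(X_b) - p(X_a) = (X_b - X_a) · w` with `w(0) = coeff 1 p`. -/
theorem s17c_subst_sub {σ : Type*} [DecidableEq σ] (a b : σ) (hab : a ≠ b) (p : PowerSeries K) :
    PowerSeries.subst (MvPowerSeries.X b : MvPowerSeries σ K) p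
        - PowerSeries.subst (MvPowerSeries.X a : MvPowerSeries σ K) p
      = (MvPowerSeries.X b - MvPowerSeries.X a) * s17d_dd {a, b} p ∧
    MvPowerSeries.constantCoeff (s17d_dd ({a, b} : Finset σ) p) = PowerSeries.coeff 1 p := by
  constructor
  · have h := s17d_dd_sub (R := K) (∅ : Finset σ) (Finset.notMem_empty a) (Finset.notMem_empty b)
      hab p
    rw [Finset.insert_empty, Finset.insert_empty, s17d_dd_singleton, s17d_dd_singleton] at h
    exact h
  · rw [s17d_constantCoeff_dd, Finset.card_pair hab]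

/-- the expansion of a difference of uniformisers. -/
theorem s17c_E_bdelta (M : s17_Model K F m) (X : s17_Charts K F) (A : Fin m → Place K F)
    (τ : Place K F → F) (hτ : ∀ P : Place K F, P.ord (τ P) = 1)
    (hτ2 : ∀ P : Place K F, (X.exp P (τ P)).coeff 1 = 1) {n : ℕ} (s : Fin n → Fin m)
    (hs : Function.Injective s) (q : Fin n × Fin n) (hq : q.1 < q.2)
    (hqA : A (s q.1) = A (s q.2)) :
    s17c_E M X A (s17c_bdelta M A τ hτ s q) =
      (MvPowerSeries.X (s q.2) - MvPowerSeries.X (s q.1)) *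
        s17d_dd {s q.1, s q.2} (s17c_chartPS X (A (s q.2)) ⟨τ (A (s q.2)), s17c_unif_mem _ (hτ _)⟩) ∧
    MvPowerSeries.constantCoeff (s17d_dd ({s q.1, s q.2} : Finset (Fin m))
      (s17c_chartPS X (A (s q.2)) ⟨τ (A (s q.2)), s17c_unif_mem _ (hτ _)⟩)) = 1 := by
  have hne : s q.1 ≠ s q.2 := fun h => (ne_of_lt hq) (hs h)
  obtain ⟨h1, h2⟩ := s17c_subst_sub (K := K) (s q.1) (s q.2) hne
    (s17c_chartPS X (A (s q.2)) ⟨τ (A (s q.2)), s17c_unif_mem _ (hτ _)⟩)
  constructor
  · rw [← h1]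
    unfold s17c_bdelta s17c_btau
    rw [map_sub, s17c_E_iota M X A (s q.2) _ (s17c_unif_mem _ (hτ _)),
      s17c_E_iota M X A (s q.1) _ (s17c_unif_mem _ (hτ _))]
    have key : ∀ P P' : Place K F, P = P' →
        s17c_chartPS X P ⟨τ P, s17c_unif_mem _ (hτ _)⟩
          = s17c_chartPS X P' ⟨τ P', s17c_unif_mem _ (hτ _)⟩ := by
      rintro P _ rfl
      rfl
    rw [key _ _ hqA]
  · rw [h2, s17c_chartPS_coeff]
    exact hτ2 _

theorem s17c_coe_det_bmat (M : s17_Model K F m) (A : Fin m → Place K F) {n : ℕ}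
    (s : Fin n → Fin m) (G : Place K F → Fin n → F) (hG : ∀ P k, G P k ∈ s17_OP P) :
    (((s17c_bmat M A s G hG).det : ↥(s17_TA M A)) : M.FF)
      = Matrix.det (fun i k : Fin n => M.ι (s i) (G (A (s i)) k)) := by
  have h := AlgHom.map_det (s17_TA M A).val (s17c_bmat M A s G hG)
  exact h

open Classical in
theorem s17c_coe_prod_bdelta (M : s17_Model K F m) (A : Fin m → Place K F)
    (τ : Place K F → F) (hτ : ∀ P : Place K F, P.ord (τ P) = 1) {n : ℕ} (s : Fin n → Fin m) :
    (((∏ q ∈ Finset.univ.filter (fun q : Fin n × Fin n => q.1 < q.2 ∧ A (s q.1) = A (s q.2)),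
        s17c_bdelta M A τ hτ s q : ↥(s17_TA M A)) : ↥(s17_TA M A)) : M.FF)
      = ∏ i : Fin n, ∏ j : Fin n, if i < j ∧ A (s i) = A (s j) then
          (M.ι (s j) (τ (A (s j))) - M.ι (s i) (τ (A (s i)))) else 1 := by
  rw [SubmonoidClass.coe_finsetProd,
    ← s17c_prod_pairs (fun i j => i < j ∧ A (s i) = A (s j))
      (fun i j => M.ι (s j) (τ (A (s j))) - M.ι (s i) (τ (A (s i))))]
  exact Finset.prod_congr rfl fun q _ => rfl

open Classical in
/-- **the block lemma.** -/
theorem s17c_block {g₀ : ℕ} (hC : s17_Curve K F g₀) (M : s17_Model K F m)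
    (X : s17_Charts K F) (A : Fin m → Place K F) (τ : Place K F → F)
    (hτ : ∀ P : Place K F, P.ord (τ P) = 1)
    (hτ2 : ∀ P : Place K F, (X.exp P (τ P)).coeff 1 = 1) {n : ℕ} (s : Fin n → Fin m)
    (hs : Function.Injective s) (G : Place K F → Fin n → F) (hG : ∀ P k, G P k ∈ s17_OP P) :
    s17_HasVal M X A
      (Matrix.det (fun i k : Fin n => M.ι (s i) (G (A (s i)) k)) /
        ∏ i : Fin n, ∏ j : Fin n, if i < j ∧ A (s i) = A (s j) then
          (M.ι (s j) (τ (A (s j))) - M.ι (s i) (τ (A (s i)))) else 1)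
      (Matrix.det (fun i k : Fin n =>
        (X.exp (A (s i)) (G (A (s i)) k)).coeff ((s17_rank (fun j => A (s j)) i : ℕ) : ℤ))) := by
  set W : Finset (Fin n × Fin n) :=
    Finset.univ.filter (fun q : Fin n × Fin n => q.1 < q.2 ∧ A (s q.1) = A (s q.2)) with hWdef
  have hW : ∀ q ∈ W, q.1 < q.2 ∧ A (s q.1) = A (s q.2) := fun q hq => (Finset.mem_filter.mp hq).2
  obtain ⟨u, v, hv, huv⟩ := s17c_block_mem hC M X A τ hτ s hs G hG W hW
  obtain ⟨Q, hQ1, hQ2⟩ := s17d_dd_ps (R := K) s hs (fun i => A (s i))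
    (fun P k => s17c_chartPS X P ⟨G P k, hG P k⟩)
  have hEdet : s17c_E M X A (s17c_bmat M A s G hG).det
      = (∏ q ∈ W, ((MvPowerSeries.X (s q.2) : MvPowerSeries (Fin m) K)
          - MvPowerSeries.X (s q.1))) * Q := by
    rw [AlgHom.map_det, hWdef, s17c_prod_pairs (fun i j => i < j ∧ A (s i) = A (s j))
      (fun i j => (MvPowerSeries.X (s j) : MvPowerSeries (Fin m) K) - MvPowerSeries.X (s i)),
      ← hQ1]
    congr 1
    apply Matrix.ext
    intro i k
    exact s17c_E_iota M X A (s i) _ (hG _ k)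
  have hEδ : ∏ q ∈ W, s17c_E M X A (s17c_bdelta M A τ hτ s q)
      = (∏ q ∈ W, ((MvPowerSeries.X (s q.2) : MvPowerSeries (Fin m) K)
          - MvPowerSeries.X (s q.1))) *
        ∏ q ∈ W, s17d_dd {s q.1, s q.2}
          (s17c_chartPS X (A (s q.2)) ⟨τ (A (s q.2)), s17c_unif_mem _ (hτ _)⟩) := by
    rw [← Finset.prod_mul_distrib]
    refine Finset.prod_congr rfl fun q hq => ?_
    exact (s17c_E_bdelta M X A τ hτ hτ2 s hs q (hW q hq).1 (hW q hq).2).1
  have hΔ : (∏ q ∈ W, ((MvPowerSeries.X (s q.2) : MvPowerSeries (Fin m) K)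
      - MvPowerSeries.X (s q.1))) ≠ 0 := by
    refine Finset.prod_ne_zero_iff.mpr fun q hq => sub_ne_zero.mpr fun h => ?_
    have := hs (MvPowerSeries.X_inj.mp h)
    exact (ne_of_lt (hW q hq).1) this.symm
  have hE := congrArg (s17c_E M X A) huv
  rw [map_mul, map_mul, map_prod, hEdet, hEδ] at hE
  have hcancel : Q * s17c_E M X A v
      = (∏ q ∈ W, s17d_dd {s q.1, s q.2}
          (s17c_chartPS X (A (s q.2)) ⟨τ (A (s q.2)), s17c_unif_mem _ (hτ _)⟩))
        * s17c_E M X A u := by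
    have h0 : (∏ q ∈ W, ((MvPowerSeries.X (s q.2) : MvPowerSeries (Fin m) K)
        - MvPowerSeries.X (s q.1))) * (Q * s17c_E M X A v
          - (∏ q ∈ W, s17d_dd {s q.1, s q.2}
            (s17c_chartPS X (A (s q.2)) ⟨τ (A (s q.2)), s17c_unif_mem _ (hτ _)⟩))
          * s17c_E M X A u) = 0 := by
      rw [mul_sub, ← mul_assoc, ← mul_assoc, hE, sub_self]
    rcases mul_eq_zero.mp h0 with h | h
    · exact absurd h hΔ
    · exact sub_eq_zero.mp h
  have hcc := congrArg MvPowerSeries.constantCoeff hcancel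
  rw [map_mul, map_mul, map_prod, s17c_constantCoeff_E, s17c_constantCoeff_E, hQ2,
    Finset.prod_eq_one (fun q hq =>
      (s17c_E_bdelta M X A τ hτ hτ2 s hs q (hW q hq).1 (hW q hq).2).2), one_mul] at hcc
  rw [s17c_hasVal_iff]
  refine ⟨u, v, hv, ?_, ?_⟩
  · have h3 : (((∏ q ∈ W, s17c_bdelta M A τ hτ s q : ↥(s17_TA M A)) : ↥(s17_TA M A)) : M.FF)
        ≠ 0 := by
      rw [SubmonoidClass.coe_finsetProd]
      refine Finset.prod_ne_zero_iff.mpr fun q hq => ?_
      have e : τ (A (s q.1)) = τ (A (s q.2)) := congrArg τ (hW q hq).2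
      show M.ι (s q.2) (τ (A (s q.2))) - M.ι (s q.1) (τ (A (s q.1))) ≠ 0
      rw [e]
      exact s17c_iota_sub_ne_zero hC M X _ _ (fun h => (ne_of_lt (hW q hq).1) (hs h)) _ (hτ _)
    have huv' : (((s17c_bmat M A s G hG).det : ↥(s17_TA M A)) : M.FF) * (v : M.FF)
        = (((∏ q ∈ W, s17c_bdelta M A τ hτ s q : ↥(s17_TA M A)) : ↥(s17_TA M A)) : M.FF)
          * (u : M.FF) := congrArg Subtype.val huv
    rw [← s17c_coe_det_bmat M A s G hG, ← s17c_coe_prod_bdelta M A τ hτ s, div_mul_eq_mul_div,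
      div_eq_iff h3, huv', mul_comm]
  · rw [← hcc]
    congr 2
    apply Matrix.ext
    intro i k
    rw [Matrix.of_apply, s17c_chartPS_coeff]
    unfold s17_rank
    congr

end Fermat.Agent.Lib.S17
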