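/-
Programme MW (S17), brick [NS] (helper4, prefix `s17n_`), part A: the Nullstellensatz certificate.

`k → K` a field extension with `K` algebraically closed, `Z ⊆ (ι → K)` any set of points (think:
chart values of a family of sections at the points of `C^n`), `s : ι' → ι` a sub-family.
If every point `z` of the `k`-Zariski closure of the cone over `Z` (the common zeros of all
homogeneous `k`-polynomials vanishing on `Z`) whose `s`-coordinates all vanish is `0`, then there
are homogeneous polynomials `q (j, i')` over `k`, all of the same degree `M`, with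
`∑ i', q (j, i') (y) * y (s i') = y j ^ (M + 1)` for all `y ∈ Z` and all `j`.
This is exactly the shape of the hypothesis of Mathlib's `Height.mulHeight_eval_ge`.

* `s17n_homogeneousComponent_mul_X` : `(a * X i)_{n+1} = a_n * X i`;
* `s17n_cert` : the certificate, weakest hypothesis;
* `s17n_cert_of_closed` : the same from "closed image" + "base-point free".
-/
import Mathlib

set_option autoImplicit false

noncomputable section

namespace Fermat.Agent.Lib.S17

open MvPolynomial

variable {k K : Type*} [Field k] [Field K] [Algebra k K] {ι ι' : Type*}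

attribute [local instance] MvPolynomial.gradedAlgebra

theorem s17n_homogeneousComponent_mul_X (a : MvPolynomial ι k) (i : ι) (n : ℕ) :
    homogeneousComponent (n + 1) (a * X i) = homogeneousComponent n a * X i := by
  classical
  ext d
  rw [coeff_homogeneousComponent, coeff_mul_X', coeff_mul_X', coeff_homogeneousComponent]
  by_cases hi : i ∈ d.support
  · have h1 : 1 ≤ d i := by
      have := Finsupp.mem_support_iff.mp hi
      omega
    have hd : d.degree = (d - Finsupp.single i 1).degree + 1 := by
      have h2 : d = (d - Finsupp.single i 1) + Finsupp.single i 1 := by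
        ext j
        by_cases hj : j = i
        · subst hj; simp; omega
        · simp [Ne.symm hj]
      conv_lhs => rw [h2]
      rw [map_add, Finsupp.degree_single]
    simp only [hi, if_true]
    by_cases hn : (d - Finsupp.single i 1).degree = n
    · have : d.degree = n + 1 := by omega
      simp [hn, this]
    · have : d.degree ≠ n + 1 := by omega
      simp [hn, this]
  · simp [hi]

/-- Elements of the ideal generated by the homogeneous polynomials vanishing on `Z` vanish
on `Z`. -/
theorem s17n_aeval_eq_zero_of_mem_span {Z : Set (ι → K)} {g : MvPolynomial ι k}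
    (hg : g ∈ Ideal.span {p : MvPolynomial ι k |
      (∃ d : ℕ, p.IsHomogeneous d) ∧ ∀ y ∈ Z, aeval y p = 0})
    {y : ι → K} (hy : y ∈ Z) : aeval y g = 0 := by
  induction hg using Submodule.span_induction with
  | mem p hp => exact hp.2 y hy
  | zero => simp
  | add p q _ _ hp hq => simp [hp, hq]
  | smul c p _ hp => simp [hp]

/-- **Nullstellensatz certificate** (weakest form). -/
theorem s17n_cert [IsAlgClosed K] [Finite ι] [Fintype ι'] (s : ι' → ι) (Z : Set (ι → K))
    (hcl : ∀ z : ι → K,
      (∀ (d : ℕ) (p : MvPolynomial ι k), p.IsHomogeneous d → (∀ y ∈ Z, aeval y p = 0) →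
        aeval z p = 0) →
      (∀ i', z (s i') = 0) → z = 0) :
    ∃ (M : ℕ) (q : ι × ι' → MvPolynomial ι k), (∀ a, (q a).IsHomogeneous M) ∧
      ∀ y ∈ Z, ∀ j, ∑ i', aeval y (q (j, i')) * y (s i') = y j ^ (M + 1) := by
  classical
  have : Fintype ι := Fintype.ofFinite ι
  set P : Set (MvPolynomial ι k) :=
    {p | (∃ d : ℕ, p.IsHomogeneous d) ∧ ∀ y ∈ Z, aeval y p = 0} with hP
  set I : Ideal (MvPolynomial ι k) := Ideal.span P with hI
  set J : Ideal (MvPolynomial ι k) := I ⊔ Ideal.span (Set.range fun i' : ι' => (X (s i') : MvPolynomial ι k))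
    with hJ
  -- the zero locus of `J` is contained in `{0}`
  have hloc : ∀ z ∈ zeroLocus K J, z = 0 := by
    intro z hz
    refine hcl z (fun d p hp hpZ => ?_) (fun i' => ?_)
    · exact hz p (Ideal.mem_sup_left (Ideal.subset_span ⟨⟨d, hp⟩, hpZ⟩))
    · have := hz (X (s i')) (Ideal.mem_sup_right (Ideal.subset_span ⟨i', rfl⟩))
      simpa using this
  -- hence every variable lies in the radical of `J`
  have hrad : ∀ j : ι, (X j : MvPolynomial ι k) ∈ J.radical := by
    intro j
    rw [← vanishingIdeal_zeroLocus_eq_radical (K := K)]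
    intro z hz
    rw [hloc z hz]
    simp
  choose e he using fun j => hrad j
  -- a uniform exponent `E + 1`
  set E : ℕ := ∑ j, e j with hE
  have hpow : ∀ j : ι, (X j : MvPolynomial ι k) ^ (E + 1) ∈ J := by
    intro j
    have hle : e j ≤ E + 1 :=
      (Finset.single_le_sum (f := e) (fun _ _ => Nat.zero_le _) (Finset.mem_univ j)).trans
        (Nat.le_succ _)
    obtain ⟨r, hr⟩ := Nat.exists_eq_add_of_le hle
    rw [hr, pow_add]
    exact Ideal.mul_mem_right _ _ (he j)
  -- split
  have hsplit : ∀ j : ι, ∃ g ∈ I, ∃ c : ι' → MvPolynomial ι k,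
      (X j : MvPolynomial ι k) ^ (E + 1) = g + ∑ i', c i' * X (s i') := by
    intro j
    obtain ⟨g, hg, h, hh, hgh⟩ := Submodule.mem_sup.mp (hpow j)
    obtain ⟨c, hc⟩ := (Ideal.mem_span_range_iff_exists_fun).mp hh
    exact ⟨g, hg, c, by rw [← hgh, hc]⟩
  choose g hgI c hc using hsplit
  refine ⟨E, fun a => homogeneousComponent E (c a.1 a.2), fun a =>
    homogeneousComponent_isHomogeneous _ _, fun y hy j => ?_⟩
  -- `I` is a homogeneous ideal
  have hIhom : I.IsHomogeneous (homogeneousSubmodule ι k) := by
    refine Ideal.homogeneous_span _ _ ?_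
    rintro p ⟨⟨d, hd⟩, -⟩
    exact ⟨d, hd⟩
  -- take the component of degree `E + 1`
  have h1 := congrArg (homogeneousComponent (E + 1)) (hc j)
  rw [homogeneousComponent_of_mem (isHomogeneous_X_pow j (E + 1)), if_pos rfl, map_add,
    map_sum] at h1
  simp only [s17n_homogeneousComponent_mul_X] at h1
  have h2 : homogeneousComponent (E + 1) (g j) ∈ I :=
    homogeneousComponent_mem_of_mem hIhom (hgI j) _
  have h3 := congrArg (aeval y) h1
  rw [map_add, s17n_aeval_eq_zero_of_mem_span h2 hy, zero_add, map_sum] at h3
  simp only [map_mul, aeval_X, map_pow] at h3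
  exact h3.symm

/-- **Nullstellensatz certificate** from "the cone over `Z` is `k`-Zariski closed" and
"the sub-family `s` is base-point free on `Z`". -/
theorem s17n_cert_of_closed [IsAlgClosed K] [Finite ι] [Fintype ι'] (s : ι' → ι)
    (Z : Set (ι → K))
    (hcl : ∀ z : ι → K,
      (∀ (d : ℕ) (p : MvPolynomial ι k), p.IsHomogeneous d → (∀ y ∈ Z, aeval y p = 0) →
        aeval z p = 0) →
      z = 0 ∨ ∃ y ∈ Z, ∃ t : K, z = t • y)
    (hbpf : ∀ y ∈ Z, ∃ i', y (s i') ≠ 0) :
    ∃ (M : ℕ) (q : ι × ι' → MvPolynomial ι k), (∀ a, (q a).IsHomogeneous M) ∧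
      ∀ y ∈ Z, ∀ j, ∑ i', aeval y (q (j, i')) * y (s i') = y j ^ (M + 1) := by
  refine s17n_cert s Z fun z hz hs => ?_
  rcases hcl z hz with h | ⟨y, hy, t, rfl⟩
  · exact h
  · obtain ⟨i', hi'⟩ := hbpf y hy
    have := hs i'
    simp only [Pi.smul_apply, smul_eq_mul, mul_eq_zero] at this
    rcases this with h | h
    · simp [h]
    · exact absurd h hi'

end Fermat.Agent.Lib.S17
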