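/-
Programme MW (S17), brick [NS] (helper4, prefix `s17n_`), part B: descent of the certificate to a
subfield and the height inequality.

`k₀ → K` a field extension (think `ℚ → ℚ̄` or a number field inside `ℚ̄`).

* `s17n_mapCoeff ρ q` : apply a `k₀`-linear map `ρ : K → k₀` to the coefficients of `q`;
  `s17n_eval_mapCoeff` : at a `k₀`-rational point `x`, `(ρ q)(x) = ρ (q (x))`;
* `s17n_descend` : a certificate over `K` gives a certificate over `k₀`, valid at all
  `k₀`-rational points (no Galois stability of `Z` is needed: one applies a `k₀`-linear retraction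
  `K → k₀` to the coefficients);
* `s17n_mulHeight_le_of_cert`, `s17n_logHeight_le_of_cert` : the height inequality
  `C * H(x) ≤ H(x ∘ s)` resp. `h(x) ≤ h(x ∘ s) + C` for the `k₀`-rational points of `Z`, from
  Mathlib's `Height.mulHeight_eval_ge'`;
* `s17n_mulHeight_le`, `s17n_logHeight_le` : the same directly from the geometric hypothesis
  of `s17n_cert` (polynomials over `K`, i.e. honest Zariski closure over the algebraically closed
  field).
-/
import Fermat.Agent.Lib.S17.NCert

set_option autoImplicit false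

noncomputable section

namespace Fermat.Agent.Lib.S17

open MvPolynomial

variable {k₀ K : Type*} [Field k₀] [Field K] [Algebra k₀ K] {ι ι' : Type*}

/-- Apply a `k₀`-linear map to the coefficients of a polynomial. -/
def s17n_mapCoeff (ρ : K →ₗ[k₀] k₀) (q : MvPolynomial ι K) : MvPolynomial ι k₀ :=
  ∑ m ∈ q.support, monomial m (ρ (coeff m q))

theorem s17n_mapCoeff_isHomogeneous (ρ : K →ₗ[k₀] k₀) {q : MvPolynomial ι K} {M : ℕ}
    (hq : q.IsHomogeneous M) : (s17n_mapCoeff ρ q).IsHomogeneous M := by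
  refine IsHomogeneous.sum _ _ _ fun m hm => ?_
  refine isHomogeneous_monomial _ ?_
  by_contra hne
  exact (mem_support_iff.mp hm) (hq.coeff_eq_zero hne)

theorem s17n_eval_mapCoeff (ρ : K →ₗ[k₀] k₀) (q : MvPolynomial ι K) (x : ι → k₀) :
    eval x (s17n_mapCoeff ρ q) = ρ (aeval (fun i => algebraMap k₀ K (x i)) q) := by
  have h1 : aeval (fun i => algebraMap k₀ K (x i)) q =
      ∑ m ∈ q.support, (m.prod fun i e => x i ^ e) • coeff m q := by
    conv_lhs => rw [← support_sum_monomial_coeff q]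
    rw [map_sum]
    refine Finset.sum_congr rfl fun m _ => ?_
    rw [aeval_monomial, Algebra.smul_def, Algebra.algebraMap_self_apply, mul_comm]
    congr 1
    rw [Finsupp.prod, Finsupp.prod, map_prod]
    simp
  rw [h1, map_sum, s17n_mapCoeff, map_sum]
  refine Finset.sum_congr rfl fun m _ => ?_
  rw [eval_monomial, map_smul, smul_eq_mul, mul_comm]

/-- **Descent of a certificate** along a field extension `k₀ → K`. -/
theorem s17n_descend [Fintype ι'] (s : ι' → ι) {M : ℕ} (q : ι × ι' → MvPolynomial ι K)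
    (hq : ∀ a, (q a).IsHomogeneous M) :
    ∃ q₀ : ι × ι' → MvPolynomial ι k₀, (∀ a, (q₀ a).IsHomogeneous M) ∧
      ∀ x : ι → k₀,
        (∀ j, ∑ i', aeval (fun i => algebraMap k₀ K (x i)) (q (j, i')) * algebraMap k₀ K (x (s i'))
          = algebraMap k₀ K (x j) ^ (M + 1)) →
        ∀ j, ∑ i', eval x (q₀ (j, i')) * x (s i') = x j ^ (M + 1) := by
  obtain ⟨ρ, hρ⟩ := LinearMap.exists_leftInverse_of_injective (Algebra.linearMap k₀ K)
    (LinearMap.ker_eq_bot.mpr (algebraMap k₀ K).injective)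
  have hρ' : ∀ r : k₀, ρ (algebraMap k₀ K r) = r := fun r => by
    have := LinearMap.congr_fun hρ r
    simpa using this
  have hρmul : ∀ (c : K) (r : k₀), ρ (c * algebraMap k₀ K r) = ρ c * r := fun c r => by
    rw [mul_comm c, ← Algebra.smul_def, map_smul, smul_eq_mul, mul_comm]
  refine ⟨fun a => s17n_mapCoeff ρ (q a), fun a => s17n_mapCoeff_isHomogeneous ρ (hq a),
    fun x hx j => ?_⟩
  have := congrArg ρ (hx j)
  rw [map_sum, ← map_pow, hρ'] at this
  rw [← this]
  refine Finset.sum_congr rfl fun i' _ => ?_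
  rw [s17n_eval_mapCoeff, hρmul]

section height

open Height

variable [AdmissibleAbsValues k₀] [Finite ι] [Fintype ι']

/-- **Height inequality from a certificate** (multiplicative form). -/
theorem s17n_mulHeight_le_of_cert (s : ι' → ι) (Z : Set (ι → K)) {M : ℕ}
    (q : ι × ι' → MvPolynomial ι K) (hq : ∀ a, (q a).IsHomogeneous M)
    (hZ : ∀ y ∈ Z, ∀ j, ∑ i', aeval y (q (j, i')) * y (s i') = y j ^ (M + 1)) :
    ∃ C : ℝ, 0 < C ∧ ∀ x : ι → k₀, (fun i => algebraMap k₀ K (x i)) ∈ Z →
      C * mulHeight x ≤ mulHeight (fun i' => x (s i')) := by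
  obtain ⟨q₀, hq₀, hdesc⟩ := s17n_descend (k₀ := k₀) s q hq
  obtain ⟨C, hC, hmain⟩ := mulHeight_eval_ge' (N := 1) hq₀
  refine ⟨C, hC, fun x hx => ?_⟩
  have h := hmain (fun i' => (X (s i') : MvPolynomial ι k₀)) (x := x) (by
    intro j
    simpa using hdesc x (hZ _ hx) j)
  simpa using h

/-- **Height inequality from a certificate** (logarithmic form). -/
theorem s17n_logHeight_le_of_cert (s : ι' → ι) (Z : Set (ι → K)) {M : ℕ}
    (q : ι × ι' → MvPolynomial ι K) (hq : ∀ a, (q a).IsHomogeneous M)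
    (hZ : ∀ y ∈ Z, ∀ j, ∑ i', aeval y (q (j, i')) * y (s i') = y j ^ (M + 1)) :
    ∃ C : ℝ, ∀ x : ι → k₀, (fun i => algebraMap k₀ K (x i)) ∈ Z →
      logHeight x ≤ logHeight (fun i' => x (s i')) + C := by
  obtain ⟨C, hC, h⟩ := s17n_mulHeight_le_of_cert (k₀ := k₀) s Z q hq hZ
  refine ⟨-Real.log C, fun x hx => ?_⟩
  have h1 := Real.log_le_log (mul_pos hC (mulHeight_pos x)) (h x hx)
  rw [Real.log_mul hC.ne' (mulHeight_ne_zero x)] at h1
  simp only [logHeight_eq_log_mulHeight]
  linarith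

/-- **(NS), multiplicative form**: if the only point of the Zariski closure of the cone over `Z`
with vanishing `s`-coordinates is `0`, then `C * H(x) ≤ H(x ∘ s)` on the `k₀`-rational points of
`Z`. -/
theorem s17n_mulHeight_le [IsAlgClosed K] (s : ι' → ι) (Z : Set (ι → K))
    (hcl : ∀ z : ι → K,
      (∀ (d : ℕ) (p : MvPolynomial ι K), p.IsHomogeneous d → (∀ y ∈ Z, aeval y p = 0) →
        aeval z p = 0) →
      (∀ i', z (s i') = 0) → z = 0) :
    ∃ C : ℝ, 0 < C ∧ ∀ x : ι → k₀, (fun i => algebraMap k₀ K (x i)) ∈ Z →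
      C * mulHeight x ≤ mulHeight (fun i' => x (s i')) := by
  obtain ⟨M, q, hq, hZ⟩ := s17n_cert (k := K) s Z hcl
  exact s17n_mulHeight_le_of_cert s Z q hq hZ

/-- **(NS), logarithmic form.** -/
theorem s17n_logHeight_le [IsAlgClosed K] (s : ι' → ι) (Z : Set (ι → K))
    (hcl : ∀ z : ι → K,
      (∀ (d : ℕ) (p : MvPolynomial ι K), p.IsHomogeneous d → (∀ y ∈ Z, aeval y p = 0) →
        aeval z p = 0) →
      (∀ i', z (s i') = 0) → z = 0) :
    ∃ C : ℝ, ∀ x : ι → k₀, (fun i => algebraMap k₀ K (x i)) ∈ Z →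
      logHeight x ≤ logHeight (fun i' => x (s i')) + C := by
  obtain ⟨M, q, hq, hZ⟩ := s17n_cert (k := K) s Z hcl
  exact s17n_logHeight_le_of_cert s Z q hq hZ

end height

end Fermat.Agent.Lib.S17
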