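/-
Programme MW (S17), brick [NS] (helper4, prefix `s17n_`), part C: rational points of projective
space given by non-rational coordinate vectors, and their height.

`k₀ → K` a field extension (think `ℚ → ℚ̄`), `z : ι → K` a coordinate vector.

* `s17n_IsRat k₀ z` : `z = c • x` with `c ≠ 0` in `K` and `x` a `k₀`-rational vector
  (`z = 0` is allowed);
* `s17n_isRat_of_galois` : a vector which is Galois-invariant up to scalars is rational
  (no Hilbert 90 needed: divide by a non-zero coordinate);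
* `s17n_ht k₀ z` : the logarithmic height of the rational vector `x` (`0` if `z` is not rational);
  `s17n_ht_mk`, `s17n_ht_smul`, `s17n_ht_nonneg`, `s17n_ht_comp_le`, `s17n_ht_comp_equiv`,
  `s17n_ht_segre` (`h(z ⊗ w) = h(z) + h(w)`), `s17n_ht_veronese` (`h` of all ordered monomials of
  degree `d` is `d * h(z)`).
-/
import Fermat.Agent.Lib.S17.NHeight

set_option autoImplicit false

noncomputable section

namespace Fermat.Agent.Lib.S17

open Height

variable (k₀ : Type*) {K : Type*} [Field k₀] [Field K] [Algebra k₀ K] {ι ι' : Type*}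

/-- The coordinate vector `z` is a non-zero multiple of a `k₀`-rational vector. -/
def s17n_IsRat (z : ι → K) : Prop :=
  ∃ (x : ι → k₀) (c : K), c ≠ 0 ∧ z = fun i => c * algebraMap k₀ K (x i)

variable {k₀}

theorem s17n_isRat_mk (x : ι → k₀) {c : K} (hc : c ≠ 0) :
    s17n_IsRat k₀ (fun i => c * algebraMap k₀ K (x i)) :=
  ⟨x, c, hc, rfl⟩

theorem s17n_isRat_zero : s17n_IsRat k₀ (0 : ι → K) :=
  ⟨0, 1, one_ne_zero, by ext i; simp⟩

theorem s17n_isRat_algebraMap (x : ι → k₀) :
    s17n_IsRat k₀ (fun i => algebraMap k₀ K (x i)) :=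
  ⟨x, 1, one_ne_zero, by ext i; simp⟩

theorem s17n_IsRat.smul {z : ι → K} (hz : s17n_IsRat k₀ z) {t : K} (ht : t ≠ 0) :
    s17n_IsRat k₀ (t • z) := by
  obtain ⟨x, c, hc, rfl⟩ := hz
  exact ⟨x, t * c, mul_ne_zero ht hc, by ext i; simp [mul_assoc]⟩

theorem s17n_IsRat.comp {z : ι → K} (hz : s17n_IsRat k₀ z) (f : ι' → ι) :
    s17n_IsRat k₀ (fun i' => z (f i')) := by
  obtain ⟨x, c, hc, rfl⟩ := hz
  exact ⟨fun i' => x (f i'), c, hc, rfl⟩

theorem s17n_IsRat.mul {z : ι → K} {w : ι' → K} (hz : s17n_IsRat k₀ z) (hw : s17n_IsRat k₀ w) :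
    s17n_IsRat k₀ (fun a : ι × ι' => z a.1 * w a.2) := by
  obtain ⟨x, c, hc, rfl⟩ := hz
  obtain ⟨y, d, hd, rfl⟩ := hw
  exact ⟨fun a => x a.1 * y a.2, c * d, mul_ne_zero hc hd, by ext a; simp; ring⟩

theorem s17n_IsRat.prod {z : ι → K} (hz : s17n_IsRat k₀ z) (d : ℕ) :
    s17n_IsRat k₀ (fun I : Fin d → ι => ∏ a, z (I a)) := by
  obtain ⟨x, c, hc, rfl⟩ := hz
  refine ⟨fun I => ∏ a, x (I a), c ^ d, pow_ne_zero _ hc, ?_⟩
  ext I
  simp [Finset.prod_mul_distrib]

/-- Two rational representatives of the same vector are proportional over `k₀`. -/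
theorem s17n_rat_unique {x y : ι → k₀} {c d : K} (hc : c ≠ 0) (hd : d ≠ 0)
    (h : (fun i => c * algebraMap k₀ K (x i)) = fun i => d * algebraMap k₀ K (y i)) :
    ∃ t : k₀, t ≠ 0 ∧ y = t • x := by
  have hi : ∀ i, c * algebraMap k₀ K (x i) = d * algebraMap k₀ K (y i) := fun i => congrFun h i
  have hinj := (algebraMap k₀ K).injective
  by_cases hx : x = 0
  · refine ⟨1, one_ne_zero, ?_⟩
    subst hx
    ext i
    have := hi i
    simp only [Pi.zero_apply, map_zero, mul_zero] at this
    have h0 : algebraMap k₀ K (y i) = 0 := by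
      rcases mul_eq_zero.mp this.symm with h | h
      · exact absurd h hd
      · exact h
    simpa using hinj (by simpa using h0)
  · obtain ⟨b, hb⟩ := Function.ne_iff.mp hx
    simp only [Pi.zero_apply] at hb
    have hyb : y b ≠ 0 := by
      intro h0
      have := hi b
      rw [h0, map_zero, mul_zero] at this
      rcases mul_eq_zero.mp this with h | h
      · exact hc h
      · exact hb (hinj (by simpa using h))
    refine ⟨y b / x b, div_ne_zero hyb hb, ?_⟩
    ext i
    simp only [Pi.smul_apply, smul_eq_mul]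
    apply hinj
    have h1 := hi i
    have h2 := hi b
    have hxb : algebraMap k₀ K (x b) ≠ 0 := fun h => hb (hinj (by simpa using h))
    rw [map_mul, map_div₀]
    field_simp
    -- `d * y i * x b = d * y b * x i` from `c * x i = d * y i`, `c * x b = d * y b`
    have : d * (algebraMap k₀ K (y i) * algebraMap k₀ K (x b)) =
        d * (algebraMap k₀ K (y b) * algebraMap k₀ K (x i)) := by
      calc d * (algebraMap k₀ K (y i) * algebraMap k₀ K (x b))
          = (d * algebraMap k₀ K (y i)) * algebraMap k₀ K (x b) := by ring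
        _ = (c * algebraMap k₀ K (x i)) * algebraMap k₀ K (x b) := by rw [h1]
        _ = (c * algebraMap k₀ K (x b)) * algebraMap k₀ K (x i) := by ring
        _ = (d * algebraMap k₀ K (y b)) * algebraMap k₀ K (x i) := by rw [h2]
        _ = d * (algebraMap k₀ K (y b) * algebraMap k₀ K (x i)) := by ring
    exact mul_left_cancel₀ hd this

/-- A coordinate vector which is Galois-invariant up to scalars is rational. -/
theorem s17n_isRat_of_galois [IsGalois k₀ K] (z : ι → K)
    (h : ∀ σ : K ≃ₐ[k₀] K, ∃ c : K, (fun i => σ (z i)) = fun i => c * z i) :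
    s17n_IsRat k₀ z := by
  by_cases hz : z = 0
  · subst hz; exact s17n_isRat_zero
  obtain ⟨b, hb⟩ := Function.ne_iff.mp hz
  simp only [Pi.zero_apply] at hb
  have hfix : ∀ i, z i / z b ∈ Set.range (algebraMap k₀ K) := by
    intro i
    rw [InfiniteGalois.mem_range_algebraMap_iff_fixed]
    intro σ
    obtain ⟨c, hc⟩ := h σ
    have hi : σ (z i) = c * z i := congrFun hc i
    have hbb : σ (z b) = c * z b := congrFun hc b
    have hc0 : c ≠ 0 := by
      intro h0
      rw [h0, zero_mul] at hbb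
      exact hb (by simpa using hbb)
    rw [map_div₀, hi, hbb, mul_div_mul_left _ _ hc0]
  choose x hx using hfix
  refine ⟨x, z b, hb, ?_⟩
  ext i
  rw [hx i, mul_div_cancel₀ _ hb]

variable (k₀) in
/-- The logarithmic height of a `k₀`-rational point of projective space given by a coordinate
vector over the big field `K` (junk value `0` if the vector is not rational). -/
def s17n_ht [AdmissibleAbsValues k₀] (z : ι → K) : ℝ :=
  haveI : Decidable (s17n_IsRat k₀ z) := Classical.propDecidable _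
  if h : s17n_IsRat k₀ z then logHeight h.choose else 0

section ht

variable [AdmissibleAbsValues k₀]

theorem s17n_ht_mk [Finite ι] (x : ι → k₀) {c : K} (hc : c ≠ 0) :
    s17n_ht k₀ (fun i => c * algebraMap k₀ K (x i)) = logHeight x := by
  have h : s17n_IsRat k₀ (fun i => c * algebraMap k₀ K (x i)) := s17n_isRat_mk x hc
  rw [s17n_ht, dif_pos h]
  obtain ⟨d, hd, hxd⟩ := h.choose_spec
  obtain ⟨t, ht, hy⟩ := s17n_rat_unique hc hd hxd
  rw [hy, logHeight_smul_eq_logHeight _ ht]

theorem s17n_ht_algebraMap [Finite ι] (x : ι → k₀) :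
    s17n_ht k₀ (fun i => algebraMap k₀ K (x i)) = logHeight x := by
  have := s17n_ht_mk (K := K) x (one_ne_zero (α := K))
  simpa using this

theorem s17n_ht_of_not_isRat {z : ι → K} (h : ¬ s17n_IsRat k₀ z) : s17n_ht k₀ z = 0 := by
  rw [s17n_ht, dif_neg h]

theorem s17n_ht_nonneg [Finite ι] (z : ι → K) : 0 ≤ s17n_ht k₀ z := by
  by_cases h : s17n_IsRat k₀ z
  · rw [s17n_ht, dif_pos h]; exact logHeight_nonneg _
  · rw [s17n_ht_of_not_isRat h]

theorem s17n_ht_smul [Finite ι] (z : ι → K) {t : K} (ht : t ≠ 0) :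
    s17n_ht k₀ (t • z) = s17n_ht k₀ z := by
  by_cases h : s17n_IsRat k₀ z
  · obtain ⟨x, c, hc, rfl⟩ := h
    have : (t • fun i => c * algebraMap k₀ K (x i)) = fun i => (t * c) * algebraMap k₀ K (x i) := by
      ext i; simp [mul_assoc]
    rw [this, s17n_ht_mk x (mul_ne_zero ht hc), s17n_ht_mk x hc]
  · have h' : ¬ s17n_IsRat k₀ (t • z) := fun h' => h (by
      have := h'.smul (inv_ne_zero ht)
      rwa [smul_smul, inv_mul_cancel₀ ht, one_smul] at this)
    rw [s17n_ht_of_not_isRat h, s17n_ht_of_not_isRat h']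

theorem s17n_ht_comp_le [Finite ι] [Finite ι'] {z : ι → K} (hz : s17n_IsRat k₀ z) (f : ι' → ι) :
    s17n_ht k₀ (fun i' => z (f i')) ≤ s17n_ht k₀ z := by
  obtain ⟨x, c, hc, rfl⟩ := hz
  rw [s17n_ht_mk x hc, s17n_ht_mk (fun i' => x (f i')) hc]
  exact logHeight_comp_le f x

theorem s17n_ht_comp_equiv [Finite ι] [Finite ι'] (z : ι → K) (e : ι' ≃ ι) :
    s17n_ht k₀ (fun i' => z (e i')) = s17n_ht k₀ z := by
  by_cases h : s17n_IsRat k₀ z
  · obtain ⟨x, c, hc, rfl⟩ := h
    rw [s17n_ht_mk x hc, s17n_ht_mk (fun i' => x (e i')) hc]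
    exact logHeight_comp_equiv e x
  · have h' : ¬ s17n_IsRat k₀ (fun i' => z (e i')) := fun h' => h (by
      have := h'.comp e.symm
      simpa using this)
    rw [s17n_ht_of_not_isRat h, s17n_ht_of_not_isRat h']

/-- Segre: `h(z ⊗ w) = h(z) + h(w)` for non-zero rational vectors. -/
theorem s17n_ht_segre [Finite ι] [Finite ι'] {z : ι → K} {w : ι' → K} (hz : s17n_IsRat k₀ z)
    (hw : s17n_IsRat k₀ w) (hz0 : z ≠ 0) (hw0 : w ≠ 0) :
    s17n_ht k₀ (fun a : ι × ι' => z a.1 * w a.2) = s17n_ht k₀ z + s17n_ht k₀ w := by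
  obtain ⟨x, c, hc, rfl⟩ := hz
  obtain ⟨y, d, hd, rfl⟩ := hw
  have hx0 : x ≠ 0 := by
    rintro rfl; exact hz0 (by ext i; simp)
  have hy0 : y ≠ 0 := by
    rintro rfl; exact hw0 (by ext i; simp)
  have : (fun a : ι × ι' => (c * algebraMap k₀ K (x a.1)) * (d * algebraMap k₀ K (y a.2))) =
      fun a : ι × ι' => (c * d) * algebraMap k₀ K (x a.1 * y a.2) := by
    ext a; simp; ring
  rw [this, s17n_ht_mk (fun a : ι × ι' => x a.1 * y a.2) (mul_ne_zero hc hd), s17n_ht_mk x hc,
    s17n_ht_mk y hd]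
  exact logHeight_fun_mul_eq hx0 hy0

/-- Veronese (with repetitions): the height of all ordered monomials of degree `d` is `d * h`. -/
theorem s17n_ht_veronese [Finite ι] {z : ι → K} (hz : s17n_IsRat k₀ z) (hz0 : z ≠ 0) (d : ℕ) :
    s17n_ht k₀ (fun I : Fin d → ι => ∏ a, z (I a)) = d * s17n_ht k₀ z := by
  obtain ⟨x, c, hc, rfl⟩ := hz
  have hx0 : x ≠ 0 := by
    rintro rfl; exact hz0 (by ext i; simp)
  have : (fun I : Fin d → ι => ∏ a, (c * algebraMap k₀ K (x (I a)))) =
      fun I : Fin d → ι => c ^ d * algebraMap k₀ K (∏ a, x (I a)) := by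
    ext I; simp [Finset.prod_mul_distrib]
  rw [this, s17n_ht_mk (fun I : Fin d → ι => ∏ a, x (I a)) (pow_ne_zero _ hc), s17n_ht_mk x hc]
  have := logHeight_fun_prod_eq (K := k₀) (α := Fin d) (ι := fun _ => ι) (x := fun _ => x)
    (fun _ => hx0)
  rw [this]
  simp

end ht

end Fermat.Agent.Lib.S17
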