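/-
Programme MW (S17), brick [NS] (helper4, prefix `s17n_`), part D: the (NS) lemma for the height
`s17n_ht` and the two-families corollary.

`k₀ → K` a field extension with `K` algebraically closed, `k₀` with admissible absolute values.

* `s17n_aeval_smul` : `p (t • y) = t ^ d * p (y)` for `p` homogeneous of degree `d`;
* `s17n_ht_le` : **(NS)**. `Z ⊆ (ι → K)` any set of coordinate vectors, `s : ι' → ι` a
  sub-family such that the only point of the Zariski closure of the cone over `Z` with vanishing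
  `s`-coordinates is `0`. Then `h(z) ≤ h(z ∘ s) + C` for all rational `z ∈ Z`;
* `s17n_ht_le_of_closed` : the same from "closed cone" + "base-point free";
* `s17n_ht_two_families` : two base-point-free families `u, v` on a set `X` whose joint image in
  `ℙ^{ι₁ ⊔ ι₂}` is closed have `|h(u x) - h(v x)| ≤ C` at all `x` where the joint vector is
  rational.
-/
import Fermat.Agent.Lib.S17.NRat

set_option autoImplicit false

noncomputable section

namespace Fermat.Agent.Lib.S17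

open MvPolynomial Height

variable {k₀ K : Type*} [Field k₀] [Field K] [Algebra k₀ K] {ι ι' : Type*}

theorem s17n_aeval_smul {k : Type*} [Field k] [Algebra k K] {p : MvPolynomial ι k} {d : ℕ}
    (hp : p.IsHomogeneous d) (t : K) (y : ι → K) :
    aeval (t • y) p = t ^ d * aeval y p := by
  conv_lhs => rw [← support_sum_monomial_coeff p]
  conv_rhs => rw [← support_sum_monomial_coeff p]
  rw [map_sum, map_sum, Finset.mul_sum]
  refine Finset.sum_congr rfl fun m hm => ?_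
  have hdeg : m.degree = d := by
    by_contra hne
    exact (mem_support_iff.mp hm) (hp.coeff_eq_zero hne)
  rw [aeval_monomial, aeval_monomial]
  have : (m.prod fun i e => (t • y) i ^ e) = t ^ d * m.prod fun i e => y i ^ e := by
    simp only [Pi.smul_apply, smul_eq_mul, mul_pow]
    rw [Finsupp.prod_mul, Finsupp.prod, Finset.prod_pow_eq_pow_sum, ← hdeg, Finsupp.degree_apply]
  rw [this]
  ring

section ht

variable [AdmissibleAbsValues k₀] [Finite ι] [Fintype ι'] [IsAlgClosed K]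

/-- **(NS)** for the height `s17n_ht`. -/
theorem s17n_ht_le (s : ι' → ι) (Z : Set (ι → K))
    (hcl : ∀ z : ι → K,
      (∀ (d : ℕ) (p : MvPolynomial ι K), p.IsHomogeneous d → (∀ y ∈ Z, aeval y p = 0) →
        aeval z p = 0) →
      (∀ i', z (s i') = 0) → z = 0) :
    ∃ C : ℝ, ∀ z ∈ Z, s17n_IsRat k₀ z →
      s17n_ht k₀ z ≤ s17n_ht k₀ (fun i' => z (s i')) + C := by
  obtain ⟨M, q, hq, hZ⟩ := s17n_cert (k := K) s Z hcl
  -- the certificate holds on the whole cone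
  set Z' : Set (ι → K) :=
    {y | ∀ j, ∑ i', aeval y (q (j, i')) * y (s i') = y j ^ (M + 1)} with hZ'
  obtain ⟨C, hC⟩ := s17n_logHeight_le_of_cert (k₀ := k₀) s Z' q hq (fun y hy => hy)
  refine ⟨C, fun z hz hrat => ?_⟩
  obtain ⟨x, c, hc, rfl⟩ := hrat
  have hmem : (fun i => algebraMap k₀ K (x i)) ∈ Z' := by
    intro j
    have h1 := hZ _ hz j
    have hsm : (fun i => c * algebraMap k₀ K (x i)) = c • fun i => algebraMap k₀ K (x i) := by
      ext i; simp
    rw [hsm] at h1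
    simp only [s17n_aeval_smul (hq _)] at h1
    have h2 : c ^ (M + 1) * ∑ i', aeval (fun i => algebraMap k₀ K (x i)) (q (j, i')) *
        algebraMap k₀ K (x (s i')) = c ^ (M + 1) * algebraMap k₀ K (x j) ^ (M + 1) := by
      rw [← mul_pow, ← h1, Finset.mul_sum]
      refine Finset.sum_congr rfl fun i' _ => ?_
      ring
    exact mul_left_cancel₀ (pow_ne_zero _ hc) h2
  have := hC x hmem
  rw [s17n_ht_mk x hc, s17n_ht_mk (fun i' => x (s i')) hc]
  exact this

/-- **(NS)** from "the cone over `Z` is Zariski closed" and "`s` is base-point free on `Z`". -/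
theorem s17n_ht_le_of_closed (s : ι' → ι) (Z : Set (ι → K))
    (hcl : ∀ z : ι → K,
      (∀ (d : ℕ) (p : MvPolynomial ι K), p.IsHomogeneous d → (∀ y ∈ Z, aeval y p = 0) →
        aeval z p = 0) →
      z = 0 ∨ ∃ y ∈ Z, ∃ t : K, z = t • y)
    (hbpf : ∀ y ∈ Z, ∃ i', y (s i') ≠ 0) :
    ∃ C : ℝ, ∀ z ∈ Z, s17n_IsRat k₀ z →
      s17n_ht k₀ z ≤ s17n_ht k₀ (fun i' => z (s i')) + C := by
  refine s17n_ht_le s Z fun z hz hs => ?_
  rcases hcl z hz with h | ⟨y, hy, t, rfl⟩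
  · exact h
  · obtain ⟨i', hi'⟩ := hbpf y hy
    have := hs i'
    simp only [Pi.smul_apply, smul_eq_mul, mul_eq_zero] at this
    rcases this with h | h
    · simp [h]
    · exact absurd h hi'

end ht

section two

variable [AdmissibleAbsValues k₀] [IsAlgClosed K] {ι₁ ι₂ X : Type*} [Fintype ι₁] [Fintype ι₂]

/-- **Two base-point-free families with closed joint image have heights differing by `O(1)`.** -/
theorem s17n_ht_two_families (u : X → ι₁ → K) (v : X → ι₂ → K)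
    (hcl : ∀ z : ι₁ ⊕ ι₂ → K,
      (∀ (d : ℕ) (p : MvPolynomial (ι₁ ⊕ ι₂) K), p.IsHomogeneous d →
        (∀ x, aeval (Sum.elim (u x) (v x)) p = 0) → aeval z p = 0) →
      z = 0 ∨ ∃ x, ∃ t : K, z = t • Sum.elim (u x) (v x))
    (hu : ∀ x, u x ≠ 0) (hv : ∀ x, v x ≠ 0) :
    ∃ C : ℝ, ∀ x, s17n_IsRat k₀ (Sum.elim (u x) (v x)) →
      |s17n_ht k₀ (u x) - s17n_ht k₀ (v x)| ≤ C := by
  set Z : Set (ι₁ ⊕ ι₂ → K) := Set.range fun x => Sum.elim (u x) (v x) with hZdef
  have hcl' : ∀ z : ι₁ ⊕ ι₂ → K,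
      (∀ (d : ℕ) (p : MvPolynomial (ι₁ ⊕ ι₂) K), p.IsHomogeneous d →
        (∀ y ∈ Z, aeval y p = 0) → aeval z p = 0) →
      z = 0 ∨ ∃ y ∈ Z, ∃ t : K, z = t • y := by
    intro z hz
    rcases hcl z (fun d p hp hx => hz d p hp (by rintro _ ⟨x, rfl⟩; exact hx x)) with h | ⟨x, t, h⟩
    · exact Or.inl h
    · exact Or.inr ⟨_, ⟨x, rfl⟩, t, h⟩
  obtain ⟨C₁, h₁⟩ := s17n_ht_le_of_closed (k₀ := k₀) (Sum.inl : ι₁ → ι₁ ⊕ ι₂) Z hcl' (by
    rintro _ ⟨x, rfl⟩
    obtain ⟨i, hi⟩ := Function.ne_iff.mp (hu x)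
    exact ⟨i, by simpa using hi⟩)
  obtain ⟨C₂, h₂⟩ := s17n_ht_le_of_closed (k₀ := k₀) (Sum.inr : ι₂ → ι₁ ⊕ ι₂) Z hcl' (by
    rintro _ ⟨x, rfl⟩
    obtain ⟨i, hi⟩ := Function.ne_iff.mp (hv x)
    exact ⟨i, by simpa using hi⟩)
  refine ⟨max C₁ C₂, fun x hx => ?_⟩
  have e₁ := h₁ _ ⟨x, rfl⟩ hx
  have e₂ := h₂ _ ⟨x, rfl⟩ hx
  simp only [Sum.elim_inl, Sum.elim_inr] at e₁ e₂
  have f₁ := s17n_ht_comp_le hx (Sum.inl : ι₁ → ι₁ ⊕ ι₂)
  have f₂ := s17n_ht_comp_le hx (Sum.inr : ι₂ → ι₁ ⊕ ι₂)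
  simp only [Sum.elim_inl, Sum.elim_inr] at f₁ f₂
  have m₁ := le_max_left C₁ C₂
  have m₂ := le_max_right C₁ C₂
  rw [abs_le]
  constructor <;> linarith

end two

end Fermat.Agent.Lib.S17
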