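/-
Programme MW (S17), brick [NS] (helper4, prefix `s17n_`), part E: Northcott for projective points
(Mathlib only has it for `mulHeight₁` on field elements) and for the height `s17n_ht`.

`k₀` a field with admissible absolute values satisfying Northcott for `mulHeight₁`
(e.g. a number field, in particular `ℚ`).

* `s17n_mulHeight₁_le_mulHeight` : if `x b = 1` then `H₁(x i) ≤ H(x)`;
* `s17n_finite_normalized` : finitely many vectors with some coordinate `1` and `H(x) ≤ B`;
* `s17n_finite_ht_le` : for `ψ : G → (ι → K)` with non-zero rational values and finite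
  "projective fibres", `{g | h(ψ g) ≤ B}` is finite;
* `s17n_northcott`, `s17n_northcott_of_injective` : the `Northcott` instances in the shape wanted by
  `AddCommGroup.fg_of_descent`.
-/
import Fermat.Agent.Lib.S17.NMain

set_option autoImplicit false

noncomputable section

namespace Fermat.Agent.Lib.S17

open Height

variable {k₀ K : Type*} [Field k₀] [Field K] [Algebra k₀ K] {ι : Type*}

section

variable [AdmissibleAbsValues k₀] [Finite ι]

theorem s17n_mulHeight₁_le_mulHeight (x : ι → k₀) {b : ι} (hb : x b = 1) (i : ι) :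
    mulHeight₁ (x i) ≤ mulHeight x := by
  rw [mulHeight₁_eq_mulHeight]
  have : ![x i, 1] = x ∘ ![i, b] := by
    ext j
    fin_cases j <;> simp [hb]
  rw [this]
  exact mulHeight_comp_le _ x

theorem s17n_finite_normalized [Northcott (mulHeight₁ (K := k₀))] (B : ℝ) :
    {x : ι → k₀ | (∃ b, x b = 1) ∧ mulHeight x ≤ B}.Finite := by
  have hfin : {f : ι → k₀ | ∀ i, f i ∈ {a : k₀ | mulHeight₁ a ≤ B}}.Finite :=
    Set.Finite.pi' fun _ => Northcott.finite_le (h := mulHeight₁ (K := k₀)) B
  refine hfin.subset ?_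
  rintro x ⟨⟨b, hb⟩, hx⟩
  intro i
  exact (s17n_mulHeight₁_le_mulHeight x hb i).trans hx

end

section

variable [AdmissibleAbsValues k₀] [Finite ι] [Northcott (mulHeight₁ (K := k₀))] {G : Type*}

/-- Finiteness of the set of points of bounded height. -/
theorem s17n_finite_ht_le (ψ : G → ι → K) (hrat : ∀ g, s17n_IsRat k₀ (ψ g))
    (hne : ∀ g, ψ g ≠ 0)
    (hfib : ∀ g, {g' | ∃ t : K, ψ g' = t • ψ g}.Finite) (B : ℝ) :
    {g | s17n_ht k₀ (ψ g) ≤ B}.Finite := by
  classical
  -- a normalised rational representative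
  have hnorm : ∀ g, ∃ (x : ι → k₀) (c : K), c ≠ 0 ∧ (∃ b, x b = 1) ∧
      ψ g = fun i => c * algebraMap k₀ K (x i) := by
    intro g
    obtain ⟨x, c, hc, hx⟩ := hrat g
    have hx0 : x ≠ 0 := by
      rintro rfl
      exact hne g (by rw [hx]; ext i; simp)
    obtain ⟨b, hb⟩ := Function.ne_iff.mp hx0
    simp only [Pi.zero_apply] at hb
    refine ⟨fun i => x i / x b, c * algebraMap k₀ K (x b), mul_ne_zero hc ?_, ⟨b, div_self hb⟩, ?_⟩
    · exact fun h => hb ((algebraMap k₀ K).injective (by simpa using h))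
    · rw [hx]
      ext i
      have hb' : algebraMap k₀ K (x b) ≠ 0 :=
        fun h => hb ((algebraMap k₀ K).injective (by simpa using h))
      rw [map_div₀]
      field_simp
  choose ν c hc hν hψ using hnorm
  have hht : ∀ g, s17n_ht k₀ (ψ g) = logHeight (ν g) := fun g => by
    conv_lhs => rw [hψ g]
    exact s17n_ht_mk (ν g) (hc g)
  refine Set.Finite.of_finite_fibers ν ?_ ?_
  · refine (s17n_finite_normalized (k₀ := k₀) (ι := ι) (Real.exp B)).subset ?_
    rintro _ ⟨g, hg, rfl⟩
    refine ⟨hν g, ?_⟩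
    have h1 : logHeight (ν g) ≤ B := by rw [← hht g]; exact hg
    rw [logHeight_eq_log_mulHeight] at h1
    exact (Real.log_le_iff_le_exp (mulHeight_pos _)).mp h1
  · rintro _ ⟨g, -, rfl⟩
    refine ((hfib g).subset ?_).inter_of_right _
    intro g' hg'
    have hνeq : ν g' = ν g := hg'
    refine ⟨c g' / c g, ?_⟩
    rw [hψ g', hψ g, hνeq]
    ext i
    simp only [Pi.smul_apply, smul_eq_mul]
    have := hc g
    field_simp

/-- `Northcott` for `g ↦ h(ψ g)`, finite projective fibres. -/
theorem s17n_northcott (ψ : G → ι → K) (hrat : ∀ g, s17n_IsRat k₀ (ψ g))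
    (hne : ∀ g, ψ g ≠ 0)
    (hfib : ∀ g, {g' | ∃ t : K, ψ g' = t • ψ g}.Finite) :
    Northcott (fun g => s17n_ht k₀ (ψ g)) :=
  ⟨fun B => s17n_finite_ht_le ψ hrat hne hfib B⟩

/-- `Northcott` for `g ↦ h(ψ g)`, `ψ` projectively injective. -/
theorem s17n_northcott_of_injective (ψ : G → ι → K) (hrat : ∀ g, s17n_IsRat k₀ (ψ g))
    (hne : ∀ g, ψ g ≠ 0)
    (hinj : ∀ g g', (∃ t : K, ψ g' = t • ψ g) → g' = g) :
    Northcott (fun g => s17n_ht k₀ (ψ g)) :=
  s17n_northcott ψ hrat hne fun g =>
    (Set.finite_singleton g).subset fun g' hg' => hinj g g' hg'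

end

/-- The instance for `k₀ = ℚ` is available (sanity check). -/
example : Northcott (mulHeight₁ (K := ℚ)) := inferInstance

end Fermat.Agent.Lib.S17
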