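/-
Programme MW (S17), brick [NS] (helper4, prefix `s17n_`), part F: the instances for `ℚ → ℚ̄` and the
top assembly in the shape of Mathlib's `AddCommGroup.fg_of_descent`.

* `s17n_isGalois_Qbar` : `IsGalois ℚ ℚ̄` (not found by instance search);
* `s17n_isRat_of_galois_Qbar` : the rationality criterion over `ℚ`;
* `s17n_range_zsmul_eq` : `(zsmulAddGroupHom 2).range = (nsmulAddMonoidHom 2).range`;
* `s17n_fg_of_descent` : a commutative group `G` with a map `ψ : G → (ι → K)` to coordinate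
  vectors (non-zero, rational, finite projective fibres) such that `h := s17n_ht k₀ ∘ ψ` satisfies
  `4 h(x) - C ≤ h(2x)` and `h(x) ≤ 2 h(g + x) + c_g`, and with `G / 2G` finite, is finitely
  generated;
* `s17n_fg_of_descent_Qbar` : the same for `ℚ → ℚ̄`.
-/
import Fermat.Agent.Lib.S17.NNorthcott

set_option autoImplicit false

noncomputable section

namespace Fermat.Agent.Lib.S17

open Height

theorem s17n_isGalois_Qbar : IsGalois ℚ (AlgebraicClosure ℚ) := by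
  have h0 : (DivisionRing.toRatAlgebra : Algebra ℚ (AlgebraicClosure ℚ)) =
      AlgebraicClosure.instAlgebra ℚ := Subsingleton.elim _ _
  have h1 : Algebra.IsAlgebraic ℚ (AlgebraicClosure ℚ) := by
    have h := AlgebraicClosure.isAlgebraic ℚ
    rw [← h0] at h
    exact h
  have h2 : IsAlgClosure ℚ (AlgebraicClosure ℚ) := ⟨inferInstance, inferInstance⟩
  exact IsAlgClosure.isGalois ℚ (AlgebraicClosure ℚ)

/-- A coordinate vector over `ℚ̄` which is `Gal(ℚ̄/ℚ)`-invariant up to scalars is `ℚ`-rational. -/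
theorem s17n_isRat_of_galois_Qbar {ι : Type*} (z : ι → AlgebraicClosure ℚ)
    (h : ∀ σ : AlgebraicClosure ℚ ≃ₐ[ℚ] AlgebraicClosure ℚ,
      ∃ c : AlgebraicClosure ℚ, (fun i => σ (z i)) = fun i => c * z i) :
    s17n_IsRat ℚ z :=
  haveI := s17n_isGalois_Qbar
  s17n_isRat_of_galois z h

theorem s17n_range_zsmul_eq (G : Type*) [AddCommGroup G] :
    (zsmulAddGroupHom (α := G) 2).range = (nsmulAddMonoidHom (α := G) 2).range := by
  ext x
  simp only [AddMonoidHom.mem_range, zsmulAddGroupHom_apply, nsmulAddMonoidHom_apply]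
  constructor
  · rintro ⟨y, rfl⟩; exact ⟨y, by simp [two_nsmul, two_zsmul]⟩
  · rintro ⟨y, rfl⟩; exact ⟨y, by simp [two_nsmul, two_zsmul]⟩

section

variable {k₀ K : Type*} [Field k₀] [Field K] [Algebra k₀ K] {ι : Type*} [Finite ι]
  [AdmissibleAbsValues k₀] [Northcott (mulHeight₁ (K := k₀))]

/-- **Top assembly**: descent with the height `s17n_ht k₀ ∘ ψ`. -/
theorem s17n_fg_of_descent {G : Type*} [AddCommGroup G] (ψ : G → ι → K)
    (hrat : ∀ g, s17n_IsRat k₀ (ψ g)) (hne : ∀ g, ψ g ≠ 0)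
    (hfib : ∀ g, {g' | ∃ t : K, ψ g' = t • ψ g}.Finite)
    (hW : (zsmulAddGroupHom (α := G) 2).range.FiniteIndex)
    (hD : ∃ C : ℝ, ∀ x, 4 * s17n_ht k₀ (ψ x) - C ≤ s17n_ht k₀ (ψ (2 • x)))
    (hT : ∀ g, ∃ c : ℝ, ∀ x, s17n_ht k₀ (ψ x) ≤ 2 * s17n_ht k₀ (ψ (g + x)) + c) :
    AddGroup.FG G := by
  have : Northcott (fun g => s17n_ht k₀ (ψ g)) := s17n_northcott ψ hrat hne hfib
  obtain ⟨C, hC⟩ := hD
  choose c hc using hT
  rw [s17n_range_zsmul_eq] at hW
  exact AddCommGroup.fg_of_descent (n := 2) (h := fun g => s17n_ht k₀ (ψ g)) (a := 2) (b := 4)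
    (c₀ := C) (c := c) (by norm_num) (by norm_num) hW (fun g x => hc g x) (fun x => hC x)

end

/-- **Top assembly** for `ℚ → ℚ̄`, `ψ` projectively injective. -/
theorem s17n_fg_of_descent_Qbar {ι : Type*} [Finite ι] {G : Type*} [AddCommGroup G]
    (ψ : G → ι → AlgebraicClosure ℚ)
    (hrat : ∀ g, s17n_IsRat ℚ (ψ g)) (hne : ∀ g, ψ g ≠ 0)
    (hinj : ∀ g g', (∃ t : AlgebraicClosure ℚ, ψ g' = t • ψ g) → g' = g)
    (hW : (zsmulAddGroupHom (α := G) 2).range.FiniteIndex)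
    (hD : ∃ C : ℝ, ∀ x, 4 * s17n_ht ℚ (ψ x) - C ≤ s17n_ht ℚ (ψ (2 • x)))
    (hT : ∀ g, ∃ c : ℝ, ∀ x, s17n_ht ℚ (ψ x) ≤ 2 * s17n_ht ℚ (ψ (g + x)) + c) :
    AddGroup.FG G :=
  s17n_fg_of_descent ψ hrat hne
    (fun g => (Set.finite_singleton g).subset fun g' hg' => hinj g g' hg') hW hD hT

end Fermat.Agent.Lib.S17
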