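/-
Programme MW (S17 = Mordell–Weil for `J₀(N)(ℚ)`) — INTERFACE of the HEIGHT HALF
(architect: helper6, prefix `s17_`; the weak Mordell–Weil half is in `WIface.lean`, helper3).

ARCHITECTURE (v2, supersedes #2858 §2: no doubling section, no derivations, no canonical divisor,
no Riemann–Roch duality — only Riemann's theorem `s19_Riemann`).

* Points of `C^m` are TUPLES OF PLACES `A : Fin m → Place K F`; the divisor of `A` is `s17_div A`,
  `A` represents the class `x` if `[A - m·P₀] = x` (`s17_Rep`).
* A CHART SYSTEM `X : s17_Charts K F` is a choice of Taylor expansion `F → K((t))` at every place.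
  The CHART VALUE of the determinant `det(f_k(P_i))` (f_k ∈ L(D)) at a tuple `A` — including
  coincident points, poles, `P_i = P₀` — is the CONFLUENT DETERMINANT `s17_cdet X D A f`:
  row `i` = coefficient of `t^(-D(P_i) + r_i)` of the `f_k` at `P_i`, `r_i` = number of earlier
  occurrences of `P_i` in `A`.  (In the function field of `C^m` this is the value at `A` of
  `det(f_k(P_i)) / (∏ t_i^(-D(P_i)) ∏_{i<j, P_i=P_j} (t_j - t_i))`; that statement, [DD], is
  internal to the proof of `s17_CL`.)
* A SECTION is a product of block determinants (`List (s17_Blk K F m)`); its TYPE is the total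
  divisor at every point and the number of blocks through every pair of points; sections of the
  same type have THE SAME local generator at every `A`, so their chart values form a projective
  vector.  The only input from the geometry of `C^m` is `s17_CL` (the set of chart-value vectors
  of a base-point-free family of one type is Zariski closed — valuative criterion) and `s17_LIN`
  (density); with helper4's (NS) `s17n_ht_two_families` they give: two base-point-free families
  of the same type have heights differing by `O(1)`.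
* The height: level `m`, `B_m = (g+m-1)P₀`, `θ_T = W_{B_m+T₀} W_{B_m+T₁} W_{B_m+T₂}` for triples of
  degree-0 divisors with `T₀+T₁+T₂ = 0` (`s17_thetaVal`); type `(3B_m, 3)`.  `ψ_m(A) = [θ_T(A)]_T`
  over a finite spanning family.  (FC): `ψ_m(A)` depends only on the class of `A`; (AV): base-point
  free; (Inj): `ψ_m` is injective on classes (Northcott); (Lvl): `ψ_{μ+m}(P₀^μ, A) ~ ψ_m(A)`.
  THEOREM OF THE CUBE on `C^{3ν}`: `θ³(A₁A₂A₃)θ¹(A₁)θ¹(A₂)θ¹(A₃)` and `θ²(A₁A₂)θ²(A₁A₃)θ²(A₂A₃)`
  have the same type (a tautology) ⇒ `h` satisfies the cube law ⇒ `h(x)+h(-x)` satisfies the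
  parallelogram law ⇒ `AddCommGroup.fg_of_descent'`.
-/
import Fermat.Agent.Lib.S19.IfaceCurve
import Fermat.Agent.Lib.S17.NDescent
import Fermat.Prelude.Def_ModularCurve_ArithmeticGalois

set_option autoImplicit false
set_option linter.unusedSectionVars false
set_option linter.unusedVariables false

noncomputable section

namespace Fermat.Agent.Lib.S17

open AlgebraicCurve Fermat.Agent.Lib.S19 ModularCurve

/-! ## 1. The curve, tuples of places, charts, confluent determinants -/

/-- the standing hypotheses on the function field `F / K` of genus `g` (`K` algebraically closed):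
Riemann's theorem, principal divisors, all places of degree one, infinitely many places, and every
non-trivial valuation ring of `F / K` is a place. -/
structure s17_Curve (K F : Type) [Field K] [Field F] [Algebra K F] (g : ℕ) : Prop where
  riemann : s19_Riemann K F g
  pd : HasPrincipalDivisors K F
  deg1 : ∀ P : Place K F, P.deg = 1
  inf : Infinite (Place K F)
  val : ∀ O : ValuationSubring F, (∀ a : K, algebraMap K F a ∈ O) → O ≠ ⊤ →
    ∃ P : Place K F, P.toValuationSubring = O
  /-- the fundamental identity: a non-constant `u` has `[F : K(u)]` poles (with multiplicity). -/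
  fib : ∀ u : F, (∀ c : K, u ≠ algebraMap K F c) →
    FiniteDimensional (IntermediateField.adjoin K ({u} : Set F)) F ∧
      ∃ S : Finset (Place K F), (∀ v, v ∈ S ↔ v.ord u < 0) ∧
        ∑ v ∈ S, v.ord u = -(Module.finrank (IntermediateField.adjoin K ({u} : Set F)) F : ℤ)
  /-- the valuation ring of every place is essentially of finite type over `K`. -/
  ess : ∀ P : Place K F, ∃ σ : Finset F, (∀ y ∈ σ, y ∈ P.toValuationSubring) ∧
    ∀ f ∈ P.toValuationSubring, ∃ t ∈ Algebra.adjoin K (σ : Set F), t ≠ 0 ∧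
      t⁻¹ ∈ P.toValuationSubring ∧ f * t ∈ Algebra.adjoin K (σ : Set F)

/-- `ℓ(D) = deg D + 1 - g` for all divisors of degree `≥ d`. -/
def s17_Big (K F : Type) [Field K] [Field F] [Algebra K F] (g : ℕ) (d : ℤ) : Prop :=
  ∀ D : Divisor K F, d ≤ Divisor.degree D →
    (Module.finrank K ↥(riemannRochSpace D) : ℤ) = Divisor.degree D + 1 - g

variable {K F : Type} [Field K] [Field F] [Algebra K F]

/-- **a chart system**: a Taylor expansion at every place (a ring embedding `F → K((t))`,
identity on constants, order = order at the place). -/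
structure s17_Charts (K F : Type) [Field K] [Field F] [Algebra K F] where
  exp : Place K F → (F →+* LaurentSeries K)
  exp_alg : ∀ (P : Place K F) (c : K), exp P (algebraMap K F c) = HahnSeries.C c
  exp_ord : ∀ (P : Place K F) (f : F), f ≠ 0 → (exp P f).order = P.ord f

/-- the divisor of a tuple of places. -/
def s17_div {m : ℕ} (A : Fin m → Place K F) : Divisor K F :=
  ∑ i, Finsupp.single (A i) (1 : ℤ)

/-- the tuple `A` (a point of `C^m`) represents the class `x`: `x = [A - m·P₀]`. -/
def s17_Rep (P₀ : Place K F) {m : ℕ} (A : Fin m → Place K F) (x : Pic0 K F) : Prop :=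
  ∃ h : s17_div A - Finsupp.single P₀ (m : ℤ) ∈ Divisor.degZero (K := K) (F := F),
    Pic0.mk ⟨_, h⟩ = x

/-- linear equivalence of two tuples. -/
def s17_LinEq {m : ℕ} (A A' : Fin m → Place K F) : Prop :=
  s17_div A' - s17_div A ∈ Divisor.principal (K := K) (F := F)

open Classical in
/-- the number of earlier occurrences of the place `A i` in the tuple `A`. -/
def s17_rank {m : ℕ} (A : Fin m → Place K F) (i : Fin m) : ℕ :=
  (Finset.univ.filter fun i' : Fin m => i' < i ∧ A i' = A i).card

/-- **the confluent matrix** of `f₁, …, f_m ∈ L(D)` at the tuple `A`. -/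
def s17_conf (X : s17_Charts K F) {m : ℕ} (D : Divisor K F) (A : Fin m → Place K F)
    (f : Fin m → F) : Matrix (Fin m) (Fin m) K :=
  fun i k => (X.exp (A i) (f k)).coeff (-(D (A i)) + (s17_rank A i : ℤ))

/-- **the confluent determinant** = the chart value of `det(f_k(P_i))` at `A`. -/
def s17_cdet (X : s17_Charts K F) {m : ℕ} (D : Divisor K F) (A : Fin m → Place K F)
    (f : Fin m → F) : K :=
  (s17_conf X D A f).det

/-! ## 2. Sections = products of block determinants, and their types -/

/-- a block: a set `S` of variables, a divisor `D`, functions `f 0, …, f (|S|-1) ∈ L(D)`;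
it stands for `det(f_k(P_i))_{i ∈ S, k < |S|}`. -/
structure s17_Blk (K F : Type) [Field K] [Field F] [Algebra K F] (m : ℕ) where
  S : Finset (Fin m)
  D : Divisor K F
  f : ℕ → F

/-- the functions of the block lie in `L(D)`. -/
def s17_Blk.Ok {m : ℕ} (b : s17_Blk K F m) : Prop :=
  ∀ k, k < b.S.card → b.f k ∈ riemannRochSpace b.D

/-- the chart value of a block at `A`. -/
def s17_Blk.val (X : s17_Charts K F) {m : ℕ} (b : s17_Blk K F m) (A : Fin m → Place K F) : K :=
  s17_cdet X b.D (fun j : Fin b.S.card => A (b.S.orderEmbOfFin rfl j))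
    (fun k : Fin b.S.card => b.f k)

/-- the chart value of a section (= product of blocks) at `A`. -/
def s17_secVal (X : s17_Charts K F) {m : ℕ} (l : List (s17_Blk K F m))
    (A : Fin m → Place K F) : K :=
  (l.map fun b => b.val X A).prod

/-- the total divisor of a section at the `i`-th variable. -/
def s17_tyD {m : ℕ} (l : List (s17_Blk K F m)) (i : Fin m) : Divisor K F :=
  ((l.filter fun b => decide (i ∈ b.S)).map fun b => b.D).sum

/-- the number of blocks of a section through the variables `i` and `j`. -/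
def s17_tyM {m : ℕ} (l : List (s17_Blk K F m)) (i j : Fin m) : ℕ :=
  (l.filter fun b => decide (i ∈ b.S ∧ j ∈ b.S)).length

/-- two sections have the same type (= the same local generator at every point of `C^m`). -/
def s17_SameTy {m : ℕ} (l l' : List (s17_Blk K F m)) : Prop :=
  (∀ i, s17_tyD l i = s17_tyD l' i) ∧ ∀ i j, i ≠ j → s17_tyM l i j = s17_tyM l' i j

/-! ## 3. The theta family -/

/-- the base divisor of level `m`: `B_m = (g + m - 1)·P₀`. -/
def s17_B (P₀ : Place K F) (g m : ℕ) : Divisor K F :=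
  Finsupp.single P₀ ((g + m - 1 : ℕ) : ℤ)

/-- admissible translation triples: degree `0`, sum `0` (as divisors). -/
def s17_Adm (T : Fin 3 → Divisor K F) : Prop :=
  (∀ j, Divisor.degree (T j) = 0) ∧ T 0 + T 1 + T 2 = 0

open Classical in
/-- a chosen basis of `L(D)` when `ℓ(D) = m` (zero otherwise). -/
def s17_basis (D : Divisor K F) (m : ℕ) : Fin m → F :=
  if h : Module.Finite K ↥(riemannRochSpace D) ∧
      Module.finrank K ↥(riemannRochSpace D) = m then
    haveI := h.1
    fun k => ((Module.finBasisOfFinrankEq K ↥(riemannRochSpace D) h.2 k :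
      ↥(riemannRochSpace D)) : F)
  else 0

/-- **the chart value of `θ_T = W_{B_m+T₀} W_{B_m+T₁} W_{B_m+T₂}` at `A ∈ C^m`.** -/
def s17_thetaVal (X : s17_Charts K F) (P₀ : Place K F) (g m : ℕ) (T : Fin 3 → Divisor K F)
    (A : Fin m → Place K F) : K :=
  ∏ j : Fin 3, s17_cdet X (s17_B P₀ g m + T j) A (s17_basis (s17_B P₀ g m + T j) m)

/-- the `j`-th factor of `θ_T` of level `m` in the variables `S ⊆ Fin m'` (`|S| = m`), as a
block on `C^{m'}`. -/
def s17_thetaBlk {m' : ℕ} (P₀ : Place K F) (g m : ℕ) (T : Fin 3 → Divisor K F)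
    (S : Finset (Fin m')) (j : Fin 3) : s17_Blk K F m' :=
  ⟨S, s17_B P₀ g m + T j,
    fun k => if h : k < m then s17_basis (s17_B P₀ g m + T j) m ⟨k, h⟩ else 0⟩

/-- `θ_T` of level `m` in the variables `S`, as a section on `C^{m'}`. -/
def s17_thetaSec {m' : ℕ} (P₀ : Place K F) (g m : ℕ) (T : Fin 3 → Divisor K F)
    (S : Finset (Fin m')) : List (s17_Blk K F m') :=
  List.ofFn fun j : Fin 3 => s17_thetaBlk P₀ g m T S j

/-- the fixed points of a group acting semilinearly, as a subgroup of `Pic⁰`. -/
def s17_fixed {G : Type} [Group G] (ρ : G →* SemilinearAut K F) : AddSubgroup (Pic0 K F) where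
  carrier := {x | ∀ σ, ρ σ • x = x}
  zero_mem' := fun σ => smul_zero _
  add_mem' := fun {x y} hx hy σ => by rw [smul_add, hx σ, hy σ]
  neg_mem' := fun {x} hx σ => by rw [smul_neg, hx σ]

/-! ## 4. Contracts: one-variable bricks -/

/-- [EXP] chart systems exist (Taylor expansion w.r.t. a uniformiser at every place). -/
def s17_ChartsExist : Prop :=
  ∀ (K F : Type) [Field K] [Field F] [Algebra K F] [IsAlgClosed K] (g : ℕ),
    s17_Curve K F g → Nonempty (s17_Charts K F)

/-- [WR] the confluent determinant of a basis of `L(D)`, `ℓ(D) = m`, vanishes at `A` iff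
`L(D - A) ≠ 0`. -/
def s17_WR : Prop :=
  ∀ (K F : Type) [Field K] [Field F] [Algebra K F] [IsAlgClosed K] (g : ℕ),
    s17_Curve K F g → ∀ (X : s17_Charts K F) (m : ℕ) (D : Divisor K F) (A : Fin m → Place K F)
      (φ : Fin m → F), (∀ k, φ k ∈ riemannRochSpace D) → LinearIndependent K φ →
      Module.finrank K ↥(riemannRochSpace D) = m →
      (s17_cdet X D A φ ≠ 0 ↔ riemannRochSpace (D - s17_div A) = ⊥)

/-- [FC] fibre constancy: linearly equivalent tuples have proportional theta vectors.
(Hypothesis `s17_Big K F g (m - 1)`: the complete linear systems of degree `m` are base-point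
free; it implies `s17_Big K F g (g + m - 1)`.) -/
def s17_FC : Prop :=
  ∀ (K F : Type) [Field K] [Field F] [Algebra K F] [IsAlgClosed K] (g : ℕ),
    s17_Curve K F g → 0 < g → ∀ (X : s17_Charts K F) (P₀ : Place K F) (m : ℕ), 0 < m →
      s17_Big K F g ((m : ℤ) - 1) → ∀ A A' : Fin m → Place K F, s17_LinEq A A' →
      ∃ c : K, c ≠ 0 ∧ ∀ T : Fin 3 → Divisor K F, s17_Adm T →
        s17_thetaVal X P₀ g m T A' = c * s17_thetaVal X P₀ g m T A

/-- [AV] base-point freeness: at every tuple some `θ_T` does not vanish. -/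
def s17_AV : Prop :=
  ∀ (K F : Type) [Field K] [Field F] [Algebra K F] [IsAlgClosed K] (g : ℕ),
    s17_Curve K F g → 0 < g → ∀ (X : s17_Charts K F) (P₀ : Place K F) (m : ℕ), 0 < m →
      s17_Big K F g ((g : ℤ) + m - 1) → ∀ A : Fin m → Place K F,
      ∃ T : Fin 3 → Divisor K F, s17_Adm T ∧ s17_thetaVal X P₀ g m T A ≠ 0

/-- [INJ] the zero pattern of the `θ_T` determines the class. -/
def s17_Inj : Prop :=
  ∀ (K F : Type) [Field K] [Field F] [Algebra K F] [IsAlgClosed K] (g : ℕ),
    s17_Curve K F g → 0 < g → ∀ (X : s17_Charts K F) (P₀ : Place K F) (m : ℕ), 0 < m →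
      s17_Big K F g ((g : ℤ) + m - 1) → ∀ A A' : Fin m → Place K F,
      (∀ T : Fin 3 → Divisor K F, s17_Adm T →
        (s17_thetaVal X P₀ g m T A = 0 ↔ s17_thetaVal X P₀ g m T A' = 0)) →
      s17_LinEq A A'

/-- [LVL] change of level: `θ^{(μ+m)}_T(P₀^μ, A) = c_T · θ^{(m)}_T(A)`. -/
def s17_Lvl : Prop :=
  ∀ (K F : Type) [Field K] [Field F] [Algebra K F] [IsAlgClosed K] (g : ℕ),
    s17_Curve K F g → 0 < g → ∀ (X : s17_Charts K F) (P₀ : Place K F) (m μ : ℕ), 0 < m →
      s17_Big K F g ((g : ℤ) + m - 1) → ∀ T : Fin 3 → Divisor K F, s17_Adm T →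
      ∃ c : K, c ≠ 0 ∧ ∀ A : Fin m → Place K F,
        s17_thetaVal X P₀ g (μ + m) T (Fin.append (fun _ : Fin μ => P₀) A) =
          c * s17_thetaVal X P₀ g m T A

/-- [SPAN] a finite family of admissible triples spans all `θ_T` (as functions of `A`). -/
def s17_Span : Prop :=
  ∀ (K F : Type) [Field K] [Field F] [Algebra K F] [IsAlgClosed K] (g : ℕ),
    s17_Curve K F g → 0 < g → ∀ (X : s17_Charts K F) (P₀ : Place K F) (m : ℕ), 0 < m →
      s17_Big K F g ((g : ℤ) + m - 1) →
      ∃ (n : ℕ) (I : Fin n → Fin 3 → Divisor K F), (∀ a, s17_Adm (I a)) ∧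
        ∀ T : Fin 3 → Divisor K F, s17_Adm T → ∃ c : Fin n → K, ∀ A : Fin m → Place K F,
          s17_thetaVal X P₀ g m T A = ∑ a, c a * s17_thetaVal X P₀ g m (I a) A

/-- [RATREP] a class fixed by a group of semilinear automorphisms fixing `P₀` is represented by
a tuple which is stable up to permutation. -/
def s17_RatRep : Prop :=
  ∀ (K F : Type) [Field K] [Field F] [Algebra K F] [IsAlgClosed K] (g : ℕ),
    s17_Curve K F g → ∀ (P₀ : Place K F) (G : Type) [Group G] (ρ : G →* SemilinearAut K F),
      (∀ σ, ρ σ • P₀ = P₀) → ∀ m : ℕ, g ≤ m → ∀ x : Pic0 K F, (∀ σ, ρ σ • x = x) →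
      ∃ A : Fin m → Place K F, s17_Rep P₀ A x ∧
        ∀ σ, ∃ π : Equiv.Perm (Fin m), ∀ i, ρ σ • A i = A (π i)

/-- [GALVAL] Galois equivariance of chart values: a semilinear automorphism fixing all members of
a family of sections of one type multiplies the chart-value vector at a stable tuple by a
scalar. -/
def s17_GalVal : Prop :=
  ∀ (K F : Type) [Field K] [Field F] [Algebra K F] [IsAlgClosed K] (g : ℕ),
    s17_Curve K F g → ∀ (X : s17_Charts K F) (γ : SemilinearAut K F) (m : ℕ) (ι : Type)
      [Fintype ι] (s : ι → List (s17_Blk K F m)),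
      (∀ a, ∀ b ∈ s a, b.Ok) → (∀ a a', s17_SameTy (s a) (s a')) →
      (∀ a, ∀ b ∈ s a, γ • b.D = b.D ∧ ∀ k, k < b.S.card → γ • b.f k = b.f k) →
      ∀ (A : Fin m → Place K F) (π : Equiv.Perm (Fin m)), (∀ i, γ • A i = A (π i)) →
        (∀ a, ∀ b ∈ s a, ∀ i, i ∈ b.S ↔ π i ∈ b.S) →
        ∃ c : K, ∀ a, SemilinearAut.baseAut γ (s17_secVal X (s a) A) = c * s17_secVal X (s a) A

/-- [G0] genus zero: `Pic⁰` is trivial. -/
def s17_Genus0 : Prop :=
  ∀ (K F : Type) [Field K] [Field F] [Algebra K F] [IsAlgClosed K],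
    s17_Curve K F 0 → ∀ x : Pic0 K F, x = 0

/-! ## 5. Contracts: the geometry of `C^m` (the only multi-variable input) -/

/-- [CL] **closedness**: the chart-value vectors of a base-point-free finite family of sections of
one type form a Zariski-closed subset of projective space (in the shape wanted by
`s17n_ht_two_families` / `s17n_ht_le_of_closed`). -/
def s17_CL : Prop :=
  ∀ (K F : Type) [Field K] [Field F] [Algebra K F] [IsAlgClosed K] (g : ℕ),
    s17_Curve K F g → ∀ (X : s17_Charts K F) (m : ℕ) (ι : Type) [Fintype ι]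
      (s : ι → List (s17_Blk K F m)),
      (∀ a, ∀ b ∈ s a, b.Ok) → (∀ a a', s17_SameTy (s a) (s a')) →
      (∀ A : Fin m → Place K F, ∃ a, s17_secVal X (s a) A ≠ 0) →
      ∀ z : ι → K,
        (∀ (d : ℕ) (p : MvPolynomial ι K), p.IsHomogeneous d →
          (∀ A : Fin m → Place K F, MvPolynomial.aeval (fun a => s17_secVal X (s a) A) p = 0) →
          MvPolynomial.aeval z p = 0) →
        z = 0 ∨ ∃ A : Fin m → Place K F, ∃ t : K, z = t • fun a => s17_secVal X (s a) A

/-- [LIN] **density**: a linear relation between the chart values of sections of one type which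
holds at all tuples of distinct places outside a finite set holds at all tuples. -/
def s17_LIN : Prop :=
  ∀ (K F : Type) [Field K] [Field F] [Algebra K F] [IsAlgClosed K] (g : ℕ),
    s17_Curve K F g → ∀ (X : s17_Charts K F) (m : ℕ) (ι : Type) [Fintype ι]
      (s : ι → List (s17_Blk K F m)),
      (∀ a, ∀ b ∈ s a, b.Ok) → (∀ a a', s17_SameTy (s a) (s a')) →
      ∀ (c : ι → K) (E : Finset (Place K F)),
        (∀ A : Fin m → Place K F, Function.Injective A → (∀ i, A i ∉ E) →
          ∑ a, c a * s17_secVal X (s a) A = 0) →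
        ∀ A : Fin m → Place K F, ∑ a, c a * s17_secVal X (s a) A = 0

/-! ## 6. Contracts: assembly -/

/-- the Galois data on a curve over `ℚ̄`: a semilinear action of `Gal(ℚ̄/ℚ)` inducing the Galois
action on constants, with open stabilisers of functions and of places, fixing `P₀`. -/
structure s17_Gal {F : Type} [Field F] [Algebra (AlgebraicClosure ℚ) F]
    (ρ : (AlgebraicClosure ℚ ≃ₐ[ℚ] AlgebraicClosure ℚ) →* SemilinearAut (AlgebraicClosure ℚ) F)
    (P₀ : Place (AlgebraicClosure ℚ) F) : Prop where
  base : ∀ σ, SemilinearAut.baseAut (ρ σ) = σ.toRingEquiv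
  fixP : ∀ σ, ρ σ • P₀ = P₀
  openF : ∀ f : F, ∃ E : IntermediateField ℚ (AlgebraicClosure ℚ), FiniteDimensional ℚ E ∧
    ∀ σ ∈ E.fixingSubgroup, ρ σ • f = f
  openP : ∀ P : Place (AlgebraicClosure ℚ) F,
    ∃ E : IntermediateField ℚ (AlgebraicClosure ℚ), FiniteDimensional ℚ E ∧
      ∀ σ ∈ E.fixingSubgroup, ρ σ • P = P

/-- [HT] **the height theorem**: on the rational points of the Jacobian of a curve of positive
genus over `ℚ̄` with Galois data there is a non-negative Northcott function satisfying the
parallelogram law up to a constant. -/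
def s17_HT : Prop :=
  ∀ (F : Type) [Field F] [Algebra (AlgebraicClosure ℚ) F] (g : ℕ),
    s17_Curve (AlgebraicClosure ℚ) F g → 0 < g →
    ∀ (ρ : (AlgebraicClosure ℚ ≃ₐ[ℚ] AlgebraicClosure ℚ) →*
        SemilinearAut (AlgebraicClosure ℚ) F) (P₀ : Place (AlgebraicClosure ℚ) F),
      s17_Gal ρ P₀ →
      ∃ h : ↥(s17_fixed ρ) → ℝ, Northcott h ∧ (∀ x, 0 ≤ h x) ∧
        ∃ C : ℝ, ∀ x y, |h (x + y) + h (x - y) - 2 * (h x + h y)| ≤ C

/-- [INST] the modular function field satisfies the standing hypotheses. -/
def s17_Inst : Prop :=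
  ∀ (N : ℕ) [NeZero N], N.Prime → 5 ≤ N →
    ∃ (g : ℕ) (P₀ : Place (AlgebraicClosure ℚ) ↥(modularFunctionFieldBar N)),
      s17_Curve (AlgebraicClosure ℚ) ↥(modularFunctionFieldBar N) g ∧
        s17_Gal (arithmeticGalois (L := AlgebraicClosure ℚ) (modularFunctionFieldFull N)) P₀

/-- [WMW] weak Mordell–Weil (helper3's half; the precise sub-contracts are in `WIface.lean`). -/
def s17_WMW : Prop :=
  ∀ (N : ℕ) [NeZero N], N.Prime → 5 ≤ N →
    (nsmulAddMonoidHom (α := ↥(FixedPoints.addSubgroup
      (AlgebraicClosure ℚ ≃ₐ[ℚ] AlgebraicClosure ℚ) (JZero N))) 2).range.FiniteIndex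

/-- [S17] the target. -/
def s17_Target : Prop :=
  ∀ (N : ℕ) [NeZero N], N.Prime → 5 ≤ N →
    AddGroup.FG ↥(FixedPoints.addSubgroup (AlgebraicClosure ℚ ≃ₐ[ℚ] AlgebraicClosure ℚ) (JZero N))

end Fermat.Agent.Lib.S17
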