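/-
Programme MW (S17), brick [SHIFT] for helper2's `s17_DD`: the unipotent row operation
(helper1, prefix `s17d_`).

For uniformisers `τ P` normalised by `coeff_1 (exp_P τ_P) = 1` and `f k ∈ L(D)`:
  `det (coeff_{rank i} (exp_{B i} (τ_{B i}^{D(B i)} · f k))) = s17_cdet X D B f`.

Proof: `exp_P (τ^d f) = ↑(U^d) · (t^d · exp_P f)` with `U` the unit `powerSeriesPart (exp_P τ)` of
`K⟦X⟧` (constant coefficient `1`), and [UNI]: multiplying the shared series of each cluster by a
series with constant coefficient `1` does not change the determinant of the confluent coefficients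
(`s17d_uni`, from `s17d_dd_ps` applied twice and cancellation in the domain `K⟦X_1..X_n⟧`).
-/
import Fermat.Agent.Lib.S17.Iface
import Fermat.Agent.Lib.S17.DPs

set_option autoImplicit false
set_option linter.unusedSectionVars false
set_option linter.unusedVariables false

noncomputable section

namespace Fermat.Agent.Lib.S17

open AlgebraicCurve MvPowerSeries

/-- [UNI] multiplying the series of every cluster by a series with constant coefficient `1` does
not change the determinant of the confluent coefficients. -/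
theorem s17d_uni {K : Type*} [Field K] {n : ℕ} {κ : Type*} [DecidableEq κ] (c : Fin n → κ)
    (w : κ → PowerSeries K) (hw : ∀ a, PowerSeries.constantCoeff (w a) = 1)
    (p : κ → Fin n → PowerSeries K) :
    Matrix.det (Matrix.of fun i k : Fin n =>
        PowerSeries.coeff ((Finset.univ.filter fun i' : Fin n => i' < i ∧ c i' = c i).card)
          (w (c i) * p (c i) k)) =
      Matrix.det (Matrix.of fun i k : Fin n =>
        PowerSeries.coeff ((Finset.univ.filter fun i' : Fin n => i' < i ∧ c i' = c i).card)
          (p (c i) k)) := by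
  obtain ⟨Q, hQ, hQ0⟩ := s17d_dd_ps (R := K) (σ := Fin n) id Function.injective_id c p
  obtain ⟨Q', hQ', hQ0'⟩ := s17d_dd_ps (R := K) (σ := Fin n) id Function.injective_id c
    (fun a k => w a * p a k)
  rw [← hQ0, ← hQ0']
  set Δ : MvPowerSeries (Fin n) K :=
    ∏ i : Fin n, ∏ j : Fin n, if i < j ∧ c i = c j then
      (X (id j) - X (id i) : MvPowerSeries (Fin n) K) else 1 with hΔdef
  have hΔ : Δ ≠ 0 := by
    rw [hΔdef]
    refine Finset.prod_ne_zero_iff.mpr fun i _ => Finset.prod_ne_zero_iff.mpr fun j _ => ?_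
    by_cases h : i < j ∧ c i = c j
    · rw [if_pos h, sub_ne_zero]
      intro hX
      have := (X_inj (R := K)).mp hX
      exact absurd this (ne_of_gt h.1)
    · rw [if_neg h]; exact one_ne_zero
  have hrow : Matrix.det (Matrix.of fun i k : Fin n =>
        PowerSeries.subst (X (id i) : MvPowerSeries (Fin n) K) (w (c i) * p (c i) k)) =
      (∏ i : Fin n, PowerSeries.subst (X (id i) : MvPowerSeries (Fin n) K) (w (c i))) *
        Matrix.det (Matrix.of fun i k : Fin n =>
          PowerSeries.subst (X (id i) : MvPowerSeries (Fin n) K) (p (c i) k)) := by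
    rw [← Matrix.det_mul_column]
    congr 1
    apply Matrix.ext
    intro i k
    rw [Matrix.of_apply, Matrix.of_apply, Matrix.of_apply,
      PowerSeries.subst_mul (PowerSeries.HasSubst.X _)]
  have hQQ : Q' = (∏ i : Fin n, PowerSeries.subst (X (id i) : MvPowerSeries (Fin n) K) (w (c i))) *
      Q := by
    apply mul_left_cancel₀ hΔ
    rw [← hQ', hrow, hQ]
    ring
  rw [hQQ, map_mul, map_prod]
  have h1 : ∀ i : Fin n,
      constantCoeff (PowerSeries.subst (X (id i) : MvPowerSeries (Fin n) K) (w (c i))) = 1 := by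
    intro i
    rw [← s17d_dd_singleton, s17d_constantCoeff_dd, Finset.card_singleton, Nat.sub_self,
      PowerSeries.coeff_zero_eq_constantCoeff_apply, hw]
  rw [Finset.prod_congr rfl fun i _ => h1 i, Finset.prod_const_one, one_mul]

variable {K F : Type} [Field K] [Field F] [Algebra K F]

/-- the chart of `τ^d · f` for a normalised uniformiser `τ`. -/
theorem s17d_shift_local (X : s17_Charts K F) (P : Place K F) (τ : F) (hτ : P.ord τ = 1)
    (hτ1 : (X.exp P τ).coeff 1 = 1) (d : ℤ) :
    ∃ w : PowerSeries K, PowerSeries.constantCoeff w = 1 ∧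
      ∀ f : F, (f = 0 ∨ -d ≤ P.ord f) →
        X.exp P (τ ^ d * f) = HahnSeries.ofPowerSeries ℤ K
          (w * PowerSeries.mk fun s : ℕ => (X.exp P f).coeff (-d + (s : ℤ))) := by
  have hτ0 : τ ≠ 0 := by
    rintro rfl
    simp at hτ
  set y : LaurentSeries K := X.exp P τ with hy
  have hy_ord : y.order = 1 := by rw [hy, X.exp_ord P τ hτ0, hτ]
  set u : PowerSeries K := y.powerSeriesPart with hu
  have hu0 : PowerSeries.constantCoeff u = 1 := by
    rw [← PowerSeries.coeff_zero_eq_constantCoeff_apply, hu, LaurentSeries.powerSeriesPart_coeff,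
      hy_ord]
    simpa using hτ1
  have huU : IsUnit u := PowerSeries.isUnit_iff_constantCoeff.mpr (by rw [hu0]; exact isUnit_one)
  set U : (PowerSeries K)ˣ := huU.unit with hU
  have hyeq : y = HahnSeries.single (1 : ℤ) (1 : K) * HahnSeries.ofPowerSeries ℤ K u := by
    have := LaurentSeries.single_order_mul_powerSeriesPart y
    rw [hy_ord] at this
    exact this.symm
  -- the image of `U` in the Laurent series
  set φ : PowerSeries K →* LaurentSeries K := (HahnSeries.ofPowerSeries ℤ K).toMonoidHom with hφ
  set V : (LaurentSeries K)ˣ := Units.map φ U with hV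
  have hVval : (V : LaurentSeries K) = HahnSeries.ofPowerSeries ℤ K u := rfl
  have hVd : ((V ^ d : (LaurentSeries K)ˣ) : LaurentSeries K) =
      HahnSeries.ofPowerSeries ℤ K ((U ^ d : (PowerSeries K)ˣ) : PowerSeries K) := by
    rw [hV, ← map_zpow]
    rfl
  have hyd : y ^ d = HahnSeries.single d (1 : K) *
      HahnSeries.ofPowerSeries ℤ K ((U ^ d : (PowerSeries K)ˣ) : PowerSeries K) := by
    rw [hyeq, mul_zpow, ← RatFunc.single_zpow, ← hVval, ← Units.val_zpow_eq_zpow_val, hVd]
  refine ⟨((U ^ d : (PowerSeries K)ˣ) : PowerSeries K), ?_, ?_⟩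
  · -- constant coefficient
    set ψ : PowerSeries K →* K := (PowerSeries.constantCoeff (R := K)).toMonoidHom with hψ
    have h1 : Units.map ψ U = 1 := by
      apply Units.ext
      show PowerSeries.constantCoeff (U : PowerSeries K) = 1
      rw [hU, IsUnit.unit_spec, hu0]
    have h2 : Units.map ψ (U ^ d) = 1 := by rw [map_zpow, h1, one_zpow]
    have h3 := congrArg Units.val h2
    exact h3
  · intro f hf
    rw [map_mul, map_zpow₀, ← hy, hyd, mul_assoc,
      mul_comm (HahnSeries.ofPowerSeries ℤ K _) (X.exp P f), ← mul_assoc,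
      mul_comm _ (HahnSeries.ofPowerSeries ℤ K _), map_mul]
    congr 1
    ext n
    rw [HahnSeries.coeff_single_mul, one_mul, PowerSeries.coeff_coe]
    by_cases hn : n < 0
    · rw [if_pos hn]
      rcases hf with rfl | hf
      · rw [map_zero]; rfl
      · have hf0 : f ≠ 0 ∨ f = 0 := (em (f = 0)).symm
        rcases hf0 with hf0 | rfl
        · apply HahnSeries.coeff_eq_zero_of_lt_order
          rw [X.exp_ord P f hf0]
          omega
        · rw [map_zero]; rfl
    · rw [if_neg hn, PowerSeries.coeff_mk]
      congr 1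
      omega

/-- **[SHIFT]** the unipotent row operation. -/
theorem s17d_cdet_shift (X : s17_Charts K F) {n : ℕ}
    (D : Divisor K F) (B : Fin n → Place K F) (f : Fin n → F) (hf : ∀ k, f k ∈ riemannRochSpace D)
    (τ : Place K F → F) (hτ : ∀ P, P.ord (τ P) = 1 ∧ (X.exp P (τ P)).coeff 1 = 1) :
    Matrix.det (fun i k : Fin n =>
        (X.exp (B i) (τ (B i) ^ (D (B i)) * f k)).coeff ((s17_rank B i : ℕ) : ℤ))
      = s17_cdet X D B f := by
  classical
  choose w hw0 hw using fun P => s17d_shift_local X P (τ P) (hτ P).1 (hτ P).2 (D P)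
  set p : Place K F → Fin n → PowerSeries K := fun P k =>
    PowerSeries.mk fun s : ℕ => (X.exp P (f k)).coeff (-(D P) + (s : ℤ)) with hp
  have hL : (fun i k : Fin n =>
        (X.exp (B i) (τ (B i) ^ (D (B i)) * f k)).coeff ((s17_rank B i : ℕ) : ℤ)) =
      Matrix.of fun i k : Fin n =>
        PowerSeries.coeff (s17_rank B i) (w (B i) * p (B i) k) := by
    funext i k
    rw [Matrix.of_apply, hw (B i) (f k) ((mem_riemannRochSpace_iff.mp (hf k)) (B i)),
      HahnSeries.ofPowerSeries_apply_coeff]
  have hR : s17_cdet X D B f = Matrix.det (Matrix.of fun i k : Fin n =>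
      PowerSeries.coeff (s17_rank B i) (p (B i) k)) := by
    unfold s17_cdet s17_conf
    congr 1
    funext i k
    rw [Matrix.of_apply, hp, PowerSeries.coeff_mk]
  rw [hL, hR]
  exact s17d_uni B w hw0 p

end Fermat.Agent.Lib.S17
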