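/-
Programme MW (S17), brick [TYPE-R] (helper5, for helper2's [DD] assembly):
the TYPE-DETERMINED FACTORS lemma of helper4 (`GType.lean`) with values in an arbitrary commutative
ring `R` (instead of the base field), and the re-indexing of the block factor along the order
embedding of the block's variables.
-/
import Fermat.Agent.Lib.S17.Iface

set_option autoImplicit false

noncomputable section

namespace Fermat.Agent.Lib.S17

open AlgebraicCurve Classical

variable {K F : Type} [Field K] [Field F] [Algebra K F]

theorem s17z_tyD_cons {m : ℕ} (b : s17_Blk K F m) (l : List (s17_Blk K F m)) (i : Fin m) :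
    s17_tyD (b :: l) i = (if i ∈ b.S then b.D else 0) + s17_tyD l i := by
  unfold s17_tyD
  rw [List.filter_cons]
  by_cases h : i ∈ b.S
  · simp [h]
  · simp [h]

theorem s17z_tyM_cons {m : ℕ} (b : s17_Blk K F m) (l : List (s17_Blk K F m)) (i j : Fin m) :
    s17_tyM (b :: l) i j = (if i ∈ b.S ∧ j ∈ b.S then 1 else 0) + s17_tyM l i j := by
  unfold s17_tyM
  rw [List.filter_cons]
  by_cases h : i ∈ b.S ∧ j ∈ b.S
  · simp [h, add_comm]
  · simp [h]

/-- the factor of a block, with values in a commutative ring `R`. -/
def s17z_facR {m : ℕ} {R : Type*} [CommRing R] (α : Fin m → Divisor K F → R)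
    (β : Fin m → Fin m → R) (b : s17_Blk K F m) : R :=
  (∏ i ∈ b.S, α i b.D) * ∏ i ∈ b.S, ∏ i' ∈ b.S.filter (· < i), β i' i

/-- **the factor of a section depends only on its type** (product formula). -/
theorem s17z_prod_facR {m : ℕ} {R : Type*} [CommRing R] (α : Fin m → Divisor K F → R)
    (hα0 : ∀ i, α i 0 = 1)
    (hα : ∀ i D D', α i (D + D') = α i D * α i D') (β : Fin m → Fin m → R)
    (l : List (s17_Blk K F m)) :
    (l.map (s17z_facR α β)).prod
      = (∏ i, α i (s17_tyD l i))
        * ∏ i, ∏ i' ∈ Finset.univ.filter (· < i), β i' i ^ s17_tyM l i' i := by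
  induction l with
  | nil =>
    simp [s17_tyD, s17_tyM, hα0]
  | cons b l ih =>
    rw [List.map_cons, List.prod_cons, ih]
    have h1 : ∏ i, α i (s17_tyD (b :: l) i)
        = (∏ i ∈ b.S, α i b.D) * ∏ i, α i (s17_tyD l i) := by
      have e : ∀ i, α i (s17_tyD (b :: l) i)
          = (if i ∈ b.S then α i b.D else 1) * α i (s17_tyD l i) := by
        intro i
        rw [s17z_tyD_cons, hα]
        by_cases h : i ∈ b.S
        · rw [if_pos h, if_pos h]
        · rw [if_neg h, if_neg h, hα0]
      rw [Finset.prod_congr rfl (fun i _ => e i), Finset.prod_mul_distrib, Finset.prod_ite_mem,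
        Finset.univ_inter]
    have h2 : ∏ i, ∏ i' ∈ Finset.univ.filter (· < i), β i' i ^ s17_tyM (b :: l) i' i
        = (∏ i ∈ b.S, ∏ i' ∈ b.S.filter (· < i), β i' i)
          * ∏ i, ∏ i' ∈ Finset.univ.filter (· < i), β i' i ^ s17_tyM l i' i := by
      have e : ∀ i, ∏ i' ∈ Finset.univ.filter (· < i), β i' i ^ s17_tyM (b :: l) i' i
          = (if i ∈ b.S then ∏ i' ∈ b.S.filter (· < i), β i' i else 1)
            * ∏ i' ∈ Finset.univ.filter (· < i), β i' i ^ s17_tyM l i' i := by
        intro i
        have e' : ∀ i', β i' i ^ s17_tyM (b :: l) i' i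
            = (if i' ∈ b.S then (if i ∈ b.S then β i' i else 1) else 1)
              * β i' i ^ s17_tyM l i' i := by
          intro i'
          rw [s17z_tyM_cons, pow_add]
          by_cases h1 : i' ∈ b.S
          · by_cases h2 : i ∈ b.S
            · simp [h1, h2]
            · simp [h1, h2]
          · simp [h1]
        rw [Finset.prod_congr rfl (fun i' _ => e' i'), Finset.prod_mul_distrib,
          Finset.prod_ite_mem]
        congr 1
        by_cases h : i ∈ b.S
        · rw [if_pos h]
          simp only [if_pos h]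
          apply Finset.prod_congr _ (fun _ _ => rfl)
          ext i'
          simp only [Finset.mem_inter, Finset.mem_filter, Finset.mem_univ, true_and]
          tauto
        · rw [if_neg h]
          simp only [if_neg h]
          exact Finset.prod_const_one
      rw [Finset.prod_congr rfl (fun i _ => e i), Finset.prod_mul_distrib, Finset.prod_ite_mem,
        Finset.univ_inter]
    rw [h1, h2]
    unfold s17z_facR
    ring

/-- sections of the same type have the same factor (values in a commutative ring). -/
theorem s17z_prod_facR_congr {m : ℕ} {R : Type*} [CommRing R] (α : Fin m → Divisor K F → R)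
    (hα0 : ∀ i, α i 0 = 1)
    (hα : ∀ i D D', α i (D + D') = α i D * α i D') (β : Fin m → Fin m → R)
    {l l' : List (s17_Blk K F m)} (h : s17_SameTy l l') :
    (l.map (s17z_facR α β)).prod = (l'.map (s17z_facR α β)).prod := by
  rw [s17z_prod_facR α hα0 hα, s17z_prod_facR α hα0 hα]
  congr 1
  · exact Finset.prod_congr rfl fun i _ => by rw [h.1 i]
  · refine Finset.prod_congr rfl fun i _ => Finset.prod_congr rfl fun i' hi' => ?_
    rw [Finset.mem_filter] at hi'
    rw [h.2 i' i (ne_of_lt hi'.2)]

/-- re-indexing of a product over a finset along its order embedding. -/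
theorem s17z_prod_orderEmb {m : ℕ} {R : Type*} [CommRing R] (S : Finset (Fin m))
    (g : Fin m → R) :
    ∏ i ∈ S, g i = ∏ j : Fin S.card, g (S.orderEmbOfFin rfl j) := by
  conv_lhs => rw [← Finset.map_orderEmbOfFin_univ S rfl]
  rw [Finset.prod_map]
  rfl

/-- the block factor, re-indexed along the order embedding of the block's variables. -/
theorem s17z_facR_eq {m : ℕ} {R : Type*} [CommRing R] (α : Fin m → Divisor K F → R)
    (β : Fin m → Fin m → R) (b : s17_Blk K F m) :
    s17z_facR α β b =
      (∏ j : Fin b.S.card, α (b.S.orderEmbOfFin rfl j) b.D) *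
        ∏ i : Fin b.S.card, ∏ j : Fin b.S.card,
          if i < j then β (b.S.orderEmbOfFin rfl i) (b.S.orderEmbOfFin rfl j) else 1 := by
  unfold s17z_facR
  congr 1
  · exact s17z_prod_orderEmb b.S fun i => α i b.D
  · -- `∏ i ∈ S, ∏ i' ∈ S, i' < i, β i' i = ∏ j, ∏ i, if i < j then β (e i) (e j)`, then swap
    rw [s17z_prod_orderEmb b.S fun i => ∏ i' ∈ b.S.filter (· < i), β i' i]
    rw [Finset.prod_comm]
    refine Finset.prod_congr rfl fun j _ => ?_
    rw [Finset.prod_filter, s17z_prod_orderEmb b.S fun i' =>
      if i' < b.S.orderEmbOfFin rfl j then β i' (b.S.orderEmbOfFin rfl j) else 1]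
    refine Finset.prod_congr rfl fun i _ => ?_
    simp only [OrderEmbedding.lt_iff_lt]

end Fermat.Agent.Lib.S17
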