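/-
Programme MW (S17), brick (CL) / [DD] (helper2, prefix `s17c_`): THE LOCAL GENERATORS.

`theorem s17c_dd : s17_DD`: with normalised uniformisers `τ_P` the local generator at `A` of the
type of `l₀` is `γ A = ∏_{b ∈ l₀} (∏_{i ∈ S_b} ι_i(τ_{A i})^(-D_b(A i)) ·
∏_{i' < i ∈ S_b, A i' = A i} (ι_i τ - ι_{i'} τ))`; it depends only on the type (`s17z_prod_facR_congr`),
is `1` at generic injective `A`, and every block divided by its factor is regular at `A` with value
its confluent determinant (`s17c_block` + `s17d_cdet_shift`).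
-/
import Fermat.Agent.Lib.S17.CBlockVal
import Fermat.Agent.Lib.S17.DShift
import Fermat.Agent.Lib.S17.ZTypeR

set_option autoImplicit false
set_option linter.unusedSectionVars false
set_option linter.unusedVariables false
set_option linter.style.haveILetI false

noncomputable section

namespace Fermat.Agent.Lib.S17

open AlgebraicCurve Fermat.Agent.Lib.S19 Fermat.Agent.Lib.FF HahnSeries

variable {K F : Type} [Field K] [Field F] [Algebra K F] {m : ℕ}

/-- the scaling factor of the `i`-th variable. -/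
def s17c_alpha (M : s17_Model K F m) (A : Fin m → Place K F) (τ : Place K F → F) (i : Fin m)
    (D : Divisor K F) : M.FF :=
  (M.ι i (τ (A i))) ^ (-(D (A i)))

open Classical in
/-- the difference factor of a pair of variables. -/
def s17c_beta (M : s17_Model K F m) (A : Fin m → Place K F) (τ : Place K F → F) (i' i : Fin m) :
    M.FF :=
  if A i' = A i then M.ι i (τ (A i)) - M.ι i' (τ (A i')) else 1

/-- the local generator at `A` of the type of `l₀`. -/
def s17c_gamma (M : s17_Model K F m) (A : Fin m → Place K F) (τ : Place K F → F)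
    (l₀ : List (s17_Blk K F m)) : M.FF :=
  (l₀.map (s17z_facR (s17c_alpha M A τ) (s17c_beta M A τ))).prod

theorem s17c_unif_ne_zero (P : Place K F) {τ : F} (hτ : P.ord τ = 1) : τ ≠ 0 := by
  intro h
  rw [h, Place.ord_zero] at hτ
  exact zero_ne_one hτ

theorem s17c_iota_unif_ne_zero (M : s17_Model K F m) (i : Fin m) (P : Place K F) {τ : F}
    (hτ : P.ord τ = 1) : M.ι i τ ≠ 0 :=
  (map_ne_zero _).mpr (s17c_unif_ne_zero P hτ)

theorem s17c_alpha_zero (M : s17_Model K F m) (A : Fin m → Place K F) (τ : Place K F → F)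
    (i : Fin m) : s17c_alpha M A τ i 0 = 1 := by
  unfold s17c_alpha
  rw [Finsupp.zero_apply, neg_zero, zpow_zero]

theorem s17c_alpha_add (M : s17_Model K F m) (A : Fin m → Place K F) (τ : Place K F → F)
    (hτ : ∀ P : Place K F, P.ord (τ P) = 1) (i : Fin m) (D D' : Divisor K F) :
    s17c_alpha M A τ i (D + D') = s17c_alpha M A τ i D * s17c_alpha M A τ i D' := by
  unfold s17c_alpha
  rw [Finsupp.add_apply, neg_add, zpow_add₀ (s17c_iota_unif_ne_zero M i _ (hτ _))]

theorem s17c_alpha_ne_zero (M : s17_Model K F m) (A : Fin m → Place K F) (τ : Place K F → F)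
    (hτ : ∀ P : Place K F, P.ord (τ P) = 1) (i : Fin m) (D : Divisor K F) :
    s17c_alpha M A τ i D ≠ 0 :=
  zpow_ne_zero _ (s17c_iota_unif_ne_zero M i _ (hτ _))

theorem s17c_beta_ne_zero {g₀ : ℕ} (hC : s17_Curve K F g₀) (M : s17_Model K F m)
    (X : s17_Charts K F) (A : Fin m → Place K F) (τ : Place K F → F)
    (hτ : ∀ P : Place K F, P.ord (τ P) = 1) (i' i : Fin m) (h : i' ≠ i) :
    s17c_beta M A τ i' i ≠ 0 := by
  unfold s17c_beta
  split_ifs with hA
  · have e : τ (A i') = τ (A i) := congrArg τ hA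
    rw [e]
    exact s17c_iota_sub_ne_zero hC M X i' i h (A i) (hτ _)
  · exact one_ne_zero

theorem s17c_facR_ne_zero {g₀ : ℕ} (hC : s17_Curve K F g₀) (M : s17_Model K F m)
    (X : s17_Charts K F) (A : Fin m → Place K F) (τ : Place K F → F)
    (hτ : ∀ P : Place K F, P.ord (τ P) = 1) (b : s17_Blk K F m) :
    s17z_facR (s17c_alpha M A τ) (s17c_beta M A τ) b ≠ 0 := by
  unfold s17z_facR
  refine mul_ne_zero ?_ ?_
  · exact Finset.prod_ne_zero_iff.mpr fun i _ => s17c_alpha_ne_zero M A τ hτ i _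
  · refine Finset.prod_ne_zero_iff.mpr fun i _ => Finset.prod_ne_zero_iff.mpr fun i' hi' => ?_
    exact s17c_beta_ne_zero hC M X A τ hτ i' i (ne_of_lt (Finset.mem_filter.mp hi').2)

theorem s17c_gamma_ne_zero {g₀ : ℕ} (hC : s17_Curve K F g₀) (M : s17_Model K F m)
    (X : s17_Charts K F) (A : Fin m → Place K F) (τ : Place K F → F)
    (hτ : ∀ P : Place K F, P.ord (τ P) = 1) (l₀ : List (s17_Blk K F m)) :
    s17c_gamma M A τ l₀ ≠ 0 := by
  unfold s17c_gamma
  apply List.prod_ne_zero
  intro h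
  obtain ⟨b, -, hb⟩ := List.mem_map.mp h
  exact s17c_facR_ne_zero hC M X A τ hτ b hb

/-- at a generic injective `A` the local generator is `1`. -/
theorem s17c_gamma_generic (M : s17_Model K F m) (A : Fin m → Place K F) (τ : Place K F → F)
    (l₀ : List (s17_Blk K F m)) (hA : Function.Injective A)
    (hE : ∀ b ∈ l₀, ∀ i, b.D (A i) = 0) : s17c_gamma M A τ l₀ = 1 := by
  unfold s17c_gamma
  apply List.prod_eq_one
  intro x hx
  obtain ⟨b, hb, rfl⟩ := List.mem_map.mp hx
  unfold s17z_facR
  rw [Finset.prod_eq_one, one_mul]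
  · refine Finset.prod_eq_one fun i _ => Finset.prod_eq_one fun i' hi' => ?_
    unfold s17c_beta
    rw [if_neg]
    intro h
    exact (ne_of_lt (Finset.mem_filter.mp hi').2) (hA h)
  · intro i _
    unfold s17c_alpha
    rw [hE b hb i, neg_zero, zpow_zero]

/-- `τ^(D P) · f ∈ O_P` for `f ∈ L(D)`. -/
theorem s17c_G_mem (P : Place K F) {τ : F} (hτ : P.ord τ = 1) (D : Divisor K F) {f : F}
    (hf : f ∈ riemannRochSpace D) : τ ^ (D P) * f ∈ s17_OP P := by
  by_cases h0 : f = 0
  · rw [h0, mul_zero]; exact Subalgebra.zero_mem _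
  · apply s17c_mem_OP_of_ord_nonneg
    rw [P.ord_mul (zpow_ne_zero _ (s17c_unif_ne_zero P hτ)) h0, P.ord_zpow, hτ, mul_one]
    rcases (mem_riemannRochSpace_iff.mp hf) P with h | h
    · exact absurd h h0
    · linarith

open Classical in
/-- **every block divided by its factor is regular at `A` with value its chart value.** -/
theorem s17c_blk_hasVal {g₀ : ℕ} (hC : s17_Curve K F g₀) (M : s17_Model K F m)
    (X : s17_Charts K F) (A : Fin m → Place K F) (τ : Place K F → F)
    (hτ : ∀ P : Place K F, P.ord (τ P) = 1 ∧ (X.exp P (τ P)).coeff 1 = 1)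
    (b : s17_Blk K F m) (hb : b.Ok) :
    s17_HasVal M X A (s17_blkElem M b / s17z_facR (s17c_alpha M A τ) (s17c_beta M A τ) b)
      (b.val X A) := by
  have hτ1 : ∀ P : Place K F, P.ord (τ P) = 1 := fun P => (hτ P).1
  have hs : Function.Injective (fun j : Fin b.S.card => b.S.orderEmbOfFin rfl j) :=
    (b.S.orderEmbOfFin rfl).injective
  have hG : ∀ (P : Place K F) (k : Fin b.S.card), τ P ^ (b.D P) * b.f k ∈ s17_OP P :=
    fun P k => s17c_G_mem P (hτ1 P) b.D (hb k k.isLt)
  have hblock := s17c_block hC M X A τ hτ1 (fun P => (hτ P).2)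
    (fun j : Fin b.S.card => b.S.orderEmbOfFin rfl j) hs
    (fun P (k : Fin b.S.card) => τ P ^ (b.D P) * b.f k) hG
  have hval := s17d_cdet_shift X b.D (fun j : Fin b.S.card => A (b.S.orderEmbOfFin rfl j))
    (fun k : Fin b.S.card => b.f k) (fun k => hb k k.isLt) τ hτ
  rw [hval] at hblock
  have hfac : s17z_facR (s17c_alpha M A τ) (s17c_beta M A τ) b
      = (∏ j : Fin b.S.card, s17c_alpha M A τ (b.S.orderEmbOfFin rfl j) b.D) *
        ∏ i : Fin b.S.card, ∏ j : Fin b.S.card,
          if i < j ∧ A (b.S.orderEmbOfFin rfl i) = A (b.S.orderEmbOfFin rfl j) then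
            (M.ι (b.S.orderEmbOfFin rfl j) (τ (A (b.S.orderEmbOfFin rfl j)))
              - M.ι (b.S.orderEmbOfFin rfl i) (τ (A (b.S.orderEmbOfFin rfl i)))) else 1 := by
    rw [s17z_facR_eq]
    congr 1
    refine Finset.prod_congr rfl fun i _ => Finset.prod_congr rfl fun j _ => ?_
    unfold s17c_beta
    rw [ite_and]
  have hdet : s17_blkElem M b
      = (∏ j : Fin b.S.card, s17c_alpha M A τ (b.S.orderEmbOfFin rfl j) b.D) *
        Matrix.det (fun i k : Fin b.S.card => M.ι (b.S.orderEmbOfFin rfl i)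
          (τ (A (b.S.orderEmbOfFin rfl i)) ^ (b.D (A (b.S.orderEmbOfFin rfl i))) * b.f k)) := by
    have h := Matrix.det_mul_column
      (fun j : Fin b.S.card => s17c_alpha M A τ (b.S.orderEmbOfFin rfl j) b.D)
      (Matrix.of fun i k : Fin b.S.card => M.ι (b.S.orderEmbOfFin rfl i)
        (τ (A (b.S.orderEmbOfFin rfl i)) ^ (b.D (A (b.S.orderEmbOfFin rfl i))) * b.f k))
    refine Eq.trans ?_ h
    unfold s17_blkElem
    congr 1
    apply Matrix.ext
    intro i k
    rw [Matrix.of_apply, Matrix.of_apply]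
    unfold s17c_alpha
    rw [map_mul, map_zpow₀, ← mul_assoc,
      ← zpow_add₀ (s17c_iota_unif_ne_zero M _ _ (hτ1 _)), neg_add_cancel, zpow_zero, one_mul]
  have hne : (∏ j : Fin b.S.card, s17c_alpha M A τ (b.S.orderEmbOfFin rfl j) b.D) ≠ 0 :=
    Finset.prod_ne_zero_iff.mpr fun j _ => s17c_alpha_ne_zero M A τ hτ1 _ _
  rw [hfac, hdet, mul_div_mul_left _ _ hne]
  exact hblock

/-- products of quotients. -/
theorem s17c_sec_hasVal (M : s17_Model K F m) (X : s17_Charts K F) (A : Fin m → Place K F)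
    {α : Type} (l : List α) (r r' : α → M.FF) (c : α → K)
    (h : ∀ a ∈ l, s17_HasVal M X A (r a / r' a) (c a)) :
    s17_HasVal M X A ((l.map r).prod / (l.map r').prod) (l.map c).prod := by
  induction l with
  | nil =>
    simp only [List.map_nil, List.prod_nil, div_one]
    exact s17c_hasVal_one M X A
  | cons a l ih =>
    rw [List.map_cons, List.prod_cons, List.map_cons, List.prod_cons, List.map_cons,
      List.prod_cons, mul_div_mul_comm]
    exact s17c_hasVal_mul (h a List.mem_cons_self)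
      (ih fun a' ha' => h a' (List.mem_cons_of_mem _ ha'))

/-- **[DD] the local generators.** -/
theorem s17c_dd : s17_DD := by
  classical
  intro K F _ _ _ _ g hC X m M l₀
  choose τ hτ using fun P : Place K F => s17c_exists_unif X P
  have hτ1 : ∀ P : Place K F, P.ord (τ P) = 1 := fun P => (hτ P).1
  refine ⟨fun A => s17c_gamma M A τ l₀, l₀.toFinset.biUnion fun b => b.D.support,
    fun A => s17c_gamma_ne_zero hC M X A τ hτ1 l₀, ?_, ?_⟩
  · intro A hA hE
    refine ⟨1, one_ne_zero, ?_⟩
    show s17_HasVal M X A (s17c_gamma M A τ l₀) 1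
    rw [s17c_gamma_generic M A τ l₀ hA]
    · exact s17c_hasVal_one M X A
    · intro b hb i
      by_contra h
      exact hE i (Finset.mem_biUnion.mpr ⟨b, List.mem_toFinset.mpr hb, Finsupp.mem_support_iff.mpr h⟩)
  · intro l hl hty A
    have hγ : s17c_gamma M A τ l₀
        = (l.map (s17z_facR (s17c_alpha M A τ) (s17c_beta M A τ))).prod :=
      (s17z_prod_facR_congr (s17c_alpha M A τ) (s17c_alpha_zero M A τ)
        (s17c_alpha_add M A τ hτ1) (s17c_beta M A τ) hty).symm
    show s17_HasVal M X A (s17_secElem M l / s17c_gamma M A τ l₀) (s17_secVal X l A)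
    rw [hγ]
    unfold s17_secElem s17_secVal
    exact s17c_sec_hasVal M X A l _ _ _ fun b hb => s17c_blk_hasVal hC M X A τ hτ b (hl b hb)

end Fermat.Agent.Lib.S17
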