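/-
Programme MW (S17): glue `[MODEL] + [DD] + [CLv] ⇒ s17_CL`, `[MODEL] + [DD] + [LINv] ⇒ s17_LIN`
(helper6).
-/
import Fermat.Agent.Lib.S17.CIface

set_option autoImplicit false

noncomputable section

namespace Fermat.Agent.Lib.S17

open AlgebraicCurve Fermat.Agent.Lib.S19

theorem s17c_cl_of (hM : s17_ModelExists) (hD : s17_DD) (hV : s17_CLv) : s17_CL := by
  intro K F _ _ _ _ g hC X m ι _ s hok hty hbpf z hz
  obtain ⟨M⟩ := hM K F g hC X m
  haveI := hC.inf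
  obtain ⟨P⟩ : Nonempty (Place K F) := inferInstance
  obtain ⟨a₀, -⟩ := hbpf fun _ => P
  obtain ⟨γ, E₀, hγ0, -, hγ⟩ := hD K F g hC X m M (s a₀)
  exact hV K F g hC X m M ι (fun a => s17_secElem M (s a)) (fun A a => s17_secVal X (s a) A)
    (fun A => ⟨γ A, hγ0 A, fun a => hγ (s a) (hok a) (hty a a₀) A⟩) hbpf z hz

theorem s17c_lin_of (hM : s17_ModelExists) (hD : s17_DD) (hV : s17_LINv) : s17_LIN := by
  intro K F _ _ _ _ g hC X m ι _ s hok hty c E hgen A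
  obtain ⟨M⟩ := hM K F g hC X m
  by_cases hι : Nonempty ι
  · obtain ⟨a₀⟩ := hι
    obtain ⟨γ, E₀, hγ0, hγu, hγ⟩ := hD K F g hC X m M (s a₀)
    exact hV K F g hC X m M ι (fun a => s17_secElem M (s a)) (fun A a => s17_secVal X (s a) A)
      γ E₀ hγ0 hγu (fun A a => hγ (s a) (hok a) (hty a a₀) A) c E hgen A
  · haveI : IsEmpty ι := not_nonempty_iff.mp hι
    simp

end Fermat.Agent.Lib.S17
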