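/-
Programme MW (S17), contract [EXP] `s17_ChartsExist` (Iface.lean): chart systems exist — the Taylor
expansion `F → K((t))` at a place `P` of degree one with respect to a uniformiser `τ`
(helper1, prefix `s17d_`).

Construction: `val : O_P →+* K` = residue map followed by the inverse of `K ≃ κ(P)` (degree one);
the shift `δ a = (a - val a)/τ`; `T a = ∑ val(δⁿ a) tⁿ`.  Key identity `T a = C(val a) + X·T(δ a)`,
`δ(ab) = val a·δ b + δ a·b` ⇒ `T` is a ring homomorphism (induction on the coefficient index);
`T τ = X`, `T u` has non-zero constant coefficient for a unit `u`; extension to `F = Frac O_P` by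
`IsFractionRing.lift`; order from `f = u·τ^(ord f)`.
-/
import Fermat.Agent.Lib.S17.Iface
import Fermat.Agent.Lib.FF.FFBasicPlace

set_option autoImplicit false
set_option linter.unusedSectionVars false
set_option linter.unusedVariables false

noncomputable section

namespace Fermat.Agent.Lib.S17

open AlgebraicCurve Fermat.Agent.Lib.S19 Fermat.Agent.Lib.FF IsLocalRing

variable {K F : Type} [Field K] [Field F] [Algebra K F]

theorem s17d_order_of_constantCoeff {p : PowerSeries K} (hp : PowerSeries.constantCoeff p ≠ 0) :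
    (HahnSeries.ofPowerSeries ℤ K p).order = 0 := by
  have h0 : (HahnSeries.ofPowerSeries ℤ K p).coeff 0 ≠ 0 := by
    rw [PowerSeries.coeff_coe, if_neg (lt_irrefl _)]
    simpa using hp
  apply le_antisymm (HahnSeries.order_le_of_coeff_ne_zero h0)
  by_contra hlt
  rw [not_le] at hlt
  have hne : HahnSeries.ofPowerSeries ℤ K p ≠ 0 := HahnSeries.ne_zero_of_coeff_ne_zero h0
  have := (HahnSeries.coeff_order_eq_zero (x := HahnSeries.ofPowerSeries ℤ K p)).not.mpr hne
  apply this
  rw [PowerSeries.coeff_coe, if_pos hlt]

section Taylor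

variable (P : Place K F)

/-- the chosen uniformiser. -/
def s17d_tau : ↥P.toValuationSubring :=
  Classical.choose (IsDiscreteValuationRing.exists_irreducible ↥P.toValuationSubring)

theorem s17d_tau_irr : Irreducible (s17d_tau P) :=
  Classical.choose_spec (IsDiscreteValuationRing.exists_irreducible ↥P.toValuationSubring)

theorem s17d_tau_ne_zero : s17d_tau P ≠ 0 := (s17d_tau_irr P).ne_zero

variable (hP : P.deg = 1)
include hP

/-- the residue field of a place of degree one is `K`. -/
theorem s17d_res_bij : Function.Bijective (algebraMap K P.ResidueField) := by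
  refine ⟨(algebraMap K P.ResidueField).injective, fun w => ?_⟩
  unfold Place.deg at hP
  rw [finrank_eq_one_iff_of_nonzero' (1 : P.ResidueField) one_ne_zero] at hP
  obtain ⟨c, hc⟩ := hP w
  exact ⟨c, by rw [← hc, Algebra.smul_def, mul_one]⟩

/-- the value at `P` of a function regular at `P`. -/
def s17d_val : ↥P.toValuationSubring →+* K :=
  ((RingEquiv.ofBijective (algebraMap K P.ResidueField) (s17d_res_bij P hP)).symm :
    P.ResidueField →+* K).comp (IsLocalRing.residue ↥P.toValuationSubring)

theorem s17d_algebraMap_val (a : ↥P.toValuationSubring) :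
    algebraMap K P.ResidueField (s17d_val P hP a) = IsLocalRing.residue _ a := by
  unfold s17d_val
  rw [RingHom.comp_apply]
  exact (RingEquiv.ofBijective (algebraMap K P.ResidueField) (s17d_res_bij P hP)).apply_symm_apply _

theorem s17d_val_algebraMap (c : K) :
    s17d_val P hP (algebraMap K ↥P.toValuationSubring c) = c := by
  apply (algebraMap K P.ResidueField).injective
  rw [s17d_algebraMap_val]
  rfl

theorem s17d_sub_val_mem (a : ↥P.toValuationSubring) :
    a - algebraMap K ↥P.toValuationSubring (s17d_val P hP a) ∈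
      maximalIdeal ↥P.toValuationSubring := by
  rw [← IsLocalRing.residue_eq_zero_iff, map_sub, sub_eq_zero, ← s17d_algebraMap_val P hP a]
  rfl

theorem s17d_val_eq_zero_iff (a : ↥P.toValuationSubring) :
    s17d_val P hP a = 0 ↔ a ∈ maximalIdeal ↥P.toValuationSubring := by
  rw [← IsLocalRing.residue_eq_zero_iff, ← s17d_algebraMap_val P hP a]
  exact (map_eq_zero (algebraMap K P.ResidueField)).symm

theorem s17d_exists_delta (a : ↥P.toValuationSubring) :
    ∃ b, a = algebraMap K ↥P.toValuationSubring (s17d_val P hP a) + s17d_tau P * b := by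
  have h := s17d_sub_val_mem P hP a
  rw [(s17d_tau_irr P).maximalIdeal_eq, Ideal.mem_span_singleton'] at h
  obtain ⟨b, hb⟩ := h
  exact ⟨b, by rw [mul_comm, hb]; ring⟩

/-- the shift `δ a = (a - a(P))/τ`. -/
def s17d_delta (a : ↥P.toValuationSubring) : ↥P.toValuationSubring :=
  Classical.choose (s17d_exists_delta P hP a)

theorem s17d_delta_spec (a : ↥P.toValuationSubring) :
    a = algebraMap K ↥P.toValuationSubring (s17d_val P hP a) + s17d_tau P * s17d_delta P hP a :=
  Classical.choose_spec (s17d_exists_delta P hP a)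

/-- characterisation of `δ`. -/
theorem s17d_delta_eq {a b : ↥P.toValuationSubring} {c : K}
    (h : a = algebraMap K ↥P.toValuationSubring c + s17d_tau P * b) :
    s17d_val P hP a = c ∧ s17d_delta P hP a = b := by
  have hc : s17d_val P hP a = c := by
    rw [h, map_add, s17d_val_algebraMap, map_mul,
      (s17d_val_eq_zero_iff P hP (s17d_tau P)).mpr
        (by rw [(s17d_tau_irr P).maximalIdeal_eq]; exact Ideal.mem_span_singleton_self _),
      zero_mul, add_zero]
  refine ⟨hc, ?_⟩
  have h2 := s17d_delta_spec P hP a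
  rw [hc] at h2
  have h3 : s17d_tau P * s17d_delta P hP a = s17d_tau P * b := by
    have := h2.symm.trans h
    exact add_left_cancel this
  exact mul_left_cancel₀ (s17d_tau_ne_zero P) h3

theorem s17d_delta_add (a b : ↥P.toValuationSubring) :
    s17d_delta P hP (a + b) = s17d_delta P hP a + s17d_delta P hP b := by
  refine (s17d_delta_eq P hP (c := s17d_val P hP a + s17d_val P hP b) ?_).2
  conv_lhs => rw [s17d_delta_spec P hP a, s17d_delta_spec P hP b]
  rw [map_add]; ring

theorem s17d_delta_mul (a b : ↥P.toValuationSubring) :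
    s17d_delta P hP (a * b) =
      algebraMap K ↥P.toValuationSubring (s17d_val P hP a) * s17d_delta P hP b +
        s17d_delta P hP a * b := by
  refine (s17d_delta_eq P hP (c := s17d_val P hP a * s17d_val P hP b) ?_).2
  have ha := s17d_delta_spec P hP a
  have hb := s17d_delta_spec P hP b
  rw [map_mul]
  calc a * b = (algebraMap K ↥P.toValuationSubring (s17d_val P hP a) +
        s17d_tau P * s17d_delta P hP a) * b := by rw [← ha]
    _ = algebraMap K ↥P.toValuationSubring (s17d_val P hP a) * b +
        s17d_tau P * (s17d_delta P hP a * b) := by ring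
    _ = algebraMap K ↥P.toValuationSubring (s17d_val P hP a) *
        (algebraMap K ↥P.toValuationSubring (s17d_val P hP b) +
          s17d_tau P * s17d_delta P hP b) +
        s17d_tau P * (s17d_delta P hP a * b) := by rw [← hb]
    _ = _ := by ring

theorem s17d_delta_algebraMap (c : K) :
    s17d_delta P hP (algebraMap K ↥P.toValuationSubring c) = 0 :=
  (s17d_delta_eq P hP (c := c) (by rw [mul_zero, add_zero])).2

theorem s17d_val_tau : s17d_val P hP (s17d_tau P) = 0 :=
  (s17d_delta_eq P hP (a := s17d_tau P) (b := 1) (c := 0) (by rw [map_zero, zero_add, mul_one])).1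

theorem s17d_delta_tau : s17d_delta P hP (s17d_tau P) = 1 :=
  (s17d_delta_eq P hP (a := s17d_tau P) (b := 1) (c := 0) (by rw [map_zero, zero_add, mul_one])).2

/-- the Taylor series of a function regular at `P`. -/
def s17d_T (a : ↥P.toValuationSubring) : PowerSeries K :=
  PowerSeries.mk fun n => s17d_val P hP ((s17d_delta P hP)^[n] a)

theorem s17d_coeff_zero_T (a : ↥P.toValuationSubring) :
    PowerSeries.coeff 0 (s17d_T P hP a) = s17d_val P hP a := by
  rw [s17d_T, PowerSeries.coeff_mk, Function.iterate_zero, id]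

theorem s17d_coeff_succ_T (n : ℕ) (a : ↥P.toValuationSubring) :
    PowerSeries.coeff (n + 1) (s17d_T P hP a) =
      PowerSeries.coeff n (s17d_T P hP (s17d_delta P hP a)) := by
  rw [s17d_T, s17d_T, PowerSeries.coeff_mk, PowerSeries.coeff_mk, Function.iterate_succ_apply]

/-- the key identity. -/
theorem s17d_T_eq (a : ↥P.toValuationSubring) :
    s17d_T P hP a = PowerSeries.C (s17d_val P hP a) +
      PowerSeries.X * s17d_T P hP (s17d_delta P hP a) := by
  ext n
  cases n with
  | zero =>
    rw [s17d_coeff_zero_T, map_add, PowerSeries.coeff_zero_C, PowerSeries.coeff_zero_X_mul,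
      add_zero]
  | succ n =>
    rw [s17d_coeff_succ_T, map_add, PowerSeries.coeff_succ_X_mul, PowerSeries.coeff_C,
      if_neg (Nat.succ_ne_zero n), zero_add]

theorem s17d_T_add (a b : ↥P.toValuationSubring) :
    s17d_T P hP (a + b) = s17d_T P hP a + s17d_T P hP b := by
  ext n
  induction n generalizing a b with
  | zero => rw [map_add, s17d_coeff_zero_T, s17d_coeff_zero_T, s17d_coeff_zero_T, map_add]
  | succ n ih =>
    rw [map_add, s17d_coeff_succ_T, s17d_coeff_succ_T, s17d_coeff_succ_T, s17d_delta_add, ih,
      map_add]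

theorem s17d_T_zero : s17d_T P hP 0 = 0 := by
  have h := s17d_T_add P hP 0 0
  rw [add_zero] at h
  exact left_eq_add.mp h

theorem s17d_T_algebraMap (c : K) :
    s17d_T P hP (algebraMap K ↥P.toValuationSubring c) = PowerSeries.C c := by
  rw [s17d_T_eq, s17d_val_algebraMap, s17d_delta_algebraMap, s17d_T_zero, mul_zero, add_zero]

theorem s17d_T_one : s17d_T P hP 1 = 1 := by
  have h := s17d_T_algebraMap P hP 1
  rwa [map_one, map_one] at h

theorem s17d_T_mul (a b : ↥P.toValuationSubring) :
    s17d_T P hP (a * b) = s17d_T P hP a * s17d_T P hP b := by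
  ext n
  induction n generalizing a b with
  | zero =>
    rw [s17d_coeff_zero_T, map_mul, PowerSeries.coeff_zero_eq_constantCoeff_apply, map_mul,
      ← PowerSeries.coeff_zero_eq_constantCoeff_apply,
      ← PowerSeries.coeff_zero_eq_constantCoeff_apply, s17d_coeff_zero_T, s17d_coeff_zero_T]
  | succ n ih =>
    rw [s17d_coeff_succ_T, s17d_delta_mul, s17d_T_add, map_add, ih, ih, s17d_T_algebraMap,
      PowerSeries.coeff_C_mul]
    conv_rhs => rw [s17d_T_eq P hP a, add_mul, map_add, mul_assoc, PowerSeries.coeff_succ_X_mul,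
      PowerSeries.coeff_C_mul, s17d_coeff_succ_T]

/-- the Taylor expansion on `O_P`, as a ring homomorphism. -/
def s17d_Thom : ↥P.toValuationSubring →+* PowerSeries K where
  toFun := s17d_T P hP
  map_one' := s17d_T_one P hP
  map_mul' := s17d_T_mul P hP
  map_zero' := s17d_T_zero P hP
  map_add' := s17d_T_add P hP

theorem s17d_T_tau : s17d_T P hP (s17d_tau P) = PowerSeries.X := by
  rw [s17d_T_eq, s17d_val_tau, s17d_delta_tau, s17d_T_one, map_zero, zero_add, mul_one]

theorem s17d_constantCoeff_T_unit (u : (↥P.toValuationSubring)ˣ) :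
    PowerSeries.constantCoeff (s17d_T P hP (u : ↥P.toValuationSubring)) ≠ 0 := by
  rw [← PowerSeries.coeff_zero_eq_constantCoeff_apply, s17d_coeff_zero_T]
  exact (u.isUnit.map (s17d_val P hP)).ne_zero

theorem s17d_Thom_injective : Function.Injective (s17d_Thom P hP) := by
  rw [injective_iff_map_eq_zero]
  intro a ha
  by_contra ha0
  obtain ⟨n, u, hu⟩ := IsDiscreteValuationRing.eq_unit_mul_pow_irreducible ha0 (s17d_tau_irr P)
  have h1 : s17d_T P hP a = s17d_T P hP (u : ↥P.toValuationSubring) * PowerSeries.X ^ n := by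
    rw [hu]
    show s17d_Thom P hP _ = _
    rw [map_mul, map_pow]
    show s17d_T P hP _ * s17d_T P hP _ ^ n = _
    rw [s17d_T_tau]
  have h2 : s17d_T P hP a = 0 := ha
  rw [h1] at h2
  rcases mul_eq_zero.mp h2 with h | h
  · apply s17d_constantCoeff_T_unit P hP u
    rw [h, map_zero]
  · exact pow_ne_zero n PowerSeries.X_ne_zero h

/-- the composite `O_P → K[[t]] → K((t))`. -/
def s17d_g : ↥P.toValuationSubring →+* LaurentSeries K :=
  (HahnSeries.ofPowerSeries ℤ K).comp (s17d_Thom P hP)

theorem s17d_g_injective : Function.Injective (s17d_g P hP) :=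
  HahnSeries.ofPowerSeries_injective.comp (s17d_Thom_injective P hP)

/-- **the Taylor expansion at `P`.** -/
def s17d_E : F →+* LaurentSeries K :=
  IsFractionRing.lift (A := ↥P.toValuationSubring) (K := F) (s17d_g_injective P hP)

theorem s17d_E_coe (a : ↥P.toValuationSubring) :
    s17d_E P hP (a : F) = HahnSeries.ofPowerSeries ℤ K (s17d_T P hP a) :=
  IsFractionRing.lift_algebraMap (A := ↥P.toValuationSubring) (K := F) (s17d_g_injective P hP) a

theorem s17d_E_algebraMap (c : K) : s17d_E P hP (algebraMap K F c) = HahnSeries.C c := by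
  have h := s17d_E_coe P hP (algebraMap K ↥P.toValuationSubring c)
  rw [Place.coe_algebraMap, s17d_T_algebraMap, HahnSeries.ofPowerSeries_C] at h
  exact h

theorem s17d_E_order (f : F) (hf : f ≠ 0) : (s17d_E P hP f).order = P.ord f := by
  obtain ⟨u, hu⟩ := P.exists_unit_mul_zpow hf (s17d_tau_irr P)
  have hE : s17d_E P hP f =
      HahnSeries.ofPowerSeries ℤ K (s17d_T P hP (u : ↥P.toValuationSubring)) *
        HahnSeries.single (P.ord f) (1 : K) := by
    conv_lhs => rw [hu]
    rw [map_mul, map_zpow₀, s17d_E_coe, s17d_E_coe, s17d_T_tau, HahnSeries.ofPowerSeries_X,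
      ← RatFunc.single_zpow]
  have h1 : HahnSeries.ofPowerSeries ℤ K (s17d_T P hP (u : ↥P.toValuationSubring)) ≠ 0 := by
    intro h
    have := s17d_order_of_constantCoeff (s17d_constantCoeff_T_unit P hP u)
    apply s17d_constantCoeff_T_unit P hP u
    have h' := HahnSeries.ofPowerSeries_injective (Γ := ℤ) (R := K)
      (h.trans (map_zero (HahnSeries.ofPowerSeries ℤ K)).symm)
    rw [h', map_zero]
  have h2 : HahnSeries.single (P.ord f) (1 : K) ≠ 0 := HahnSeries.single_ne_zero one_ne_zero
  rw [hE, HahnSeries.order_mul h1 h2,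
    s17d_order_of_constantCoeff (s17d_constantCoeff_T_unit P hP u),
    HahnSeries.order_single one_ne_zero, zero_add]

end Taylor

/-- **[EXP]** chart systems exist. -/
theorem s17d_chartsExist : s17_ChartsExist := by
  intro K F _ _ _ _ g hC
  exact ⟨{ exp := fun P => s17d_E P (hC.deg1 P)
           exp_alg := fun P c => s17d_E_algebraMap P (hC.deg1 P) c
           exp_ord := fun P f hf => s17d_E_order P (hC.deg1 P) f hf }⟩

end Fermat.Agent.Lib.S17
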