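/-
Programme MW (S17), brick [GALVAL] — part 1 (helper4): CHANGE OF CHART AT ONE PLACE.
Two Taylor expansions `e, e' : F → K((t))` at the same place `P` (identity on constants, order =
order at `P`) differ by a triangular substitution: there is `u ≠ 0` such that for every `n`, `r`
there are constants `a 0, …, a (r-1)` with
`coeff_{n+r}(e' f) = u^(n+r) · coeff_{n+r}(e f) + ∑_{s<r} a s · coeff_{n+s}(e f)`
for all `f` with `ord_P f ≥ n`.
-/
import Fermat.Agent.Lib.S17.Iface

set_option autoImplicit false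

noncomputable section

namespace Fermat.Agent.Lib.S17

open AlgebraicCurve

variable {K F : Type} [Field K] [Field F] [Algebra K F]

/-- a Taylor expansion at the place `P`. -/
structure s17g_IsChart (P : Place K F) (e : F →+* LaurentSeries K) : Prop where
  alg : ∀ c : K, e (algebraMap K F c) = HahnSeries.C c
  ord : ∀ f : F, f ≠ 0 → (e f).order = P.ord f

theorem s17g_isChart_exp (X : s17_Charts K F) (P : Place K F) : s17g_IsChart P (X.exp P) :=
  ⟨X.exp_alg P, X.exp_ord P⟩

/-- `f` vanishes to order at least `n` at `P`. -/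
def s17g_V (P : Place K F) (n : ℤ) (f : F) : Prop := f = 0 ∨ n ≤ P.ord f

theorem s17g_V_zero (P : Place K F) (n : ℤ) : s17g_V P n (0 : F) := Or.inl rfl

theorem s17g_IsChart.coeff_eq_zero {P : Place K F} {e : F →+* LaurentSeries K}
    (he : s17g_IsChart P e) {n : ℤ} {f : F} (hf : s17g_V P n f) {k : ℤ} (hk : k < n) :
    (e f).coeff k = 0 := by
  rcases hf with rfl | hf
  · simp
  · by_cases hf0 : f = 0
    · subst hf0; simp
    · apply HahnSeries.coeff_eq_zero_of_lt_order
      rw [he.ord f hf0]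
      omega

theorem s17g_IsChart.V_of_coeff {P : Place K F} {e : F →+* LaurentSeries K}
    (he : s17g_IsChart P e) {n : ℤ} {f : F} (h : ∀ k, k < n → (e f).coeff k = 0) :
    s17g_V P n f := by
  by_cases hf0 : f = 0
  · exact Or.inl hf0
  · right
    have hne : e f ≠ 0 := by
      rw [Ne, map_eq_zero]; exact hf0
    rw [← he.ord f hf0]
    by_contra hlt
    rw [not_le] at hlt
    exact hne (HahnSeries.coeff_order_eq_zero.mp (h _ hlt))

/-- the leading coefficient as a monoid-with-zero homomorphism. -/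
def s17g_lc : LaurentSeries K →*₀ K where
  toFun x := x.leadingCoeff
  map_zero' := HahnSeries.leadingCoeff_zero
  map_one' := HahnSeries.leadingCoeff_one
  map_mul' x y := HahnSeries.leadingCoeff_mul x y

theorem s17g_IsChart.coeff_zpow {P : Place K F} {e : F →+* LaurentSeries K}
    (he : s17g_IsChart P e) {τ : F} (hτ : P.ord τ = 1) (n : ℤ) :
    (e (τ ^ n)).coeff n = ((e τ).coeff 1) ^ n := by
  have hτ0 : τ ≠ 0 := by
    rintro rfl
    rw [Place.ord_zero] at hτ
    exact zero_ne_one hτ
  have hn0 : τ ^ n ≠ 0 := zpow_ne_zero n hτ0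
  have h1 : (e (τ ^ n)).order = n := by
    rw [he.ord _ hn0, Place.ord_zpow, hτ, mul_one]
  have h2 : (e τ).order = 1 := by rw [he.ord _ hτ0, hτ]
  have h3 : (e (τ ^ n)).leadingCoeff = ((e τ).leadingCoeff) ^ n := by
    rw [map_zpow₀]
    exact map_zpow₀ (s17g_lc (K := K)) (e τ) n
  rw [HahnSeries.leadingCoeff_eq, HahnSeries.leadingCoeff_eq, h1, h2] at h3
  exact h3

theorem s17g_IsChart.coeff_one_ne_zero {P : Place K F} {e : F →+* LaurentSeries K}
    (he : s17g_IsChart P e) {τ : F} (hτ : P.ord τ = 1) : (e τ).coeff 1 ≠ 0 := by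
  have hτ0 : τ ≠ 0 := by
    rintro rfl
    rw [Place.ord_zero] at hτ
    exact zero_ne_one hτ
  have hne : e τ ≠ 0 := by
    rw [Ne, map_eq_zero]; exact hτ0
  have h2 : (e τ).order = 1 := by rw [he.ord _ hτ0, hτ]
  intro h0
  rw [← h2] at h0
  exact hne (HahnSeries.coeff_order_eq_zero.mp h0)

theorem s17g_exists_unif (P : Place K F) : ∃ τ : F, P.ord τ = 1 := by
  obtain ⟨π, hπ⟩ := IsDiscreteValuationRing.exists_irreducible P.toValuationSubring
  exact ⟨(π : F), P.ord_coe_irreducible hπ⟩

/-- the expansion of `f - c·τⁿ`. -/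
theorem s17g_IsChart.map_sub_smul {P : Place K F} {e : F →+* LaurentSeries K}
    (he : s17g_IsChart P e) (f τ : F) (c : K) (n : ℤ) (k : ℤ) :
    (e (f - algebraMap K F c * τ ^ n)).coeff k = (e f).coeff k - c * (e (τ ^ n)).coeff k := by
  rw [map_sub, map_mul, he.alg, HahnSeries.coeff_sub, HahnSeries.C_mul_eq_smul,
    HahnSeries.coeff_smul, smul_eq_mul]

/-- the reduction step: subtracting the leading term. -/
theorem s17g_IsChart.V_succ {P : Place K F} {e : F →+* LaurentSeries K}
    (he : s17g_IsChart P e) {τ : F} (hτ : P.ord τ = 1) {n : ℤ} {f : F} (hf : s17g_V P n f) :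
    s17g_V P (n + 1)
      (f - algebraMap K F ((e f).coeff n / ((e τ).coeff 1) ^ n) * τ ^ n) := by
  have hτ0 : τ ≠ 0 := by
    rintro rfl
    rw [Place.ord_zero] at hτ
    exact zero_ne_one hτ
  have hVτ : s17g_V P n (τ ^ n) := by
    right
    rw [Place.ord_zpow, hτ, mul_one]
  apply he.V_of_coeff
  intro k hk
  rw [he.map_sub_smul]
  rcases lt_or_eq_of_le (Int.lt_add_one_iff.mp hk) with hlt | rfl
  · rw [he.coeff_eq_zero hf hlt, he.coeff_eq_zero hVτ hlt, mul_zero, sub_zero]
  · rw [he.coeff_zpow hτ, div_mul_cancel₀ _ (zpow_ne_zero _ (he.coeff_one_ne_zero hτ)), sub_self]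

/-- **change of chart at one place.** -/
theorem s17g_chart_change (P : Place K F) {e e' : F →+* LaurentSeries K}
    (he : s17g_IsChart P e) (he' : s17g_IsChart P e') :
    ∃ u : K, u ≠ 0 ∧ ∀ (r : ℕ) (n : ℤ), ∃ a : ℕ → K, a r = u ^ (n + r) ∧
      ∀ f : F, s17g_V P n f →
        (e' f).coeff (n + r) = ∑ s ∈ Finset.range (r + 1), a s * (e f).coeff (n + s) := by
  obtain ⟨τ, hτ⟩ := s17g_exists_unif P
  have h1 := he.coeff_one_ne_zero hτ
  have h1' := he'.coeff_one_ne_zero hτ
  refine ⟨(e' τ).coeff 1 / (e τ).coeff 1, div_ne_zero h1' h1, ?_⟩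
  intro r
  induction r with
  | zero =>
    intro n
    refine ⟨fun _ => ((e' τ).coeff 1 / (e τ).coeff 1) ^ n, by simp, ?_⟩
    intro f hf
    have hg := he.V_succ hτ hf
    have h0 := he'.coeff_eq_zero hg (Int.lt_add_one_iff.mpr le_rfl)
    rw [he'.map_sub_smul, he'.coeff_zpow hτ, sub_eq_zero] at h0
    simp only [Nat.cast_zero, add_zero, zero_add, Finset.range_one, Finset.sum_singleton]
    rw [h0, div_zpow]
    field_simp
  | succ r ih =>
    intro n
    obtain ⟨a, har, ha⟩ := ih (n + 1)
    -- the coefficients of `τⁿ`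
    set w : ℕ → K := fun s => (e (τ ^ n)).coeff (n + s) with hw
    set w' : ℕ → K := fun s => (e' (τ ^ n)).coeff (n + s) with hw'
    set a0 : K := (w' (r + 1) - ∑ s ∈ Finset.range (r + 1), a s * w (s + 1))
      / ((e τ).coeff 1) ^ n with ha0
    refine ⟨fun s => if s = 0 then a0 else a (s - 1), ?_, ?_⟩
    · simp only [Nat.succ_ne_zero, if_false, Nat.add_sub_cancel]
      rw [har]
      congr 1
      push_cast
      ring
    · intro f hf
      have hg := he.V_succ hτ hf
      set c : K := (e f).coeff n / ((e τ).coeff 1) ^ n with hc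
      have h2 := ha _ hg
      rw [he'.map_sub_smul] at h2
      have e1 : n + ((r + 1 : ℕ) : ℤ) = n + 1 + (r : ℤ) := by push_cast; ring
      have h3 : ∀ s : ℕ, (e (f - algebraMap K F c * τ ^ n)).coeff (n + 1 + (s : ℤ))
          = (e f).coeff (n + ((s + 1 : ℕ) : ℤ)) - c * w (s + 1) := by
        intro s
        rw [he.map_sub_smul, hw]
        have : n + 1 + (s : ℤ) = n + ((s + 1 : ℕ) : ℤ) := by push_cast; ring
        rw [this]
      have h4 : (e' (τ ^ n)).coeff (n + 1 + (r : ℤ)) = w' (r + 1) := by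
        rw [hw']
        have : n + 1 + (r : ℤ) = n + ((r + 1 : ℕ) : ℤ) := by push_cast; ring
        rw [this]
      have hR : ∑ s ∈ Finset.range (r + 1 + 1),
          (if s = 0 then a0 else a (s - 1)) * (e f).coeff (n + (s : ℤ))
          = ∑ s ∈ Finset.range (r + 1), a s * (e f).coeff (n + ((s + 1 : ℕ) : ℤ))
            + a0 * (e f).coeff n := by
        rw [Finset.sum_range_succ']
        simp only [Nat.succ_ne_zero, if_false, Nat.add_sub_cancel, if_true, Nat.cast_zero,
          add_zero]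
      have h5 : a0 * (e f).coeff n
          = c * (w' (r + 1) - ∑ s ∈ Finset.range (r + 1), a s * w (s + 1)) := by
        rw [ha0, hc]
        field_simp
      rw [hR, e1, sub_eq_iff_eq_add.mp h2, h4, h5]
      simp only [h3, mul_sub, Finset.sum_sub_distrib, Finset.mul_sum]
      have h6 : ∀ s ∈ Finset.range (r + 1), a s * (c * w (s + 1)) = c * (a s * w (s + 1)) := by
        intro s _; ring
      rw [Finset.sum_congr rfl h6]
      ring

end Fermat.Agent.Lib.S17
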