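/-
Programme MW (S17), brick [GALVAL] — part 2 (helper4): CHANGE OF CHART FOR CONFLUENT DETERMINANTS.
`cdet X' D B f = ∏_j u(B j)^(-D(B j) + rank j) · cdet X D B f` for `f k ∈ L(D)`:
`conf X' = L · conf X` with `L` lower triangular.
(The rank lemmas are those of helper8's `PJet.lean`, re-proved here under `s17g_` names to keep
this brick independent of the (FC) chain.)
-/
import Fermat.Agent.Lib.S17.GChart

set_option autoImplicit false

noncomputable section

namespace Fermat.Agent.Lib.S17

open AlgebraicCurve Classical

variable {K F : Type} [Field K] [Field F] [Algebra K F]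

/-! ### ranks -/

/-- among the occurrences of one place the rank is strictly increasing. -/
theorem s17g_rank_lt_rank {m : ℕ} (A : Fin m → Place K F) {i i' : Fin m} (h : A i' = A i)
    (hlt : i' < i) : s17_rank A i' < s17_rank A i := by
  unfold s17_rank
  apply Finset.card_lt_card
  rw [Finset.ssubset_iff_of_subset]
  · refine ⟨i', by simp [hlt, h], ?_⟩
    simp
  · intro j hj
    simp only [Finset.mem_filter, Finset.mem_univ, true_and] at hj ⊢
    exact ⟨hj.1.trans hlt, hj.2.trans h⟩

theorem s17g_rank_le_rank {m : ℕ} (A : Fin m → Place K F) {i i' : Fin m} (h : A i' = A i)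
    (hle : i' ≤ i) : s17_rank A i' ≤ s17_rank A i := by
  rcases eq_or_lt_of_le hle with rfl | hlt
  · exact le_rfl
  · exact (s17g_rank_lt_rank A h hlt).le

/-- the rank is injective on the occurrences of one place. -/
theorem s17g_rank_inj {m : ℕ} (A : Fin m → Place K F) {i i' : Fin m} (h : A i' = A i)
    (hr : s17_rank A i' = s17_rank A i) : i' = i := by
  by_contra hne
  rcases lt_or_gt_of_ne hne with h1 | h1
  · exact absurd hr (ne_of_lt (s17g_rank_lt_rank A h h1))
  · exact absurd hr.symm (ne_of_lt (s17g_rank_lt_rank A h.symm h1))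

/-- the ranks of the occurrences of `A i` up to `i` are exactly `0, …, rank i`. -/
theorem s17g_image_rank {m : ℕ} (A : Fin m → Place K F) (i : Fin m) :
    (Finset.univ.filter fun i' : Fin m => A i' = A i ∧ i' ≤ i).image (s17_rank A)
      = Finset.range (s17_rank A i + 1) := by
  have hinj : Set.InjOn (s17_rank A)
      (Finset.univ.filter fun i' : Fin m => A i' = A i ∧ i' ≤ i : Finset (Fin m)) := by
    intro a ha b hb hab
    simp only [Finset.coe_filter, Finset.mem_univ, true_and, Set.mem_ofPred_eq] at ha hb
    exact s17g_rank_inj A (ha.1.trans hb.1.symm) hab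
  apply Finset.eq_of_subset_of_card_le
  · intro r hr
    rw [Finset.mem_image] at hr
    obtain ⟨i', hi', rfl⟩ := hr
    simp only [Finset.mem_filter, Finset.mem_univ, true_and] at hi'
    rw [Finset.mem_range]
    exact Nat.lt_succ_of_le (s17g_rank_le_rank A hi'.1 hi'.2)
  · rw [Finset.card_image_of_injOn hinj, Finset.card_range]
    have e : (Finset.univ.filter fun i' : Fin m => A i' = A i ∧ i' ≤ i)
        = insert i (Finset.univ.filter fun i' : Fin m => i' < i ∧ A i' = A i) := by
      ext j
      simp only [Finset.mem_filter, Finset.mem_univ, true_and, Finset.mem_insert]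
      constructor
      · rintro ⟨h1, h2⟩
        rcases eq_or_lt_of_le h2 with h | h
        · exact Or.inl h
        · exact Or.inr ⟨h, h1⟩
      · rintro (rfl | ⟨h1, h2⟩)
        · exact ⟨rfl, le_rfl⟩
        · exact ⟨h2, h1.le⟩
    rw [e, Finset.card_insert_of_notMem (by simp)]
    unfold s17_rank
    exact le_rfl

/-- reindexing a sum over the occurrences of `A i` up to `i` by the rank. -/
theorem s17g_sum_rank {m : ℕ} (A : Fin m → Place K F) (i : Fin m) (φ : ℕ → K) :
    ∑ i' ∈ Finset.univ.filter (fun i' : Fin m => A i' = A i ∧ i' ≤ i), φ (s17_rank A i')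
      = ∑ r ∈ Finset.range (s17_rank A i + 1), φ r := by
  rw [← s17g_image_rank A i, Finset.sum_image]
  intro a ha b hb hab
  simp only [Finset.coe_filter, Finset.mem_univ, true_and, Set.mem_ofPred_eq] at ha hb
  exact s17g_rank_inj A (ha.1.trans hb.1.symm) hab

/-! ### change of chart -/

theorem s17g_V_of_mem {D : Divisor K F} {f : F} (hf : f ∈ riemannRochSpace D) (P : Place K F) :
    s17g_V P (-(D P)) f :=
  mem_riemannRochSpace_iff.mp hf P

/-- **change of chart for confluent determinants.** -/
theorem s17g_cdet_chart (X X' : s17_Charts K F) :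
    ∃ u : Place K F → K, (∀ P, u P ≠ 0) ∧
      ∀ (n : ℕ) (D : Divisor K F) (B : Fin n → Place K F) (f : Fin n → F),
        (∀ k, f k ∈ riemannRochSpace D) →
        s17_cdet X' D B f
          = (∏ j, u (B j) ^ (-(D (B j)) + (s17_rank B j : ℤ))) * s17_cdet X D B f := by
  choose u hu0 hu using fun P : Place K F =>
    s17g_chart_change P (s17g_isChart_exp X P) (s17g_isChart_exp X' P)
  choose a har ha using hu
  refine ⟨u, hu0, ?_⟩
  intro n D B f hf
  -- the transition matrix
  set L : Matrix (Fin n) (Fin n) K := fun j j' =>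
    if B j' = B j ∧ j' ≤ j then a (B j) (s17_rank B j) (-(D (B j))) (s17_rank B j') else 0
    with hL
  have hconf : s17_conf X' D B f = L * s17_conf X D B f := by
    ext j k
    rw [Matrix.mul_apply]
    unfold s17_conf
    rw [ha (B j) (s17_rank B j) (-(D (B j))) (f k) (s17g_V_of_mem (hf k) (B j))]
    rw [← s17g_sum_rank B j (fun s => a (B j) (s17_rank B j) (-(D (B j))) s
      * (X.exp (B j) (f k)).coeff (-(D (B j)) + (s : ℤ))), Finset.sum_filter]
    refine Finset.sum_congr rfl fun j' _ => ?_
    rw [hL]
    simp only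
    by_cases hc : B j' = B j ∧ j' ≤ j
    · rw [if_pos hc, if_pos hc, hc.1]
    · rw [if_neg hc, if_neg hc, zero_mul]
  have hlow : L.BlockTriangular ⇑OrderDual.toDual := by
    intro i j hij
    have hlt : i < j := hij
    rw [hL]
    simp only
    rw [if_neg]
    rintro ⟨-, hle⟩
    exact absurd hlt (not_lt.mpr hle)
  unfold s17_cdet
  rw [hconf, Matrix.det_mul, Matrix.det_of_isLowerTriangular _ hlow]
  congr 1
  refine Finset.prod_congr rfl fun j _ => ?_
  rw [hL]
  simp only [le_refl, and_self, if_true]
  exact har (B j) (s17_rank B j) (-(D (B j)))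

end Fermat.Agent.Lib.S17
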