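/-
Programme MW (S17), brick [GALVAL] — part 3 (helper4): GALOIS TRANSPORT OF CHART VALUES.
For a semilinear automorphism `γ` (with `σ = baseAut γ`) the twisted chart system
`X^γ.exp Q g = σ(X.exp (γ⁻¹ Q) (γ⁻¹ g))` (σ applied to the coefficients) is again a chart system and
`σ(cdet X D B f) = cdet X^γ (γ D) (γ B) (γ f)`; for a `γ`-fixed block and a tuple with
`γ • A i = A (π i)`: `σ(b.val X A) = b.val X^γ (A ∘ π)`.
-/
import Fermat.Agent.Lib.S17.GRank

set_option autoImplicit false

noncomputable section

namespace Fermat.Agent.Lib.S17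

open AlgebraicCurve ModularCurve Classical

variable {K F : Type} [Field K] [Field F] [Algebra K F]

theorem s17g_order_coeffMap (σ : K ≃+* K) (x : LaurentSeries K) :
    (coeffMap (σ : K →+* K) x).order = x.order := by
  by_cases hx : x = 0
  · subst hx; simp
  have hx' : coeffMap (σ : K →+* K) x ≠ 0 := by
    intro h
    apply hx
    ext k
    have := congrArg (fun y : LaurentSeries K => y.coeff k) h
    simp only [coeffMap_coeff, HahnSeries.coeff_zero] at this
    rw [HahnSeries.coeff_zero]
    exact (map_eq_zero_iff (σ : K →+* K) σ.injective).mp this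
  apply le_antisymm
  · apply HahnSeries.order_le_of_coeff_ne_zero
    rw [coeffMap_coeff]
    intro h
    exact hx (HahnSeries.coeff_order_eq_zero.mp
      ((map_eq_zero_iff (σ : K →+* K) σ.injective).mp h))
  · apply HahnSeries.order_le_of_coeff_ne_zero
    intro h
    have h2 : (coeffMap (σ : K →+* K) x).coeff (coeffMap (σ : K →+* K) x).order = 0 := by
      rw [coeffMap_coeff, h, map_zero]
    exact hx' (HahnSeries.coeff_order_eq_zero.mp h2)

/-- the chart system twisted by a semilinear automorphism. -/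
def s17g_twist (X : s17_Charts K F) (γ : SemilinearAut K F) : s17_Charts K F where
  exp Q := (coeffMap (SemilinearAut.baseAut γ : K →+* K)).comp
    ((X.exp (γ⁻¹ • Q)).comp ((SemilinearAut.toRingAut γ⁻¹ : F ≃+* F) : F →+* F))
  exp_alg Q c := by
    show coeffMap (SemilinearAut.baseAut γ : K →+* K)
      (X.exp (γ⁻¹ • Q) (SemilinearAut.toRingAut γ⁻¹ (algebraMap K F c))) = HahnSeries.C c
    rw [SemilinearAut.commutes, X.exp_alg, HahnSeries.C_apply, coeffMap_single,
      HahnSeries.C_apply, SemilinearAut.baseAut_inv]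
    congr 1
    exact RingEquiv.apply_symm_apply _ c
  exp_ord Q f hf := by
    show (coeffMap (SemilinearAut.baseAut γ : K →+* K)
      (X.exp (γ⁻¹ • Q) (SemilinearAut.toRingAut γ⁻¹ f))).order = Q.ord f
    rw [s17g_order_coeffMap]
    have hf' : SemilinearAut.toRingAut γ⁻¹ f ≠ 0 := by
      rw [Ne, map_eq_zero_iff _ (SemilinearAut.toRingAut γ⁻¹).injective]; exact hf
    rw [X.exp_ord _ _ hf']
    exact SemilinearAut.ord_smul γ⁻¹ Q f

theorem s17g_twist_exp_smul (X : s17_Charts K F) (γ : SemilinearAut K F) (P : Place K F) (f : F) :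
    (s17g_twist X γ).exp (γ • P) (γ • f)
      = coeffMap (SemilinearAut.baseAut γ : K →+* K) (X.exp P f) := by
  show coeffMap (SemilinearAut.baseAut γ : K →+* K)
    (X.exp (γ⁻¹ • γ • P) (γ⁻¹ • γ • f)) = _
  rw [inv_smul_smul, inv_smul_smul]

theorem s17g_rank_smul (γ : SemilinearAut K F) {n : ℕ} (B : Fin n → Place K F) (j : Fin n) :
    s17_rank (fun j => γ • B j) j = s17_rank B j := by
  unfold s17_rank
  congr 1
  ext j'
  simp only [Finset.mem_filter, Finset.mem_univ, true_and]
  constructor
  · rintro ⟨h1, h2⟩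
    exact ⟨h1, MulAction.injective γ h2⟩
  · rintro ⟨h1, h2⟩
    exact ⟨h1, congrArg (γ • ·) h2⟩

/-- **Galois transport of confluent determinants.** -/
theorem s17g_map_cdet (X : s17_Charts K F) (γ : SemilinearAut K F) {n : ℕ} (D : Divisor K F)
    (B : Fin n → Place K F) (f : Fin n → F) :
    SemilinearAut.baseAut γ (s17_cdet X D B f)
      = s17_cdet (s17g_twist X γ) (γ • D) (fun j => γ • B j) (fun k => γ • f k) := by
  unfold s17_cdet
  have h := RingHom.map_det (SemilinearAut.baseAut γ : K →+* K) (s17_conf X D B f)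
  rw [show (SemilinearAut.baseAut γ) (s17_conf X D B f).det
    = (SemilinearAut.baseAut γ : K →+* K) (s17_conf X D B f).det from rfl, h]
  congr 1
  ext j k
  rw [RingHom.mapMatrix_apply, Matrix.map_apply]
  unfold s17_conf
  rw [s17g_twist_exp_smul, s17g_rank_smul, SemilinearAut.divisor_smul_apply_smul, coeffMap_coeff]

/-- Galois transport of block values. -/
theorem s17g_map_val (X : s17_Charts K F) (γ : SemilinearAut K F) {m : ℕ} (b : s17_Blk K F m)
    (hb : γ • b.D = b.D ∧ ∀ k, k < b.S.card → γ • b.f k = b.f k)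
    (A : Fin m → Place K F) (π : Equiv.Perm (Fin m)) (hA : ∀ i, γ • A i = A (π i)) :
    SemilinearAut.baseAut γ (b.val X A) = b.val (s17g_twist X γ) (fun i => A (π i)) := by
  unfold s17_Blk.val
  rw [s17g_map_cdet, hb.1]
  congr 1
  · funext j
    exact hA _
  · funext k
    exact hb.2 k k.2

/-- Galois transport of section values. -/
theorem s17g_map_secVal (X : s17_Charts K F) (γ : SemilinearAut K F) {m : ℕ}
    (l : List (s17_Blk K F m))
    (hl : ∀ b ∈ l, γ • b.D = b.D ∧ ∀ k, k < b.S.card → γ • b.f k = b.f k)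
    (A : Fin m → Place K F) (π : Equiv.Perm (Fin m)) (hA : ∀ i, γ • A i = A (π i)) :
    SemilinearAut.baseAut γ (s17_secVal X l A)
      = s17_secVal (s17g_twist X γ) l (fun i => A (π i)) := by
  unfold s17_secVal
  rw [map_list_prod, List.map_map]
  congr 1
  apply List.map_congr_left
  intro b hb
  exact s17g_map_val X γ b (hl b hb) A π hA

end Fermat.Agent.Lib.S17
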