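/-
Programme MW (S17), brick [GALVAL] — part 4 (helper4): PERMUTING THE TUPLE.
`cdet X D (B ∘ π) f = ε(B, π) · cdet X D B f`, where `ε(B, π) = (-1)^#{pairs j' < j in different
clusters of B ∘ π which are inverted by π}` (`s17g_eps`).  Proof: induction over adjacent
transpositions and the cocycle identity `ε(c, f·g) = ε(c, f)·ε(c ∘ f, g)`.
-/
import Fermat.Agent.Lib.S17.GTwist

set_option autoImplicit false

noncomputable section

namespace Fermat.Agent.Lib.S17

open AlgebraicCurve Classical Equiv Equiv.Perm

variable {K F : Type} [Field K] [Field F] [Algebra K F]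

/-! ### the sign -/

/-- the parity of the number of pairs of indices lying in different clusters of `c ∘ π` which
are inverted by `π`. -/
def s17g_eps {α : Type*} {n : ℕ} (c : Fin n → α) (π : Perm (Fin n)) : ℤˣ :=
  ∏ x ∈ finPairsLT n, if c (π x.1) ≠ c (π x.2) ∧ π x.1 ≤ π x.2 then -1 else 1

theorem s17g_eps_one {α : Type*} {n : ℕ} (c : Fin n → α) : s17g_eps c (1 : Perm (Fin n)) = 1 := by
  unfold s17g_eps
  apply Finset.prod_eq_one
  intro x hx
  rw [if_neg]
  rintro ⟨-, h⟩
  exact absurd (mem_finPairsLT.1 hx) (not_lt.mpr h)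

/-- the cocycle identity. -/
theorem s17g_eps_mul {α : Type*} {n : ℕ} (c : Fin n → α) (f g : Perm (Fin n)) :
    s17g_eps c (f * g) = s17g_eps c f * s17g_eps (fun j => c (f j)) g := by
  unfold s17g_eps
  have h1 : ∏ x ∈ finPairsLT n,
      (fun y : (Σ _ : Fin n, Fin n) =>
        (if c (f y.1) ≠ c (f y.2) ∧ f y.1 ≤ f y.2 then (-1 : ℤˣ) else 1)) (signBijAux g x)
      = ∏ y ∈ finPairsLT n, if c (f y.1) ≠ c (f y.2) ∧ f y.1 ≤ f y.2 then (-1 : ℤˣ) else 1 :=
    Finset.prod_nbij (signBijAux g) signBijAux_mem signBijAux_injOn signBijAux_surj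
      (fun _ _ => rfl)
  rw [← h1, ← Finset.prod_mul_distrib]
  refine Finset.prod_congr rfl ?_
  rintro ⟨a, b⟩ hab
  rw [mem_finPairsLT] at hab
  simp only at hab
  dsimp only [signBijAux]
  rw [mul_apply, mul_apply]
  by_cases hg : g b < g a
  · rw [dif_pos hg]
    have : ¬ g a ≤ g b := not_le.mpr hg
    simp [this]
  · rw [dif_neg hg]
    have hne : g a ≠ g b := fun h => hab.ne' (g.injective h)
    have hga : g a ≤ g b := not_lt.mp hg
    have hfne : f (g a) ≠ f (g b) := fun h => hne (f.injective h)
    by_cases hc : c (f (g a)) = c (f (g b))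
    · simp [hc]
    · have hc' : c (f (g b)) ≠ c (f (g a)) := fun h => hc h.symm
      rcases lt_or_gt_of_ne hfne with hlt | hlt
      · have h2 : ¬ f (g b) ≤ f (g a) := not_le.mpr hlt
        simp [hc, hc', hga, hlt.le, h2]
      · have h2 : ¬ f (g a) ≤ f (g b) := not_le.mpr hlt
        simp [hc, hc', hga, hlt.le, h2]

/-- an adjacent transposition preserves the order of every pair but one. -/
theorem s17g_swap_lt {n : ℕ} (k : Fin n) {x y : Fin (n + 1)} (hxy : x < y)
    (hne : ¬ (x = k.castSucc ∧ y = k.succ)) :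
    swap k.castSucc k.succ x < swap k.castSucc k.succ y := by
  rw [swap_apply_def, swap_apply_def]
  split_ifs with h1 h2 h3 h4 h5 h6 <;>
    simp only [Fin.lt_def, Fin.ext_iff, Fin.val_castSucc, Fin.val_succ] at * <;> omega

/-- the sign of an adjacent transposition. -/
theorem s17g_eps_swap {α : Type*} {n : ℕ} (c : Fin (n + 1) → α) (k : Fin n) :
    s17g_eps c (swap k.castSucc k.succ) = if c k.castSucc ≠ c k.succ then -1 else 1 := by
  unfold s17g_eps
  rw [Finset.prod_eq_single (⟨k.succ, k.castSucc⟩ : Σ _ : Fin (n + 1), Fin (n + 1))]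
  · simp only [swap_apply_right, swap_apply_left]
    have : k.castSucc ≤ k.succ := by
      rw [Fin.le_def, Fin.val_castSucc, Fin.val_succ]; omega
    simp [this]
  · rintro ⟨x, y⟩ hxy hne
    rw [mem_finPairsLT] at hxy
    simp only at hxy
    rw [if_neg]
    rintro ⟨-, hle⟩
    have := s17g_swap_lt k hxy (by
      rintro ⟨rfl, rfl⟩
      exact hne rfl)
    exact absurd this (not_lt.mpr hle)
  · intro h
    exfalso
    apply h
    rw [mem_finPairsLT]
    show k.castSucc < k.succ
    rw [Fin.lt_def, Fin.val_castSucc, Fin.val_succ]; omega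

/-! ### adjacent transpositions and the confluent determinant -/

theorem s17g_rank_swap {n : ℕ} (B : Fin (n + 1) → Place K F) (k : Fin n)
    (hB : B k.castSucc ≠ B k.succ) (j : Fin (n + 1)) :
    s17_rank (fun j => B (swap k.castSucc k.succ j)) j = s17_rank B (swap k.castSucc k.succ j) := by
  unfold s17_rank
  apply Finset.card_equiv (swap k.castSucc k.succ)
  intro j'
  simp only [Finset.mem_filter, Finset.mem_univ, true_and]
  have key : ∀ x y : Fin (n + 1), B (swap k.castSucc k.succ x) = B (swap k.castSucc k.succ y) →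
      x < y → swap k.castSucc k.succ x < swap k.castSucc k.succ y := by
    intro x y hxy hlt
    apply s17g_swap_lt k hlt
    rintro ⟨rfl, rfl⟩
    rw [swap_apply_left, swap_apply_right] at hxy
    exact hB hxy.symm
  constructor
  · rintro ⟨h1, h2⟩
    exact ⟨key _ _ h2 h1, h2⟩
  · rintro ⟨h1, h2⟩
    refine ⟨?_, h2⟩
    by_contra hnot
    rcases eq_or_lt_of_le (not_lt.mp hnot) with h | h
    · rw [h] at h1
      exact lt_irrefl _ h1
    · exact lt_asymm h1 (key _ _ h2.symm h)

theorem s17g_cdet_swap (X : s17_Charts K F) (D : Divisor K F) {n : ℕ}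
    (B : Fin (n + 1) → Place K F) (f : Fin (n + 1) → F) (k : Fin n) :
    s17_cdet X D (fun j => B (swap k.castSucc k.succ j)) f
      = (((if B k.castSucc ≠ B k.succ then -1 else 1 : ℤˣ) : ℤ) : K) * s17_cdet X D B f := by
  by_cases hB : B k.castSucc = B k.succ
  · have : (fun j => B (swap k.castSucc k.succ j)) = B := by
      funext j
      rw [swap_apply_def]
      split_ifs with h1 h2
      · rw [h1, hB]
      · rw [h2, hB]
      · rfl
    rw [this]
    simp [hB]
  · rw [if_pos hB]
    unfold s17_cdet
    have : s17_conf X D (fun j => B (swap k.castSucc k.succ j)) f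
        = (s17_conf X D B f).submatrix (swap k.castSucc k.succ) id := by
      ext j l
      rw [Matrix.submatrix_apply]
      unfold s17_conf
      rw [s17g_rank_swap B k hB j]
      rfl
    rw [this, Matrix.det_permute, sign_swap]
    rw [Fin.ne_iff_vne, Fin.val_castSucc, Fin.val_succ]
    omega

/-- **permuting the tuple.** -/
theorem s17g_cdet_perm (X : s17_Charts K F) (D : Divisor K F) {n : ℕ} (π : Perm (Fin n))
    (B : Fin n → Place K F) (f : Fin n → F) :
    s17_cdet X D (fun j => B (π j)) f = ((s17g_eps B π : ℤˣ) : ℤ) * s17_cdet X D B f := by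
  rcases n with _ | n
  · have : π = 1 := Subsingleton.elim _ _
    subst this
    rw [s17g_eps_one]
    simp
  have hπ : π ∈ Submonoid.closure (Set.range fun i : Fin n => swap i.castSucc i.succ) := by
    rw [mclosure_swap_castSucc_succ]; trivial
  induction hπ using Submonoid.closure_induction_right generalizing B with
  | one =>
    rw [s17g_eps_one]
    simp
  | mul_right x hx y hy ih =>
    obtain ⟨k, rfl⟩ := hy
    have h1 := s17g_cdet_swap X D (fun j => B (x j)) f k
    have h2 : (fun j => B ((x * swap k.castSucc k.succ) j))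
        = fun j => B (x (swap k.castSucc k.succ j)) := rfl
    rw [h2, h1, ih B, s17g_eps_mul, s17g_eps_swap]
    push_cast
    ring

end Fermat.Agent.Lib.S17
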