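/-
Programme MW (S17), brick [GALVAL] — part 5 (helper4): TYPE-DETERMINED FACTORS.
If every block `b` of a section contributes a factor of the shape
`∏_{i ∈ S} α i D · ∏_{i' < i ∈ S} β i' i` (with `α i` multiplicative in `D` and `β` independent of
the block) then the factor of the section depends only on its type (`s17_tyD`, `s17_tyM`).
-/
import Fermat.Agent.Lib.S17.GPerm

set_option autoImplicit false

noncomputable section

namespace Fermat.Agent.Lib.S17

open AlgebraicCurve Classical

variable {K F : Type} [Field K] [Field F] [Algebra K F]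

theorem s17g_tyD_cons {m : ℕ} (b : s17_Blk K F m) (l : List (s17_Blk K F m)) (i : Fin m) :
    s17_tyD (b :: l) i = (if i ∈ b.S then b.D else 0) + s17_tyD l i := by
  unfold s17_tyD
  rw [List.filter_cons]
  by_cases h : i ∈ b.S
  · simp [h]
  · simp [h]

theorem s17g_tyM_cons {m : ℕ} (b : s17_Blk K F m) (l : List (s17_Blk K F m)) (i j : Fin m) :
    s17_tyM (b :: l) i j = (if i ∈ b.S ∧ j ∈ b.S then 1 else 0) + s17_tyM l i j := by
  unfold s17_tyM
  rw [List.filter_cons]
  by_cases h : i ∈ b.S ∧ j ∈ b.S
  · simp [h, add_comm]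
  · simp [h]

/-- the factor of a block. -/
def s17g_fac {m : ℕ} (α : Fin m → Divisor K F → K) (β : Fin m → Fin m → K)
    (b : s17_Blk K F m) : K :=
  (∏ i ∈ b.S, α i b.D) * ∏ i ∈ b.S, ∏ i' ∈ b.S.filter (· < i), β i' i

/-- **the factor of a section depends only on its type.** -/
theorem s17g_prod_fac {m : ℕ} (α : Fin m → Divisor K F → K) (hα0 : ∀ i, α i 0 = 1)
    (hα : ∀ i D D', α i (D + D') = α i D * α i D') (β : Fin m → Fin m → K)
    (l : List (s17_Blk K F m)) :
    (l.map (s17g_fac α β)).prod
      = (∏ i, α i (s17_tyD l i))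
        * ∏ i, ∏ i' ∈ Finset.univ.filter (· < i), β i' i ^ s17_tyM l i' i := by
  induction l with
  | nil =>
    simp [s17_tyD, s17_tyM, hα0]
  | cons b l ih =>
    rw [List.map_cons, List.prod_cons, ih]
    have h1 : ∏ i, α i (s17_tyD (b :: l) i)
        = (∏ i ∈ b.S, α i b.D) * ∏ i, α i (s17_tyD l i) := by
      have e : ∀ i, α i (s17_tyD (b :: l) i)
          = (if i ∈ b.S then α i b.D else 1) * α i (s17_tyD l i) := by
        intro i
        rw [s17g_tyD_cons, hα]
        by_cases h : i ∈ b.S
        · rw [if_pos h, if_pos h]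
        · rw [if_neg h, if_neg h, hα0]
      rw [Finset.prod_congr rfl (fun i _ => e i), Finset.prod_mul_distrib, Finset.prod_ite_mem,
        Finset.univ_inter]
    have h2 : ∏ i, ∏ i' ∈ Finset.univ.filter (· < i), β i' i ^ s17_tyM (b :: l) i' i
        = (∏ i ∈ b.S, ∏ i' ∈ b.S.filter (· < i), β i' i)
          * ∏ i, ∏ i' ∈ Finset.univ.filter (· < i), β i' i ^ s17_tyM l i' i := by
      have e : ∀ i, ∏ i' ∈ Finset.univ.filter (· < i), β i' i ^ s17_tyM (b :: l) i' i
          = (if i ∈ b.S then ∏ i' ∈ b.S.filter (· < i), β i' i else 1)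
            * ∏ i' ∈ Finset.univ.filter (· < i), β i' i ^ s17_tyM l i' i := by
        intro i
        have e' : ∀ i', β i' i ^ s17_tyM (b :: l) i' i
            = (if i' ∈ b.S then (if i ∈ b.S then β i' i else 1) else 1)
              * β i' i ^ s17_tyM l i' i := by
          intro i'
          rw [s17g_tyM_cons, pow_add]
          by_cases h1 : i' ∈ b.S
          · by_cases h2 : i ∈ b.S
            · simp [h1, h2]
            · simp [h1, h2]
          · simp [h1]
        rw [Finset.prod_congr rfl (fun i' _ => e' i'), Finset.prod_mul_distrib,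
          Finset.prod_ite_mem]
        congr 1
        by_cases h : i ∈ b.S
        · rw [if_pos h]
          simp only [if_pos h]
          apply Finset.prod_congr _ (fun _ _ => rfl)
          ext i'
          simp only [Finset.mem_inter, Finset.mem_filter, Finset.mem_univ, true_and]
          tauto
        · rw [if_neg h]
          simp only [if_neg h]
          exact Finset.prod_const_one
      rw [Finset.prod_congr rfl (fun i _ => e i), Finset.prod_mul_distrib, Finset.prod_ite_mem,
        Finset.univ_inter]
    rw [h1, h2]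
    unfold s17g_fac
    ring

/-- sections of the same type have the same factor. -/
theorem s17g_prod_fac_congr {m : ℕ} (α : Fin m → Divisor K F → K) (hα0 : ∀ i, α i 0 = 1)
    (hα : ∀ i D D', α i (D + D') = α i D * α i D') (β : Fin m → Fin m → K)
    {l l' : List (s17_Blk K F m)} (h : s17_SameTy l l') :
    (l.map (s17g_fac α β)).prod = (l'.map (s17g_fac α β)).prod := by
  rw [s17g_prod_fac α hα0 hα, s17g_prod_fac α hα0 hα]
  congr 1
  · exact Finset.prod_congr rfl fun i _ => by rw [h.1 i]
  · refine Finset.prod_congr rfl fun i _ => Finset.prod_congr rfl fun i' hi' => ?_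
    rw [Finset.mem_filter] at hi'
    rw [h.2 i' i (ne_of_lt hi'.2)]

end Fermat.Agent.Lib.S17
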