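/-
Programme MW (S17), brick [GALVAL] — part 6 (helper4): THE FACTOR OF ONE BLOCK.
For a block `b` (functions in `L(D)`, support `S` stable under `π`), two chart systems `X`, `X'`
related by the local units `u`:
`b.val X' (A ∘ π) = (∏_{i ∈ S} u(A i)^(-D(A i)) · ∏_{i' < i ∈ S} β i' i) · b.val X A`,
`β i' i = (u(A i) if A i' = A i) · (-1 if A(π i) ≠ A(π i') and π i ≤ π i')`.
-/
import Fermat.Agent.Lib.S17.GType

set_option autoImplicit false

noncomputable section

namespace Fermat.Agent.Lib.S17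

open AlgebraicCurve Classical Equiv Equiv.Perm

variable {K F : Type} [Field K] [Field F] [Algebra K F]

/-! ### reindexing products along `orderEmbOfFin` -/

theorem s17g_prod_emb {m : ℕ} (S : Finset (Fin m)) (G : Fin m → K) :
    ∏ j : Fin S.card, G (S.orderEmbOfFin rfl j) = ∏ i ∈ S, G i := by
  conv_rhs => rw [← Finset.map_orderEmbOfFin_univ S rfl]
  rw [Finset.prod_map]
  rfl

theorem s17g_prod_emb₂ {m : ℕ} (S : Finset (Fin m)) (G : Fin m → Fin m → K) :
    ∏ j : Fin S.card, ∏ j' ∈ Finset.univ.filter (· < j),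
        G (S.orderEmbOfFin rfl j') (S.orderEmbOfFin rfl j)
      = ∏ i ∈ S, ∏ i' ∈ S.filter (· < i), G i' i := by
  rw [← s17g_prod_emb S (fun i => ∏ i' ∈ S.filter (· < i), G i' i)]
  refine Finset.prod_congr rfl fun j _ => ?_
  have : S.filter (· < S.orderEmbOfFin rfl j)
      = (Finset.univ.filter (· < j)).map (S.orderEmbOfFin rfl).toEmbedding := by
    ext i'
    simp only [Finset.mem_filter, Finset.mem_map, Finset.mem_univ, true_and,
      RelEmbedding.coe_toEmbedding]
    constructor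
    · rintro ⟨h1, h2⟩
      have : i' ∈ Set.range (S.orderEmbOfFin rfl) := by
        rw [Finset.range_orderEmbOfFin]; exact h1
      obtain ⟨j', rfl⟩ := this
      exact ⟨j', (S.orderEmbOfFin rfl).lt_iff_lt.mp h2, rfl⟩
    · rintro ⟨j', h1, rfl⟩
      exact ⟨Finset.orderEmbOfFin_mem S rfl j', (S.orderEmbOfFin rfl).lt_iff_lt.mpr h1⟩
  rw [this, Finset.prod_map]
  rfl

/-! ### the rank product and the sign as double products -/

theorem s17g_prod_rank {n : ℕ} (B : Fin n → Place K F) (u : Place K F → K) :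
    ∏ j, u (B j) ^ ((s17_rank B j : ℕ) : ℤ)
      = ∏ j, ∏ j' ∈ Finset.univ.filter (· < j), if B j' = B j then u (B j) else 1 := by
  refine Finset.prod_congr rfl fun j _ => ?_
  rw [zpow_natCast, Finset.prod_ite, Finset.prod_const_one, mul_one, Finset.prod_const,
    Finset.filter_filter]
  rfl

theorem s17g_eps_cast {n : ℕ} (c : Fin n → Place K F) (π : Perm (Fin n)) :
    (((s17g_eps c π : ℤˣ) : ℤ) : K)
      = ∏ j, ∏ j' ∈ Finset.univ.filter (· < j),
          if c (π j) ≠ c (π j') ∧ π j ≤ π j' then (-1 : K) else 1 := by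
  unfold s17g_eps finPairsLT
  rw [Finset.prod_sigma, Units.coe_prod, Int.cast_prod]
  refine Finset.prod_congr rfl fun j _ => ?_
  rw [Units.coe_prod, Int.cast_prod]
  have : (Finset.range j).attachFin (fun _ hm => (Finset.mem_range.1 hm).trans j.2)
      = Finset.univ.filter (· < j) := by
    ext j'
    simp only [Finset.mem_attachFin, Finset.mem_range, Finset.mem_filter, Finset.mem_univ,
      true_and, Fin.lt_def]
  rw [this]
  refine Finset.prod_congr rfl fun j' _ => ?_
  by_cases h : c (π j) ≠ c (π j') ∧ π j ≤ π j'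
  · rw [if_pos h, if_pos h]
    simp
  · rw [if_neg h, if_neg h]
    simp

/-! ### the permutation induced on the support of a block -/

/-- the permutation of `Fin |S|` induced by a permutation of `Fin m` stabilising `S`. -/
def s17g_permS {m : ℕ} (S : Finset (Fin m)) (π : Perm (Fin m)) (hS : ∀ i, i ∈ S ↔ π i ∈ S) :
    Perm (Fin S.card) :=
  (S.orderIsoOfFin rfl).toEquiv.trans
    ((π.subtypePerm fun x => (hS x).symm).trans (S.orderIsoOfFin rfl).symm.toEquiv)

theorem s17g_permS_spec {m : ℕ} (S : Finset (Fin m)) (π : Perm (Fin m))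
    (hS : ∀ i, i ∈ S ↔ π i ∈ S) (j : Fin S.card) :
    S.orderEmbOfFin rfl (s17g_permS S π hS j) = π (S.orderEmbOfFin rfl j) := by
  unfold s17g_permS
  rw [← Finset.coe_orderIsoOfFin_apply, ← Finset.coe_orderIsoOfFin_apply]
  simp [Equiv.trans_apply]

/-- the pair factor. -/
def s17g_beta {m : ℕ} (u : Place K F → K) (A : Fin m → Place K F) (π : Perm (Fin m))
    (i' i : Fin m) : K :=
  (if A i' = A i then u (A i) else 1)
    * (if A (π i) ≠ A (π i') ∧ π i ≤ π i' then (-1 : K) else 1)

/-- the divisor factor. -/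
def s17g_alpha {m : ℕ} (u : Place K F → K) (A : Fin m → Place K F) (i : Fin m)
    (D : Divisor K F) : K :=
  u (A i) ^ (-(D (A i)))

theorem s17g_alpha_zero {m : ℕ} (u : Place K F → K) (A : Fin m → Place K F) (i : Fin m) :
    s17g_alpha u A i 0 = 1 := by
  unfold s17g_alpha
  simp

theorem s17g_alpha_add {m : ℕ} (u : Place K F → K) (hu0 : ∀ P, u P ≠ 0) (A : Fin m → Place K F)
    (i : Fin m) (D D' : Divisor K F) :
    s17g_alpha u A i (D + D') = s17g_alpha u A i D * s17g_alpha u A i D' := by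
  unfold s17g_alpha
  rw [Finsupp.add_apply, neg_add, zpow_add₀ (hu0 _)]

/-- **the factor of one block.** -/
theorem s17g_val_perm_chart (X X' : s17_Charts K F) (u : Place K F → K) (hu0 : ∀ P, u P ≠ 0)
    (hu : ∀ (n : ℕ) (D : Divisor K F) (B : Fin n → Place K F) (f : Fin n → F),
      (∀ k, f k ∈ riemannRochSpace D) →
      s17_cdet X' D B f
        = (∏ j, u (B j) ^ (-(D (B j)) + (s17_rank B j : ℤ))) * s17_cdet X D B f)
    {m : ℕ} (b : s17_Blk K F m) (hb : b.Ok) (A : Fin m → Place K F) (π : Perm (Fin m))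
    (hS : ∀ i, i ∈ b.S ↔ π i ∈ b.S) :
    b.val X' (fun i => A (π i))
      = s17g_fac (s17g_alpha u A) (s17g_beta u A π) b * b.val X A := by
  unfold s17_Blk.val
  set emb := b.S.orderEmbOfFin rfl with hemb
  set B : Fin b.S.card → Place K F := fun j => A (emb j) with hB
  have e1 : (fun j : Fin b.S.card => A (π (emb j)))
      = fun j => B (s17g_permS b.S π hS j) := by
    funext j
    rw [hB]
    simp only
    rw [hemb, s17g_permS_spec]
  rw [e1, s17g_cdet_perm X' b.D (s17g_permS b.S π hS) B,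
    hu _ b.D B _ (fun k => hb k k.2), ← mul_assoc]
  congr 1
  -- the three products
  have h1 : ∏ j, u (B j) ^ (-(b.D (B j)) + (s17_rank B j : ℤ))
      = (∏ j, u (B j) ^ (-(b.D (B j)))) * ∏ j, u (B j) ^ ((s17_rank B j : ℕ) : ℤ) := by
    rw [← Finset.prod_mul_distrib]
    exact Finset.prod_congr rfl fun j _ => zpow_add₀ (hu0 _) _ _
  have h2 : ∏ j, u (B j) ^ (-(b.D (B j))) = ∏ i ∈ b.S, s17g_alpha u A i b.D :=
    s17g_prod_emb b.S (fun i => s17g_alpha u A i b.D)
  have h3 : ∏ j, u (B j) ^ ((s17_rank B j : ℕ) : ℤ)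
      = ∏ i ∈ b.S, ∏ i' ∈ b.S.filter (· < i), if A i' = A i then u (A i) else 1 := by
    rw [s17g_prod_rank]
    exact s17g_prod_emb₂ b.S (fun i' i => if A i' = A i then u (A i) else 1)
  have h4 : (((s17g_eps B (s17g_permS b.S π hS) : ℤˣ) : ℤ) : K)
      = ∏ i ∈ b.S, ∏ i' ∈ b.S.filter (· < i),
          if A (π i) ≠ A (π i') ∧ π i ≤ π i' then (-1 : K) else 1 := by
    rw [s17g_eps_cast]
    rw [← s17g_prod_emb₂ b.S
      (fun i' i => if A (π i) ≠ A (π i') ∧ π i ≤ π i' then (-1 : K) else 1)]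
    refine Finset.prod_congr rfl fun j _ => Finset.prod_congr rfl fun j' _ => ?_
    have a1 : B (s17g_permS b.S π hS j) = A (π (emb j)) := by
      rw [hB]; simp only; rw [hemb, s17g_permS_spec]
    have a2 : B (s17g_permS b.S π hS j') = A (π (emb j')) := by
      rw [hB]; simp only; rw [hemb, s17g_permS_spec]
    have a3 : s17g_permS b.S π hS j ≤ s17g_permS b.S π hS j' ↔ π (emb j) ≤ π (emb j') := by
      rw [← s17g_permS_spec b.S π hS j, ← s17g_permS_spec b.S π hS j']
      exact (b.S.orderEmbOfFin rfl).le_iff_le.symm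
    rw [a1, a2]
    simp only [a3]
    rfl
  rw [h1, h2, h3, h4]
  unfold s17g_fac s17g_beta
  simp only [Finset.prod_mul_distrib]
  ring

end Fermat.Agent.Lib.S17
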