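/-
Programme MW (S17), brick [GALVAL] — final part (helper4): `s17g_galVal : s17_GalVal`.
`σ(secVal X l A) = secVal X^γ l (A ∘ π)` (Galois transport, `GTwist`), every block of
`secVal X^γ l (A ∘ π)` differs from the block of `secVal X l A` by the factor `s17g_fac α β b`
(`GBlock`: permutation of the tuple `GPerm` + change of chart `GRank`/`GChart`), and the product of
these factors over a section depends only on its type (`GType`).
-/
import Fermat.Agent.Lib.S17.GBlock

set_option autoImplicit false

noncomputable section

namespace Fermat.Agent.Lib.S17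

open AlgebraicCurve Classical Equiv Equiv.Perm

/-- **[GALVAL]** Galois equivariance of chart values. -/
theorem s17g_galVal : s17_GalVal := by
  intro K F _ _ _ _ g hC X γ m ι _ s hOk hTy hfix A π hA hS
  obtain ⟨u, hu0, hu⟩ := s17g_cdet_chart X (s17g_twist X γ)
  have key : ∀ a, SemilinearAut.baseAut γ (s17_secVal X (s a) A)
      = ((s a).map (s17g_fac (s17g_alpha u A) (s17g_beta u A π))).prod
        * s17_secVal X (s a) A := by
    intro a
    rw [s17g_map_secVal X γ (s a) (hfix a) A π hA]
    unfold s17_secVal
    rw [← List.prod_map_mul]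
    congr 1
    apply List.map_congr_left
    intro b hb
    exact s17g_val_perm_chart X _ u hu0 hu b (hOk a b hb) A π (hS a b hb)
  rcases isEmpty_or_nonempty ι with hι | ⟨⟨a₀⟩⟩
  · exact ⟨0, fun a => (hι.false a).elim⟩
  · refine ⟨((s a₀).map (s17g_fac (s17g_alpha u A) (s17g_beta u A π))).prod, fun a => ?_⟩
    rw [key a, s17g_prod_fac_congr _ (s17g_alpha_zero u A) (s17g_alpha_add u hu0 A) _ (hTy a a₀)]

end Fermat.Agent.Lib.S17
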