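/-
Programme MW (S17), height half, assembly (helper6, prefix `s17h_`): basic API for sections,
types and the theta sections.
-/
import Fermat.Agent.Lib.S17.Iface

set_option autoImplicit false

noncomputable section

namespace Fermat.Agent.Lib.S17

open AlgebraicCurve Fermat.Agent.Lib.S19

variable {K F : Type} [Field K] [Field F] [Algebra K F]

/-! ### sections: values and types of concatenations -/

theorem s17h_secVal_nil (X : s17_Charts K F) {m : ℕ} (A : Fin m → Place K F) :
    s17_secVal X ([] : List (s17_Blk K F m)) A = 1 := by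
  simp [s17_secVal]

theorem s17h_secVal_cons (X : s17_Charts K F) {m : ℕ} (b : s17_Blk K F m)
    (l : List (s17_Blk K F m)) (A : Fin m → Place K F) :
    s17_secVal X (b :: l) A = b.val X A * s17_secVal X l A := by
  simp [s17_secVal]

theorem s17h_secVal_append (X : s17_Charts K F) {m : ℕ} (l l' : List (s17_Blk K F m))
    (A : Fin m → Place K F) :
    s17_secVal X (l ++ l') A = s17_secVal X l A * s17_secVal X l' A := by
  simp [s17_secVal]

theorem s17h_tyD_append {m : ℕ} (l l' : List (s17_Blk K F m)) (i : Fin m) :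
    s17_tyD (l ++ l') i = s17_tyD l i + s17_tyD l' i := by
  simp [s17_tyD]

theorem s17h_tyM_append {m : ℕ} (l l' : List (s17_Blk K F m)) (i j : Fin m) :
    s17_tyM (l ++ l') i j = s17_tyM l i j + s17_tyM l' i j := by
  simp [s17_tyM]

theorem s17h_sameTy_refl {m : ℕ} (l : List (s17_Blk K F m)) : s17_SameTy l l :=
  ⟨fun _ => rfl, fun _ _ _ => rfl⟩

theorem s17h_sameTy_symm {m : ℕ} {l l' : List (s17_Blk K F m)} (h : s17_SameTy l l') :
    s17_SameTy l' l :=
  ⟨fun i => (h.1 i).symm, fun i j hij => (h.2 i j hij).symm⟩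

theorem s17h_sameTy_trans {m : ℕ} {l l' l'' : List (s17_Blk K F m)} (h : s17_SameTy l l')
    (h' : s17_SameTy l' l'') : s17_SameTy l l'' :=
  ⟨fun i => (h.1 i).trans (h'.1 i), fun i j hij => (h.2 i j hij).trans (h'.2 i j hij)⟩

/-! ### the theta sections -/

theorem s17h_cdet_cast (X : s17_Charts K F) {n n' : ℕ} (h : n = n') (D : Divisor K F)
    (A : Fin n' → Place K F) (f : Fin n' → F) :
    s17_cdet X D (fun i : Fin n => A (Fin.cast h i)) (fun k : Fin n => f (Fin.cast h k)) =
      s17_cdet X D A f := by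
  subst h
  rfl

/-- the type of a theta section: total divisor. -/
theorem s17h_tyD_thetaSec {m' : ℕ} (P₀ : Place K F) (g m : ℕ) (T : Fin 3 → Divisor K F)
    (hT : s17_Adm T) (S : Finset (Fin m')) (i : Fin m') :
    s17_tyD (s17_thetaSec P₀ g m T S) i = if i ∈ S then 3 • s17_B P₀ g m else 0 := by
  unfold s17_tyD s17_thetaSec
  by_cases hi : i ∈ S
  · have : (List.ofFn fun j : Fin 3 => s17_thetaBlk P₀ g m T S j).filter
        (fun b => decide (i ∈ b.S)) = List.ofFn fun j : Fin 3 => s17_thetaBlk P₀ g m T S j := by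
      apply List.filter_eq_self.mpr
      intro b hb
      rw [List.mem_ofFn] at hb
      obtain ⟨j, rfl⟩ := hb
      simpa [s17_thetaBlk] using hi
    rw [this, if_pos hi]
    simp only [List.map_ofFn, List.sum_ofFn, Function.comp_def, s17_thetaBlk, Fin.sum_univ_three]
    have h2 := hT.2
    have : s17_B P₀ g m + T 0 + (s17_B P₀ g m + T 1) + (s17_B P₀ g m + T 2) =
        3 • s17_B P₀ g m + (T 0 + T 1 + T 2) := by abel
    rw [this, h2, add_zero]
  · have : (List.ofFn fun j : Fin 3 => s17_thetaBlk P₀ g m T S j).filter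
        (fun b => decide (i ∈ b.S)) = [] := by
      apply List.filter_eq_nil_iff.mpr
      intro b hb
      rw [List.mem_ofFn] at hb
      obtain ⟨j, rfl⟩ := hb
      simpa [s17_thetaBlk] using hi
    rw [this, if_neg hi]
    simp

/-- the type of a theta section: multiplicity of pairs. -/
theorem s17h_tyM_thetaSec {m' : ℕ} (P₀ : Place K F) (g m : ℕ) (T : Fin 3 → Divisor K F)
    (S : Finset (Fin m')) (i j : Fin m') :
    s17_tyM (s17_thetaSec P₀ g m T S) i j = if i ∈ S ∧ j ∈ S then 3 else 0 := by
  unfold s17_tyM s17_thetaSec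
  by_cases hi : i ∈ S ∧ j ∈ S
  · have : (List.ofFn fun j' : Fin 3 => s17_thetaBlk P₀ g m T S j').filter
        (fun b => decide (i ∈ b.S ∧ j ∈ b.S)) =
        List.ofFn fun j' : Fin 3 => s17_thetaBlk P₀ g m T S j' := by
      apply List.filter_eq_self.mpr
      intro b hb
      rw [List.mem_ofFn] at hb
      obtain ⟨j', rfl⟩ := hb
      simpa [s17_thetaBlk] using hi
    rw [this, if_pos hi]
    simp
  · have : (List.ofFn fun j' : Fin 3 => s17_thetaBlk P₀ g m T S j').filter
        (fun b => decide (i ∈ b.S ∧ j ∈ b.S)) = [] := by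
      apply List.filter_eq_nil_iff.mpr
      intro b hb
      rw [List.mem_ofFn] at hb
      obtain ⟨j', rfl⟩ := hb
      simpa [s17_thetaBlk] using hi
    rw [this, if_neg hi]
    simp

/-- the value of a theta block. -/
theorem s17h_val_thetaBlk (X : s17_Charts K F) {m' : ℕ} (P₀ : Place K F) (g m : ℕ)
    (T : Fin 3 → Divisor K F) (S : Finset (Fin m')) (hS : S.card = m) (j : Fin 3)
    (A : Fin m' → Place K F) :
    (s17_thetaBlk P₀ g m T S j).val X A =
      s17_cdet X (s17_B P₀ g m + T j) (fun i : Fin m => A (S.orderEmbOfFin hS i))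
        (s17_basis (s17_B P₀ g m + T j) m) := by
  subst hS
  unfold s17_Blk.val s17_thetaBlk
  simp only
  congr 1
  funext k
  simp [k.2]

/-- the value of a theta section = the theta value at the sub-tuple. -/
theorem s17h_secVal_thetaSec (X : s17_Charts K F) {m' : ℕ} (P₀ : Place K F) (g m : ℕ)
    (T : Fin 3 → Divisor K F) (S : Finset (Fin m')) (hS : S.card = m)
    (A : Fin m' → Place K F) :
    s17_secVal X (s17_thetaSec P₀ g m T S) A =
      s17_thetaVal X P₀ g m T (fun i : Fin m => A (S.orderEmbOfFin hS i)) := by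
  unfold s17_secVal s17_thetaSec s17_thetaVal
  rw [List.map_ofFn, List.prod_ofFn]
  refine Finset.prod_congr rfl fun j _ => ?_
  exact s17h_val_thetaBlk X P₀ g m T S hS j A

/-- theta blocks are `Ok` when the chosen bases exist. -/
theorem s17h_thetaBlk_ok {m' : ℕ} (P₀ : Place K F) (g m : ℕ) (T : Fin 3 → Divisor K F)
    (S : Finset (Fin m')) (j : Fin 3) : (s17_thetaBlk P₀ g m T S j).Ok := by
  intro k _
  unfold s17_thetaBlk
  simp only
  split_ifs with h
  · unfold s17_basis
    split_ifs with h'
    · exact Submodule.coe_mem _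
    · exact Submodule.zero_mem _
  · exact Submodule.zero_mem _

theorem s17h_thetaSec_ok {m' : ℕ} (P₀ : Place K F) (g m : ℕ) (T : Fin 3 → Divisor K F)
    (S : Finset (Fin m')) : ∀ b ∈ s17_thetaSec P₀ g m T S, b.Ok := by
  intro b hb
  unfold s17_thetaSec at hb
  rw [List.mem_ofFn] at hb
  obtain ⟨j, rfl⟩ := hb
  exact s17h_thetaBlk_ok P₀ g m T S j

end Fermat.Agent.Lib.S17
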