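/-
Programme MW (S17), height half, assembly (helper6, prefix `s17h_`): arithmetic of representing
tuples (`s17_Rep`, `s17_LinEq`, `Fin.append`).
-/
import Fermat.Agent.Lib.S17.HBasic

set_option autoImplicit false

noncomputable section

namespace Fermat.Agent.Lib.S17

open AlgebraicCurve Fermat.Agent.Lib.S19

variable {K F : Type} [Field K] [Field F] [Algebra K F]

theorem s17h_div_append {m n : ℕ} (A : Fin m → Place K F) (A' : Fin n → Place K F) :
    s17_div (Fin.append A A') = s17_div A + s17_div A' := by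
  unfold s17_div
  rw [Fin.sum_univ_add]
  simp only [Fin.append_left, Fin.append_right]

theorem s17h_div_const {m : ℕ} (P₀ : Place K F) :
    s17_div (fun _ : Fin m => P₀) = Finsupp.single P₀ (m : ℤ) := by
  unfold s17_div
  rw [Finset.sum_const, Finset.card_univ, Fintype.card_fin, Finsupp.smul_single]
  simp

/-- the sum of two represented classes is represented by the concatenation. -/
theorem s17h_rep_append (P₀ : Place K F) {m n : ℕ} {A : Fin m → Place K F}
    {A' : Fin n → Place K F} {x x' : Pic0 K F} (h : s17_Rep P₀ A x) (h' : s17_Rep P₀ A' x') :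
    s17_Rep P₀ (Fin.append A A') (x + x') := by
  obtain ⟨hd, rfl⟩ := h
  obtain ⟨hd', rfl⟩ := h'
  have key : s17_div (Fin.append A A') - Finsupp.single P₀ ((m + n : ℕ) : ℤ) =
      (s17_div A - Finsupp.single P₀ (m : ℤ)) + (s17_div A' - Finsupp.single P₀ (n : ℤ)) := by
    rw [s17h_div_append, Nat.cast_add, Finsupp.single_add]
    abel
  have hmem : s17_div (Fin.append A A') - Finsupp.single P₀ ((m + n : ℕ) : ℤ) ∈
      Divisor.degZero (K := K) (F := F) := by
    rw [key]
    exact add_mem hd hd'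
  refine ⟨hmem, ?_⟩
  rw [← Pic0.mk_add]
  congr 1
  exact Subtype.ext key

/-- padding with `P₀` does not change the represented class. -/
theorem s17h_rep_pad (P₀ : Place K F) {m : ℕ} (μ : ℕ) {A : Fin m → Place K F} {x : Pic0 K F}
    (h : s17_Rep P₀ A x) : s17_Rep P₀ (Fin.append (fun _ : Fin μ => P₀) A) x := by
  obtain ⟨hd, rfl⟩ := h
  have key : s17_div (Fin.append (fun _ : Fin μ => P₀) A) - Finsupp.single P₀ ((μ + m : ℕ) : ℤ) =
      s17_div A - Finsupp.single P₀ (m : ℤ) := by
    rw [s17h_div_append, s17h_div_const, Nat.cast_add, Finsupp.single_add]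
    abel
  have hmem : s17_div (Fin.append (fun _ : Fin μ => P₀) A) - Finsupp.single P₀ ((μ + m : ℕ) : ℤ) ∈
      Divisor.degZero (K := K) (F := F) := by
    rw [key]; exact hd
  refine ⟨hmem, ?_⟩
  congr 1
  exact Subtype.ext key

/-- two tuples representing the same class are linearly equivalent. -/
theorem s17h_linEq_of_rep (P₀ : Place K F) {m : ℕ} {A A' : Fin m → Place K F} {x : Pic0 K F}
    (h : s17_Rep P₀ A x) (h' : s17_Rep P₀ A' x) : s17_LinEq A A' := by
  obtain ⟨hd, hx⟩ := h
  obtain ⟨hd', hx'⟩ := h'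
  have := hx'.trans hx.symm
  unfold Pic0.mk at this
  rw [QuotientAddGroup.eq] at this
  rw [AddSubgroup.mem_addSubgroupOf] at this
  unfold s17_LinEq
  have h2 : s17_div A' - s17_div A = -(s17_div A' - Finsupp.single P₀ (m : ℤ)) +
      (s17_div A - Finsupp.single P₀ (m : ℤ)) → False ∨ True := fun _ => Or.inr trivial
  have h3 : ((-(⟨s17_div A' - Finsupp.single P₀ (m : ℤ), hd'⟩ :
      ↥(Divisor.degZero (K := K) (F := F))) + ⟨s17_div A - Finsupp.single P₀ (m : ℤ), hd⟩ :
      ↥(Divisor.degZero (K := K) (F := F))) : Divisor K F) = -(s17_div A' - s17_div A) := by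
    simp only [AddSubgroup.coe_add, AddSubgroup.coe_neg]
    abel
  rw [h3] at this
  have := neg_mem this
  rwa [neg_neg] at this

/-- linearly equivalent tuples represent the same class. -/
theorem s17h_rep_of_linEq (P₀ : Place K F) {m : ℕ} {A A' : Fin m → Place K F} {x : Pic0 K F}
    (h : s17_Rep P₀ A x) (h' : s17_LinEq A A') (hpd : HasPrincipalDivisors K F) :
    s17_Rep P₀ A' x := by
  obtain ⟨hd, rfl⟩ := h
  have hdeg : Divisor.degree (s17_div A' - s17_div A) = 0 := by
    obtain ⟨f, hf, hD⟩ := h'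
    obtain ⟨D, hD1, hD2⟩ := hpd.exists_divisor f hf
    have : s17_div A' - s17_div A = D := by
      ext v; rw [hD v, hD1 v]
    rw [this, hD2]
  have key : s17_div A' - Finsupp.single P₀ (m : ℤ) =
      (s17_div A - Finsupp.single P₀ (m : ℤ)) + (s17_div A' - s17_div A) := by abel
  have hmem : s17_div A' - Finsupp.single P₀ (m : ℤ) ∈ Divisor.degZero (K := K) (F := F) := by
    rw [key]
    exact add_mem hd hdeg
  refine ⟨hmem, ?_⟩
  unfold Pic0.mk
  rw [QuotientAddGroup.eq, AddSubgroup.mem_addSubgroupOf]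
  have h3 : ((-(⟨s17_div A' - Finsupp.single P₀ (m : ℤ), hmem⟩ :
      ↥(Divisor.degZero (K := K) (F := F))) + ⟨s17_div A - Finsupp.single P₀ (m : ℤ), hd⟩ :
      ↥(Divisor.degZero (K := K) (F := F))) : Divisor K F) = -(s17_div A' - s17_div A) := by
    simp only [AddSubgroup.coe_add, AddSubgroup.coe_neg]
    abel
  rw [h3]
  exact neg_mem h'

end Fermat.Agent.Lib.S17
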