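/-
Programme MW (S17), height half, assembly (helper6, prefix `s17h_`): rationality over a number
field `E ⊂ ℚ̄` from invariance under `E.fixingSubgroup`.
-/
import Fermat.Agent.Lib.S17.HBasic

set_option autoImplicit false

noncomputable section

namespace Fermat.Agent.Lib.S17

open AlgebraicCurve Fermat.Agent.Lib.S19 Height

local notation "Qb" => AlgebraicClosure ℚ

theorem s17h_isAlgebraic_Qbar : Algebra.IsAlgebraic ℚ Qb := by
  have h0 : (DivisionRing.toRatAlgebra : Algebra ℚ Qb) = AlgebraicClosure.instAlgebra ℚ :=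
    Subsingleton.elim _ _
  have h := AlgebraicClosure.isAlgebraic ℚ
  rw [← h0] at h
  exact h

theorem s17h_isGalois (E : IntermediateField ℚ Qb) : IsGalois ↥E Qb := by
  haveI := s17h_isAlgebraic_Qbar
  haveI : Algebra.IsAlgebraic ↥E Qb := Algebra.IsAlgebraic.tower_top (K := ℚ) ↥E
  haveI : IsAlgClosure ↥E Qb := ⟨inferInstance, inferInstance⟩
  exact IsAlgClosure.isGalois ↥E Qb

/-- a number field structure on a finite-dimensional intermediate field. -/
theorem s17h_numberField (E : IntermediateField ℚ Qb) [FiniteDimensional ℚ ↥E] :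
    NumberField ↥E :=
  { to_charZero := inferInstance, to_finiteDimensional := inferInstance }

/-- invariance up to scalars under `E.fixingSubgroup` ⇒ `E`-rational. -/
theorem s17h_isRat_of_fixing (E : IntermediateField ℚ Qb) {ι : Type*} (z : ι → Qb)
    (h : ∀ σ : Qb ≃ₐ[ℚ] Qb, σ ∈ E.fixingSubgroup →
      ∃ c : Qb, (fun i => σ (z i)) = fun i => c * z i) :
    s17n_IsRat ↥E z := by
  haveI := s17h_isGalois E
  apply s17n_isRat_of_galois
  intro σ
  have hmem : (σ.restrictScalars ℚ) ∈ E.fixingSubgroup := by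
    rw [IntermediateField.mem_fixingSubgroup_iff]
    intro x hx
    exact σ.commutes ⟨x, hx⟩
  obtain ⟨c, hc⟩ := h (σ.restrictScalars ℚ) hmem
  exact ⟨c, hc⟩

end Fermat.Agent.Lib.S17
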