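/-
Programme MW (S17), height half, assembly (helper6, prefix `s17h_`): the HEIGHT MACHINE.
Two base-point-free families of sections of one type, fixed by `Gal(ℚ̄/E)`, have heights (over
the number field `E`) differing by `O(1)` at all tuples which are `Gal(ℚ̄/E)`-stable up to a
permutation preserving the blocks.  Input: `s17_CL`, `s17_GalVal`, helper4's (NS).
-/
import Fermat.Agent.Lib.S17.HRat

set_option autoImplicit false

noncomputable section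

namespace Fermat.Agent.Lib.S17

open AlgebraicCurve Fermat.Agent.Lib.S19 Height

local notation "Qb" => AlgebraicClosure ℚ

variable {F : Type} [Field F] [Algebra Qb F]

/-- the section `l` is fixed by `Gal(ℚ̄/E)`. -/
def s17h_FixedBy (ρ : (Qb ≃ₐ[ℚ] Qb) →* SemilinearAut Qb F) (E : IntermediateField ℚ Qb) {m : ℕ}
    (l : List (s17_Blk Qb F m)) : Prop :=
  ∀ σ ∈ E.fixingSubgroup, ∀ b ∈ l, ρ σ • b.D = b.D ∧ ∀ k, k < b.S.card → ρ σ • b.f k = b.f k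

/-- the tuple `A` is `Gal(ℚ̄/E)`-stable up to permutations preserving the blocks in `𝔅`. -/
def s17h_Stable (ρ : (Qb ≃ₐ[ℚ] Qb) →* SemilinearAut Qb F) (E : IntermediateField ℚ Qb) {m : ℕ}
    (𝔅 : Set (Finset (Fin m))) (A : Fin m → Place Qb F) : Prop :=
  ∀ σ ∈ E.fixingSubgroup, ∃ π : Equiv.Perm (Fin m), (∀ i, ρ σ • A i = A (π i)) ∧
    ∀ S ∈ 𝔅, ∀ i, i ∈ S ↔ π i ∈ S

/-- the blocks of a family of sections. -/
def s17h_blocks {m : ℕ} {ι : Type} (s : ι → List (s17_Blk Qb F m)) : Set (Finset (Fin m)) :=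
  {S | ∃ a, ∃ b ∈ s a, b.S = S}

/-- **rationality** of the chart-value vector of a fixed family at a stable tuple. -/
theorem s17h_isRat_vals (hGV : s17_GalVal) {g : ℕ} (hC : s17_Curve Qb F g)
    (X : s17_Charts Qb F) (ρ : (Qb ≃ₐ[ℚ] Qb) →* SemilinearAut Qb F)
    (hbase : ∀ σ, SemilinearAut.baseAut (ρ σ) = σ.toRingEquiv) (E : IntermediateField ℚ Qb)
    {m : ℕ} {ι : Type} [Fintype ι] (s : ι → List (s17_Blk Qb F m))
    (hok : ∀ a, ∀ b ∈ s a, b.Ok) (hty : ∀ a a', s17_SameTy (s a) (s a'))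
    (hfix : ∀ a, s17h_FixedBy ρ E (s a)) (A : Fin m → Place Qb F)
    (hA : s17h_Stable ρ E (s17h_blocks s) A) :
    s17n_IsRat ↥E (fun a => s17_secVal X (s a) A) := by
  apply s17h_isRat_of_fixing
  intro σ hσ
  obtain ⟨π, hπ, hπS⟩ := hA σ hσ
  obtain ⟨c, hc⟩ := hGV Qb F g hC X (ρ σ) m ι s hok hty (fun a b hb => hfix a σ hσ b hb) A π hπ
    (fun a b hb i => hπS b.S ⟨a, b, hb, rfl⟩ i)
  refine ⟨c, funext fun a => ?_⟩
  have := hc a
  rw [hbase σ] at this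
  exact this

/-- **the height machine.** -/
theorem s17h_cmp (hCL : s17_CL) (hGV : s17_GalVal) {g : ℕ} (hC : s17_Curve Qb F g)
    (X : s17_Charts Qb F) (ρ : (Qb ≃ₐ[ℚ] Qb) →* SemilinearAut Qb F)
    (hbase : ∀ σ, SemilinearAut.baseAut (ρ σ) = σ.toRingEquiv) (E : IntermediateField ℚ Qb)
    [AdmissibleAbsValues ↥E]
    {m : ℕ} {ι₁ ι₂ : Type} [Fintype ι₁] [Fintype ι₂] (s₁ : ι₁ → List (s17_Blk Qb F m))
    (s₂ : ι₂ → List (s17_Blk Qb F m))
    (hok₁ : ∀ a, ∀ b ∈ s₁ a, b.Ok) (hok₂ : ∀ a, ∀ b ∈ s₂ a, b.Ok)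
    (hty₁ : ∀ a a', s17_SameTy (s₁ a) (s₁ a')) (hty₂ : ∀ a a', s17_SameTy (s₂ a) (s₂ a'))
    (hty₁₂ : ∀ a a', s17_SameTy (s₁ a) (s₂ a'))
    (hbpf₁ : ∀ A : Fin m → Place Qb F, ∃ a, s17_secVal X (s₁ a) A ≠ 0)
    (hbpf₂ : ∀ A : Fin m → Place Qb F, ∃ a, s17_secVal X (s₂ a) A ≠ 0)
    (hfix₁ : ∀ a, s17h_FixedBy ρ E (s₁ a)) (hfix₂ : ∀ a, s17h_FixedBy ρ E (s₂ a)) :
    ∃ C : ℝ, ∀ A : Fin m → Place Qb F,
      s17h_Stable ρ E (s17h_blocks s₁ ∪ s17h_blocks s₂) A →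
      |s17n_ht ↥E (fun a => s17_secVal X (s₁ a) A) -
        s17n_ht ↥E (fun a => s17_secVal X (s₂ a) A)| ≤ C := by
  -- the joint family
  set s : ι₁ ⊕ ι₂ → List (s17_Blk Qb F m) := Sum.elim s₁ s₂ with hs
  have hok : ∀ a, ∀ b ∈ s a, b.Ok := by
    rintro (a | a) b hb
    · exact hok₁ a b hb
    · exact hok₂ a b hb
  have hty : ∀ a a', s17_SameTy (s a) (s a') := by
    rintro (a | a) (a' | a')
    · exact hty₁ a a'
    · exact hty₁₂ a a'
    · exact s17h_sameTy_symm (hty₁₂ a' a)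
    · exact hty₂ a a'
  have hbpf : ∀ A : Fin m → Place Qb F, ∃ a, s17_secVal X (s a) A ≠ 0 := fun A => by
    obtain ⟨a, ha⟩ := hbpf₁ A
    exact ⟨Sum.inl a, ha⟩
  have hfix : ∀ a, s17h_FixedBy ρ E (s a) := by
    rintro (a | a)
    · exact hfix₁ a
    · exact hfix₂ a
  have hjoint : ∀ A : Fin m → Place Qb F, (fun a => s17_secVal X (s a) A) =
      Sum.elim (fun a => s17_secVal X (s₁ a) A) (fun a => s17_secVal X (s₂ a) A) := by
    intro A
    funext a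
    rcases a with a | a <;> rfl
  have hcl := hCL Qb F g hC X m (ι₁ ⊕ ι₂) s hok hty hbpf
  obtain ⟨C, hCb⟩ := s17n_ht_two_families (k₀ := ↥E)
    (u := fun A : Fin m → Place Qb F => fun a => s17_secVal X (s₁ a) A)
    (v := fun A : Fin m → Place Qb F => fun a => s17_secVal X (s₂ a) A)
    (by
      intro z hz
      rcases hcl z (fun d p hp hA => hz d p hp (fun A => by rw [← hjoint A]; exact hA A)) with
        h | ⟨A, t, h⟩
      · exact Or.inl h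
      · exact Or.inr ⟨A, t, by rw [h, hjoint A]⟩)
    (fun A => by
      obtain ⟨a, ha⟩ := hbpf₁ A
      exact fun h => ha (congrFun h a))
    (fun A => by
      obtain ⟨a, ha⟩ := hbpf₂ A
      exact fun h => ha (congrFun h a))
  refine ⟨C, fun A hA => hCb A ?_⟩
  rw [← hjoint A]
  refine s17h_isRat_vals hGV hC X ρ hbase E s hok hty hfix A ?_
  intro σ hσ
  obtain ⟨π, hπ, hπS⟩ := hA σ hσ
  refine ⟨π, hπ, ?_⟩
  rintro S ⟨a, b, hb, rfl⟩ i
  rcases a with a | a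
  · exact hπS b.S (Or.inl ⟨a, b, hb, rfl⟩) i
  · exact hπS b.S (Or.inr ⟨a, b, hb, rfl⟩) i

end Fermat.Agent.Lib.S17
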