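/-
Programme MW (S17), height half, assembly (helper6, prefix `s17h_`): THE THEOREM OF THE CUBE ON
`C^ν × C^ν × C^ν` IS A TAUTOLOGY: the sections
`θ³(A₁A₂A₃) θ¹(A₁) θ¹(A₂) θ¹(A₃)` and `θ²(A₁A₂) θ²(A₁A₃) θ²(A₂A₃)` have the same type.
-/
import Fermat.Agent.Lib.S17.HBasic

set_option autoImplicit false

noncomputable section

namespace Fermat.Agent.Lib.S17

open AlgebraicCurve Fermat.Agent.Lib.S19

variable {K F : Type} [Field K] [Field F] [Algebra K F]

/-! ### blocks of variables given by strictly monotone maps -/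

/-- the image of a strictly monotone map, as a block of variables. -/
def s17h_img {m m' : ℕ} (e : Fin m → Fin m') (he : StrictMono e) : Finset (Fin m') :=
  Finset.univ.map ⟨e, he.injective⟩

theorem s17h_card_img {m m' : ℕ} (e : Fin m → Fin m') (he : StrictMono e) :
    (s17h_img e he).card = m := by
  simp [s17h_img]

theorem s17h_mem_img {m m' : ℕ} (e : Fin m → Fin m') (he : StrictMono e) (i : Fin m') :
    i ∈ s17h_img e he ↔ ∃ k, e k = i := by
  simp [s17h_img]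

theorem s17h_orderEmb_img {m m' : ℕ} (e : Fin m → Fin m') (he : StrictMono e) (k : Fin m) :
    (s17h_img e he).orderEmbOfFin (s17h_card_img e he) k = e k := by
  have := Finset.orderEmbOfFin_unique (s17h_card_img e he) (f := e)
    (fun x => (s17h_mem_img e he _).mpr ⟨x, rfl⟩) he
  rw [← this]

/-- the value of a theta section on the block `img e`. -/
theorem s17h_secVal_thetaSec_img (X : s17_Charts K F) {m m' : ℕ} (P₀ : Place K F) (g : ℕ)
    (T : Fin 3 → Divisor K F) (e : Fin m → Fin m') (he : StrictMono e)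
    (A : Fin m' → Place K F) :
    s17_secVal X (s17_thetaSec P₀ g m T (s17h_img e he)) A =
      s17_thetaVal X P₀ g m T (fun i => A (e i)) := by
  rw [s17h_secVal_thetaSec X P₀ g m T _ (s17h_card_img e he)]
  congr 1
  funext i
  rw [s17h_orderEmb_img]

/-! ### the seven blocks of `Fin (ν + (ν + ν))` -/

variable (ν : ℕ)

def s17h_e1 : Fin ν → Fin (ν + (ν + ν)) := fun i => Fin.castAdd (ν + ν) i
def s17h_e2 : Fin ν → Fin (ν + (ν + ν)) := fun i => Fin.natAdd ν (Fin.castAdd ν i)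
def s17h_e3 : Fin ν → Fin (ν + (ν + ν)) := fun i => Fin.natAdd ν (Fin.natAdd ν i)
def s17h_e23 : Fin (ν + ν) → Fin (ν + (ν + ν)) := fun i => Fin.natAdd ν i
def s17h_e12 : Fin (ν + ν) → Fin (ν + (ν + ν)) := fun i => Fin.addCases (s17h_e1 ν) (s17h_e2 ν) i
def s17h_e13 : Fin (ν + ν) → Fin (ν + (ν + ν)) := fun i => Fin.addCases (s17h_e1 ν) (s17h_e3 ν) i

theorem s17h_e1_val (i : Fin ν) : (s17h_e1 ν i : ℕ) = i := rfl
theorem s17h_e2_val (i : Fin ν) : (s17h_e2 ν i : ℕ) = ν + i := rfl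
theorem s17h_e3_val (i : Fin ν) : (s17h_e3 ν i : ℕ) = ν + (ν + i) := rfl
theorem s17h_e23_val (i : Fin (ν + ν)) : (s17h_e23 ν i : ℕ) = ν + i := rfl

theorem s17h_e12_val (i : Fin (ν + ν)) : (s17h_e12 ν i : ℕ) = i := by
  unfold s17h_e12
  induction i using Fin.addCases with
  | left i => rw [Fin.addCases_left]; rfl
  | right i => rw [Fin.addCases_right]; rfl

theorem s17h_e13_val (i : Fin (ν + ν)) :
    (s17h_e13 ν i : ℕ) = if (i : ℕ) < ν then (i : ℕ) else ν + i := by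
  unfold s17h_e13
  induction i using Fin.addCases with
  | left i => rw [Fin.addCases_left, s17h_e1_val, Fin.val_castAdd, if_pos i.2]
  | right i => rw [Fin.addCases_right, s17h_e3_val, Fin.val_natAdd, if_neg (by omega)]

theorem s17h_e1_mono : StrictMono (s17h_e1 ν) := fun a b h => by
  rw [Fin.lt_def, s17h_e1_val, s17h_e1_val]; exact h
theorem s17h_e2_mono : StrictMono (s17h_e2 ν) := fun a b h => by
  rw [Fin.lt_def, s17h_e2_val, s17h_e2_val]; have := Fin.lt_def.mp h; omega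
theorem s17h_e3_mono : StrictMono (s17h_e3 ν) := fun a b h => by
  rw [Fin.lt_def, s17h_e3_val, s17h_e3_val]; have := Fin.lt_def.mp h; omega
theorem s17h_e23_mono : StrictMono (s17h_e23 ν) := fun a b h => by
  rw [Fin.lt_def, s17h_e23_val, s17h_e23_val]; have := Fin.lt_def.mp h; omega
theorem s17h_e12_mono : StrictMono (s17h_e12 ν) := fun a b h => by
  rw [Fin.lt_def, s17h_e12_val, s17h_e12_val]; exact h
theorem s17h_e13_mono : StrictMono (s17h_e13 ν) := fun a b h => by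
  rw [Fin.lt_def, s17h_e13_val, s17h_e13_val]
  have := Fin.lt_def.mp h
  split_ifs <;> omega

/-- membership in the blocks in terms of the value. -/
theorem s17h_mem_S1 (i : Fin (ν + (ν + ν))) :
    i ∈ s17h_img (s17h_e1 ν) (s17h_e1_mono ν) ↔ (i : ℕ) < ν := by
  rw [s17h_mem_img]
  constructor
  · rintro ⟨k, rfl⟩; rw [s17h_e1_val]; exact k.2
  · intro h; exact ⟨⟨i, h⟩, Fin.ext rfl⟩

theorem s17h_mem_S2 (i : Fin (ν + (ν + ν))) :
    i ∈ s17h_img (s17h_e2 ν) (s17h_e2_mono ν) ↔ ν ≤ (i : ℕ) ∧ (i : ℕ) < ν + ν := by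
  rw [s17h_mem_img]
  constructor
  · rintro ⟨k, rfl⟩; rw [s17h_e2_val]; have := k.2; omega
  · intro h; exact ⟨⟨i - ν, by omega⟩, Fin.ext (by rw [s17h_e2_val]; simp only; omega)⟩

theorem s17h_mem_S3 (i : Fin (ν + (ν + ν))) :
    i ∈ s17h_img (s17h_e3 ν) (s17h_e3_mono ν) ↔ ν + ν ≤ (i : ℕ) := by
  rw [s17h_mem_img]
  constructor
  · rintro ⟨k, rfl⟩; rw [s17h_e3_val]; omega
  · intro h
    have := i.2
    exact ⟨⟨i - (ν + ν), by omega⟩, Fin.ext (by rw [s17h_e3_val]; simp only; omega)⟩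

theorem s17h_mem_S23 (i : Fin (ν + (ν + ν))) :
    i ∈ s17h_img (s17h_e23 ν) (s17h_e23_mono ν) ↔ ν ≤ (i : ℕ) := by
  rw [s17h_mem_img]
  constructor
  · rintro ⟨k, rfl⟩; rw [s17h_e23_val]; omega
  · intro h
    have := i.2
    exact ⟨⟨i - ν, by omega⟩, Fin.ext (by rw [s17h_e23_val]; simp only; omega)⟩

theorem s17h_mem_S12 (i : Fin (ν + (ν + ν))) :
    i ∈ s17h_img (s17h_e12 ν) (s17h_e12_mono ν) ↔ (i : ℕ) < ν + ν := by
  rw [s17h_mem_img]
  constructor
  · rintro ⟨k, rfl⟩; rw [s17h_e12_val]; exact k.2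
  · intro h; exact ⟨⟨i, h⟩, Fin.ext (by rw [s17h_e12_val])⟩

theorem s17h_mem_S13 (i : Fin (ν + (ν + ν))) :
    i ∈ s17h_img (s17h_e13 ν) (s17h_e13_mono ν) ↔ (i : ℕ) < ν ∨ ν + ν ≤ (i : ℕ) := by
  rw [s17h_mem_img]
  constructor
  · rintro ⟨k, rfl⟩; rw [s17h_e13_val]; have := k.2; split_ifs <;> omega
  · intro h
    have := i.2
    by_cases h1 : (i : ℕ) < ν
    · exact ⟨⟨i, by omega⟩, Fin.ext (by rw [s17h_e13_val]; simp only; rw [if_pos h1])⟩
    · refine ⟨⟨i - ν, by omega⟩, Fin.ext ?_⟩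
      rw [s17h_e13_val]
      simp only
      rw [if_neg (by omega)]
      omega

/-! ### the two sides of the cube -/

variable {ν}

/-- `θ³(A₁A₂A₃) θ¹(A₁) θ¹(A₂) θ¹(A₃)`. -/
def s17h_cubeL (P₀ : Place K F) (g : ℕ) (T T₁ T₂ T₃ : Fin 3 → Divisor K F) :
    List (s17_Blk K F (ν + (ν + ν))) :=
  s17_thetaSec P₀ g (ν + (ν + ν)) T Finset.univ ++
    (s17_thetaSec P₀ g ν T₁ (s17h_img (s17h_e1 ν) (s17h_e1_mono ν)) ++
      (s17_thetaSec P₀ g ν T₂ (s17h_img (s17h_e2 ν) (s17h_e2_mono ν)) ++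
        s17_thetaSec P₀ g ν T₃ (s17h_img (s17h_e3 ν) (s17h_e3_mono ν))))

/-- `θ²(A₁A₂) θ²(A₁A₃) θ²(A₂A₃)`. -/
def s17h_cubeR (P₀ : Place K F) (g : ℕ) (T₁₂ T₁₃ T₂₃ : Fin 3 → Divisor K F) :
    List (s17_Blk K F (ν + (ν + ν))) :=
  s17_thetaSec P₀ g (ν + ν) T₁₂ (s17h_img (s17h_e12 ν) (s17h_e12_mono ν)) ++
    (s17_thetaSec P₀ g (ν + ν) T₁₃ (s17h_img (s17h_e13 ν) (s17h_e13_mono ν)) ++
      s17_thetaSec P₀ g (ν + ν) T₂₃ (s17h_img (s17h_e23 ν) (s17h_e23_mono ν)))

theorem s17h_B_arith (P₀ : Place K F) (g : ℕ) (hg : 0 < g) (ν : ℕ) :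
    3 • s17_B P₀ g (ν + (ν + ν)) + 3 • s17_B P₀ g ν =
      3 • s17_B P₀ g (ν + ν) + 3 • s17_B P₀ g (ν + ν) := by
  unfold s17_B
  rw [← smul_add, ← smul_add, ← Finsupp.single_add, ← Finsupp.single_add]
  congr 2
  push_cast [Nat.cast_sub (show 1 ≤ g + (ν + (ν + ν)) by omega),
    Nat.cast_sub (show 1 ≤ g + ν by omega), Nat.cast_sub (show 1 ≤ g + (ν + ν) by omega)]
  ring

/-- **the theorem of the cube is a tautology**: the two sides have the same type. -/
theorem s17h_cube_sameTy (P₀ : Place K F) (g : ℕ) (hg : 0 < g)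
    (T T₁ T₂ T₃ T₁₂ T₁₃ T₂₃ : Fin 3 → Divisor K F) (hT : s17_Adm T) (hT₁ : s17_Adm T₁)
    (hT₂ : s17_Adm T₂) (hT₃ : s17_Adm T₃) (hT₁₂ : s17_Adm T₁₂) (hT₁₃ : s17_Adm T₁₃)
    (hT₂₃ : s17_Adm T₂₃) :
    s17_SameTy (s17h_cubeL (ν := ν) P₀ g T T₁ T₂ T₃) (s17h_cubeR P₀ g T₁₂ T₁₃ T₂₃) := by
  have hB := s17h_B_arith P₀ g hg ν
  constructor
  · intro i
    unfold s17h_cubeL s17h_cubeR
    simp only [s17h_tyD_append, s17h_tyD_thetaSec _ _ _ _ hT, s17h_tyD_thetaSec _ _ _ _ hT₁,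
      s17h_tyD_thetaSec _ _ _ _ hT₂, s17h_tyD_thetaSec _ _ _ _ hT₃,
      s17h_tyD_thetaSec _ _ _ _ hT₁₂, s17h_tyD_thetaSec _ _ _ _ hT₁₃,
      s17h_tyD_thetaSec _ _ _ _ hT₂₃, Finset.mem_univ, if_true, s17h_mem_S1, s17h_mem_S2,
      s17h_mem_S3, s17h_mem_S12, s17h_mem_S13, s17h_mem_S23]
    have hi := i.2
    by_cases h1 : (i : ℕ) < ν
    · have h2 : ¬ (ν ≤ (i : ℕ) ∧ (i : ℕ) < ν + ν) := by omega
      have h3 : ¬ (ν + ν ≤ (i : ℕ)) := by omega
      have h12 : (i : ℕ) < ν + ν := by omega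
      have h13 : (i : ℕ) < ν ∨ ν + ν ≤ (i : ℕ) := Or.inl h1
      have h23 : ¬ (ν ≤ (i : ℕ)) := by omega
      rw [if_pos h1, if_neg h2, if_neg h3, if_pos h12, if_pos h13, if_neg h23]
      rw [add_zero, add_zero, add_zero]
      exact hB
    · by_cases h2 : (i : ℕ) < ν + ν
      · have h2' : ν ≤ (i : ℕ) ∧ (i : ℕ) < ν + ν := ⟨by omega, h2⟩
        have h3 : ¬ (ν + ν ≤ (i : ℕ)) := by omega
        have h13 : ¬ ((i : ℕ) < ν ∨ ν + ν ≤ (i : ℕ)) := by omega
        have h23 : ν ≤ (i : ℕ) := by omega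
        rw [if_neg h1, if_pos h2', if_neg h3, if_pos h2, if_neg h13, if_pos h23]
        rw [zero_add, add_zero, zero_add]
        exact hB
      · have h2' : ¬ (ν ≤ (i : ℕ) ∧ (i : ℕ) < ν + ν) := by omega
        have h3 : ν + ν ≤ (i : ℕ) := by omega
        have h13 : (i : ℕ) < ν ∨ ν + ν ≤ (i : ℕ) := Or.inr h3
        have h23 : ν ≤ (i : ℕ) := by omega
        rw [if_neg h1, if_neg h2', if_pos h3, if_neg h2, if_pos h13, if_pos h23]
        rw [zero_add, zero_add, zero_add]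
        exact hB
  · intro i j _
    unfold s17h_cubeL s17h_cubeR
    simp only [s17h_tyM_append, s17h_tyM_thetaSec, Finset.mem_univ, and_self, if_true,
      s17h_mem_S1, s17h_mem_S2, s17h_mem_S3, s17h_mem_S12, s17h_mem_S13, s17h_mem_S23]
    have hi := i.2
    have hj := j.2
    split_ifs <;> omega

/-- the value of the left side of the cube at a concatenated tuple. -/
theorem s17h_cubeL_val (X : s17_Charts K F) (P₀ : Place K F) (g : ℕ)
    (T T₁ T₂ T₃ : Fin 3 → Divisor K F) (A₁ A₂ A₃ : Fin ν → Place K F) :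
    s17_secVal X (s17h_cubeL P₀ g T T₁ T₂ T₃) (Fin.append A₁ (Fin.append A₂ A₃)) =
      s17_thetaVal X P₀ g (ν + (ν + ν)) T (Fin.append A₁ (Fin.append A₂ A₃)) *
        (s17_thetaVal X P₀ g ν T₁ A₁ * (s17_thetaVal X P₀ g ν T₂ A₂ *
          s17_thetaVal X P₀ g ν T₃ A₃)) := by
  unfold s17h_cubeL
  rw [s17h_secVal_append, s17h_secVal_append, s17h_secVal_append,
    s17h_secVal_thetaSec_img, s17h_secVal_thetaSec_img, s17h_secVal_thetaSec_img]
  congr 1
  · have hid : StrictMono (fun i : Fin (ν + (ν + ν)) => i) := fun a b h => h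
    have huniv : (Finset.univ : Finset (Fin (ν + (ν + ν)))) = s17h_img _ hid := by
      ext i; simp [s17h_mem_img]
    rw [huniv, s17h_secVal_thetaSec_img]
  · congr 1
    · congr 1
      funext i
      show Fin.append A₁ (Fin.append A₂ A₃) (Fin.castAdd (ν + ν) i) = A₁ i
      rw [Fin.append_left]
    · congr 1
      · congr 1
        funext i
        show Fin.append A₁ (Fin.append A₂ A₃) (Fin.natAdd ν (Fin.castAdd ν i)) = A₂ i
        rw [Fin.append_right, Fin.append_left]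
      · congr 1
        funext i
        show Fin.append A₁ (Fin.append A₂ A₃) (Fin.natAdd ν (Fin.natAdd ν i)) = A₃ i
        rw [Fin.append_right, Fin.append_right]

/-- the value of the right side of the cube at a concatenated tuple. -/
theorem s17h_cubeR_val (X : s17_Charts K F) (P₀ : Place K F) (g : ℕ)
    (T₁₂ T₁₃ T₂₃ : Fin 3 → Divisor K F) (A₁ A₂ A₃ : Fin ν → Place K F) :
    s17_secVal X (s17h_cubeR P₀ g T₁₂ T₁₃ T₂₃) (Fin.append A₁ (Fin.append A₂ A₃)) =
      s17_thetaVal X P₀ g (ν + ν) T₁₂ (Fin.append A₁ A₂) *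
        (s17_thetaVal X P₀ g (ν + ν) T₁₃ (Fin.append A₁ A₃) *
          s17_thetaVal X P₀ g (ν + ν) T₂₃ (Fin.append A₂ A₃)) := by
  unfold s17h_cubeR
  rw [s17h_secVal_append, s17h_secVal_append,
    s17h_secVal_thetaSec_img, s17h_secVal_thetaSec_img, s17h_secVal_thetaSec_img]
  congr 1
  · congr 1
    funext i
    unfold s17h_e12
    induction i using Fin.addCases with
    | left i =>
      rw [Fin.addCases_left, Fin.append_left]
      show Fin.append A₁ (Fin.append A₂ A₃) (Fin.castAdd (ν + ν) i) = A₁ i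
      rw [Fin.append_left]
    | right i =>
      rw [Fin.addCases_right, Fin.append_right]
      show Fin.append A₁ (Fin.append A₂ A₃) (Fin.natAdd ν (Fin.castAdd ν i)) = A₂ i
      rw [Fin.append_right, Fin.append_left]
  · congr 1
    · congr 1
      funext i
      unfold s17h_e13
      induction i using Fin.addCases with
      | left i =>
        rw [Fin.addCases_left, Fin.append_left]
        show Fin.append A₁ (Fin.append A₂ A₃) (Fin.castAdd (ν + ν) i) = A₁ i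
        rw [Fin.append_left]
      | right i =>
        rw [Fin.addCases_right, Fin.append_right]
        show Fin.append A₁ (Fin.append A₂ A₃) (Fin.natAdd ν (Fin.natAdd ν i)) = A₃ i
        rw [Fin.append_right, Fin.append_right]
    · congr 1
      funext i
      show Fin.append A₁ (Fin.append A₂ A₃) (Fin.natAdd ν i) = Fin.append A₂ A₃ i
      rw [Fin.append_right]

end Fermat.Agent.Lib.S17
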