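/-
Programme MW (S17), height half, assembly (helper6, prefix `s17h_`): stability of concatenated
tuples under blockwise permutations.
-/
import Fermat.Agent.Lib.S17.HCube
import Fermat.Agent.Lib.S17.HCmp

set_option autoImplicit false

noncomputable section

namespace Fermat.Agent.Lib.S17

open AlgebraicCurve Fermat.Agent.Lib.S19

/-- the blockwise permutation of `Fin (m + n)`. -/
def s17h_sumPerm {m n : ℕ} (π₁ : Equiv.Perm (Fin m)) (π₂ : Equiv.Perm (Fin n)) :
    Equiv.Perm (Fin (m + n)) :=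
  finSumFinEquiv.symm.trans ((Equiv.sumCongr π₁ π₂).trans finSumFinEquiv)

theorem s17h_sumPerm_castAdd {m n : ℕ} (π₁ : Equiv.Perm (Fin m)) (π₂ : Equiv.Perm (Fin n))
    (i : Fin m) : s17h_sumPerm π₁ π₂ (Fin.castAdd n i) = Fin.castAdd n (π₁ i) := by
  simp [s17h_sumPerm]

theorem s17h_sumPerm_natAdd {m n : ℕ} (π₁ : Equiv.Perm (Fin m)) (π₂ : Equiv.Perm (Fin n))
    (j : Fin n) : s17h_sumPerm π₁ π₂ (Fin.natAdd m j) = Fin.natAdd m (π₂ j) := by
  simp [s17h_sumPerm]

theorem s17h_append_sumPerm {α : Type*} {m n : ℕ} (π₁ : Equiv.Perm (Fin m))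
    (π₂ : Equiv.Perm (Fin n)) (A₁ : Fin m → α) (A₂ : Fin n → α) (k : Fin (m + n)) :
    Fin.append A₁ A₂ (s17h_sumPerm π₁ π₂ k) =
      Fin.append (fun i => A₁ (π₁ i)) (fun j => A₂ (π₂ j)) k := by
  induction k using Fin.addCases with
  | left i => rw [s17h_sumPerm_castAdd, Fin.append_left, Fin.append_left]
  | right j => rw [s17h_sumPerm_natAdd, Fin.append_right, Fin.append_right]

variable {K F : Type} [Field K] [Field F] [Algebra K F]

/-- a semilinear automorphism permuting two tuples permutes their concatenation. -/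
theorem s17h_smul_append {m n : ℕ} (γ : SemilinearAut K F) (A₁ : Fin m → Place K F)
    (A₂ : Fin n → Place K F) (π₁ : Equiv.Perm (Fin m)) (π₂ : Equiv.Perm (Fin n))
    (h₁ : ∀ i, γ • A₁ i = A₁ (π₁ i)) (h₂ : ∀ j, γ • A₂ j = A₂ (π₂ j)) (k : Fin (m + n)) :
    γ • Fin.append A₁ A₂ k = Fin.append A₁ A₂ (s17h_sumPerm π₁ π₂ k) := by
  rw [s17h_append_sumPerm]
  induction k using Fin.addCases with
  | left i => rw [Fin.append_left, Fin.append_left, h₁]
  | right j => rw [Fin.append_right, Fin.append_right, h₂]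

theorem s17h_sumPerm_val_lt {m n : ℕ} (π₁ : Equiv.Perm (Fin m)) (π₂ : Equiv.Perm (Fin n))
    (k : Fin (m + n)) : ((s17h_sumPerm π₁ π₂ k : Fin (m + n)) : ℕ) < m ↔ (k : ℕ) < m := by
  induction k using Fin.addCases with
  | left i =>
    rw [s17h_sumPerm_castAdd]
    simp only [Fin.val_castAdd]
    exact ⟨fun _ => i.2, fun _ => (π₁ i).2⟩
  | right j =>
    rw [s17h_sumPerm_natAdd]
    simp only [Fin.val_natAdd]
    constructor <;> intro h <;> omega

/-- the value of a nested blockwise permutation, third block. -/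
theorem s17h_sumPerm3_val {ν : ℕ} (π₁ π₂ π₃ : Equiv.Perm (Fin ν)) (k : Fin (ν + (ν + ν))) :
    (((s17h_sumPerm π₁ (s17h_sumPerm π₂ π₃) k : Fin (ν + (ν + ν))) : ℕ) < ν ↔ (k : ℕ) < ν) ∧
    (((s17h_sumPerm π₁ (s17h_sumPerm π₂ π₃) k : Fin (ν + (ν + ν))) : ℕ) < ν + ν ↔
      (k : ℕ) < ν + ν) := by
  refine ⟨s17h_sumPerm_val_lt _ _ k, ?_⟩
  induction k using Fin.addCases with
  | left i =>
    rw [s17h_sumPerm_castAdd]
    simp only [Fin.val_castAdd]
    have := i.2
    have := (π₁ i).2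
    constructor <;> intro _ <;> omega
  | right j =>
    rw [s17h_sumPerm_natAdd]
    simp only [Fin.val_natAdd]
    have := s17h_sumPerm_val_lt π₂ π₃ j
    constructor <;> intro h <;> omega

/-- the seven blocks of the cube are preserved by nested blockwise permutations. -/
theorem s17h_cube_blocks_stable {ν : ℕ} (π₁ π₂ π₃ : Equiv.Perm (Fin ν))
    (S : Finset (Fin (ν + (ν + ν))))
    (hS : S = Finset.univ ∨ S = s17h_img (s17h_e1 ν) (s17h_e1_mono ν) ∨
      S = s17h_img (s17h_e2 ν) (s17h_e2_mono ν) ∨ S = s17h_img (s17h_e3 ν) (s17h_e3_mono ν) ∨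
      S = s17h_img (s17h_e12 ν) (s17h_e12_mono ν) ∨ S = s17h_img (s17h_e13 ν) (s17h_e13_mono ν) ∨
      S = s17h_img (s17h_e23 ν) (s17h_e23_mono ν)) (i : Fin (ν + (ν + ν))) :
    i ∈ S ↔ s17h_sumPerm π₁ (s17h_sumPerm π₂ π₃) i ∈ S := by
  obtain ⟨h1, h2⟩ := s17h_sumPerm3_val π₁ π₂ π₃ i
  rcases hS with rfl | rfl | rfl | rfl | rfl | rfl | rfl
  · simp
  · rw [s17h_mem_S1, s17h_mem_S1]; exact h1.symm
  · rw [s17h_mem_S2, s17h_mem_S2]
    constructor <;> intro h <;> constructor <;> omega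
  · rw [s17h_mem_S3, s17h_mem_S3]
    constructor <;> intro h <;> omega
  · rw [s17h_mem_S12, s17h_mem_S12]; exact h2.symm
  · rw [s17h_mem_S13, s17h_mem_S13]
    constructor <;> intro h <;> omega
  · rw [s17h_mem_S23, s17h_mem_S23]
    constructor <;> intro h <;> omega

end Fermat.Agent.Lib.S17
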