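/-
Programme MW (S17), height half, assembly (helper6, prefix `s17h_`): the level, the level data
(finite spanning base-point-free family of admissible triples) and the number field `E`.
-/
import Fermat.Agent.Lib.S17.HStab
import Fermat.Agent.Lib.S17.HRep

set_option autoImplicit false

noncomputable section

namespace Fermat.Agent.Lib.S17

open AlgebraicCurve Fermat.Agent.Lib.S19 Height

local notation "Qb" => AlgebraicClosure ℚ

/-! ### the level -/

theorem s17h_big_mono {K F : Type} [Field K] [Field F] [Algebra K F] {g : ℕ} {d d' : ℤ}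
    (h : s17_Big K F g d) (hd : d ≤ d') : s17_Big K F g d' :=
  fun D hD => h D (hd.trans hD)

theorem s17h_exists_level {K F : Type} [Field K] [Field F] [Algebra K F] {g : ℕ}
    (hR : s19_Riemann K F g) : ∃ ν : ℕ, g ≤ ν ∧ 0 < ν ∧ s17_Big K F g ((ν : ℤ) - 1) := by
  obtain ⟨c, hc⟩ := hR.large
  refine ⟨max (c.toNat + 1) (g + 1), ?_, ?_, ?_⟩
  · exact le_trans (Nat.le_succ g) (le_max_right _ _)
  · exact lt_of_lt_of_le (Nat.succ_pos g) (le_max_right _ _)
  · intro D hD
    apply hc D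
    have h1 : c ≤ (c.toNat : ℤ) := Int.self_le_toNat c
    have h2 : ((c.toNat + 1 : ℕ) : ℤ) ≤ ((max (c.toNat + 1) (g + 1) : ℕ) : ℤ) := by
      exact_mod_cast le_max_left _ _
    push_cast at h2 hD ⊢
    omega

/-! ### the level data -/

variable {K F : Type} [Field K] [Field F] [Algebra K F]

/-- a finite spanning, base-point-free family of admissible triples at level `m`. -/
structure s17h_Level (X : s17_Charts K F) (P₀ : Place K F) (g m : ℕ) where
  n : ℕ
  I : Fin n → Fin 3 → Divisor K F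
  adm : ∀ a, s17_Adm (I a)
  span : ∀ T : Fin 3 → Divisor K F, s17_Adm T → ∃ c : Fin n → K, ∀ A : Fin m → Place K F,
    s17_thetaVal X P₀ g m T A = ∑ a, c a * s17_thetaVal X P₀ g m (I a) A
  bpf : ∀ A : Fin m → Place K F, ∃ a, s17_thetaVal X P₀ g m (I a) A ≠ 0

/-- the theta vector. -/
def s17h_Level.psi {X : s17_Charts K F} {P₀ : Place K F} {g m : ℕ} (L : s17h_Level X P₀ g m)
    (A : Fin m → Place K F) : Fin L.n → K :=
  fun a => s17_thetaVal X P₀ g m (L.I a) A

theorem s17h_Level.psi_ne_zero {X : s17_Charts K F} {P₀ : Place K F} {g m : ℕ}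
    (L : s17h_Level X P₀ g m) (A : Fin m → Place K F) : L.psi A ≠ 0 := by
  obtain ⟨a, ha⟩ := L.bpf A
  exact fun h => ha (congrFun h a)

theorem s17h_big_level {g m : ℕ} (hg : 0 < g) (h : s17_Big K F g ((m : ℤ) - 1)) :
    s17_Big K F g ((g : ℤ) + m - 1) :=
  s17h_big_mono h (by omega)

/-- level data exist ([SPAN] + [AV]). -/
theorem s17h_exists_levelData [IsAlgClosed K] (hSpan : s17_Span) (hAV : s17_AV) {g : ℕ}
    (hC : s17_Curve K F g) (hg : 0 < g) (X : s17_Charts K F) (P₀ : Place K F) (m : ℕ)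
    (hm : 0 < m) (hB : s17_Big K F g ((m : ℤ) - 1)) : Nonempty (s17h_Level X P₀ g m) := by
  have hB' := s17h_big_level hg hB
  obtain ⟨n, I, hadm, hspan⟩ := hSpan K F g hC hg X P₀ m hm hB'
  refine ⟨⟨n, I, hadm, hspan, fun A => ?_⟩⟩
  obtain ⟨T, hT, hne⟩ := hAV K F g hC hg X P₀ m hm hB' A
  obtain ⟨c, hc⟩ := hspan T hT
  by_contra hcon
  push_neg at hcon
  apply hne
  rw [hc A]
  exact Finset.sum_eq_zero fun a _ => by rw [hcon a, mul_zero]

/-- proportional theta vectors have the same zero pattern for ALL admissible triples. -/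
theorem s17h_Level.zero_pattern {X : s17_Charts K F} {P₀ : Place K F} {g m : ℕ}
    (L : s17h_Level X P₀ g m) {A A' : Fin m → Place K F} {t : K} (ht : t ≠ 0)
    (h : L.psi A' = t • L.psi A) (T : Fin 3 → Divisor K F) (hT : s17_Adm T) :
    s17_thetaVal X P₀ g m T A' = t * s17_thetaVal X P₀ g m T A := by
  obtain ⟨c, hc⟩ := L.span T hT
  rw [hc A', hc A, Finset.mul_sum]
  refine Finset.sum_congr rfl fun a _ => ?_
  have := congrFun h a
  simp only [s17h_Level.psi, Pi.smul_apply, smul_eq_mul] at this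
  rw [this]
  ring

/-! ### open conditions on the Galois group -/

/-- a condition on `Gal(ℚ̄/ℚ)` which holds on an open subgroup `Gal(ℚ̄/E)`. -/
def s17h_Open (p : (Qb ≃ₐ[ℚ] Qb) → Prop) : Prop :=
  ∃ E : IntermediateField ℚ Qb, FiniteDimensional ℚ ↥E ∧ ∀ σ ∈ E.fixingSubgroup, p σ

theorem s17h_open_true : s17h_Open fun _ => True :=
  ⟨⊥, inferInstance, fun _ _ => trivial⟩

theorem s17h_open_and {p q : (Qb ≃ₐ[ℚ] Qb) → Prop} (hp : s17h_Open p) (hq : s17h_Open q) :
    s17h_Open fun σ => p σ ∧ q σ := by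
  obtain ⟨E₁, h₁, hp⟩ := hp
  obtain ⟨E₂, h₂, hq⟩ := hq
  refine ⟨E₁ ⊔ E₂, inferInstance, fun σ hσ => ⟨hp σ ?_, hq σ ?_⟩⟩
  · exact IntermediateField.fixingSubgroup_le le_sup_left hσ
  · exact IntermediateField.fixingSubgroup_le le_sup_right hσ

theorem s17h_open_mono {p q : (Qb ≃ₐ[ℚ] Qb) → Prop} (hp : s17h_Open p) (h : ∀ σ, p σ → q σ) :
    s17h_Open q := by
  obtain ⟨E, hE, hp⟩ := hp
  exact ⟨E, hE, fun σ hσ => h σ (hp σ hσ)⟩

theorem s17h_open_finset {α : Type*} (s : Finset α) (p : α → (Qb ≃ₐ[ℚ] Qb) → Prop)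
    (h : ∀ a ∈ s, s17h_Open (p a)) : s17h_Open fun σ => ∀ a ∈ s, p a σ := by
  classical
  induction s using Finset.induction_on with
  | empty => exact s17h_open_mono s17h_open_true fun σ _ a ha => absurd ha (Finset.notMem_empty a)
  | insert a s ha ih =>
    have h1 := h a (Finset.mem_insert_self a s)
    have h2 := ih fun b hb => h b (Finset.mem_insert_of_mem hb)
    refine s17h_open_mono (s17h_open_and h1 h2) fun σ hσ b hb => ?_
    rcases Finset.mem_insert.mp hb with rfl | hb
    · exact hσ.1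
    · exact hσ.2 b hb

theorem s17h_open_forall {α : Type*} [Finite α] (p : α → (Qb ≃ₐ[ℚ] Qb) → Prop)
    (h : ∀ a, s17h_Open (p a)) : s17h_Open fun σ => ∀ a, p a σ := by
  haveI := Fintype.ofFinite α
  exact s17h_open_mono (s17h_open_finset Finset.univ p fun a _ => h a)
    fun σ hσ a => hσ a (Finset.mem_univ a)

/-- an element of `ℚ̄` is fixed by an open subgroup. -/
theorem s17h_open_const (c : Qb) : s17h_Open fun σ => σ c = c := by
  haveI := s17h_isAlgebraic_Qbar
  refine ⟨IntermediateField.adjoin ℚ {c}, ?_, fun σ hσ => ?_⟩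
  · exact IntermediateField.adjoin.finiteDimensional (Algebra.IsIntegral.isIntegral c)
  · rw [IntermediateField.mem_fixingSubgroup_iff] at hσ
    exact hσ c (IntermediateField.mem_adjoin_simple_self ℚ c)

variable {F : Type} [Field F] [Algebra Qb F]

/-- a divisor is fixed by an open subgroup. -/
theorem s17h_open_divisor {ρ : (Qb ≃ₐ[ℚ] Qb) →* SemilinearAut Qb F} {P₀ : Place Qb F}
    (hG : s17_Gal ρ P₀) (D : Divisor Qb F) : s17h_Open fun σ => ρ σ • D = D := by
  have h := s17h_open_finset D.support (fun P σ => ρ σ • P = P) fun P _ => hG.openP P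
  refine s17h_open_mono h fun σ hσ => ?_
  rw [SemilinearAut.divisor_smul_def]
  have : Finsupp.mapDomain (fun v : Place Qb F => ρ σ • v) D = Finsupp.mapDomain id D :=
    Finsupp.mapDomain_congr fun v hv => hσ v hv
  rw [this, Finsupp.mapDomain_id]

end Fermat.Agent.Lib.S17
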