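/-
Programme MW (S17), height half, assembly (helper6, prefix `s17h_`): theta sections scaled by a
constant (scaling the first function of the first block), full-variable theta sections.
-/
import Fermat.Agent.Lib.S17.HData

set_option autoImplicit false

noncomputable section

namespace Fermat.Agent.Lib.S17

open AlgebraicCurve Fermat.Agent.Lib.S19

variable {K F : Type} [Field K] [Field F] [Algebra K F]

/-- scaling the first function of a block. -/
def s17h_scaleBlk {m : ℕ} (c : K) (b : s17_Blk K F m) : s17_Blk K F m :=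
  ⟨b.S, b.D, fun k => if k = 0 then algebraMap K F c * b.f k else b.f k⟩

theorem s17h_scaleBlk_ok {m : ℕ} (c : K) {b : s17_Blk K F m} (hb : b.Ok) :
    (s17h_scaleBlk c b).Ok := by
  intro k hk
  unfold s17h_scaleBlk
  simp only
  split_ifs with h
  · rw [← Algebra.smul_def]
    exact Submodule.smul_mem _ c (hb k hk)
  · exact hb k hk

theorem s17h_cdet_scale (X : s17_Charts K F) {n : ℕ} (hn : 0 < n) (c : K) (D : Divisor K F)
    (A : Fin n → Place K F) (f : Fin n → F) :
    s17_cdet X D A (fun k => if (k : ℕ) = 0 then algebraMap K F c * f k else f k) =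
      c * s17_cdet X D A f := by
  classical
  unfold s17_cdet
  have h : s17_conf X D A (fun k => if (k : ℕ) = 0 then algebraMap K F c * f k else f k) =
      (s17_conf X D A f).updateCol ⟨0, hn⟩ (c • fun i => s17_conf X D A f i ⟨0, hn⟩) := by
    ext i k
    unfold s17_conf
    by_cases hk : k = ⟨0, hn⟩
    · subst hk
      simp only [Matrix.updateCol_self, Pi.smul_apply, smul_eq_mul, if_true]
      rw [map_mul, X.exp_alg, HahnSeries.C_mul_eq_smul, HahnSeries.coeff_smul, smul_eq_mul]
    · rw [Matrix.updateCol_ne hk]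
      have : (k : ℕ) ≠ 0 := fun h0 => hk (Fin.ext h0)
      simp only [this, if_false]
  rw [h, Matrix.det_updateCol_smul]
  congr 1
  exact congrArg Matrix.det (Matrix.updateCol_eq_self (s17_conf X D A f) ⟨0, hn⟩)

theorem s17h_scaleBlk_val (X : s17_Charts K F) {m : ℕ} (c : K) (b : s17_Blk K F m)
    (hS : 0 < b.S.card) (A : Fin m → Place K F) :
    (s17h_scaleBlk c b).val X A = c * b.val X A := by
  unfold s17_Blk.val s17h_scaleBlk
  simp only
  exact s17h_cdet_scale X hS c b.D _ (fun k : Fin b.S.card => b.f k)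

theorem s17h_tyD_cons {m : ℕ} (b : s17_Blk K F m) (l : List (s17_Blk K F m)) (i : Fin m) :
    s17_tyD (b :: l) i = (if i ∈ b.S then b.D else 0) + s17_tyD l i := by
  unfold s17_tyD
  by_cases h : i ∈ b.S
  · rw [List.filter_cons_of_pos (by simpa using h), if_pos h]
    simp
  · rw [List.filter_cons_of_neg (by simpa using h), if_neg h, zero_add]

theorem s17h_tyM_cons {m : ℕ} (b : s17_Blk K F m) (l : List (s17_Blk K F m)) (i j : Fin m) :
    s17_tyM (b :: l) i j = (if i ∈ b.S ∧ j ∈ b.S then 1 else 0) + s17_tyM l i j := by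
  unfold s17_tyM
  by_cases h : i ∈ b.S ∧ j ∈ b.S
  · rw [List.filter_cons_of_pos (by simpa using h), if_pos h]
    simp [add_comm]
  · rw [List.filter_cons_of_neg (by simpa using h), if_neg h, zero_add]

/-- the scaled theta section `c · θ_T` on the variables `S`. -/
def s17h_thetaSecC {m' : ℕ} (c : K) (P₀ : Place K F) (g m : ℕ) (T : Fin 3 → Divisor K F)
    (S : Finset (Fin m')) : List (s17_Blk K F m') :=
  [s17h_scaleBlk c (s17_thetaBlk P₀ g m T S 0), s17_thetaBlk P₀ g m T S 1,
    s17_thetaBlk P₀ g m T S 2]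

theorem s17h_thetaSec_eq {m' : ℕ} (P₀ : Place K F) (g m : ℕ) (T : Fin 3 → Divisor K F)
    (S : Finset (Fin m')) :
    s17_thetaSec P₀ g m T S =
      [s17_thetaBlk P₀ g m T S 0, s17_thetaBlk P₀ g m T S 1, s17_thetaBlk P₀ g m T S 2] := by
  unfold s17_thetaSec
  simp [List.ofFn_succ]

theorem s17h_thetaSecC_ok {m' : ℕ} (c : K) (P₀ : Place K F) (g m : ℕ) (T : Fin 3 → Divisor K F)
    (S : Finset (Fin m')) : ∀ b ∈ s17h_thetaSecC c P₀ g m T S, b.Ok := by
  intro b hb
  unfold s17h_thetaSecC at hb
  simp only [List.mem_cons, List.not_mem_nil, or_false] at hb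
  rcases hb with rfl | rfl | rfl
  · exact s17h_scaleBlk_ok c (s17h_thetaBlk_ok P₀ g m T S 0)
  · exact s17h_thetaBlk_ok P₀ g m T S 1
  · exact s17h_thetaBlk_ok P₀ g m T S 2

theorem s17h_thetaSecC_sameTy {m' : ℕ} (c : K) (P₀ : Place K F) (g m : ℕ)
    (T : Fin 3 → Divisor K F) (S : Finset (Fin m')) :
    s17_SameTy (s17h_thetaSecC c P₀ g m T S) (s17_thetaSec P₀ g m T S) := by
  rw [s17h_thetaSec_eq]
  refine ⟨fun i => ?_, fun i j _ => ?_⟩
  · unfold s17h_thetaSecC
    simp only [s17h_tyD_cons]
    rfl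
  · unfold s17h_thetaSecC
    simp only [s17h_tyM_cons]
    rfl

theorem s17h_thetaSecC_val (X : s17_Charts K F) {m' : ℕ} (c : K) (P₀ : Place K F) (g m : ℕ)
    (T : Fin 3 → Divisor K F) (S : Finset (Fin m')) (hS : 0 < S.card) (A : Fin m' → Place K F) :
    s17_secVal X (s17h_thetaSecC c P₀ g m T S) A = c * s17_secVal X (s17_thetaSec P₀ g m T S) A := by
  rw [s17h_thetaSec_eq]
  unfold s17h_thetaSecC
  simp only [s17h_secVal_cons]
  rw [s17h_scaleBlk_val X c _ hS]
  ring

/-- theta sections of one level on one block have the same type. -/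
theorem s17h_thetaSec_sameTy {m' : ℕ} (P₀ : Place K F) (g m : ℕ) {T T' : Fin 3 → Divisor K F}
    (hT : s17_Adm T) (hT' : s17_Adm T') (S : Finset (Fin m')) :
    s17_SameTy (s17_thetaSec P₀ g m T S) (s17_thetaSec P₀ g m T' S) := by
  constructor
  · intro i
    rw [s17h_tyD_thetaSec P₀ g m T hT, s17h_tyD_thetaSec P₀ g m T' hT']
  · intro i j _
    rw [s17h_tyM_thetaSec, s17h_tyM_thetaSec]

/-- the theta section on all variables has the theta value. -/
theorem s17h_secVal_thetaSec_univ (X : s17_Charts K F) (P₀ : Place K F) (g m : ℕ)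
    (T : Fin 3 → Divisor K F) (A : Fin m → Place K F) :
    s17_secVal X (s17_thetaSec P₀ g m T Finset.univ) A = s17_thetaVal X P₀ g m T A := by
  have hid : StrictMono (fun i : Fin m => i) := fun a b h => h
  have huniv : (Finset.univ : Finset (Fin m)) = s17h_img _ hid := by
    ext i; simp [s17h_mem_img]
  rw [huniv, s17h_secVal_thetaSec_img]

end Fermat.Agent.Lib.S17
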