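/-
Programme MW (S17), height half, assembly (helper6, prefix `s17h_`): Galois-fixed families of
theta sections; comparison of two scaled theta families at one level.
-/
import Fermat.Agent.Lib.S17.HScale

set_option autoImplicit false

noncomputable section

namespace Fermat.Agent.Lib.S17

open AlgebraicCurve Fermat.Agent.Lib.S19 Height

local notation "Qb" => AlgebraicClosure ℚ

variable {F : Type} [Field F] [Algebra Qb F]

/-- `σ` fixes the divisors and the chosen bases of a family of triples at level `m`. -/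
def s17h_FamFixed (ρ : (Qb ≃ₐ[ℚ] Qb) →* SemilinearAut Qb F) (P₀ : Place Qb F) (g m : ℕ) {n : ℕ}
    (I : Fin n → Fin 3 → Divisor Qb F) (σ : Qb ≃ₐ[ℚ] Qb) : Prop :=
  ∀ a j, ρ σ • (s17_B P₀ g m + I a j) = s17_B P₀ g m + I a j ∧
    ∀ κ : Fin m, ρ σ • s17_basis (s17_B P₀ g m + I a j) m κ = s17_basis (s17_B P₀ g m + I a j) m κ

theorem s17h_open_famFixed {ρ : (Qb ≃ₐ[ℚ] Qb) →* SemilinearAut Qb F} {P₀ : Place Qb F}
    (hG : s17_Gal ρ P₀) (g m : ℕ) {n : ℕ} (I : Fin n → Fin 3 → Divisor Qb F) :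
    s17h_Open (s17h_FamFixed ρ P₀ g m I) := by
  unfold s17h_FamFixed
  refine s17h_open_forall _ fun a => s17h_open_forall _ fun j => s17h_open_and ?_ ?_
  · exact s17h_open_divisor hG _
  · exact s17h_open_forall _ fun κ => hG.openF _

theorem s17h_fixedBy_thetaSec {ρ : (Qb ≃ₐ[ℚ] Qb) →* SemilinearAut Qb F} {P₀ : Place Qb F}
    {g m : ℕ} {n : ℕ} {I : Fin n → Fin 3 → Divisor Qb F} {E : IntermediateField ℚ Qb}
    (hE : ∀ σ ∈ E.fixingSubgroup, s17h_FamFixed ρ P₀ g m I σ) {m' : ℕ} (S : Finset (Fin m'))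
    (a : Fin n) : s17h_FixedBy ρ E (s17_thetaSec P₀ g m (I a) S) := by
  intro σ hσ b hb
  unfold s17_thetaSec at hb
  rw [List.mem_ofFn] at hb
  obtain ⟨j, rfl⟩ := hb
  obtain ⟨h1, h2⟩ := hE σ hσ a j
  refine ⟨h1, fun k _ => ?_⟩
  unfold s17_thetaBlk
  simp only
  split_ifs with hk
  · exact h2 ⟨k, hk⟩
  · exact smul_zero _

theorem s17h_fixedBy_thetaSecC {ρ : (Qb ≃ₐ[ℚ] Qb) →* SemilinearAut Qb F} {P₀ : Place Qb F}
    (hbase : ∀ σ, SemilinearAut.baseAut (ρ σ) = σ.toRingEquiv)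
    {g m : ℕ} {n : ℕ} {I : Fin n → Fin 3 → Divisor Qb F} {E : IntermediateField ℚ Qb}
    (hE : ∀ σ ∈ E.fixingSubgroup, s17h_FamFixed ρ P₀ g m I σ) {m' : ℕ} (S : Finset (Fin m'))
    (a : Fin n) (c : Qb) (hc : ∀ σ ∈ E.fixingSubgroup, σ c = c) :
    s17h_FixedBy ρ E (s17h_thetaSecC c P₀ g m (I a) S) := by
  have h0 := s17h_fixedBy_thetaSec hE S a
  rw [s17h_thetaSec_eq] at h0
  intro σ hσ b hb
  unfold s17h_thetaSecC at hb
  simp only [List.mem_cons, List.not_mem_nil, or_false] at hb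
  rcases hb with rfl | rfl | rfl
  · obtain ⟨h1, h2⟩ := h0 σ hσ (s17_thetaBlk P₀ g m (I a) S 0) (by simp)
    refine ⟨h1, fun k hk => ?_⟩
    unfold s17h_scaleBlk
    simp only
    split_ifs with hk0
    · rw [smul_mul', SemilinearAut.smul_algebraMap, hbase σ]
      have : (σ.toRingEquiv : Qb ≃+* Qb) c = c := hc σ hσ
      rw [this]
      congr 1
      exact h2 k hk
    · exact h2 k hk
  · exact h0 σ hσ _ (by simp)
  · exact h0 σ hσ _ (by simp)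

/-- stability of a tuple up to permutation (no block condition). -/
def s17h_StableU (ρ : (Qb ≃ₐ[ℚ] Qb) →* SemilinearAut Qb F) (E : IntermediateField ℚ Qb) {m : ℕ}
    (A : Fin m → Place Qb F) : Prop :=
  ∀ σ ∈ E.fixingSubgroup, ∃ π : Equiv.Perm (Fin m), ∀ i, ρ σ • A i = A (π i)

/-- **comparison of two scaled theta families at one level.** -/
theorem s17h_cmp_level (hCL : s17_CL) (hGV : s17_GalVal) {g : ℕ} (hC : s17_Curve Qb F g)
    (X : s17_Charts Qb F) (ρ : (Qb ≃ₐ[ℚ] Qb) →* SemilinearAut Qb F)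
    (hbase : ∀ σ, SemilinearAut.baseAut (ρ σ) = σ.toRingEquiv) (P₀ : Place Qb F)
    (E : IntermediateField ℚ Qb) [AdmissibleAbsValues ↥E] (m : ℕ) (hm : 0 < m)
    {n₁ n₂ : ℕ} (I₁ : Fin n₁ → Fin 3 → Divisor Qb F) (I₂ : Fin n₂ → Fin 3 → Divisor Qb F)
    (hadm₁ : ∀ a, s17_Adm (I₁ a)) (hadm₂ : ∀ a, s17_Adm (I₂ a))
    (c₁ : Fin n₁ → Qb) (c₂ : Fin n₂ → Qb)
    (hbpf₁ : ∀ A : Fin m → Place Qb F, ∃ a, c₁ a * s17_thetaVal X P₀ g m (I₁ a) A ≠ 0)
    (hbpf₂ : ∀ A : Fin m → Place Qb F, ∃ a, c₂ a * s17_thetaVal X P₀ g m (I₂ a) A ≠ 0)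
    (hE₁ : ∀ σ ∈ E.fixingSubgroup, s17h_FamFixed ρ P₀ g m I₁ σ)
    (hE₂ : ∀ σ ∈ E.fixingSubgroup, s17h_FamFixed ρ P₀ g m I₂ σ)
    (hc₁ : ∀ a, ∀ σ ∈ E.fixingSubgroup, σ (c₁ a) = c₁ a)
    (hc₂ : ∀ a, ∀ σ ∈ E.fixingSubgroup, σ (c₂ a) = c₂ a) :
    ∃ C : ℝ, ∀ A : Fin m → Place Qb F, s17h_StableU ρ E A →
      |s17n_ht ↥E (fun a => c₁ a * s17_thetaVal X P₀ g m (I₁ a) A) -
        s17n_ht ↥E (fun a => c₂ a * s17_thetaVal X P₀ g m (I₂ a) A)| ≤ C := by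
  have hcard : 0 < (Finset.univ : Finset (Fin m)).card := by simpa using hm
  have hval₁ : ∀ (A : Fin m → Place Qb F) (a : Fin n₁),
      s17_secVal X (s17h_thetaSecC (c₁ a) P₀ g m (I₁ a) Finset.univ) A =
        c₁ a * s17_thetaVal X P₀ g m (I₁ a) A := fun A a => by
    rw [s17h_thetaSecC_val X _ _ _ _ _ _ hcard, s17h_secVal_thetaSec_univ]
  have hval₂ : ∀ (A : Fin m → Place Qb F) (a : Fin n₂),
      s17_secVal X (s17h_thetaSecC (c₂ a) P₀ g m (I₂ a) Finset.univ) A =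
        c₂ a * s17_thetaVal X P₀ g m (I₂ a) A := fun A a => by
    rw [s17h_thetaSecC_val X _ _ _ _ _ _ hcard, s17h_secVal_thetaSec_univ]
  have hty : ∀ (T T' : Fin 3 → Divisor Qb F) (c c' : Qb), s17_Adm T → s17_Adm T' →
      s17_SameTy (s17h_thetaSecC c P₀ g m T (Finset.univ : Finset (Fin m)))
        (s17h_thetaSecC c' P₀ g m T' Finset.univ) := fun T T' c c' hT hT' =>
    s17h_sameTy_trans (s17h_thetaSecC_sameTy c P₀ g m T _)
      (s17h_sameTy_trans (s17h_thetaSec_sameTy P₀ g m hT hT' _)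
        (s17h_sameTy_symm (s17h_thetaSecC_sameTy c' P₀ g m T' _)))
  obtain ⟨C, hCb⟩ := s17h_cmp hCL hGV hC X ρ hbase E
    (fun a => s17h_thetaSecC (c₁ a) P₀ g m (I₁ a) (Finset.univ : Finset (Fin m)))
    (fun a => s17h_thetaSecC (c₂ a) P₀ g m (I₂ a) (Finset.univ : Finset (Fin m)))
    (fun a => s17h_thetaSecC_ok _ _ _ _ _ _) (fun a => s17h_thetaSecC_ok _ _ _ _ _ _)
    (fun a a' => hty _ _ _ _ (hadm₁ a) (hadm₁ a')) (fun a a' => hty _ _ _ _ (hadm₂ a) (hadm₂ a'))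
    (fun a a' => hty _ _ _ _ (hadm₁ a) (hadm₂ a'))
    (fun A => by obtain ⟨a, ha⟩ := hbpf₁ A; exact ⟨a, by rw [hval₁]; exact ha⟩)
    (fun A => by obtain ⟨a, ha⟩ := hbpf₂ A; exact ⟨a, by rw [hval₂]; exact ha⟩)
    (fun a => s17h_fixedBy_thetaSecC hbase hE₁ _ a (c₁ a) (hc₁ a))
    (fun a => s17h_fixedBy_thetaSecC hbase hE₂ _ a (c₂ a) (hc₂ a))
  refine ⟨C, fun A hA => ?_⟩
  have := hCb A (by
    intro σ hσ
    obtain ⟨π, hπ⟩ := hA σ hσ
    refine ⟨π, hπ, ?_⟩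
    rintro S hS i
    have hSu : S = Finset.univ := by
      rcases hS with ⟨a, b, hb, rfl⟩ | ⟨a, b, hb, rfl⟩
      · unfold s17h_thetaSecC at hb
        simp only [List.mem_cons, List.not_mem_nil, or_false] at hb
        rcases hb with rfl | rfl | rfl <;> rfl
      · unfold s17h_thetaSecC at hb
        simp only [List.mem_cons, List.not_mem_nil, or_false] at hb
        rcases hb with rfl | rfl | rfl <;> rfl
    subst hSu
    simp)
  simp only [hval₁, hval₂] at this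
  exact this

/-- rationality of a scaled theta vector at a stable tuple. -/
theorem s17h_isRat_level (hGV : s17_GalVal) {g : ℕ} (hC : s17_Curve Qb F g)
    (X : s17_Charts Qb F) (ρ : (Qb ≃ₐ[ℚ] Qb) →* SemilinearAut Qb F)
    (hbase : ∀ σ, SemilinearAut.baseAut (ρ σ) = σ.toRingEquiv) (P₀ : Place Qb F)
    (E : IntermediateField ℚ Qb) (m : ℕ) (hm : 0 < m)
    {n₁ : ℕ} (I₁ : Fin n₁ → Fin 3 → Divisor Qb F) (hadm₁ : ∀ a, s17_Adm (I₁ a))
    (c₁ : Fin n₁ → Qb) (hE₁ : ∀ σ ∈ E.fixingSubgroup, s17h_FamFixed ρ P₀ g m I₁ σ)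
    (hc₁ : ∀ a, ∀ σ ∈ E.fixingSubgroup, σ (c₁ a) = c₁ a) (A : Fin m → Place Qb F)
    (hA : s17h_StableU ρ E A) :
    s17n_IsRat ↥E (fun a => c₁ a * s17_thetaVal X P₀ g m (I₁ a) A) := by
  have hcard : 0 < (Finset.univ : Finset (Fin m)).card := by simpa using hm
  have hval₁ : ∀ (a : Fin n₁),
      s17_secVal X (s17h_thetaSecC (c₁ a) P₀ g m (I₁ a) Finset.univ) A =
        c₁ a * s17_thetaVal X P₀ g m (I₁ a) A := fun a => by
    rw [s17h_thetaSecC_val X _ _ _ _ _ _ hcard, s17h_secVal_thetaSec_univ]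
  have hty : ∀ (T T' : Fin 3 → Divisor Qb F) (c c' : Qb), s17_Adm T → s17_Adm T' →
      s17_SameTy (s17h_thetaSecC c P₀ g m T (Finset.univ : Finset (Fin m)))
        (s17h_thetaSecC c' P₀ g m T' Finset.univ) := fun T T' c c' hT hT' =>
    s17h_sameTy_trans (s17h_thetaSecC_sameTy c P₀ g m T _)
      (s17h_sameTy_trans (s17h_thetaSec_sameTy P₀ g m hT hT' _)
        (s17h_sameTy_symm (s17h_thetaSecC_sameTy c' P₀ g m T' _)))
  have := s17h_isRat_vals hGV hC X ρ hbase E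
    (fun a => s17h_thetaSecC (c₁ a) P₀ g m (I₁ a) (Finset.univ : Finset (Fin m)))
    (fun a => s17h_thetaSecC_ok _ _ _ _ _ _) (fun a a' => hty _ _ _ _ (hadm₁ a) (hadm₁ a'))
    (fun a => s17h_fixedBy_thetaSecC hbase hE₁ _ a (c₁ a) (hc₁ a)) A (by
      intro σ hσ
      obtain ⟨π, hπ⟩ := hA σ hσ
      refine ⟨π, hπ, ?_⟩
      rintro S ⟨a, b, hb, rfl⟩ i
      unfold s17h_thetaSecC at hb
      simp only [List.mem_cons, List.not_mem_nil, or_false] at hb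
      rcases hb with rfl | rfl | rfl <;> simp [s17h_scaleBlk, s17_thetaBlk])
  simp only [hval₁] at this
  exact this

end Fermat.Agent.Lib.S17
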