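/-
Programme MW (S17), height half, assembly (helper6, prefix `s17h_`): the two cube families as
families of sections on `C^{ν+(ν+ν)}`: ok, types, base-point freeness, fixedness, blocks.
-/
import Fermat.Agent.Lib.S17.HFix

set_option autoImplicit false

noncomputable section

namespace Fermat.Agent.Lib.S17

open AlgebraicCurve Fermat.Agent.Lib.S19 Height

local notation "Qb" => AlgebraicClosure ℚ

section general

variable {K F : Type} [Field K] [Field F] [Algebra K F]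

/-- every tuple on `Fin (ν + (ν + ν))` is a concatenation. -/
theorem s17h_append_parts {α : Type*} {ν : ℕ} (A : Fin (ν + (ν + ν)) → α) :
    A = Fin.append (fun i => A (s17h_e1 ν i))
      (Fin.append (fun i => A (s17h_e2 ν i)) (fun i => A (s17h_e3 ν i))) := by
  funext k
  induction k using Fin.addCases with
  | left i => rw [Fin.append_left]; rfl
  | right j =>
    rw [Fin.append_right]
    induction j using Fin.addCases with
    | left i => rw [Fin.append_left]; rfl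
    | right i => rw [Fin.append_right]; rfl

theorem s17h_cubeL_ok {ν : ℕ} (P₀ : Place K F) (g : ℕ) (T T₁ T₂ T₃ : Fin 3 → Divisor K F) :
    ∀ b ∈ s17h_cubeL (ν := ν) P₀ g T T₁ T₂ T₃, b.Ok := by
  intro b hb
  unfold s17h_cubeL at hb
  simp only [List.mem_append] at hb
  rcases hb with hb | hb | hb | hb <;> exact s17h_thetaSec_ok _ _ _ _ _ b hb

theorem s17h_cubeR_ok {ν : ℕ} (P₀ : Place K F) (g : ℕ) (T₁₂ T₁₃ T₂₃ : Fin 3 → Divisor K F) :
    ∀ b ∈ s17h_cubeR (ν := ν) P₀ g T₁₂ T₁₃ T₂₃, b.Ok := by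
  intro b hb
  unfold s17h_cubeR at hb
  simp only [List.mem_append] at hb
  rcases hb with hb | hb | hb <;> exact s17h_thetaSec_ok _ _ _ _ _ b hb

theorem s17h_mem_thetaSec_S {m' : ℕ} (P₀ : Place K F) (g m : ℕ) (T : Fin 3 → Divisor K F)
    (S : Finset (Fin m')) {b : s17_Blk K F m'} (hb : b ∈ s17_thetaSec P₀ g m T S) : b.S = S := by
  unfold s17_thetaSec at hb
  rw [List.mem_ofFn] at hb
  obtain ⟨j, rfl⟩ := hb
  rfl

/-- the blocks of the left side of the cube are among the seven blocks. -/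
theorem s17h_cubeL_blocks {ν : ℕ} (P₀ : Place K F) (g : ℕ) (T T₁ T₂ T₃ : Fin 3 → Divisor K F)
    {b : s17_Blk K F (ν + (ν + ν))} (hb : b ∈ s17h_cubeL (ν := ν) P₀ g T T₁ T₂ T₃) :
    b.S = Finset.univ ∨ b.S = s17h_img (s17h_e1 ν) (s17h_e1_mono ν) ∨
      b.S = s17h_img (s17h_e2 ν) (s17h_e2_mono ν) ∨ b.S = s17h_img (s17h_e3 ν) (s17h_e3_mono ν) ∨
      b.S = s17h_img (s17h_e12 ν) (s17h_e12_mono ν) ∨
      b.S = s17h_img (s17h_e13 ν) (s17h_e13_mono ν) ∨
      b.S = s17h_img (s17h_e23 ν) (s17h_e23_mono ν) := by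
  unfold s17h_cubeL at hb
  simp only [List.mem_append] at hb
  rcases hb with hb | hb | hb | hb
  · exact Or.inl (s17h_mem_thetaSec_S _ _ _ _ _ hb)
  · exact Or.inr (Or.inl (s17h_mem_thetaSec_S _ _ _ _ _ hb))
  · exact Or.inr (Or.inr (Or.inl (s17h_mem_thetaSec_S _ _ _ _ _ hb)))
  · exact Or.inr (Or.inr (Or.inr (Or.inl (s17h_mem_thetaSec_S _ _ _ _ _ hb))))

theorem s17h_cubeR_blocks {ν : ℕ} (P₀ : Place K F) (g : ℕ) (T₁₂ T₁₃ T₂₃ : Fin 3 → Divisor K F)
    {b : s17_Blk K F (ν + (ν + ν))} (hb : b ∈ s17h_cubeR (ν := ν) P₀ g T₁₂ T₁₃ T₂₃) :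
    b.S = Finset.univ ∨ b.S = s17h_img (s17h_e1 ν) (s17h_e1_mono ν) ∨
      b.S = s17h_img (s17h_e2 ν) (s17h_e2_mono ν) ∨ b.S = s17h_img (s17h_e3 ν) (s17h_e3_mono ν) ∨
      b.S = s17h_img (s17h_e12 ν) (s17h_e12_mono ν) ∨
      b.S = s17h_img (s17h_e13 ν) (s17h_e13_mono ν) ∨
      b.S = s17h_img (s17h_e23 ν) (s17h_e23_mono ν) := by
  unfold s17h_cubeR at hb
  simp only [List.mem_append] at hb
  rcases hb with hb | hb | hb
  · exact Or.inr (Or.inr (Or.inr (Or.inr (Or.inl (s17h_mem_thetaSec_S _ _ _ _ _ hb)))))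
  · exact Or.inr (Or.inr (Or.inr (Or.inr (Or.inr (Or.inl (s17h_mem_thetaSec_S _ _ _ _ _ hb))))))
  · exact Or.inr (Or.inr (Or.inr (Or.inr (Or.inr (Or.inr (s17h_mem_thetaSec_S _ _ _ _ _ hb))))))

end general

variable {F : Type} [Field F] [Algebra Qb F]

theorem s17h_fixedBy_append {ρ : (Qb ≃ₐ[ℚ] Qb) →* SemilinearAut Qb F}
    {E : IntermediateField ℚ Qb} {m : ℕ} {l l' : List (s17_Blk Qb F m)}
    (h : s17h_FixedBy ρ E l) (h' : s17h_FixedBy ρ E l') : s17h_FixedBy ρ E (l ++ l') := by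
  intro σ hσ b hb
  rcases List.mem_append.mp hb with hb | hb
  · exact h σ hσ b hb
  · exact h' σ hσ b hb

end Fermat.Agent.Lib.S17
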