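/-
Programme MW (S17), height half, assembly (helper6, prefix `s17h_`): TRANSFER between levels.
The height of the theta vector of level `m'` at any representative of `x` equals, up to `O(1)`,
the height of the theta vector of level `ν` at a stable representative of `x`
(fibre constancy + change of level + comparison of two families at level `ν`).
-/
import Fermat.Agent.Lib.S17.HCubeFam

set_option autoImplicit false

noncomputable section

namespace Fermat.Agent.Lib.S17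

open AlgebraicCurve Fermat.Agent.Lib.S19 Height

local notation "Qb" => AlgebraicClosure ℚ

variable {F : Type} [Field F] [Algebra Qb F]

/-- a class has at most one representative class. -/
theorem s17h_rep_unique {K F : Type} [Field K] [Field F] [Algebra K F] (P₀ : Place K F) {m : ℕ}
    {A : Fin m → Place K F} {x x' : Pic0 K F} (h : s17_Rep P₀ A x) (h' : s17_Rep P₀ A x') :
    x = x' := by
  obtain ⟨hd, rfl⟩ := h
  obtain ⟨hd', rfl⟩ := h'
  rfl

/-- **transfer**: level `m'` versus level `ν`. -/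
theorem s17h_transfer (hFC : s17_FC) (hCL : s17_CL) (hGV : s17_GalVal) {g : ℕ}
    (hC : s17_Curve Qb F g) (hg : 0 < g)
    (X : s17_Charts Qb F) (ρ : (Qb ≃ₐ[ℚ] Qb) →* SemilinearAut Qb F)
    (hbase : ∀ σ, SemilinearAut.baseAut (ρ σ) = σ.toRingEquiv) (P₀ : Place Qb F)
    (E : IntermediateField ℚ Qb) [AdmissibleAbsValues ↥E] (ν : ℕ) (hν : 0 < ν)
    (L₁ : s17h_Level X P₀ g ν) (m' : ℕ) (hm' : 0 < m')
    (hB' : s17_Big Qb F g ((m' : ℤ) - 1)) (L' : s17h_Level X P₀ g m')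
    (pad : (Fin ν → Place Qb F) → (Fin m' → Place Qb F))
    (hpad : ∀ A x, s17_Rep P₀ A x → s17_Rep P₀ (pad A) x)
    (c : Fin L'.n → Qb)
    (hlvl : ∀ a A, s17_thetaVal X P₀ g m' (L'.I a) (pad A) =
      c a * s17_thetaVal X P₀ g ν (L'.I a) A)
    (hE₁ : ∀ σ ∈ E.fixingSubgroup, s17h_FamFixed ρ P₀ g ν L₁.I σ)
    (hE' : ∀ σ ∈ E.fixingSubgroup, s17h_FamFixed ρ P₀ g ν L'.I σ)
    (hcE : ∀ a, ∀ σ ∈ E.fixingSubgroup, σ (c a) = c a) :
    ∃ C : ℝ, ∀ (x : Pic0 Qb F) (A : Fin ν → Place Qb F) (B : Fin m' → Place Qb F),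
      s17h_StableU ρ E A → s17_Rep P₀ A x → s17_Rep P₀ B x →
      |s17n_ht ↥E (L'.psi B) - s17n_ht ↥E (L₁.psi A)| ≤ C := by
  obtain ⟨C, hCb⟩ := s17h_cmp_level hCL hGV hC X ρ hbase P₀ E ν hν L'.I L₁.I L'.adm L₁.adm
    c (fun _ => 1)
    (fun A => by
      obtain ⟨a, ha⟩ := L'.bpf (pad A)
      exact ⟨a, by rw [← hlvl]; exact ha⟩)
    (fun A => by
      obtain ⟨a, ha⟩ := L₁.bpf A
      exact ⟨a, by rw [one_mul]; exact ha⟩)
    hE' hE₁ hcE (fun _ σ _ => map_one σ)
  refine ⟨C, fun x A B hA hAx hBx => ?_⟩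
  have hlin : s17_LinEq (pad A) B := s17h_linEq_of_rep P₀ (hpad A x hAx) hBx
  obtain ⟨t, ht, hfc⟩ := hFC Qb F g hC hg X P₀ m' hm' hB' (pad A) B hlin
  have h1 : L'.psi B = t • fun a => c a * s17_thetaVal X P₀ g ν (L'.I a) A := by
    funext a
    simp only [s17h_Level.psi, Pi.smul_apply, smul_eq_mul]
    rw [hfc (L'.I a) (L'.adm a), hlvl]
  have h2 : (fun a => (1 : Qb) * s17_thetaVal X P₀ g ν (L₁.I a) A) = L₁.psi A := by
    funext a
    simp only [s17h_Level.psi, one_mul]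
  rw [h1, s17n_ht_smul _ ht, ← h2]
  exact hCb A hA

end Fermat.Agent.Lib.S17
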