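/-
Programme MW (S17), height half, assembly (helper6, prefix `s17h_`): THE CUBE INEQUALITY for the
heights of theta vectors at concatenated stable tuples.
-/
import Fermat.Agent.Lib.S17.HTransfer

set_option autoImplicit false

noncomputable section

namespace Fermat.Agent.Lib.S17

open AlgebraicCurve Fermat.Agent.Lib.S19 Height

local notation "Qb" => AlgebraicClosure ℚ

variable {F : Type} [Field F] [Algebra Qb F]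

theorem s17h_stableU_append {ρ : (Qb ≃ₐ[ℚ] Qb) →* SemilinearAut Qb F}
    {E : IntermediateField ℚ Qb} {m n : ℕ} {A₁ : Fin m → Place Qb F} {A₂ : Fin n → Place Qb F}
    (h₁ : s17h_StableU ρ E A₁) (h₂ : s17h_StableU ρ E A₂) :
    s17h_StableU ρ E (Fin.append A₁ A₂) := by
  intro σ hσ
  obtain ⟨π₁, hπ₁⟩ := h₁ σ hσ
  obtain ⟨π₂, hπ₂⟩ := h₂ σ hσ
  exact ⟨s17h_sumPerm π₁ π₂, fun k => s17h_smul_append (ρ σ) A₁ A₂ π₁ π₂ hπ₁ hπ₂ k⟩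

/-- rationality of the theta vector of a fixed level family at a stable tuple. -/
theorem s17h_isRat_psi (hGV : s17_GalVal) {g : ℕ} (hC : s17_Curve Qb F g)
    (X : s17_Charts Qb F) (ρ : (Qb ≃ₐ[ℚ] Qb) →* SemilinearAut Qb F)
    (hbase : ∀ σ, SemilinearAut.baseAut (ρ σ) = σ.toRingEquiv) (P₀ : Place Qb F)
    (E : IntermediateField ℚ Qb) {m : ℕ} (hm : 0 < m) (L : s17h_Level X P₀ g m)
    (hE : ∀ σ ∈ E.fixingSubgroup, s17h_FamFixed ρ P₀ g m L.I σ) (A : Fin m → Place Qb F)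
    (hA : s17h_StableU ρ E A) : s17n_IsRat ↥E (L.psi A) := by
  have := s17h_isRat_level hGV hC X ρ hbase P₀ E m hm L.I L.adm (fun _ => 1) hE
    (fun _ σ _ => map_one σ) A hA
  have h2 : (fun a => (1 : Qb) * s17_thetaVal X P₀ g m (L.I a) A) = L.psi A := by
    funext a
    simp only [s17h_Level.psi, one_mul]
  rwa [h2] at this

theorem s17h_segre_ne_zero {K : Type*} [Field K] {ι ι' : Type*} {z : ι → K} {w : ι' → K}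
    (hz : z ≠ 0) (hw : w ≠ 0) : (fun a : ι × ι' => z a.1 * w a.2) ≠ 0 := by
  obtain ⟨i, hi⟩ := Function.ne_iff.mp hz
  obtain ⟨j, hj⟩ := Function.ne_iff.mp hw
  intro h
  have := congrFun h (i, j)
  simp only [Pi.zero_apply] at this hi hj
  exact mul_ne_zero hi hj this

theorem s17h_adm_zero {K F : Type} [Field K] [Field F] [Algebra K F] :
    s17_Adm (fun _ : Fin 3 => (0 : Divisor K F)) :=
  ⟨fun _ => map_zero _, by simp⟩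

/-- **the cube inequality.** -/
theorem s17h_cube_cmp (hCL : s17_CL) (hGV : s17_GalVal) {g : ℕ}
    (hC : s17_Curve Qb F g) (hg : 0 < g)
    (X : s17_Charts Qb F) (ρ : (Qb ≃ₐ[ℚ] Qb) →* SemilinearAut Qb F)
    (hbase : ∀ σ, SemilinearAut.baseAut (ρ σ) = σ.toRingEquiv) (P₀ : Place Qb F)
    (E : IntermediateField ℚ Qb) [AdmissibleAbsValues ↥E] (ν : ℕ) (hν : 0 < ν)
    (L₁ : s17h_Level X P₀ g ν) (L₂ : s17h_Level X P₀ g (ν + ν))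
    (L₃ : s17h_Level X P₀ g (ν + (ν + ν)))
    (hE₁ : ∀ σ ∈ E.fixingSubgroup, s17h_FamFixed ρ P₀ g ν L₁.I σ)
    (hE₂ : ∀ σ ∈ E.fixingSubgroup, s17h_FamFixed ρ P₀ g (ν + ν) L₂.I σ)
    (hE₃ : ∀ σ ∈ E.fixingSubgroup, s17h_FamFixed ρ P₀ g (ν + (ν + ν)) L₃.I σ) :
    ∃ C : ℝ, ∀ A₁ A₂ A₃ : Fin ν → Place Qb F, s17h_StableU ρ E A₁ → s17h_StableU ρ E A₂ →
      s17h_StableU ρ E A₃ →
      |(s17n_ht ↥E (L₃.psi (Fin.append A₁ (Fin.append A₂ A₃))) +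
          (s17n_ht ↥E (L₁.psi A₁) + (s17n_ht ↥E (L₁.psi A₂) + s17n_ht ↥E (L₁.psi A₃)))) -
        (s17n_ht ↥E (L₂.psi (Fin.append A₁ A₂)) +
          (s17n_ht ↥E (L₂.psi (Fin.append A₁ A₃)) + s17n_ht ↥E (L₂.psi (Fin.append A₂ A₃))))| ≤
        C := by
  have hZ : s17_Adm (fun _ : Fin 3 => (0 : Divisor Qb F)) := s17h_adm_zero
  set Z : Fin 3 → Divisor Qb F := fun _ => 0 with hZdef
  -- the two families
  let s₁ : Fin L₃.n × (Fin L₁.n × (Fin L₁.n × Fin L₁.n)) →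
      List (s17_Blk Qb F (ν + (ν + ν))) :=
    fun p => s17h_cubeL P₀ g (L₃.I p.1) (L₁.I p.2.1) (L₁.I p.2.2.1) (L₁.I p.2.2.2)
  let s₂ : Fin L₂.n × (Fin L₂.n × Fin L₂.n) → List (s17_Blk Qb F (ν + (ν + ν))) :=
    fun q => s17h_cubeR P₀ g (L₂.I q.1) (L₂.I q.2.1) (L₂.I q.2.2)
  have hty₁₂ : ∀ p q, s17_SameTy (s₁ p) (s₂ q) := fun p q =>
    s17h_cube_sameTy P₀ g hg _ _ _ _ _ _ _ (L₃.adm _) (L₁.adm _) (L₁.adm _) (L₁.adm _)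
      (L₂.adm _) (L₂.adm _) (L₂.adm _)
  have hty₁ : ∀ p p', s17_SameTy (s₁ p) (s₁ p') := fun p p' =>
    s17h_sameTy_trans
      (s17h_cube_sameTy P₀ g hg _ _ _ _ Z Z Z (L₃.adm _) (L₁.adm _) (L₁.adm _) (L₁.adm _)
        hZ hZ hZ)
      (s17h_sameTy_symm
        (s17h_cube_sameTy P₀ g hg _ _ _ _ Z Z Z (L₃.adm _) (L₁.adm _) (L₁.adm _) (L₁.adm _)
          hZ hZ hZ))
  have hty₂ : ∀ q q', s17_SameTy (s₂ q) (s₂ q') := fun q q' =>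
    s17h_sameTy_trans
      (s17h_sameTy_symm
        (s17h_cube_sameTy P₀ g hg Z Z Z Z _ _ _ hZ hZ hZ hZ (L₂.adm _) (L₂.adm _) (L₂.adm _)))
      (s17h_cube_sameTy P₀ g hg Z Z Z Z _ _ _ hZ hZ hZ hZ (L₂.adm _) (L₂.adm _) (L₂.adm _))
  -- values at concatenated tuples
  have hval₁ : ∀ (A₁ A₂ A₃ : Fin ν → Place Qb F) p,
      s17_secVal X (s₁ p) (Fin.append A₁ (Fin.append A₂ A₃)) =
        L₃.psi (Fin.append A₁ (Fin.append A₂ A₃)) p.1 *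
          (L₁.psi A₁ p.2.1 * (L₁.psi A₂ p.2.2.1 * L₁.psi A₃ p.2.2.2)) := fun A₁ A₂ A₃ p =>
    s17h_cubeL_val X P₀ g _ _ _ _ A₁ A₂ A₃
  have hval₂ : ∀ (A₁ A₂ A₃ : Fin ν → Place Qb F) q,
      s17_secVal X (s₂ q) (Fin.append A₁ (Fin.append A₂ A₃)) =
        L₂.psi (Fin.append A₁ A₂) q.1 *
          (L₂.psi (Fin.append A₁ A₃) q.2.1 * L₂.psi (Fin.append A₂ A₃) q.2.2) :=
    fun A₁ A₂ A₃ q => s17h_cubeR_val X P₀ g _ _ _ A₁ A₂ A₃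
  have hbpf₁' : ∀ A₁ A₂ A₃ : Fin ν → Place Qb F,
      ∃ p, s17_secVal X (s₁ p) (Fin.append A₁ (Fin.append A₂ A₃)) ≠ 0 := fun A₁ A₂ A₃ => by
    obtain ⟨a, ha⟩ := L₃.bpf (Fin.append A₁ (Fin.append A₂ A₃))
    obtain ⟨a₁, ha₁⟩ := L₁.bpf A₁
    obtain ⟨a₂, ha₂⟩ := L₁.bpf A₂
    obtain ⟨a₃, ha₃⟩ := L₁.bpf A₃
    refine ⟨(a, (a₁, (a₂, a₃))), ?_⟩
    rw [hval₁]
    exact mul_ne_zero ha (mul_ne_zero ha₁ (mul_ne_zero ha₂ ha₃))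
  have hbpf₂' : ∀ A₁ A₂ A₃ : Fin ν → Place Qb F,
      ∃ q, s17_secVal X (s₂ q) (Fin.append A₁ (Fin.append A₂ A₃)) ≠ 0 := fun A₁ A₂ A₃ => by
    obtain ⟨b₁, hb₁⟩ := L₂.bpf (Fin.append A₁ A₂)
    obtain ⟨b₂, hb₂⟩ := L₂.bpf (Fin.append A₁ A₃)
    obtain ⟨b₃, hb₃⟩ := L₂.bpf (Fin.append A₂ A₃)
    refine ⟨(b₁, (b₂, b₃)), ?_⟩
    rw [hval₂]
    exact mul_ne_zero hb₁ (mul_ne_zero hb₂ hb₃)
  have hbpf₁ : ∀ A : Fin (ν + (ν + ν)) → Place Qb F, ∃ p, s17_secVal X (s₁ p) A ≠ 0 := fun A => by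
    have := hbpf₁' (fun i => A (s17h_e1 ν i)) (fun i => A (s17h_e2 ν i))
      (fun i => A (s17h_e3 ν i))
    rwa [← s17h_append_parts A] at this
  have hbpf₂ : ∀ A : Fin (ν + (ν + ν)) → Place Qb F, ∃ q, s17_secVal X (s₂ q) A ≠ 0 := fun A => by
    have := hbpf₂' (fun i => A (s17h_e1 ν i)) (fun i => A (s17h_e2 ν i))
      (fun i => A (s17h_e3 ν i))
    rwa [← s17h_append_parts A] at this
  have hfix₁ : ∀ p, s17h_FixedBy ρ E (s₁ p) := fun p =>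
    s17h_fixedBy_append (s17h_fixedBy_thetaSec hE₃ _ p.1)
      (s17h_fixedBy_append (s17h_fixedBy_thetaSec hE₁ _ p.2.1)
        (s17h_fixedBy_append (s17h_fixedBy_thetaSec hE₁ _ p.2.2.1)
          (s17h_fixedBy_thetaSec hE₁ _ p.2.2.2)))
  have hfix₂ : ∀ q, s17h_FixedBy ρ E (s₂ q) := fun q =>
    s17h_fixedBy_append (s17h_fixedBy_thetaSec hE₂ _ q.1)
      (s17h_fixedBy_append (s17h_fixedBy_thetaSec hE₂ _ q.2.1)
        (s17h_fixedBy_thetaSec hE₂ _ q.2.2))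
  obtain ⟨C, hCb⟩ := s17h_cmp hCL hGV hC X ρ hbase E s₁ s₂
    (fun p => s17h_cubeL_ok P₀ g _ _ _ _) (fun q => s17h_cubeR_ok P₀ g _ _ _)
    hty₁ hty₂ hty₁₂ hbpf₁ hbpf₂ hfix₁ hfix₂
  refine ⟨C, fun A₁ A₂ A₃ h₁ h₂ h₃ => ?_⟩
  have hν2 : 0 < ν + ν := by omega
  have hν3 : 0 < ν + (ν + ν) := by omega
  have h₁₂ := s17h_stableU_append h₁ h₂
  have h₁₃ := s17h_stableU_append h₁ h₃
  have h₂₃ := s17h_stableU_append h₂ h₃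
  have h₁₂₃ := s17h_stableU_append h₁ h₂₃
  -- stability with blocks
  have hst : s17h_Stable ρ E (s17h_blocks s₁ ∪ s17h_blocks s₂)
      (Fin.append A₁ (Fin.append A₂ A₃)) := by
    intro σ hσ
    obtain ⟨π₁, hπ₁⟩ := h₁ σ hσ
    obtain ⟨π₂, hπ₂⟩ := h₂ σ hσ
    obtain ⟨π₃, hπ₃⟩ := h₃ σ hσ
    refine ⟨s17h_sumPerm π₁ (s17h_sumPerm π₂ π₃), fun k =>
      s17h_smul_append (ρ σ) A₁ (Fin.append A₂ A₃) π₁ (s17h_sumPerm π₂ π₃) hπ₁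
        (fun j => s17h_smul_append (ρ σ) A₂ A₃ π₂ π₃ hπ₂ hπ₃ j) k, ?_⟩
    rintro S (⟨p, b, hb, rfl⟩ | ⟨q, b, hb, rfl⟩) i
    · exact s17h_cube_blocks_stable π₁ π₂ π₃ b.S (s17h_cubeL_blocks P₀ g _ _ _ _ hb) i
    · exact s17h_cube_blocks_stable π₁ π₂ π₃ b.S (s17h_cubeR_blocks P₀ g _ _ _ hb) i
  have hmain := hCb _ hst
  -- rationality of the factors
  have r₁ := s17h_isRat_psi hGV hC X ρ hbase P₀ E hν L₁ hE₁ A₁ h₁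
  have r₂ := s17h_isRat_psi hGV hC X ρ hbase P₀ E hν L₁ hE₁ A₂ h₂
  have r₃ := s17h_isRat_psi hGV hC X ρ hbase P₀ E hν L₁ hE₁ A₃ h₃
  have r₁₂ := s17h_isRat_psi hGV hC X ρ hbase P₀ E hν2 L₂ hE₂ _ h₁₂
  have r₁₃ := s17h_isRat_psi hGV hC X ρ hbase P₀ E hν2 L₂ hE₂ _ h₁₃
  have r₂₃ := s17h_isRat_psi hGV hC X ρ hbase P₀ E hν2 L₂ hE₂ _ h₂₃
  have r₁₂₃ := s17h_isRat_psi hGV hC X ρ hbase P₀ E hν3 L₃ hE₃ _ h₁₂₃
  have hL : (fun p => s17_secVal X (s₁ p) (Fin.append A₁ (Fin.append A₂ A₃))) =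
      fun p : Fin L₃.n × (Fin L₁.n × (Fin L₁.n × Fin L₁.n)) =>
        L₃.psi (Fin.append A₁ (Fin.append A₂ A₃)) p.1 *
          (fun q : Fin L₁.n × (Fin L₁.n × Fin L₁.n) => L₁.psi A₁ q.1 *
            (fun r : Fin L₁.n × Fin L₁.n => L₁.psi A₂ r.1 * L₁.psi A₃ r.2) q.2) p.2 := by
    funext p
    exact hval₁ A₁ A₂ A₃ p
  have hR : (fun q => s17_secVal X (s₂ q) (Fin.append A₁ (Fin.append A₂ A₃))) =
      fun q : Fin L₂.n × (Fin L₂.n × Fin L₂.n) =>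
        L₂.psi (Fin.append A₁ A₂) q.1 *
          (fun r : Fin L₂.n × Fin L₂.n => L₂.psi (Fin.append A₁ A₃) r.1 *
            L₂.psi (Fin.append A₂ A₃) r.2) q.2 := by
    funext q
    exact hval₂ A₁ A₂ A₃ q
  rw [hL, hR] at hmain
  rw [s17n_ht_segre r₁₂₃ (r₁.mul (r₂.mul r₃)) (L₃.psi_ne_zero _)
      (s17h_segre_ne_zero (L₁.psi_ne_zero _)
        (s17h_segre_ne_zero (L₁.psi_ne_zero _) (L₁.psi_ne_zero _))),
    s17n_ht_segre r₁ (r₂.mul r₃) (L₁.psi_ne_zero _)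
      (s17h_segre_ne_zero (L₁.psi_ne_zero _) (L₁.psi_ne_zero _)),
    s17n_ht_segre r₂ r₃ (L₁.psi_ne_zero _) (L₁.psi_ne_zero _),
    s17n_ht_segre r₁₂ (r₁₃.mul r₂₃) (L₂.psi_ne_zero _)
      (s17h_segre_ne_zero (L₂.psi_ne_zero _) (L₂.psi_ne_zero _)),
    s17n_ht_segre r₁₃ r₂₃ (L₂.psi_ne_zero _) (L₂.psi_ne_zero _)] at hmain
  exact hmain

end Fermat.Agent.Lib.S17
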