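/-
Programme MW (S17), height half, assembly (helper6, prefix `s17h_`): THE HEIGHT THEOREM `s17_HT`
from the one-variable contracts (`s17_ChartsExist`, `s17_FC`, `s17_AV`, `s17_Inj`, `s17_Lvl`,
`s17_Span`, `s17_RatRep`, `s17_GalVal`) and the geometric contract `s17_CL`.
-/
import Fermat.Agent.Lib.S17.HCubeCmp

set_option autoImplicit false

noncomputable section

namespace Fermat.Agent.Lib.S17

open AlgebraicCurve Fermat.Agent.Lib.S19 Height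

local notation "Qb" => AlgebraicClosure ℚ

variable {F : Type} [Field F] [Algebra Qb F]

/-- a cube law up to `O(1)` for a non-negative Northcott function gives a non-negative Northcott
function satisfying the parallelogram law up to `O(1)`. -/
theorem s17h_par_of_cube {G : Type*} [AddCommGroup G] (h₀ : G → ℝ) (hN : Northcott h₀)
    (hnn : ∀ x, 0 ≤ h₀ x) (C : ℝ)
    (hcube : ∀ x y z, |(h₀ (x + (y + z)) + (h₀ x + (h₀ y + h₀ z))) -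
      (h₀ (x + y) + (h₀ (x + z) + h₀ (y + z)))| ≤ C) :
    ∃ h : G → ℝ, Northcott h ∧ (∀ x, 0 ≤ h x) ∧
      ∃ C' : ℝ, ∀ x y, |h (x + y) + h (x - y) - 2 * (h x + h y)| ≤ C' := by
  refine ⟨fun x => h₀ x + h₀ (-x), ⟨fun B => ?_⟩, fun x => add_nonneg (hnn x) (hnn (-x)),
    2 * C + 2 * h₀ 0, fun x y => ?_⟩
  · refine (hN.finite_le B).subset fun x hx => ?_
    simp only [Set.mem_setOf_eq] at hx ⊢
    have := hnn (-x)
    linarith
  · have h1 := hcube x y (-y)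
    have h2 := hcube (-x) (-y) y
    rw [add_neg_cancel, add_zero] at h1
    rw [neg_add_cancel, add_zero] at h2
    rw [abs_le] at h1 h2 ⊢
    have e1 : x + -y = x - y := (sub_eq_add_neg x y).symm
    have e2 : -x + -y = -(x + y) := (neg_add x y).symm
    have e3 : -x + y = -(x - y) := by abel
    rw [e1] at h1
    rw [e2, e3] at h2
    beta_reduce
    constructor <;> linarith [h1.1, h1.2, h2.1, h2.2, hnn 0]

/-- **the cube law for the height** from the contracts. -/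
theorem s17h_ht0 (hX : s17_ChartsExist) (hFC : s17_FC) (hAV : s17_AV) (hInj : s17_Inj)
    (hLvl : s17_Lvl) (hSpan : s17_Span) (hRR : s17_RatRep) (hGV : s17_GalVal) (hCL : s17_CL)
    {g : ℕ} (hC : s17_Curve Qb F g) (hg : 0 < g)
    (ρ : (Qb ≃ₐ[ℚ] Qb) →* SemilinearAut Qb F) (P₀ : Place Qb F) (hG : s17_Gal ρ P₀) :
    ∃ h₀ : ↥(s17_fixed ρ) → ℝ, Northcott h₀ ∧ (∀ x, 0 ≤ h₀ x) ∧
      ∃ C : ℝ, ∀ x y z, |(h₀ (x + (y + z)) + (h₀ x + (h₀ y + h₀ z))) -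
        (h₀ (x + y) + (h₀ (x + z) + h₀ (y + z)))| ≤ C := by
  obtain ⟨X⟩ := hX Qb F g hC
  obtain ⟨ν, hgν, hν, hB1⟩ := s17h_exists_level hC.riemann
  have hν2 : 0 < ν + ν := by omega
  have hν3 : 0 < ν + (ν + ν) := by omega
  have hB2 : s17_Big Qb F g (((ν + ν : ℕ) : ℤ) - 1) :=
    s17h_big_mono hB1 (by push_cast; omega)
  have hB3 : s17_Big Qb F g (((ν + (ν + ν) : ℕ) : ℤ) - 1) :=
    s17h_big_mono hB1 (by push_cast; omega)
  obtain ⟨L₁⟩ := s17h_exists_levelData hSpan hAV hC hg X P₀ ν hν hB1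
  obtain ⟨L₂⟩ := s17h_exists_levelData hSpan hAV hC hg X P₀ (ν + ν) hν2 hB2
  obtain ⟨L₃⟩ := s17h_exists_levelData hSpan hAV hC hg X P₀ (ν + (ν + ν)) hν3 hB3
  -- the constants of the changes of level
  have hl₂ : ∀ a : Fin L₂.n, ∃ c : Qb, c ≠ 0 ∧ ∀ A : Fin ν → Place Qb F,
      s17_thetaVal X P₀ g (ν + ν) (L₂.I a) (Fin.append (fun _ : Fin ν => P₀) A) =
        c * s17_thetaVal X P₀ g ν (L₂.I a) A := fun a =>
    hLvl Qb F g hC hg X P₀ ν ν hν (s17h_big_level hg hB1) (L₂.I a) (L₂.adm a)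
  choose c₂ hc₂0 hc₂ using hl₂
  have hl₃' : ∀ a : Fin L₃.n, ∃ c : Qb, c ≠ 0 ∧ ∀ A : Fin (ν + ν) → Place Qb F,
      s17_thetaVal X P₀ g (ν + (ν + ν)) (L₃.I a) (Fin.append (fun _ : Fin ν => P₀) A) =
        c * s17_thetaVal X P₀ g (ν + ν) (L₃.I a) A := fun a =>
    hLvl Qb F g hC hg X P₀ (ν + ν) ν hν2 (s17h_big_level hg hB2) (L₃.I a) (L₃.adm a)
  choose c₃' hc₃'0 hc₃' using hl₃'
  have hl₃'' : ∀ a : Fin L₃.n, ∃ c : Qb, c ≠ 0 ∧ ∀ A : Fin ν → Place Qb F,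
      s17_thetaVal X P₀ g (ν + ν) (L₃.I a) (Fin.append (fun _ : Fin ν => P₀) A) =
        c * s17_thetaVal X P₀ g ν (L₃.I a) A := fun a =>
    hLvl Qb F g hC hg X P₀ ν ν hν (s17h_big_level hg hB1) (L₃.I a) (L₃.adm a)
  choose c₃'' hc₃''0 hc₃'' using hl₃''
  have hc₃ : ∀ (a : Fin L₃.n) (A : Fin ν → Place Qb F),
      s17_thetaVal X P₀ g (ν + (ν + ν)) (L₃.I a)
        (Fin.append (fun _ : Fin ν => P₀) (Fin.append (fun _ : Fin ν => P₀) A)) =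
        (c₃' a * c₃'' a) * s17_thetaVal X P₀ g ν (L₃.I a) A := fun a A => by
    rw [hc₃' a, hc₃'' a, mul_assoc]
  -- the number field
  have hopen : s17h_Open fun σ : Qb ≃ₐ[ℚ] Qb =>
      (s17h_FamFixed ρ P₀ g ν L₁.I σ ∧ s17h_FamFixed ρ P₀ g ν L₂.I σ ∧
        s17h_FamFixed ρ P₀ g ν L₃.I σ) ∧
      (s17h_FamFixed ρ P₀ g (ν + ν) L₂.I σ ∧ s17h_FamFixed ρ P₀ g (ν + (ν + ν)) L₃.I σ) ∧
      ((∀ a, σ (c₂ a) = c₂ a) ∧ ∀ a, σ (c₃' a * c₃'' a) = c₃' a * c₃'' a) :=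
    s17h_open_and
      (s17h_open_and (s17h_open_famFixed hG g ν L₁.I)
        (s17h_open_and (s17h_open_famFixed hG g ν L₂.I) (s17h_open_famFixed hG g ν L₃.I)))
      (s17h_open_and
        (s17h_open_and (s17h_open_famFixed hG g (ν + ν) L₂.I)
          (s17h_open_famFixed hG g (ν + (ν + ν)) L₃.I))
        (s17h_open_and (s17h_open_forall _ fun a => s17h_open_const (c₂ a))
          (s17h_open_forall _ fun a => s17h_open_const (c₃' a * c₃'' a))))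
  obtain ⟨E, hEfd, hE⟩ := hopen
  haveI := hEfd
  haveI : NumberField ↥E := s17h_numberField E
  have hE₁ : ∀ σ ∈ E.fixingSubgroup, s17h_FamFixed ρ P₀ g ν L₁.I σ := fun σ hσ => (hE σ hσ).1.1
  have hE₂₁ : ∀ σ ∈ E.fixingSubgroup, s17h_FamFixed ρ P₀ g ν L₂.I σ :=
    fun σ hσ => (hE σ hσ).1.2.1
  have hE₃₁ : ∀ σ ∈ E.fixingSubgroup, s17h_FamFixed ρ P₀ g ν L₃.I σ :=
    fun σ hσ => (hE σ hσ).1.2.2
  have hE₂ : ∀ σ ∈ E.fixingSubgroup, s17h_FamFixed ρ P₀ g (ν + ν) L₂.I σ :=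
    fun σ hσ => (hE σ hσ).2.1.1
  have hE₃ : ∀ σ ∈ E.fixingSubgroup, s17h_FamFixed ρ P₀ g (ν + (ν + ν)) L₃.I σ :=
    fun σ hσ => (hE σ hσ).2.1.2
  have hcE₂ : ∀ a, ∀ σ ∈ E.fixingSubgroup, σ (c₂ a) = c₂ a := fun a σ hσ => (hE σ hσ).2.2.1 a
  have hcE₃ : ∀ a, ∀ σ ∈ E.fixingSubgroup, σ (c₃' a * c₃'' a) = c₃' a * c₃'' a :=
    fun a σ hσ => (hE σ hσ).2.2.2 a
  -- stable representatives
  have hrep : ∀ x : ↥(s17_fixed ρ), ∃ A : Fin ν → Place Qb F, s17_Rep P₀ A x.1 ∧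
      ∀ σ, ∃ π : Equiv.Perm (Fin ν), ∀ i, ρ σ • A i = A (π i) := fun x =>
    hRR Qb F g hC P₀ _ ρ hG.fixP ν hgν x.1 x.2
  choose Ar hAr hAst using hrep
  have hst : ∀ x, s17h_StableU ρ E (Ar x) := fun x σ _ => hAst x σ
  -- transfers
  obtain ⟨C₂, hC₂⟩ := s17h_transfer hFC hCL hGV hC hg X ρ hG.base P₀ E ν hν L₁ (ν + ν) hν2 hB2 L₂
    (fun A => Fin.append (fun _ : Fin ν => P₀) A) (fun A x h => s17h_rep_pad P₀ ν h)
    c₂ hc₂ hE₁ hE₂₁ hcE₂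
  obtain ⟨C₃, hC₃⟩ := s17h_transfer hFC hCL hGV hC hg X ρ hG.base P₀ E ν hν L₁ (ν + (ν + ν)) hν3
    hB3 L₃
    (fun A => Fin.append (fun _ : Fin ν => P₀) (Fin.append (fun _ : Fin ν => P₀) A))
    (fun A x h => s17h_rep_pad P₀ ν (s17h_rep_pad P₀ ν h))
    (fun a => c₃' a * c₃'' a) hc₃ hE₁ hE₃₁ hcE₃
  obtain ⟨C, hCc⟩ := s17h_cube_cmp hCL hGV hC hg X ρ hG.base P₀ E ν hν L₁ L₂ L₃ hE₁ hE₂ hE₃
  refine ⟨fun x => s17n_ht ↥E (L₁.psi (Ar x)), ?_, fun x => s17n_ht_nonneg _, C + C₃ + 3 * C₂,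
    fun x y z => ?_⟩
  · -- Northcott
    refine s17n_northcott_of_injective (k₀ := ↥E) (fun x => L₁.psi (Ar x))
      (fun x => s17h_isRat_psi hGV hC X ρ hG.base P₀ E hν L₁ hE₁ _ (hst x))
      (fun x => L₁.psi_ne_zero _) ?_
    rintro x x' ⟨t, ht⟩
    have ht0 : t ≠ 0 := by
      rintro rfl
      rw [zero_smul] at ht
      exact L₁.psi_ne_zero _ ht
    have hpat := L₁.zero_pattern ht0 ht
    have hlin : s17_LinEq (Ar x) (Ar x') :=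
      hInj Qb F g hC hg X P₀ ν hν (s17h_big_level hg hB1) (Ar x) (Ar x') fun T hT => by
        rw [hpat T hT]
        constructor
        · intro h; rw [h, mul_zero]
        · intro h; exact (mul_eq_zero.mp h).resolve_left ht0
    have h1 : s17_Rep P₀ (Ar x') x.1 := s17h_rep_of_linEq P₀ (hAr x) hlin hC.pd
    exact Subtype.ext (s17h_rep_unique P₀ (hAr x') h1)
  · -- the cube law
    have hc := hCc (Ar x) (Ar y) (Ar z) (hst x) (hst y) (hst z)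
    have t₃ := hC₃ (x + (y + z) : ↥(s17_fixed ρ)).1 (Ar (x + (y + z)))
      (Fin.append (Ar x) (Fin.append (Ar y) (Ar z))) (hst _) (hAr _)
      (s17h_rep_append P₀ (hAr x) (s17h_rep_append P₀ (hAr y) (hAr z)))
    have t₁₂ := hC₂ (x + y : ↥(s17_fixed ρ)).1 (Ar (x + y)) (Fin.append (Ar x) (Ar y)) (hst _)
      (hAr _) (s17h_rep_append P₀ (hAr x) (hAr y))
    have t₁₃ := hC₂ (x + z : ↥(s17_fixed ρ)).1 (Ar (x + z)) (Fin.append (Ar x) (Ar z)) (hst _)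
      (hAr _) (s17h_rep_append P₀ (hAr x) (hAr z))
    have t₂₃ := hC₂ (y + z : ↥(s17_fixed ρ)).1 (Ar (y + z)) (Fin.append (Ar y) (Ar z)) (hst _)
      (hAr _) (s17h_rep_append P₀ (hAr y) (hAr z))
    rw [abs_le] at hc t₃ t₁₂ t₁₃ t₂₃ ⊢
    constructor <;> linarith [hc.1, hc.2, t₃.1, t₃.2, t₁₂.1, t₁₂.2, t₁₃.1, t₁₃.2, t₂₃.1, t₂₃.2]

/-- **the height theorem** from the contracts. -/
theorem s17h_ht (hX : s17_ChartsExist) (hFC : s17_FC) (hAV : s17_AV) (hInj : s17_Inj)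
    (hLvl : s17_Lvl) (hSpan : s17_Span) (hRR : s17_RatRep) (hGV : s17_GalVal) (hCL : s17_CL) :
    s17_HT := by
  intro F _ _ g hC hg ρ P₀ hG
  obtain ⟨h₀, hN, hnn, C, hcube⟩ :=
    s17h_ht0 hX hFC hAV hInj hLvl hSpan hRR hGV hCL hC hg ρ P₀ hG
  exact s17h_par_of_cube h₀ hN hnn C hcube

end Fermat.Agent.Lib.S17
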