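/-
Programme MW (S17), height half, brick [RR-only geometry] (helper4, prefix `s17a_`), part A:
consequences of Riemann's theorem `s19_Riemann` alone.

`ℓ(X) := finrank L(X)`, `i(X) := ℓ(X) - deg X - 1 + g ≥ 0`.

* `s17a_L_eq_bot_of_degree_neg` : `deg D < 0 ⇒ L(D) = 0`;
* `s17a_principal_of_L_ne_bot` : `deg D = 0`, `L(D) ≠ 0 ⇒ D` principal;
* `s17a_bad` [BAD] : `i(X) > 0 ⇒ L(X + P) = L(X)` for all but finitely many `P`;
* `s17a_good` [GOOD⁻] : `L(X) ≠ 0 ⇒ L(X - P) ≠ L(X)` for all but finitely many `P`;
* `s17a_cover` (covering lemma) : for `deg c = 2g - 2` there is `u` of degree `g - 1` with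
  `L(u) = 0 = L(c - u)`  (`Pic^{g-1} ≠ W_{g-1} ∪ (c - W_{g-1})`);
* `s17a_stab` : `W_{g-1} + δ ⊆ W_{g-1} ⇒ δ` principal.
-/
import Fermat.Agent.Lib.S17.Iface
import Fermat.Agent.Lib.S19.NNonSp

set_option autoImplicit false
set_option linter.unusedSectionVars false
set_option linter.unusedVariables false

noncomputable section

namespace Fermat.Agent.Lib.S17

open AlgebraicCurve Fermat.Agent.Lib.S19 Fermat.Agent.Lib.FF

variable {K F : Type} [Field K] [Field F] [Algebra K F]

/-! ### basic facts -/

theorem s17a_degree_nonneg (hdeg : ∀ P : Place K F, P.deg = 1) {E : Divisor K F}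
    (hE : ∀ v, 0 ≤ E v) : 0 ≤ Divisor.degree E := by
  rw [s19n_degree_eq hdeg]
  exact Finset.sum_nonneg fun v _ => hE v

theorem s17a_degree_single (hdeg : ∀ P : Place K F, P.deg = 1) (P : Place K F) (n : ℤ) :
    Divisor.degree (Finsupp.single P n) = n := by
  rw [Divisor.degree_single, hdeg P, Nat.cast_one, mul_one]

/-- `f ≠ 0` in `L(D)`: `D + div f` is effective. -/
theorem s17a_add_div_nonneg {D Df : Divisor K F} {f : F} (hf0 : f ≠ 0)
    (hf : f ∈ riemannRochSpace D) (hDf : ∀ v : Place K F, Df v = v.ord f) (v : Place K F) :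
    0 ≤ (D + Df) v := by
  rw [Finsupp.add_apply, hDf v]
  rcases mem_riemannRochSpace_iff.mp hf v with h | h
  · exact absurd h hf0
  · omega

/-- a divisor of negative degree has `L = 0`. -/
theorem s17a_L_eq_bot_of_degree_neg (hpd : HasPrincipalDivisors K F)
    (hdeg : ∀ P : Place K F, P.deg = 1) {D : Divisor K F} (hD : Divisor.degree D < 0) :
    riemannRochSpace D = ⊥ := by
  rw [eq_bot_iff]
  intro f hf
  rw [Submodule.mem_bot]
  by_contra hf0
  obtain ⟨Df, hDf, hdf⟩ := hpd.exists_divisor f hf0
  have := s17a_degree_nonneg hdeg (s17a_add_div_nonneg hf0 hf hDf)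
  rw [map_add, hdf] at this
  omega

/-- a divisor of degree `0` with `L ≠ 0` is principal. -/
theorem s17a_principal_of_L_ne_bot (hpd : HasPrincipalDivisors K F)
    (hdeg : ∀ P : Place K F, P.deg = 1) {D : Divisor K F} (hD : Divisor.degree D = 0)
    (h : riemannRochSpace D ≠ ⊥) : D ∈ Divisor.principal (K := K) (F := F) := by
  obtain ⟨f, hf, hf0⟩ := Submodule.exists_mem_ne_zero_of_ne_bot h
  obtain ⟨Df, hDf, hdf⟩ := hpd.exists_divisor f hf0
  have hnn := s17a_add_div_nonneg hf0 hf hDf
  have hE0 : ∀ v, (D + Df) v = 0 := fun v => by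
    by_contra hne
    exact s19n_not_pos_of_degree_zero hdeg hnn (by rw [map_add, hD, hdf, add_zero]) v
      (lt_of_le_of_ne (hnn v) (Ne.symm hne))
  refine ⟨f⁻¹, inv_ne_zero hf0, fun v => ?_⟩
  rw [Place.ord_inv, ← hDf v]
  have := hE0 v
  rw [Finsupp.add_apply] at this
  omega

theorem s17a_L_mono_single (X : Divisor K F) (P : Place K F) :
    riemannRochSpace X ≤ riemannRochSpace (X + Finsupp.single P 1) := by
  classical
  refine s19n_L_mono fun v => ?_
  rw [Finsupp.add_apply, Finsupp.single_apply]
  split_ifs <;> omega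

theorem s17a_L_mono_sub_single (X : Divisor K F) (P : Place K F) :
    riemannRochSpace (X - Finsupp.single P 1) ≤ riemannRochSpace X := by
  classical
  refine s19n_L_mono fun v => ?_
  rw [Finsupp.sub_apply, Finsupp.single_apply]
  split_ifs <;> omega

/-! ### [BAD] -/

/-- the chain count: if every place of `N` enlarges `L(X)`, then `ℓ(X + N) ≥ ℓ(X) + |N|`. -/
theorem s17a_chain [DecidableEq (Place K F)]
    (hfin : ∀ D : Divisor K F, Module.Finite K ↥(riemannRochSpace D))
    (X : Divisor K F) (N : Finset (Place K F))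
    (hbig : ∀ P ∈ N, riemannRochSpace (X + Finsupp.single P 1) ≠ riemannRochSpace X) :
    ∀ N' ⊆ N, Module.finrank K ↥(riemannRochSpace X) + N'.card ≤
      Module.finrank K ↥(riemannRochSpace (X + s19n_ind N')) := by
  intro N'
  induction N' using Finset.induction_on with
  | empty =>
    intro _
    rw [Finset.card_empty, add_zero, s19n_ind_empty, add_zero]
  | insert P N'' hPN ih =>
    intro hsub
    have hsub'' : N'' ⊆ N := fun v hv => hsub (Finset.mem_insert_of_mem hv)
    have hPN' : P ∈ N := hsub (Finset.mem_insert_self P N'')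
    obtain ⟨f, hf1, hf2⟩ := SetLike.exists_of_lt
      (lt_of_le_of_ne (s17a_L_mono_single X P) (hbig P hPN').symm)
    have hf0 : f ≠ 0 := fun h => hf2 (h ▸ Submodule.zero_mem _)
    have hlt : riemannRochSpace (X + s19n_ind N'') <
        riemannRochSpace (X + s19n_ind (insert P N'')) := by
      refine lt_of_le_of_ne (s19n_L_mono fun v => ?_) ?_
      · rw [Finsupp.add_apply, Finsupp.add_apply]
        have := s19n_ind_mono (Finset.subset_insert P N'') v
        omega
      · intro heq
        have hfbig : f ∈ riemannRochSpace (X + s19n_ind (insert P N'')) := by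
          refine s19n_L_mono (fun v => ?_) hf1
          rw [Finsupp.add_apply, Finsupp.add_apply, Finsupp.single_apply]
          split_ifs with hv
          · subst hv
            rw [s19n_ind_of_mem (Finset.mem_insert_self _ N'')]
          · have := s19n_ind_nonneg (insert P N'') v
            omega
        rw [← heq] at hfbig
        apply hf2
        rw [mem_riemannRochSpace_iff] at hf1 hfbig ⊢
        intro v
        right
        by_cases hv : v = P
        · subst hv
          rcases hfbig v with h | h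
          · exact absurd h hf0
          · rw [Finsupp.add_apply, s19n_ind_of_not_mem hPN, add_zero] at h
            exact h
        · rcases hf1 v with h | h
          · exact absurd h hf0
          · rw [Finsupp.add_apply, Finsupp.single_apply, if_neg (Ne.symm hv), add_zero] at h
            exact h
    have := hfin (X + s19n_ind (insert P N''))
    have h2 := Submodule.finrank_lt_finrank_of_lt hlt
    have h3 := ih hsub''
    rw [Finset.card_insert_of_notMem hPN]
    omega

/-- **[BAD]**: if `i(X) > 0` then `L(X + P) = L(X)` for all but finitely many `P`. -/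
theorem s17a_bad {g : ℕ} (hR : s19_Riemann K F g) (hdeg : ∀ P : Place K F, P.deg = 1)
    (X : Divisor K F)
    (hX : Divisor.degree X + 1 - g < (Module.finrank K ↥(riemannRochSpace X) : ℤ)) :
    {P : Place K F | riemannRochSpace (X + Finsupp.single P 1) ≠ riemannRochSpace X}.Finite := by
  classical
  by_contra hinf
  have hinf' : {P : Place K F |
      riemannRochSpace (X + Finsupp.single P 1) ≠ riemannRochSpace X}.Infinite := hinf
  obtain ⟨c, hc⟩ := hR.large
  obtain ⟨N, hNsub, hNcard⟩ := hinf'.exists_subset_card_eq (c - Divisor.degree X).toNat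
  have h1 := s17a_chain hR.fin X N (fun P hP => hNsub (Finset.mem_coe.mpr hP)) N
    (Finset.Subset.refl N)
  have hdegXN : Divisor.degree (X + s19n_ind N) = Divisor.degree X + N.card := by
    rw [map_add, s19n_degree_ind hdeg]
  have h2 := hc (X + s19n_ind N) (by rw [hdegXN, hNcard]; omega)
  rw [hdegXN] at h2
  have h3 : ((Module.finrank K ↥(riemannRochSpace X) + N.card : ℕ) : ℤ) ≤
      (Module.finrank K ↥(riemannRochSpace (X + s19n_ind N)) : ℤ) := by exact_mod_cast h1
  rw [h2] at h3
  push_cast at h3
  omega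

/-! ### [GOOD⁻] -/

/-- **[GOOD⁻]**: if `L(X) ≠ 0` then `L(X - P) ≠ L(X)` for all but finitely many `P`. -/
theorem s17a_good (hpd : HasPrincipalDivisors K F) (X : Divisor K F)
    (h : riemannRochSpace X ≠ ⊥) :
    {P : Place K F | riemannRochSpace (X - Finsupp.single P 1) = riemannRochSpace X}.Finite := by
  classical
  obtain ⟨f, hf, hf0⟩ := Submodule.exists_mem_ne_zero_of_ne_bot h
  obtain ⟨Df, hDf, hdf⟩ := hpd.exists_divisor f hf0
  refine (X + Df).support.finite_toSet.subset fun P hP => ?_
  simp only [Set.mem_ofPred_eq] at hP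
  rw [Finset.mem_coe, Finsupp.mem_support_iff]
  intro h0
  rw [Finsupp.add_apply, hDf P] at h0
  have hf' : f ∈ riemannRochSpace (X - Finsupp.single P 1) := hP ▸ hf
  rcases mem_riemannRochSpace_iff.mp hf' P with h1 | h1
  · exact hf0 h1
  · rw [Finsupp.sub_apply, Finsupp.single_apply, if_pos rfl] at h1
    omega

/-! ### the covering lemma -/

theorem s17a_finrank_eq_zero_iff (hfin : ∀ D : Divisor K F, Module.Finite K ↥(riemannRochSpace D))
    (D : Divisor K F) :
    Module.finrank K ↥(riemannRochSpace D) = 0 ↔ riemannRochSpace D = ⊥ := by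
  have := hfin D
  exact Submodule.finrank_eq_zero

/-- the walk: for every `k ≤ n + g - 1` a divisor `Y` of degree `-n + k` with `L(Y) = 0` and
`i(c - Y) = 0`. -/
theorem s17a_walk {g : ℕ} (hR : s19_Riemann K F g) (hpd : HasPrincipalDivisors K F)
    (hdeg : ∀ P : Place K F, P.deg = 1) [Infinite (Place K F)] (c : Divisor K F)
    (hc : Divisor.degree c = 2 * (g : ℤ) - 2) (n : ℕ) (hn : 0 < n)
    (hbig : ∀ D : Divisor K F, 2 * (g : ℤ) - 2 + n ≤ Divisor.degree D →
      (Module.finrank K ↥(riemannRochSpace D) : ℤ) = Divisor.degree D + 1 - g) :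
    ∀ k : ℕ, (k : ℤ) ≤ n + g - 1 → ∃ Y : Divisor K F, Divisor.degree Y = -(n : ℤ) + k ∧
      riemannRochSpace Y = ⊥ ∧
      (Module.finrank K ↥(riemannRochSpace (c - Y)) : ℤ) = Divisor.degree (c - Y) + 1 - g := by
  classical
  intro k
  induction k with
  | zero =>
    intro _
    obtain ⟨P₀⟩ : Nonempty (Place K F) := inferInstance
    refine ⟨Finsupp.single P₀ (-(n : ℤ)), ?_, ?_, ?_⟩
    · rw [s17a_degree_single hdeg]; simp
    · refine s17a_L_eq_bot_of_degree_neg hpd hdeg ?_
      rw [s17a_degree_single hdeg]; omega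
    · refine hbig _ ?_
      rw [map_sub, hc, s17a_degree_single hdeg]; omega
  | succ k ih =>
    intro hk
    obtain ⟨Y, hYdeg, hYbot, hZ⟩ := ih (by push_cast at hk; omega)
    push_cast at hk
    have hZdeg : Divisor.degree (c - Y) = 2 * (g : ℤ) - 2 + n - k := by
      rw [map_sub, hc, hYdeg]; ring
    -- the two finite bad sets
    have hB1 : {P : Place K F |
        riemannRochSpace (Y + Finsupp.single P 1) ≠ riemannRochSpace Y}.Finite := by
      refine s17a_bad hR hdeg Y ?_
      rw [hYbot, finrank_bot, hYdeg]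
      push_cast
      omega
    have hZne : riemannRochSpace (c - Y) ≠ ⊥ := by
      intro h0
      rw [h0, finrank_bot, hZdeg] at hZ
      push_cast at hZ
      omega
    have hB2 := s17a_good hpd (c - Y) hZne
    obtain ⟨P, hP⟩ := (hB1.union hB2).infinite_compl.nonempty
    rw [Set.mem_compl_iff, Set.mem_union, not_or] at hP
    obtain ⟨hP1, hP2⟩ := hP
    simp only [Set.mem_ofPred_eq, not_not] at hP1
    simp only [Set.mem_ofPred_eq] at hP2
    refine ⟨Y + Finsupp.single P 1, ?_, ?_, ?_⟩
    · rw [map_add, hYdeg, s17a_degree_single hdeg]; push_cast; ring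
    · rw [hP1, hYbot]
    · have heq : c - (Y + Finsupp.single P 1) = (c - Y) - Finsupp.single P 1 := by abel
      rw [heq]
      have hlt : riemannRochSpace (c - Y - Finsupp.single P 1) < riemannRochSpace (c - Y) :=
        lt_of_le_of_ne (s17a_L_mono_sub_single _ P) hP2
      have := hR.fin (c - Y)
      have h2 := Submodule.finrank_lt_finrank_of_lt hlt
      have h3 := hR.ineq (c - Y - Finsupp.single P 1)
      have hdeg' : Divisor.degree (c - Y - Finsupp.single P 1) = Divisor.degree (c - Y) - 1 := by
        rw [map_sub _ (c - Y), s17a_degree_single hdeg]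
      rw [hdeg'] at h3 ⊢
      have h2' : (Module.finrank K ↥(riemannRochSpace (c - Y - Finsupp.single P 1)) : ℤ) <
          (Module.finrank K ↥(riemannRochSpace (c - Y)) : ℤ) := by exact_mod_cast h2
      omega

/-- **the covering lemma**: for `deg c = 2g - 2` there is `u` of degree `g - 1` with
`L(u) = 0 = L(c - u)`. -/
theorem s17a_cover {g : ℕ} (hR : s19_Riemann K F g) (hpd : HasPrincipalDivisors K F)
    (hdeg : ∀ P : Place K F, P.deg = 1) [Infinite (Place K F)] (hg : 0 < g) (c : Divisor K F)
    (hc : Divisor.degree c = 2 * (g : ℤ) - 2) :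
    ∃ u : Divisor K F, Divisor.degree u = (g : ℤ) - 1 ∧ riemannRochSpace u = ⊥ ∧
      riemannRochSpace (c - u) = ⊥ := by
  obtain ⟨c₀, hc₀⟩ := hR.large
  set n : ℕ := (c₀ - (2 * (g : ℤ) - 2)).toNat + 1 with hn
  have hbig : ∀ D : Divisor K F, 2 * (g : ℤ) - 2 + n ≤ Divisor.degree D →
      (Module.finrank K ↥(riemannRochSpace D) : ℤ) = Divisor.degree D + 1 - g := by
    intro D hD
    refine hc₀ D ?_
    rw [hn] at hD
    push_cast at hD
    omega
  obtain ⟨Y, hYdeg, hYbot, hZ⟩ := s17a_walk hR hpd hdeg c hc n (by omega) hbig (n + g - 1)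
    (by
      have : 1 ≤ n + g := by omega
      rw [Nat.cast_sub this]
      push_cast
      omega)
  have hYdeg' : Divisor.degree Y = (g : ℤ) - 1 := by
    rw [hYdeg]
    have : 1 ≤ n + g := by omega
    rw [Nat.cast_sub this]
    push_cast
    ring
  refine ⟨Y, hYdeg', hYbot, ?_⟩
  rw [← s17a_finrank_eq_zero_iff hR.fin]
  have : Divisor.degree (c - Y) = (g : ℤ) - 1 := by rw [map_sub, hc, hYdeg']; ring
  rw [this] at hZ
  have : (Module.finrank K ↥(riemannRochSpace (c - Y)) : ℤ) = 0 := by rw [hZ]; ring
  exact_mod_cast this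

/-! ### the stabiliser of `W_{g-1}` -/

/-- **`Stab(W_{g-1}) = 0`**: if `E + δ` is equivalent to an effective divisor for every effective
`E` of degree `g - 1`, then `δ` is principal. -/
theorem s17a_stab {g : ℕ} (hR : s19_Riemann K F g) (hpd : HasPrincipalDivisors K F)
    (hdeg : ∀ P : Place K F, P.deg = 1) [Infinite (Place K F)] (hg : 0 < g) (δ : Divisor K F)
    (hδ : Divisor.degree δ = 0)
    (h : ∀ E : Divisor K F, (∀ v, 0 ≤ E v) → Divisor.degree E = (g : ℤ) - 1 →
      riemannRochSpace (E + δ) ≠ ⊥) :
    δ ∈ Divisor.principal (K := K) (F := F) := by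
  classical
  -- descending induction
  have hclaim : ∀ j : ℕ, j ≤ g - 1 → ∀ E : Divisor K F, (∀ v, 0 ≤ E v) →
      Divisor.degree E = (g : ℤ) - 1 - j → riemannRochSpace (E + δ) ≠ ⊥ := by
    intro j
    induction j with
    | zero =>
      intro _ E hE hEdeg
      exact h E hE (by rw [hEdeg]; simp)
    | succ j ih =>
      intro hj E hE hEdeg hbot
      push_cast at hEdeg
      have hbad : {P : Place K F | riemannRochSpace (E + δ + Finsupp.single P 1) ≠
          riemannRochSpace (E + δ)}.Finite := by
        refine s17a_bad hR hdeg (E + δ) ?_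
        rw [hbot, finrank_bot, map_add, hEdeg, hδ]
        push_cast
        omega
      obtain ⟨P, hP⟩ := hbad.infinite_compl.nonempty
      simp only [Set.mem_compl_iff, Set.mem_ofPred_eq, not_not] at hP
      refine ih (by omega) (E + Finsupp.single P 1) (fun v => ?_) ?_ ?_
      · rw [Finsupp.add_apply, Finsupp.single_apply]
        have := hE v
        split_ifs <;> omega
      · rw [map_add, hEdeg, s17a_degree_single hdeg]; ring
      · have : E + Finsupp.single P 1 + δ = E + δ + Finsupp.single P 1 := by abel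
        rw [this, hP, hbot]
  have h0 := hclaim (g - 1) le_rfl 0 (fun v => le_refl _) (by
    rw [map_zero, Nat.cast_sub hg]; simp)
  rw [zero_add] at h0
  exact s17a_principal_of_L_ne_bot hpd hdeg hδ h0

end Fermat.Agent.Lib.S17
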