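/-
Programme MW (S17), height half, brick [RR-only geometry] (helper4, prefix `s17a_`), part B:
the contracts `s17_AV` (base-point freeness of the theta family) and `s17_Inj` (the zero pattern of
the theta family determines the class), from `s17_WR` (helper1) and Riemann's theorem.

* `s17a_theta_ne_zero_iff` : `θ_T(A) ≠ 0 ⇔ L(B_m + T_j - A) = 0` for `j = 0, 1, 2`;
* `s17a_av : s17_WR → s17_AV`;
* `s17a_inj : s17_WR → s17_Inj`.
-/
import Fermat.Agent.Lib.S17.AGeom

set_option autoImplicit false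
set_option linter.unusedSectionVars false
set_option linter.unusedVariables false

noncomputable section

namespace Fermat.Agent.Lib.S17

open AlgebraicCurve Fermat.Agent.Lib.S19 Fermat.Agent.Lib.FF

variable {K F : Type} [Field K] [Field F] [Algebra K F]

theorem s17a_degree_div (hdeg : ∀ P : Place K F, P.deg = 1) {m : ℕ} (A : Fin m → Place K F) :
    Divisor.degree (s17_div A) = m := by
  unfold s17_div
  rw [map_sum]
  simp [s17a_degree_single hdeg]

theorem s17a_degree_B (hdeg : ∀ P : Place K F, P.deg = 1) (P₀ : Place K F) (g : ℕ) {m : ℕ}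
    (hm : 0 < m) : Divisor.degree (s17_B P₀ g m) = (g : ℤ) + m - 1 := by
  unfold s17_B
  rw [s17a_degree_single hdeg, Nat.cast_sub (by omega)]
  push_cast
  ring

/-- `θ_T(A) ≠ 0` iff `L(B_m + T_j - A) = 0` for all `j`. -/
theorem s17a_theta_ne_zero_iff (hWR : s17_WR) [IsAlgClosed K] {g : ℕ} (hC : s17_Curve K F g)
    (X : s17_Charts K F) (P₀ : Place K F) {m : ℕ} (hm : 0 < m)
    (hbig : s17_Big K F g ((g : ℤ) + m - 1)) {T : Fin 3 → Divisor K F} (hT : s17_Adm T)
    (A : Fin m → Place K F) :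
    s17_thetaVal X P₀ g m T A ≠ 0 ↔
      ∀ j, riemannRochSpace (s17_B P₀ g m + T j - s17_div A) = ⊥ := by
  unfold s17_thetaVal
  rw [Finset.prod_ne_zero_iff]
  constructor
  all_goals intro h j
  all_goals
    have hDdeg : Divisor.degree (s17_B P₀ g m + T j) = (g : ℤ) + m - 1 := by
      rw [map_add, s17a_degree_B hC.deg1 P₀ g hm, hT.1 j, add_zero]
    have hfr : Module.finrank K ↥(riemannRochSpace (s17_B P₀ g m + T j)) = m := by
      have := hbig (s17_B P₀ g m + T j) (by rw [hDdeg])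
      rw [hDdeg] at this
      have h2 : (Module.finrank K ↥(riemannRochSpace (s17_B P₀ g m + T j)) : ℤ) = m := by
        rw [this]; ring
      exact_mod_cast h2
    have hfin : Module.Finite K ↥(riemannRochSpace (s17_B P₀ g m + T j)) := hC.riemann.fin _
    have hbasis : s17_basis (s17_B P₀ g m + T j) m = fun k =>
        ((Module.finBasisOfFinrankEq K ↥(riemannRochSpace (s17_B P₀ g m + T j)) hfr k :
          ↥(riemannRochSpace (s17_B P₀ g m + T j))) : F) := by
      unfold s17_basis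
      rw [dif_pos ⟨hfin, hfr⟩]
    have hmem : ∀ k, s17_basis (s17_B P₀ g m + T j) m k ∈
        riemannRochSpace (s17_B P₀ g m + T j) := by
      intro k; rw [hbasis]; exact Subtype.property _
    have hli : LinearIndependent K (s17_basis (s17_B P₀ g m + T j) m) := by
      rw [hbasis]
      exact (Module.finBasisOfFinrankEq K ↥(riemannRochSpace (s17_B P₀ g m + T j))
        hfr).linearIndependent.map' (Submodule.subtype _) (Submodule.ker_subtype _)
    have hwr := hWR K F g hC X m (s17_B P₀ g m + T j) A _ hmem hli hfr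
  · exact hwr.mp (h j (Finset.mem_univ j))
  · intro _
    exact hwr.mpr (h j)

/-- **[AV]** base-point freeness of the theta family. -/
theorem s17a_av (hWR : s17_WR) : s17_AV := by
  intro K F _ _ _ _ g hC hg X P₀ m hm hbig A
  have hdeg := hC.deg1
  have := hC.inf
  set ξ : Divisor K F := s17_B P₀ g m - s17_div A with hξ
  have hξdeg : Divisor.degree ξ = (g : ℤ) - 1 := by
    rw [hξ, map_sub, s17a_degree_B hdeg P₀ g hm, s17a_degree_div hdeg]; ring
  obtain ⟨u₀, hu₀deg, hu₀, -⟩ := s17a_cover hC.riemann hC.pd hdeg hg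
    (Finsupp.single P₀ (2 * (g : ℤ) - 2)) (s17a_degree_single hdeg _ _)
  obtain ⟨u, hudeg, hu, hcu⟩ := s17a_cover hC.riemann hC.pd hdeg hg (ξ + ξ + ξ - u₀)
    (by rw [map_sub, map_add, map_add, hξdeg, hu₀deg]; ring)
  refine ⟨![u₀ - ξ, u - ξ, -(u₀ - ξ) - (u - ξ)], ⟨?_, ?_⟩, ?_⟩
  · intro j
    fin_cases j
    · simp [map_sub, hu₀deg, hξdeg]
    · simp [map_sub, hudeg, hξdeg]
    · simp [map_sub, hu₀deg, hudeg, hξdeg]
  · simp
  · have hT : s17_Adm ![u₀ - ξ, u - ξ, -(u₀ - ξ) - (u - ξ)] := by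
      refine ⟨fun j => ?_, by simp⟩
      fin_cases j
      · simp [map_sub, hu₀deg, hξdeg]
      · simp [map_sub, hudeg, hξdeg]
      · simp [map_sub, hu₀deg, hudeg, hξdeg]
    rw [s17a_theta_ne_zero_iff hWR hC X P₀ hm hbig hT]
    intro j
    fin_cases j
    · have : s17_B P₀ g m + ![u₀ - ξ, u - ξ, -(u₀ - ξ) - (u - ξ)] ⟨0, by omega⟩ - s17_div A = u₀ := by
        show s17_B P₀ g m + (u₀ - ξ) - s17_div A = u₀
        rw [hξ]; abel
      rw [this]; exact hu₀
    · have : s17_B P₀ g m + ![u₀ - ξ, u - ξ, -(u₀ - ξ) - (u - ξ)] ⟨1, by omega⟩ - s17_div A = u := by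
        show s17_B P₀ g m + (u - ξ) - s17_div A = u
        rw [hξ]; abel
      rw [this]; exact hu
    · have : s17_B P₀ g m + ![u₀ - ξ, u - ξ, -(u₀ - ξ) - (u - ξ)] ⟨2, by omega⟩ - s17_div A =
          ξ + ξ + ξ - u₀ - u := by
        show s17_B P₀ g m + (-(u₀ - ξ) - (u - ξ)) - s17_div A = ξ + ξ + ξ - u₀ - u
        rw [hξ]; abel
      rw [this]; exact hcu

/-- one half of the comparison of zero patterns. -/
theorem s17a_pattern_le (hWR : s17_WR) [IsAlgClosed K] {g : ℕ} (hC : s17_Curve K F g)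
    (hg : 0 < g) (X : s17_Charts K F) (P₀ : Place K F) {m : ℕ} (hm : 0 < m)
    (hbig : s17_Big K F g ((g : ℤ) + m - 1)) (A A' : Fin m → Place K F)
    (h : ∀ T : Fin 3 → Divisor K F, s17_Adm T →
      (s17_thetaVal X P₀ g m T A' ≠ 0 → s17_thetaVal X P₀ g m T A ≠ 0))
    (t : Divisor K F) (ht : Divisor.degree t = 0)
    (hne : riemannRochSpace (s17_B P₀ g m - s17_div A + t) ≠ ⊥) :
    riemannRochSpace (s17_B P₀ g m - s17_div A' + t) ≠ ⊥ := by
  have hdeg := hC.deg1
  have := hC.inf
  intro hbot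
  set ξ : Divisor K F := s17_B P₀ g m - s17_div A with hξ
  set ξ' : Divisor K F := s17_B P₀ g m - s17_div A' with hξ'
  have hξ'deg : Divisor.degree ξ' = (g : ℤ) - 1 := by
    rw [hξ', map_sub, s17a_degree_B hdeg P₀ g hm, s17a_degree_div hdeg]; ring
  obtain ⟨u, hudeg, hu, hcu⟩ := s17a_cover hC.riemann hC.pd hdeg hg (ξ' + ξ' - t)
    (by rw [map_sub, map_add, hξ'deg, ht]; ring)
  have hT : s17_Adm ![t, u - ξ', -t - (u - ξ')] := by
    refine ⟨fun j => ?_, by simp⟩
    fin_cases j
    · simpa using ht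
    · simp [map_sub, hudeg, hξ'deg]
    · simp [map_sub, map_neg, ht, hudeg, hξ'deg]
  have h1 : s17_thetaVal X P₀ g m ![t, u - ξ', -t - (u - ξ')] A' ≠ 0 := by
    rw [s17a_theta_ne_zero_iff hWR hC X P₀ hm hbig hT]
    intro j
    fin_cases j
    · have : s17_B P₀ g m + ![t, u - ξ', -t - (u - ξ')] ⟨0, by omega⟩ - s17_div A' = ξ' + t := by
        show s17_B P₀ g m + t - s17_div A' = ξ' + t
        rw [hξ']; abel
      rw [this]; exact hbot
    · have : s17_B P₀ g m + ![t, u - ξ', -t - (u - ξ')] ⟨1, by omega⟩ - s17_div A' = u := by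
        show s17_B P₀ g m + (u - ξ') - s17_div A' = u
        rw [hξ']; abel
      rw [this]; exact hu
    · have : s17_B P₀ g m + ![t, u - ξ', -t - (u - ξ')] ⟨2, by omega⟩ - s17_div A' =
          ξ' + ξ' - t - u := by
        show s17_B P₀ g m + (-t - (u - ξ')) - s17_div A' = ξ' + ξ' - t - u
        rw [hξ']; abel
      rw [this]; exact hcu
  have h2 := (s17a_theta_ne_zero_iff hWR hC X P₀ hm hbig hT A).mp (h _ hT h1) ⟨0, by omega⟩
  apply hne
  have : s17_B P₀ g m + ![t, u - ξ', -t - (u - ξ')] ⟨0, by omega⟩ - s17_div A = ξ + t := by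
    show s17_B P₀ g m + t - s17_div A = ξ + t
    rw [hξ]; abel
  rw [← this]; exact h2

/-- **[INJ]** the zero pattern of the theta family determines the class. -/
theorem s17a_inj (hWR : s17_WR) : s17_Inj := by
  intro K F _ _ _ _ g hC hg X P₀ m hm hbig A A' h
  have hdeg := hC.deg1
  have := hC.inf
  set ξ : Divisor K F := s17_B P₀ g m - s17_div A with hξ
  set δ : Divisor K F := s17_div A - s17_div A' with hδ
  have hξdeg : Divisor.degree ξ = (g : ℤ) - 1 := by
    rw [hξ, map_sub, s17a_degree_B hdeg P₀ g hm, s17a_degree_div hdeg]; ring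
  have hδdeg : Divisor.degree δ = 0 := by
    rw [hδ, map_sub, s17a_degree_div hdeg, s17a_degree_div hdeg]; ring
  have hprinc : δ ∈ Divisor.principal (K := K) (F := F) := by
    refine s17a_stab hC.riemann hC.pd hdeg hg δ hδdeg fun E hE hEdeg => ?_
    have h1 : riemannRochSpace (s17_B P₀ g m - s17_div A + (E - ξ)) ≠ ⊥ := by
      have : s17_B P₀ g m - s17_div A + (E - ξ) = E := by rw [← hξ]; abel
      rw [this]
      intro hbot
      have h1 : (1 : F) ∈ riemannRochSpace E := s19n_one_mem hE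
      rw [hbot, Submodule.mem_bot] at h1
      exact one_ne_zero h1
    have h2 := s17a_pattern_le hWR hC hg X P₀ hm hbig A A'
      (fun T hT hne hz => hne ((h T hT).mp hz)) (E - ξ)
      (by rw [map_sub, hEdeg, hξdeg]; ring) h1
    have : s17_B P₀ g m - s17_div A' + (E - ξ) = E + δ := by rw [hξ, hδ]; abel
    rwa [this] at h2
  unfold s17_LinEq
  have : s17_div A' - s17_div A = -δ := by rw [hδ]; abel
  rw [this]
  exact neg_mem hprinc

end Fermat.Agent.Lib.S17
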