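/-
Programme MW (S17), height half (helper6, prefix `s17h_`): contract [LVL] `s17_Lvl` — change of
level: `θ^{(μ+m)}_T(P₀^μ, A) = c_T · θ^{(m)}_T(A)`.

Proof: `L(D) ⊂ L(D + μP₀)`; the jet map at `P₀` (first `μ` coefficients) `L(D + μP₀) → K^μ` has
kernel `L(D)`, hence is surjective; choose `χ_r` with jet `e_r`; in the adapted basis
`(χ, φ)` the confluent matrix at `(P₀^μ, A)` is block triangular `[[1, 0], [*, conf_D(A)(φ)]]`.
Any two bases differ by an invertible matrix of constants.
-/
import Fermat.Agent.Lib.S17.DJet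
import Fermat.Agent.Lib.S17.AAvInj
import Fermat.Agent.Lib.S17.HRep

set_option autoImplicit false

noncomputable section

namespace Fermat.Agent.Lib.S17

open AlgebraicCurve Fermat.Agent.Lib.S19 Fermat.Agent.Lib.FF

variable {K F : Type} [Field K] [Field F] [Algebra K F]

/-! ### base change for confluent determinants -/

theorem s17h_conf_mul (X : s17_Charts K F) {n : ℕ} (D : Divisor K F) (A : Fin n → Place K F)
    (ψ : Fin n → F) (M : Matrix (Fin n) (Fin n) K) :
    s17_conf X D A (fun k => ∑ l, M l k • ψ l) = s17_conf X D A ψ * M := by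
  ext i k
  unfold s17_conf
  rw [Matrix.mul_apply]
  exact s17d_coeff_sum X (A i) (fun l => M l k) ψ _

theorem s17h_cdet_mul (X : s17_Charts K F) {n : ℕ} (D : Divisor K F) (A : Fin n → Place K F)
    (ψ : Fin n → F) (M : Matrix (Fin n) (Fin n) K) :
    s17_cdet X D A (fun k => ∑ l, M l k • ψ l) = s17_cdet X D A ψ * M.det := by
  unfold s17_cdet
  rw [s17h_conf_mul, Matrix.det_mul]

/-- two bases of one finite-dimensional space of functions have proportional confluent
determinants. -/
theorem s17h_cdet_basis_change (X : s17_Charts K F) {n : ℕ} (W : Submodule K F)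
    [Module.Finite K ↥W] (hW : Module.finrank K ↥W = n) (φ φ' : Fin n → F)
    (hφ : ∀ k, φ k ∈ W) (hφ' : ∀ k, φ' k ∈ W) (hli : LinearIndependent K φ)
    (hli' : LinearIndependent K φ') :
    ∃ c : K, c ≠ 0 ∧ ∀ (D : Divisor K F) (A : Fin n → Place K F),
      s17_cdet X D A φ' = c * s17_cdet X D A φ := by
  set φW : Fin n → ↥W := fun k => ⟨φ k, hφ k⟩ with hφW
  have hliW : LinearIndependent K φW := by
    apply LinearIndependent.of_comp W.subtype
    exact hli
  have hspan : Submodule.span K (Set.range φW) = ⊤ :=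
    hliW.span_eq_top_of_card_eq_finrank' (by rw [Fintype.card_fin, hW])
  have hex : ∀ k, ∃ v : Fin n → K, ∑ l, v l • φ l = φ' k := fun k => by
    have hmem : (⟨φ' k, hφ' k⟩ : ↥W) ∈ Submodule.span K (Set.range φW) := by
      rw [hspan]; trivial
    obtain ⟨v, hv⟩ := (Submodule.mem_span_range_iff_exists_fun K).mp hmem
    refine ⟨v, ?_⟩
    have := congrArg (fun z : ↥W => (z : F)) hv
    simpa [hφW] using this
  choose v hv using hex
  set M : Matrix (Fin n) (Fin n) K := Matrix.of fun l k => v k l with hM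
  have hφ'eq : φ' = fun k => ∑ l, M l k • φ l := by
    funext k
    rw [← hv k]
    rfl
  have hdet : M.det ≠ 0 := by
    intro h0
    obtain ⟨w, hw0, hw⟩ := Matrix.exists_mulVec_eq_zero_iff.mpr h0
    apply hw0
    have hsum : ∑ k, w k • φ' k = 0 := by
      have h1 : ∑ k, w k • φ' k = ∑ l, (M.mulVec w) l • φ l := by
        rw [hφ'eq]
        simp only [Finset.smul_sum, smul_smul]
        rw [Finset.sum_comm]
        refine Finset.sum_congr rfl fun l _ => ?_
        rw [← Finset.sum_smul]
        congr 1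
        unfold Matrix.mulVec dotProduct
        exact Finset.sum_congr rfl fun k _ => mul_comm _ _
      rw [h1, hw]
      simp
    funext k
    exact (Fintype.linearIndependent_iff.mp hli') w hsum k
  refine ⟨M.det, hdet, fun D A => ?_⟩
  rw [hφ'eq, s17h_cdet_mul, mul_comm]

/-! ### the chosen bases -/

theorem s17h_basis_spec {g : ℕ} (hR : s19_Riemann K F g) (D : Divisor K F) (m : ℕ)
    (hfr : Module.finrank K ↥(riemannRochSpace D) = m) :
    (∀ k, s17_basis D m k ∈ riemannRochSpace D) ∧ LinearIndependent K (s17_basis D m) := by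
  have hfin : Module.Finite K ↥(riemannRochSpace D) := hR.fin _
  have hbasis : s17_basis D m = fun k =>
      ((Module.finBasisOfFinrankEq K ↥(riemannRochSpace D) hfr k : ↥(riemannRochSpace D)) : F) := by
    unfold s17_basis
    rw [dif_pos ⟨hfin, hfr⟩]
  constructor
  · intro k; rw [hbasis]; exact Subtype.property _
  · rw [hbasis]
    exact (Module.finBasisOfFinrankEq K ↥(riemannRochSpace D) hfr).linearIndependent.map'
      (Submodule.subtype _) (Submodule.ker_subtype _)

/-! ### ranks in concatenated tuples -/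

open Classical in
theorem s17h_rank_eq_sum {n : ℕ} (A : Fin n → Place K F) (i : Fin n) :
    s17_rank A i = ∑ i' : Fin n, if i' < i ∧ A i' = A i then 1 else 0 := by
  unfold s17_rank
  rw [Finset.card_filter]

theorem s17h_rank_const (P₀ : Place K F) {μ : ℕ} (i : Fin μ) :
    s17_rank (fun _ : Fin μ => P₀) i = i := by
  classical
  unfold s17_rank
  rw [show (Finset.univ.filter fun i' : Fin μ => i' < i ∧ (fun _ : Fin μ => P₀) i' =
    (fun _ : Fin μ => P₀) i) = Finset.Iio i from by ext i'; simp]
  exact Fin.card_Iio i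

open Classical in
theorem s17h_rank_append_left {μ m : ℕ} (A₁ : Fin μ → Place K F) (A₂ : Fin m → Place K F)
    (i : Fin μ) : s17_rank (Fin.append A₁ A₂) (Fin.castAdd m i) = s17_rank A₁ i := by
  rw [s17h_rank_eq_sum, s17h_rank_eq_sum, Fin.sum_univ_add]
  have h2 : ∑ j : Fin m, (if Fin.natAdd μ j < Fin.castAdd m i ∧
      Fin.append A₁ A₂ (Fin.natAdd μ j) = Fin.append A₁ A₂ (Fin.castAdd m i) then 1 else 0) =
      0 := by
    refine Finset.sum_eq_zero fun j _ => ?_
    rw [if_neg]
    rintro ⟨h, _⟩
    rw [Fin.lt_def, Fin.val_natAdd, Fin.val_castAdd] at h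
    have := i.2
    omega
  rw [h2, add_zero]
  refine Finset.sum_congr rfl fun i' _ => ?_
  simp only [Fin.append_left]
  have : (Fin.castAdd m i' < Fin.castAdd m i) ↔ i' < i := by
    rw [Fin.lt_def, Fin.lt_def]; rfl
  simp only [this]

open Classical in
theorem s17h_rank_append_right {μ m : ℕ} (P₀ : Place K F) (A : Fin m → Place K F) (i : Fin m) :
    s17_rank (Fin.append (fun _ : Fin μ => P₀) A) (Fin.natAdd μ i) =
      (if A i = P₀ then μ else 0) + s17_rank A i := by
  rw [s17h_rank_eq_sum, s17h_rank_eq_sum, Fin.sum_univ_add]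
  congr 1
  · simp only [Fin.append_left, Fin.append_right]
    have hlt : ∀ i' : Fin μ, Fin.castAdd m i' < Fin.natAdd μ i := fun i' => by
      rw [Fin.lt_def, Fin.val_natAdd, Fin.val_castAdd]
      have := i'.2
      omega
    simp only [hlt, true_and]
    by_cases h : A i = P₀
    · rw [if_pos h]
      simp [h]
    · rw [if_neg h]
      have h' : ¬ P₀ = A i := fun h'' => h h''.symm
      simp [h']
  · refine Finset.sum_congr rfl fun j _ => ?_
    simp only [Fin.append_right]
    have : (Fin.natAdd μ j < Fin.natAdd μ i) ↔ j < i := by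
      rw [Fin.lt_def, Fin.lt_def, Fin.val_natAdd, Fin.val_natAdd]
      omega
    simp only [this]

/-! ### the jet map at a place -/

/-- the first `μ` coefficients from degree `n` on of the expansion at `P₀`. -/
def s17h_jet (X : s17_Charts K F) (P₀ : Place K F) (n : ℤ) (μ : ℕ) : F →ₗ[K] (Fin μ → K) where
  toFun f := fun i : Fin μ => (X.exp P₀ f).coeff (n + ((i : ℕ) : ℤ))
  map_add' f f' := by
    funext i
    simp only [map_add, HahnSeries.coeff_add, Pi.add_apply]
  map_smul' c f := by
    funext i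
    simp only [RingHom.id_apply, Pi.smul_apply, smul_eq_mul]
    rw [Algebra.smul_def, map_mul, X.exp_alg, HahnSeries.C_mul_eq_smul, HahnSeries.coeff_smul,
      smul_eq_mul]

theorem s17h_jet_apply (X : s17_Charts K F) (P₀ : Place K F) (n : ℤ) (μ : ℕ) (f : F) (i : Fin μ) :
    s17h_jet X P₀ n μ f i = (X.exp P₀ f).coeff (n + ((i : ℕ) : ℤ)) := rfl

/-- the kernel of the jet map on `L(D')` is `L(D' - μP₀)`. -/
theorem s17h_jet_eq_zero_iff (X : s17_Charts K F) (P₀ : Place K F) (D' : Divisor K F) (μ : ℕ)
    {f : F} (hf : f ∈ riemannRochSpace D') :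
    s17h_jet X P₀ (-(D' P₀)) μ f = 0 ↔
      f ∈ riemannRochSpace (D' - Finsupp.single P₀ (μ : ℤ)) := by
  rw [← s17h_div_const (m := μ) P₀, ← s17d_jet_zero_iff X D' (fun _ : Fin μ => P₀) hf]
  constructor
  · intro h i
    have := congrFun h i
    rw [s17h_jet_apply] at this
    rw [s17h_rank_const]
    exact this
  · intro h
    funext i
    have := h i
    rw [s17h_rank_const] at this
    rw [s17h_jet_apply]
    exact this

/-- the jet map on `L(D')` is surjective when the dimensions drop by `μ`. -/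
theorem s17h_jet_surj {g : ℕ} (hR : s19_Riemann K F g) (X : s17_Charts K F) (P₀ : Place K F)
    (D' : Divisor K F) (μ m : ℕ)
    (h' : Module.finrank K ↥(riemannRochSpace D') = μ + m)
    (h : Module.finrank K ↥(riemannRochSpace (D' - Finsupp.single P₀ (μ : ℤ))) = m)
    (w : Fin μ → K) : ∃ f ∈ riemannRochSpace D', s17h_jet X P₀ (-(D' P₀)) μ f = w := by
  haveI : Module.Finite K ↥(riemannRochSpace D') := hR.fin _
  haveI : Module.Finite K ↥(riemannRochSpace (D' - Finsupp.single P₀ (μ : ℤ))) := hR.fin _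
  set j : ↥(riemannRochSpace D') →ₗ[K] (Fin μ → K) :=
    (s17h_jet X P₀ (-(D' P₀)) μ).domRestrict (riemannRochSpace D') with hj
  have hrn := LinearMap.finrank_range_add_finrank_ker j
  -- the kernel injects into `L(D' - μP₀)`
  have hker : Module.finrank K ↥(LinearMap.ker j) ≤ m := by
    rw [← h]
    let ι : ↥(LinearMap.ker j) →ₗ[K] ↥(riemannRochSpace (D' - Finsupp.single P₀ (μ : ℤ))) :=
      LinearMap.codRestrict _ ((riemannRochSpace D').subtype ∘ₗ (LinearMap.ker j).subtype)
        (fun f => by
          have hf : j f.1 = 0 := f.2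
          exact (s17h_jet_eq_zero_iff X P₀ D' μ f.1.2).mp hf)
    refine LinearMap.finrank_le_finrank_of_injective (f := ι) ?_
    intro a b hab
    have := congrArg (fun z : ↥(riemannRochSpace (D' - Finsupp.single P₀ (μ : ℤ))) => (z : F)) hab
    exact Subtype.ext (Subtype.ext this)
  have hrange : LinearMap.range j = ⊤ := by
    apply Submodule.eq_top_of_finrank_eq
    rw [Module.finrank_fin_fun]
    have hle : Module.finrank K ↥(LinearMap.range j) ≤ Module.finrank K (Fin μ → K) :=
      Submodule.finrank_le _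
    rw [Module.finrank_fin_fun] at hle
    omega
  have hw : w ∈ LinearMap.range j := by rw [hrange]; trivial
  obtain ⟨f, hf⟩ := hw
  exact ⟨f.1, f.2, hf⟩

/-! ### the block-triangular confluent matrix -/

theorem s17h_cdet_append (X : s17_Charts K F) (P₀ : Place K F) (D : Divisor K F) (μ m : ℕ)
    (χ : Fin μ → F) (φ : Fin m → F)
    (hχ : ∀ r, s17h_jet X P₀ (-(D P₀ + (μ : ℤ))) μ (χ r) = Pi.single r 1)
    (hφ : ∀ k, s17h_jet X P₀ (-(D P₀ + (μ : ℤ))) μ (φ k) = 0) (A : Fin m → Place K F) :
    s17_cdet X (D + Finsupp.single P₀ (μ : ℤ)) (Fin.append (fun _ : Fin μ => P₀) A)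
      (Fin.append χ φ) = s17_cdet X D A φ := by
  classical
  unfold s17_cdet
  set M := s17_conf X (D + Finsupp.single P₀ (μ : ℤ)) (Fin.append (fun _ : Fin μ => P₀) A)
    (Fin.append χ φ) with hM
  have hD'P₀ : (D + Finsupp.single P₀ (μ : ℤ)) P₀ = D P₀ + (μ : ℤ) := by
    rw [Finsupp.add_apply, Finsupp.single_eq_same]
  have hblock : M.submatrix finSumFinEquiv finSumFinEquiv =
      Matrix.fromBlocks (1 : Matrix (Fin μ) (Fin μ) K) 0
        (fun i r => M (Fin.natAdd μ i) (Fin.castAdd m r)) (s17_conf X D A φ) := by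
    ext (i | i) (k | k)
    · -- top left
      rw [Matrix.submatrix_apply, finSumFinEquiv_apply_left, finSumFinEquiv_apply_left,
        Matrix.fromBlocks_apply₁₁, hM]
      unfold s17_conf
      rw [Fin.append_left, Fin.append_left, s17h_rank_append_left, s17h_rank_const, hD'P₀]
      have := congrFun (hχ k) i
      rw [s17h_jet_apply] at this
      rw [this, Matrix.one_apply, Pi.single_apply]
    · -- top right
      rw [Matrix.submatrix_apply, finSumFinEquiv_apply_left, finSumFinEquiv_apply_right,
        Matrix.fromBlocks_apply₁₂, hM]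
      unfold s17_conf
      rw [Fin.append_left, Fin.append_right, s17h_rank_append_left, s17h_rank_const, hD'P₀]
      have := congrFun (hφ k) i
      rw [s17h_jet_apply] at this
      rw [this]
      rfl
    · -- bottom left
      rw [Matrix.submatrix_apply, finSumFinEquiv_apply_right, finSumFinEquiv_apply_left,
        Matrix.fromBlocks_apply₂₁]
    · -- bottom right
      rw [Matrix.submatrix_apply, finSumFinEquiv_apply_right, finSumFinEquiv_apply_right,
        Matrix.fromBlocks_apply₂₂, hM]
      unfold s17_conf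
      rw [Fin.append_right, Fin.append_right, s17h_rank_append_right, Finsupp.add_apply,
        Finsupp.single_apply]
      congr 1
      by_cases h : A i = P₀
      · rw [if_pos h, if_pos h.symm]
        push_cast
        ring
      · rw [if_neg h, if_neg (fun h' => h h'.symm)]
        push_cast
        ring
  rw [← Matrix.det_submatrix_equiv_self finSumFinEquiv M, hblock, Matrix.det_fromBlocks_zero₁₂,
    Matrix.det_one, one_mul]

/-! ### the contract -/

theorem s17h_lvl_factor {g : ℕ} (hR : s19_Riemann K F g) (X : s17_Charts K F) (P₀ : Place K F)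
    (D : Divisor K F) (μ m : ℕ) (hfrD : Module.finrank K ↥(riemannRochSpace D) = m)
    (hfrD' : Module.finrank K ↥(riemannRochSpace (D + Finsupp.single P₀ (μ : ℤ))) = μ + m) :
    ∃ c : K, c ≠ 0 ∧ ∀ A : Fin m → Place K F,
      s17_cdet X (D + Finsupp.single P₀ (μ : ℤ)) (Fin.append (fun _ : Fin μ => P₀) A)
        (s17_basis (D + Finsupp.single P₀ (μ : ℤ)) (μ + m)) =
        c * s17_cdet X D A (s17_basis D m) := by
  haveI : Module.Finite K ↥(riemannRochSpace (D + Finsupp.single P₀ (μ : ℤ))) := hR.fin _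
  have hsub : D + Finsupp.single P₀ (μ : ℤ) - Finsupp.single P₀ (μ : ℤ) = D := by abel
  have hD'P₀ : (D + Finsupp.single P₀ (μ : ℤ)) P₀ = D P₀ + (μ : ℤ) := by
    rw [Finsupp.add_apply, Finsupp.single_eq_same]
  have hs := s17h_jet_surj hR X P₀ (D + Finsupp.single P₀ (μ : ℤ)) μ m hfrD'
    (by rw [hsub]; exact hfrD)
  rw [hD'P₀] at hs
  choose χ hχmem hχ using fun r : Fin μ => hs (Pi.single r 1)
  obtain ⟨hφmem, hφli⟩ := s17h_basis_spec hR D m hfrD
  have hmono : riemannRochSpace D ≤ riemannRochSpace (D + Finsupp.single P₀ (μ : ℤ)) := by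
    classical
    refine s19n_L_mono fun v => ?_
    rw [Finsupp.add_apply, Finsupp.single_apply]
    split_ifs
    · have : (0 : ℤ) ≤ (μ : ℤ) := Int.natCast_nonneg _
      omega
    · omega
  have hφjet : ∀ k, s17h_jet X P₀ (-(D P₀ + (μ : ℤ))) μ (s17_basis D m k) = 0 := fun k => by
    have := (s17h_jet_eq_zero_iff X P₀ (D + Finsupp.single P₀ (μ : ℤ)) μ
      (hmono (hφmem k))).mpr (by rw [hsub]; exact hφmem k)
    rwa [hD'P₀] at this
  have hψmem : ∀ l, Fin.append χ (s17_basis D m) l ∈
      riemannRochSpace (D + Finsupp.single P₀ (μ : ℤ)) := fun l => by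
    induction l using Fin.addCases with
    | left r => rw [Fin.append_left]; exact hχmem r
    | right k => rw [Fin.append_right]; exact hmono (hφmem k)
  have hψli : LinearIndependent K (Fin.append χ (s17_basis D m)) := by
    rw [Fintype.linearIndependent_iff]
    intro v hv
    rw [Fin.sum_univ_add] at hv
    simp only [Fin.append_left, Fin.append_right] at hv
    have hj := congrArg (s17h_jet X P₀ (-(D P₀ + (μ : ℤ))) μ) hv
    rw [map_add, map_sum, map_sum, map_zero] at hj
    simp only [map_smul, hχ, hφjet, smul_zero, Finset.sum_const_zero, add_zero] at hj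
    have hv1 : ∀ r, v (Fin.castAdd m r) = 0 := fun r => by
      have := congrFun hj r
      simpa [Finset.sum_apply, Pi.single_apply, Finset.sum_ite_eq] using this
    have hv2 : ∑ k, v (Fin.natAdd μ k) • s17_basis D m k = 0 := by
      simpa [hv1] using hv
    have hv3 := Fintype.linearIndependent_iff.mp hφli _ hv2
    intro l
    induction l using Fin.addCases with
    | left r => exact hv1 r
    | right k => exact hv3 k
  obtain ⟨hφ'mem, hφ'li⟩ := s17h_basis_spec hR (D + Finsupp.single P₀ (μ : ℤ)) (μ + m) hfrD'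
  obtain ⟨c, hc0, hc⟩ := s17h_cdet_basis_change X
    (riemannRochSpace (D + Finsupp.single P₀ (μ : ℤ))) hfrD' (Fin.append χ (s17_basis D m))
    (s17_basis (D + Finsupp.single P₀ (μ : ℤ)) (μ + m)) hψmem hφ'mem hψli hφ'li
  refine ⟨c, hc0, fun A => ?_⟩
  rw [hc, s17h_cdet_append X P₀ D μ m χ (s17_basis D m) hχ hφjet A]

theorem s17h_B_add (P₀ : Place K F) (g m μ : ℕ) (hm : 0 < m) :
    s17_B P₀ g (μ + m) = s17_B P₀ g m + Finsupp.single P₀ (μ : ℤ) := by
  unfold s17_B
  rw [← Finsupp.single_add]
  congr 1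
  have : g + (μ + m) - 1 = (g + m - 1) + μ := by omega
  rw [this]
  push_cast
  rfl

/-- **[LVL]** change of level. -/
theorem s17h_lvl : s17_Lvl := by
  intro K F _ _ _ _ g hC hg X P₀ m μ hm hbig T hT
  have hm' : 0 < μ + m := by omega
  have key : ∀ j : Fin 3, ∃ c : K, c ≠ 0 ∧ ∀ A : Fin m → Place K F,
      s17_cdet X (s17_B P₀ g (μ + m) + T j) (Fin.append (fun _ : Fin μ => P₀) A)
        (s17_basis (s17_B P₀ g (μ + m) + T j) (μ + m)) =
        c * s17_cdet X (s17_B P₀ g m + T j) A (s17_basis (s17_B P₀ g m + T j) m) := by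
    intro j
    have hDD' : s17_B P₀ g (μ + m) + T j =
        (s17_B P₀ g m + T j) + Finsupp.single P₀ (μ : ℤ) := by
      rw [s17h_B_add P₀ g m μ hm]
      abel
    have hdegD : Divisor.degree (s17_B P₀ g m + T j) = (g : ℤ) + m - 1 := by
      rw [map_add, s17a_degree_B hC.deg1 P₀ g hm, hT.1 j, add_zero]
    have hdegD' : Divisor.degree (s17_B P₀ g (μ + m) + T j) = (g : ℤ) + (μ + m : ℕ) - 1 := by
      rw [map_add, s17a_degree_B hC.deg1 P₀ g hm', hT.1 j, add_zero]
    have hfrD : Module.finrank K ↥(riemannRochSpace (s17_B P₀ g m + T j)) = m := by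
      have := hbig (s17_B P₀ g m + T j) (by rw [hdegD])
      rw [hdegD] at this
      have h2 : (Module.finrank K ↥(riemannRochSpace (s17_B P₀ g m + T j)) : ℤ) = m := by
        rw [this]; ring
      exact_mod_cast h2
    have hfrD' : Module.finrank K ↥(riemannRochSpace (s17_B P₀ g (μ + m) + T j)) = μ + m := by
      have := hbig (s17_B P₀ g (μ + m) + T j) (by rw [hdegD']; push_cast; omega)
      rw [hdegD'] at this
      have h2 : (Module.finrank K ↥(riemannRochSpace (s17_B P₀ g (μ + m) + T j)) : ℤ) =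
          (μ + m : ℕ) := by
        rw [this]; ring
      exact_mod_cast h2
    rw [hDD'] at hfrD' ⊢
    exact s17h_lvl_factor hC.riemann X P₀ _ μ m hfrD hfrD'
  choose c hc0 hc using key
  refine ⟨∏ j, c j, Finset.prod_ne_zero_iff.mpr fun j _ => hc0 j, fun A => ?_⟩
  unfold s17_thetaVal
  rw [← Finset.prod_mul_distrib]
  exact Finset.prod_congr rfl fun j _ => hc j A

end Fermat.Agent.Lib.S17
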