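/-
Programme MW (S17), height half (helper6, prefix `s17h_`): contract [SPAN] `s17_Span` from the
density contract `s17_LIN`.

On INJECTIVE tuples the confluent determinants are ordinary determinants of leading coefficients;
the product of the three leading coefficients of `f_j ∈ L(B + T_j)` at `P` is the leading
coefficient of `f_0 f_1 f_2 ∈ L(3B)`; hence `θ_T` (restricted to injective tuples) lies in the
span of the `N^m` functions `A ↦ ∏_i λ_{A i}(e (β i))`, `e` a basis of `L(3B)`.  A finite
subfamily spans; the relations extend to all tuples by `s17_LIN`.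
-/
import Fermat.Agent.Lib.S17.HLvl
import Fermat.Agent.Lib.S17.HScale

set_option autoImplicit false

noncomputable section

namespace Fermat.Agent.Lib.S17

open AlgebraicCurve Fermat.Agent.Lib.S19 Fermat.Agent.Lib.FF

variable {K F : Type} [Field K] [Field F] [Algebra K F]

/-! ### local lemmas -/

theorem s17h_rank_injective {n : ℕ} {A : Fin n → Place K F} (hA : Function.Injective A)
    (i : Fin n) : s17_rank A i = 0 := by
  classical
  unfold s17_rank
  rw [Finset.card_eq_zero, Finset.filter_eq_empty_iff]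
  rintro i' _ ⟨hlt, heq⟩
  exact absurd (hA heq) (ne_of_lt hlt)

/-- the coefficients of `f ∈ L(D)` at `P` below `-D(P)` vanish. -/
theorem s17h_coeff_eq_zero_of_lt (X : s17_Charts K F) (P : Place K F) {D : Divisor K F} {f : F}
    (hf : f ∈ riemannRochSpace D) {k : ℤ} (hk : k < -(D P)) : (X.exp P f).coeff k = 0 := by
  rcases eq_or_ne f 0 with rfl | hf0
  · simp
  · apply HahnSeries.coeff_eq_zero_of_lt_order
    rw [X.exp_ord P f hf0]
    have := ((mem_riemannRochSpace_iff.mp hf) P).resolve_left hf0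
    omega

/-- the coefficient of a product of Laurent series at the sum of two lower bounds of the
supports. -/
theorem s17h_coeff_mul_of_le (x y : LaurentSeries K) (n₁ n₂ : ℤ)
    (hx : ∀ k, k < n₁ → x.coeff k = 0) (hy : ∀ k, k < n₂ → y.coeff k = 0) :
    (x * y).coeff (n₁ + n₂) = x.coeff n₁ * y.coeff n₂ := by
  rw [HahnSeries.coeff_mul]
  rw [Finset.sum_eq_single (n₁, n₂)]
  · rintro ⟨i, j⟩ hij hne
    rw [Finset.mem_addAntidiagonal] at hij
    obtain ⟨hi, hj, hsum⟩ := hij
    exfalso
    apply hne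
    have hi' : n₁ ≤ i := by
      by_contra h
      exact hi (hx i (not_le.mp h))
    have hj' : n₂ ≤ j := by
      by_contra h
      exact hj (hy j (not_le.mp h))
    simp only at hsum
    have h1 : i = n₁ := by omega
    have h2 : j = n₂ := by omega
    rw [h1, h2]
  · intro hnot
    rw [Finset.mem_addAntidiagonal] at hnot
    by_cases h1 : x.coeff n₁ = 0
    · rw [h1, zero_mul]
    · by_cases h2 : y.coeff n₂ = 0
      · rw [h2, mul_zero]
      · exact absurd ⟨h1, h2, rfl⟩ hnot

theorem s17h_mul_mem_L {D D' : Divisor K F} {f f' : F} (hf : f ∈ riemannRochSpace D)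
    (hf' : f' ∈ riemannRochSpace D') : f * f' ∈ riemannRochSpace (D + D') := by
  rw [mem_riemannRochSpace_iff] at hf hf' ⊢
  intro v
  rcases eq_or_ne f 0 with rfl | h0
  · left; simp
  rcases eq_or_ne f' 0 with rfl | h0'
  · left; simp
  right
  rw [v.ord_mul h0 h0', Finsupp.add_apply]
  have h1 := (hf v).resolve_left h0
  have h2 := (hf' v).resolve_left h0'
  omega

/-- leading-coefficient multiplicativity for two factors. -/
theorem s17h_lc_mul (X : s17_Charts K F) (P : Place K F) {D D' : Divisor K F} {f f' : F}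
    (hf : f ∈ riemannRochSpace D) (hf' : f' ∈ riemannRochSpace D') :
    (X.exp P (f * f')).coeff (-((D + D') P)) =
      (X.exp P f).coeff (-(D P)) * (X.exp P f').coeff (-(D' P)) := by
  rw [map_mul, Finsupp.add_apply, neg_add]
  exact s17h_coeff_mul_of_le _ _ _ _ (fun k hk => s17h_coeff_eq_zero_of_lt X P hf hk)
    (fun k hk => s17h_coeff_eq_zero_of_lt X P hf' hk)

/-- leading-coefficient multiplicativity for three factors. -/
theorem s17h_lc_mul3 (X : s17_Charts K F) (P : Place K F) (D : Fin 3 → Divisor K F)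
    (f : Fin 3 → F) (hf : ∀ j, f j ∈ riemannRochSpace (D j)) :
    (X.exp P (f 0 * f 1 * f 2)).coeff (-((D 0 + D 1 + D 2) P)) =
      ∏ j, (X.exp P (f j)).coeff (-(D j P)) := by
  rw [Fin.prod_univ_three, s17h_lc_mul X P (s17h_mul_mem_L (hf 0) (hf 1)) (hf 2),
    s17h_lc_mul X P (hf 0) (hf 1)]

/-! ### a finite spanning subfamily -/

theorem s17h_finite_span_family {𝒯 𝒜 B : Type*} [Fintype B] (Θ : 𝒯 → 𝒜 → K) (G : B → 𝒜 → K)
    (p : 𝒜 → Prop) (h : ∀ t, ∃ C : B → K, ∀ A, p A → Θ t A = ∑ β, C β * G β A) :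
    ∃ (n : ℕ) (τ : Fin n → 𝒯), ∀ t, ∃ c : Fin n → K, ∀ A, p A →
      Θ t A = ∑ a, c a * Θ (τ a) A := by
  choose C hC using h
  set s : Set (B → K) := Set.range C with hs
  obtain ⟨f, hfs, hspan, -⟩ := Submodule.exists_fun_fin_finrank_span_eq K s
  have hτ : ∀ i, ∃ t, C t = f i := fun i => hfs i
  choose τ hτ using hτ
  refine ⟨_, τ, fun t => ?_⟩
  have hmem : C t ∈ Submodule.span K (Set.range f) := by
    rw [hspan]
    exact Submodule.subset_span ⟨t, rfl⟩
  obtain ⟨c, hc⟩ := (Submodule.mem_span_range_iff_exists_fun K).mp hmem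
  refine ⟨c, fun A hA => ?_⟩
  rw [hC t A hA, ← hc]
  simp only [Finset.sum_apply, Pi.smul_apply, smul_eq_mul, Finset.sum_mul]
  rw [Finset.sum_comm]
  refine Finset.sum_congr rfl fun a _ => ?_
  rw [hC (τ a) A hA, Finset.mul_sum, hτ a]
  refine Finset.sum_congr rfl fun β _ => ?_
  ring

/-! ### expansion of the theta values at injective tuples -/

theorem s17h_basis_mem (D : Divisor K F) (m : ℕ) (k : Fin m) :
    s17_basis D m k ∈ riemannRochSpace D := by
  unfold s17_basis
  split_ifs with h'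
  · exact Submodule.coe_mem _
  · exact Submodule.zero_mem _

/-- the confluent determinant at an injective tuple is the determinant of the leading
coefficients. -/
theorem s17h_cdet_injective (X : s17_Charts K F) {n : ℕ} (D : Divisor K F)
    {A : Fin n → Place K F} (hA : Function.Injective A) (f : Fin n → F) :
    s17_cdet X D A f = ∑ σ : Equiv.Perm (Fin n), ((Equiv.Perm.sign σ : ℤ) : K) *
      ∏ i, (X.exp (A i) (f (σ i))).coeff (-(D (A i))) := by
  unfold s17_cdet
  rw [← Matrix.det_transpose, Matrix.det_apply']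
  refine Finset.sum_congr rfl fun σ _ => ?_
  congr 1
  refine Finset.prod_congr rfl fun i _ => ?_
  rw [Matrix.transpose_apply]
  unfold s17_conf
  rw [s17h_rank_injective hA]
  simp

theorem s17h_theta_expand (X : s17_Charts K F) (P₀ : Place K F) (g m : ℕ) {N : ℕ}
    (e : Fin N → F)
    (he : ∀ h ∈ riemannRochSpace (3 • s17_B P₀ g m), ∃ c : Fin N → K, h = ∑ b, c b • e b)
    (T : Fin 3 → Divisor K F) (hT : s17_Adm T) :
    ∃ C : (Fin m → Fin N) → K, ∀ A : Fin m → Place K F, Function.Injective A →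
      s17_thetaVal X P₀ g m T A =
        ∑ β, C β * ∏ i, (X.exp (A i) (e (β i))).coeff (-((3 • s17_B P₀ g m) (A i))) := by
  classical
  set B := s17_B P₀ g m with hB
  set D : Fin 3 → Divisor K F := fun j => B + T j with hD
  set φ : ∀ j : Fin 3, Fin m → F := fun j => s17_basis (D j) m with hφ
  have hφmem : ∀ j k, φ j k ∈ riemannRochSpace (D j) := fun j k => s17h_basis_mem _ _ _
  have hsum : D 0 + D 1 + D 2 = 3 • B := by
    have h2 := hT.2
    simp only [hD]
    have : B + T 0 + (B + T 1) + (B + T 2) = 3 • B + (T 0 + T 1 + T 2) := by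
      rw [show (3 : ℕ) • B = B + B + B from by rw [succ_nsmul, succ_nsmul, one_nsmul]]
      abel
    rw [this, h2, add_zero]
  -- the product functions
  set hp : (Fin 3 → Equiv.Perm (Fin m)) → Fin m → F :=
    fun p i => φ 0 (p 0 i) * φ 1 (p 1 i) * φ 2 (p 2 i) with hhp
  have hpmem : ∀ p i, hp p i ∈ riemannRochSpace (3 • B) := fun p i => by
    rw [← hsum]
    exact s17h_mul_mem_L (s17h_mul_mem_L (hφmem 0 _) (hφmem 1 _)) (hφmem 2 _)
  choose c hc using fun p i => he (hp p i) (hpmem p i)
  refine ⟨fun β => ∑ p : Fin 3 → Equiv.Perm (Fin m),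
    (∏ j, ((Equiv.Perm.sign (p j) : ℤ) : K)) * ∏ i, c p i (β i), fun A hA => ?_⟩
  -- step 1–2: product of the three determinants
  have h1 : s17_thetaVal X P₀ g m T A = ∑ p : Fin 3 → Equiv.Perm (Fin m),
      ∏ j, (((Equiv.Perm.sign (p j) : ℤ) : K) *
        ∏ i, (X.exp (A i) (φ j (p j i))).coeff (-(D j (A i)))) := by
    unfold s17_thetaVal
    have hps := Fintype.prod_sum (fun (j : Fin 3) (σ : Equiv.Perm (Fin m)) =>
      ((Equiv.Perm.sign σ : ℤ) : K) * ∏ i, (X.exp (A i) (φ j (σ i))).coeff (-(D j (A i))))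
    rw [← hps]
    refine Finset.prod_congr rfl fun j _ => ?_
    exact s17h_cdet_injective X (D j) hA (φ j)
  -- step 3–4: regroup
  have h2 : ∀ p : Fin 3 → Equiv.Perm (Fin m),
      ∏ j, (((Equiv.Perm.sign (p j) : ℤ) : K) *
        ∏ i, (X.exp (A i) (φ j (p j i))).coeff (-(D j (A i)))) =
      (∏ j, ((Equiv.Perm.sign (p j) : ℤ) : K)) *
        ∏ i, (X.exp (A i) (hp p i)).coeff (-((3 • B) (A i))) := fun p => by
    rw [Finset.prod_mul_distrib, Finset.prod_comm]
    congr 1
    refine Finset.prod_congr rfl fun i _ => ?_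
    rw [← hsum]
    exact (s17h_lc_mul3 X (A i) D (fun j => φ j (p j i)) (fun j => hφmem j _)).symm
  -- step 5–6: expand in the basis
  have h3 : ∀ (p : Fin 3 → Equiv.Perm (Fin m)),
      ∏ i, (X.exp (A i) (hp p i)).coeff (-((3 • B) (A i))) =
      ∑ β : Fin m → Fin N, (∏ i, c p i (β i)) *
        ∏ i, (X.exp (A i) (e (β i))).coeff (-((3 • B) (A i))) := fun p => by
    have : ∀ i, (X.exp (A i) (hp p i)).coeff (-((3 • B) (A i))) =
        ∑ b, (X.exp (A i) (e b)).coeff (-((3 • B) (A i))) * c p i b := fun i => by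
      conv_lhs => rw [hc p i]
      exact s17d_coeff_sum X (A i) (c p i) e _
    simp only [this]
    have hps := Fintype.prod_sum (fun (i : Fin m) (b : Fin N) =>
      (X.exp (A i) (e b)).coeff (-((3 • B) (A i))) * c p i b)
    rw [hps]
    refine Finset.sum_congr rfl fun β _ => ?_
    rw [Finset.prod_mul_distrib, mul_comm]
  rw [h1]
  simp only [h2, h3]
  simp only [Finset.mul_sum, Finset.sum_mul]
  rw [Finset.sum_comm]
  refine Finset.sum_congr rfl fun β _ => ?_
  refine Finset.sum_congr rfl fun p _ => ?_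
  ring

/-! ### the contract -/

/-- **[SPAN]** from the density contract. -/
theorem s17h_span (hLIN : s17_LIN) : s17_Span := by
  intro K F _ _ _ _ g hC hg X P₀ m hm hbig
  haveI : Module.Finite K ↥(riemannRochSpace (3 • s17_B P₀ g m)) := hC.riemann.fin _
  set N := Module.finrank K ↥(riemannRochSpace (3 • s17_B P₀ g m)) with hN
  let b := Module.finBasis K ↥(riemannRochSpace (3 • s17_B P₀ g m))
  let e : Fin N → F := fun k => ((b k : ↥(riemannRochSpace (3 • s17_B P₀ g m))) : F)
  have he : ∀ h ∈ riemannRochSpace (3 • s17_B P₀ g m), ∃ c : Fin N → K,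
      h = ∑ k, c k • e k := fun h hh => by
    refine ⟨fun k => b.repr ⟨h, hh⟩ k, ?_⟩
    have := congrArg (fun z : ↥(riemannRochSpace (3 • s17_B P₀ g m)) => (z : F))
      (b.sum_repr ⟨h, hh⟩)
    simp only [Submodule.coe_sum, Submodule.coe_smul] at this
    exact this.symm
  obtain ⟨n, τ, hτ⟩ := s17h_finite_span_family (K := K)
    (𝒯 := {T : Fin 3 → Divisor K F // s17_Adm T}) (𝒜 := Fin m → Place K F)
    (fun t A => s17_thetaVal X P₀ g m t.1 A)
    (fun (β : Fin m → Fin N) A =>
      ∏ i, (X.exp (A i) (e (β i))).coeff (-((3 • s17_B P₀ g m) (A i))))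
    Function.Injective (fun t => s17h_theta_expand X P₀ g m e he t.1 t.2)
  refine ⟨n, fun a => (τ a).1, fun a => (τ a).2, fun T hT => ?_⟩
  obtain ⟨c, hc⟩ := hτ ⟨T, hT⟩
  refine ⟨c, fun A => ?_⟩
  -- extend from injective tuples to all tuples by density
  set s : Option (Fin n) → List (s17_Blk K F m) := fun o =>
    match o with
    | none => s17_thetaSec P₀ g m T Finset.univ
    | some a => s17_thetaSec P₀ g m (τ a).1 Finset.univ with hs
  set c' : Option (Fin n) → K := fun o =>
    match o with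
    | none => 1
    | some a => -c a with hc'
  have hadm : ∀ o : Option (Fin n), ∃ T' : Fin 3 → Divisor K F, s17_Adm T' ∧
      s o = s17_thetaSec P₀ g m T' Finset.univ := by
    rintro (_ | a)
    · exact ⟨T, hT, rfl⟩
    · exact ⟨(τ a).1, (τ a).2, rfl⟩
  have hval : ∀ A' : Fin m → Place K F, ∑ o, c' o * s17_secVal X (s o) A' =
      s17_thetaVal X P₀ g m T A' - ∑ a, c a * s17_thetaVal X P₀ g m (τ a).1 A' := fun A' => by
    rw [Fintype.sum_option]
    simp only [hs, hc', s17h_secVal_thetaSec_univ, one_mul, neg_mul, Finset.sum_neg_distrib]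
    ring
  have hlin := hLIN K F g hC X m (Option (Fin n)) s
    (fun o bk hbk => by
      obtain ⟨T', _, hT'⟩ := hadm o
      rw [hT'] at hbk
      exact s17h_thetaSec_ok P₀ g m T' _ bk hbk)
    (fun o o' => by
      obtain ⟨T', hT'a, hT'⟩ := hadm o
      obtain ⟨T'', hT''a, hT''⟩ := hadm o'
      rw [hT', hT'']
      exact s17h_thetaSec_sameTy P₀ g m hT'a hT''a _)
    c' ∅
    (fun A' hA' _ => by
      rw [hval A', hc A' hA', sub_self])
    A
  rw [hval A] at hlin
  exact sub_eq_zero.mp hlin

end Fermat.Agent.Lib.S17
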