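/-
Programme MW (S17), brick [FINAL] (helper3): **the final glue**
`s17_HT + s17_WMW + s17_Inst + s17_Genus0 ⇒ s17_Target` (Mordell–Weil for `J₀(N)(ℚ)`), by
Mathlib's descent theorem `AddCommGroup.fg_of_descent'`.

The only content: `FixedPoints.addSubgroup Γ (JZero N)` is the subgroup `s17_fixed ρ` of the
interface for `ρ = arithmeticGalois`, and in genus `0` the group is trivial.
-/
import Fermat.Agent.Lib.S17.Iface

set_option autoImplicit false
set_option linter.unusedSectionVars false
set_option linter.unusedVariables false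
set_option linter.style.haveILetI false

noncomputable section

namespace Fermat.Agent.Lib.S17

open AlgebraicCurve ModularCurve

local notation "Qbar" => AlgebraicClosure ℚ
local notation "Γℚ" => (AlgebraicClosure ℚ ≃ₐ[ℚ] AlgebraicClosure ℚ)

/-- the rational points of `J₀(N)` in the two languages. -/
theorem s17i_fixed_eq (N : ℕ) :
    s17_fixed (arithmeticGalois (L := Qbar) (modularFunctionFieldFull N)) =
      FixedPoints.addSubgroup Γℚ (JZero N) := by
  ext x
  rw [FixedPoints.mem_addSubgroup]
  exact Iff.rfl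

/-- descent for a subgroup given up to equality. -/
theorem s17i_fg_of_eq {G : Type*} [AddCommGroup G] (H₁ H₂ : AddSubgroup G) (e : H₁ = H₂)
    (hW : (nsmulAddMonoidHom (α := ↥H₂) 2).range.FiniteIndex)
    (hH : ∃ h : ↥H₁ → ℝ, Northcott h ∧ (∀ x, 0 ≤ h x) ∧
      ∃ C : ℝ, ∀ x y, |h (x + y) + h (x - y) - 2 * (h x + h y)| ≤ C) :
    AddGroup.FG ↥H₂ := by
  subst e
  obtain ⟨h, hN, h0, C, hC⟩ := hH
  haveI := hN
  exact AddCommGroup.fg_of_descent' hW h0 hC

/-- **[FINAL]** Mordell–Weil for `J₀(N)(ℚ)` from the four top contracts. -/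
theorem s17i_target (hHT : s17_HT) (hW : s17_WMW) (hI : s17_Inst) (hG0 : s17_Genus0) :
    s17_Target := by
  intro N _ hN h5
  obtain ⟨g, P₀, hC, hGal⟩ := hI N hN h5
  rcases Nat.eq_zero_or_pos g with hg | hg
  · -- genus zero: the group is trivial
    subst hg
    have htriv : ∀ x : ↥(FixedPoints.addSubgroup Γℚ (JZero N)), x = 0 := fun x =>
      Subtype.ext (hG0 Qbar ↥(modularFunctionFieldBar N) hC (x : JZero N))
    haveI : Subsingleton ↥(FixedPoints.addSubgroup Γℚ (JZero N)) :=
      ⟨fun x y => by rw [htriv x, htriv y]⟩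
    exact AddGroup.fg_of_finite
  · exact s17i_fg_of_eq _ _ (s17i_fixed_eq N) (hW N hN h5)
      (hHT ↥(modularFunctionFieldBar N) g hC hg
        (arithmeticGalois (L := Qbar) (modularFunctionFieldFull N)) P₀ hGal)

end Fermat.Agent.Lib.S17
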