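/-
Programme MW (S17), brick [INST] (helper3), part 3 (request of helper2, #2897): **the valuation
ring of every place of a function field is essentially of finite type over `K`**, in elementary
form (a finite set `σ ⊆ O_P` such that every `f ∈ O_P` is `a / t` with `a, t ∈ K[σ]`, `t` a unit
of `O_P`).  From the landed `ff_essFiniteType_place`.
-/
import Fermat.Agent.Lib.FF.FFBasicResidue

set_option autoImplicit false
set_option linter.unusedSectionVars false
set_option linter.style.haveILetI false

noncomputable section

namespace Fermat.Agent.Lib.S17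

open AlgebraicCurve Fermat.Agent.Lib.FF

variable {K F : Type*} [Field K] [Field F] [Algebra K F]

/-- **[ESS]** the valuation ring of a place is essentially of finite type, elementary form. -/
theorem s17i_ess [CharZero K] (x : F) [FFGen K x] (P : Place K F) :
    ∃ σ : Finset F, (∀ y ∈ σ, y ∈ P.toValuationSubring) ∧
      ∀ f ∈ P.toValuationSubring, ∃ t ∈ Algebra.adjoin K (σ : Set F), t ≠ 0 ∧
        t⁻¹ ∈ P.toValuationSubring ∧ f * t ∈ Algebra.adjoin K (σ : Set F) := by
  classical
  haveI hE : Algebra.EssFiniteType K ↥P.toValuationSubring := ff_essFiniteType_place K x P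
  obtain ⟨s, hs⟩ := hE.cond
  -- the inclusion `O_P → F` as a `K`-algebra map
  let ι : ↥P.toValuationSubring →ₐ[K] F :=
    { P.toValuationSubring.subtype with
      commutes' := fun a => (P.coe_algebraMap a) }
  have hι : ∀ y : ↥P.toValuationSubring, ι y = (y : F) := fun _ => rfl
  refine ⟨s.image ι, ?_, ?_⟩
  · intro y hy
    obtain ⟨z, -, rfl⟩ := Finset.mem_image.mp hy
    exact z.2
  · have hadj : Algebra.adjoin K ((s.image ι : Finset F) : Set F) =
        (Algebra.adjoin K (s : Set ↥P.toValuationSubring)).map ι := by
      rw [Finset.coe_image, AlgHom.map_adjoin]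
    intro f hf
    haveI := hs
    obtain ⟨⟨a, m⟩, ham⟩ := IsLocalization.surj
      ((IsUnit.submonoid ↥P.toValuationSubring).comap
        (algebraMap ↥(Algebra.adjoin K (s : Set ↥P.toValuationSubring)) ↥P.toValuationSubring))
      (⟨f, hf⟩ : ↥P.toValuationSubring)
    have hmu : IsUnit ((m : ↥(Algebra.adjoin K (s : Set ↥P.toValuationSubring))) :
        ↥P.toValuationSubring) := m.2
    set t : ↥P.toValuationSubring :=
      ((m : ↥(Algebra.adjoin K (s : Set ↥P.toValuationSubring))) : ↥P.toValuationSubring) with ht
    have ham' : (⟨f, hf⟩ : ↥P.toValuationSubring) * t = (a : ↥P.toValuationSubring) := ham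
    refine ⟨(t : F), ?_, ?_, ?_, ?_⟩
    · rw [hadj]
      exact ⟨t, (m : ↥(Algebra.adjoin K (s : Set ↥P.toValuationSubring))).2, rfl⟩
    · intro h0
      have : t = 0 := Subtype.ext h0
      rw [this] at hmu
      exact not_isUnit_zero hmu
    · obtain ⟨u, hu⟩ := hmu
      have h4 : (u : ↥P.toValuationSubring) * ((u⁻¹ : (↥P.toValuationSubring)ˣ) :
          ↥P.toValuationSubring) = 1 := u.mul_inv
      have h3 : ((u : ↥P.toValuationSubring) : F) *
          (((u⁻¹ : (↥P.toValuationSubring)ˣ) : ↥P.toValuationSubring) : F) = 1 :=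
        congrArg Subtype.val h4
      rw [← hu, inv_eq_of_mul_eq_one_right h3]
      exact Subtype.mem _
    · rw [hadj]
      refine ⟨(a : ↥P.toValuationSubring), a.2, ?_⟩
      show (((a : ↥(Algebra.adjoin K (s : Set ↥P.toValuationSubring))) :
        ↥P.toValuationSubring) : F) = f * (t : F)
      rw [← ham']
      rfl

end Fermat.Agent.Lib.S17
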