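/-
Programme MW (S17), brick [INST] (helper3), part 1: **every non-trivial valuation ring of a
function field `F / K` containing the constants is (the valuation ring of) a place**, i.e. it is
discrete.  (Field `val` of `s17_Curve`.)

Argument (as `s18q_comap_dvr` for number fields): if `x ∈ O` then `K[x] ⊆ O`, hence the integral
closure `B` of `K[x]` in `F` lies in `O`; the centre `𝔭 = 𝔪_O ∩ B` is a non-zero prime of the
Dedekind domain `B` (otherwise `F = Frac B ⊆ O`), `B_𝔭 ⊆ O`, and a discrete valuation ring is a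
maximal proper subring of its fraction field.  If `x ∉ O` then `x⁻¹ ∈ O`, and `x⁻¹` is again a
transcendental generator.
-/
import Fermat.Agent.Lib.FF.FFBasicDedekind

set_option autoImplicit false
set_option linter.unusedSectionVars false
set_option linter.style.haveILetI false

noncomputable section

namespace Fermat.Agent.Lib.S17

open IsDedekindDomain AlgebraicCurve IntermediateField Fermat.Agent.Lib.FF

variable {K F : Type*} [Field K] [Field F] [Algebra K F]

/-- a valuation subring containing the constants, as a `K`-subalgebra. -/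
def s17i_subalg (O : ValuationSubring F) (hK : ∀ a : K, algebraMap K F a ∈ O) : Subalgebra K F :=
  { O.toSubring with algebraMap_mem' := hK }

theorem s17i_A_mem {x : F} (O : ValuationSubring F) (hK : ∀ a : K, algebraMap K F a ∈ O)
    (hx : x ∈ O) (a : ffA K x) : (a : F) ∈ O := by
  have h : ffA K x ≤ s17i_subalg O hK := Algebra.adjoin_le (Set.singleton_subset_iff.mpr hx)
  exact h a.2

theorem s17i_B_mem {x : F} (O : ValuationSubring F) (hK : ∀ a : K, algebraMap K F a ∈ O)
    (hx : x ∈ O) (b : ffB K x) : (b : F) ∈ O := by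
  have hb : IsIntegral (ffA K x) (b : F) := b.2
  have hb' : IsIntegral O (b : F) := by
    obtain ⟨p, hp, hpb⟩ := hb
    let φ : ffA K x →+* O :=
      { toFun := fun a => ⟨a, s17i_A_mem O hK hx a⟩
        map_one' := rfl
        map_mul' := fun _ _ => rfl
        map_zero' := rfl
        map_add' := fun _ _ => rfl }
    refine ⟨p.map φ, hp.map φ, ?_⟩
    rw [Polynomial.eval₂_map]
    have : (algebraMap O F).comp φ = algebraMap (ffA K x) F := rfl
    rw [this]; exact hpb
  obtain ⟨y, hy⟩ := (IsIntegrallyClosed.isIntegral_iff (R := O) (K := F)).mp hb'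
  rw [← hy]; exact y.2

/-- the inclusion `B → O`. -/
def s17i_BtoO {x : F} (O : ValuationSubring F) (hK : ∀ a : K, algebraMap K F a ∈ O)
    (hx : x ∈ O) : ffB K x →+* O where
  toFun b := ⟨b, s17i_B_mem O hK hx b⟩
  map_one' := rfl
  map_mul' _ _ := rfl
  map_zero' := rfl
  map_add' _ _ := rfl

theorem s17i_BtoO_coe {x : F} (O : ValuationSubring F) (hK : ∀ a : K, algebraMap K F a ∈ O)
    (hx : x ∈ O) (b : ffB K x) : ((s17i_BtoO O hK hx b : O) : F) = b := rfl

/-- the inverse of a unit of `O` lies in `O`. -/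
theorem s17i_inv_mem (O : ValuationSubring F) {a : O} (ha : IsUnit a) : ((a : F))⁻¹ ∈ O := by
  obtain ⟨u, rfl⟩ := ha
  have h4 : (u : O) * ((u⁻¹ : Oˣ) : O) = 1 := u.mul_inv
  have h3 : ((u : O) : F) * (((u⁻¹ : Oˣ) : O) : F) = 1 := congrArg Subtype.val h4
  rw [inv_eq_of_mul_eq_one_right h3]
  exact Subtype.mem _

/-- **the case `x ∈ O`.** -/
theorem s17i_val_of_mem [CharZero K] (x : F) [FFGen K x] (O : ValuationSubring F)
    (hK : ∀ a : K, algebraMap K F a ∈ O) (hO : O ≠ ⊤) (hx : x ∈ O) :
    ∃ P : Place K F, P.toValuationSubring = O := by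
  set f := s17i_BtoO O hK hx with hf
  let 𝔭 : Ideal (ffB K x) := Ideal.comap f (IsLocalRing.maximalIdeal O)
  have h𝔭prime : 𝔭.IsPrime := Ideal.comap_isPrime f _
  have hunit : ∀ d : ffB K x, d ∉ 𝔭 → IsUnit (f d) := by
    intro d hd
    have h2 : f d ∉ IsLocalRing.maximalIdeal O := hd
    rw [IsLocalRing.mem_maximalIdeal, mem_nonunits_iff, not_not] at h2
    exact h2
  have h𝔭ne : 𝔭 ≠ ⊥ := by
    intro hbot
    apply hO
    refine SetLike.ext fun y => ⟨fun _ => ValuationSubring.mem_top y, fun _ => ?_⟩
    obtain ⟨b, s, hs, rfl⟩ := IsFractionRing.div_surjective (A := ffB K x) y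
    have hs0 : s ≠ 0 := nonZeroDivisors.ne_zero hs
    have hsu : IsUnit (f s) := by
      apply hunit
      rw [hbot, Ideal.mem_bot]
      exact hs0
    rw [div_eq_mul_inv]
    exact O.mul_mem _ _ (s17i_B_mem O hK hx b) (s17i_inv_mem O hsu)
  let v : HeightOneSpectrum (ffB K x) := ⟨𝔭, h𝔭prime, h𝔭ne⟩
  have hle : HeightOneSpectrum.valuationSubringAtPrime F v ≤ O := by
    rw [HeightOneSpectrum.valuationSubringAtPrime_eq_valuationSubring]
    intro y hy
    obtain ⟨n, d, hnd⟩ := v.exists_primeCompl_mul_eq_of_integer y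
      ((Valuation.mem_valuationSubring_iff _ _).mp hy)
    have hd : IsUnit (f d) := hunit d d.2
    have hd0 : algebraMap (ffB K x) F d ≠ 0 := by
      intro h0
      have : f d = 0 := Subtype.ext h0
      rw [this] at hd
      exact not_isUnit_zero hd
    have : y = algebraMap (ffB K x) F n * (algebraMap (ffB K x) F d)⁻¹ := by
      rw [← hnd, mul_assoc, mul_inv_cancel₀ hd0, mul_one]
    rw [this]
    exact O.mul_mem _ _ (s17i_B_mem O hK hx n) (s17i_inv_mem O hd)
  have heq : HeightOneSpectrum.valuationSubringAtPrime F v = O :=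
    ValuationSubring.eq_of_le_of_ne_top _ hle hO
  refine ⟨ff_placeOf K x v, ?_⟩
  rw [ff_placeOf_toValuationSubring, ← HeightOneSpectrum.valuationSubringAtPrime_eq_valuationSubring,
    heq]

/-- **[VAL]** every non-trivial valuation ring of a function field `F / K` containing the
constants is a place. -/
theorem s17i_val [CharZero K] (x : F) [FFGen K x] (O : ValuationSubring F)
    (hK : ∀ a : K, algebraMap K F a ∈ O) (hO : O ≠ ⊤) :
    ∃ P : Place K F, P.toValuationSubring = O := by
  by_cases hx : x ∈ O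
  · exact s17i_val_of_mem x O hK hO hx
  · have hx' : x⁻¹ ∈ O := (O.mem_or_inv_mem x).resolve_left hx
    have htr : Transcendental K x⁻¹ := by
      intro h
      have h2 := h.inv
      rw [inv_inv] at h2
      exact (FFGen.transc (K := K) (x := x)) h2
    haveI : FFGen K x⁻¹ := ff_gen_of_transcendental (x := x) htr
    exact s17i_val_of_mem x⁻¹ O hK hO hx'

end Fermat.Agent.Lib.S17
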