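/-
Programme MW (S17), brick [INST] (helper3), part 2: **the modular function field
`F̄(N) = ℚ̄ ⊗ F₀(N)` satisfies the standing hypotheses `s17_Curve`, and the arithmetic Galois
action satisfies `s17_Gal` with `P₀ = ∞` (the place `q = 0`).**

* `riemann` : `s19e_riemann_of_sep` (S44's Riemann theorem in the separable case) at
  `g = genusFF`;
* `pd`, `deg1` : landed (S18/S37); `inf` : `s19n_infinite_of_riemann`;
* `val` : `s17i_val` (`IVal.lean`); `fib` : `ff_fibreSum_poles`; `ess` : `s17i_ess` (`IEss.lean`);
* `base` : `rfl`; `fixP` : the coefficientwise action preserves `ℚ̄[[q]]`;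
* `openF` : every function is defined over a number field (`s18q_exists_field`);
* `openP` : `s29g_exists_level_places`.
-/
import Fermat.Agent.Lib.S17.Iface
import Fermat.Agent.Lib.S17.IVal
import Fermat.Agent.Lib.S17.IEss
import Fermat.Agent.Lib.S19.EGenus
import Fermat.Agent.Lib.S19.NPlaces
import Fermat.Agent.Lib.S18.RData
import Fermat.Agent.Lib.S37.IRiemannBar
import Fermat.Agent.Lib.S44.HResInf
import Fermat.Agent.Lib.S29.GSStab
import Fermat.Agent.Lib.FF.FFBasicIdentity

set_option autoImplicit false
set_option linter.unusedSectionVars false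
set_option linter.unusedVariables false
set_option linter.style.haveILetI false
set_option synthInstance.maxHeartbeats 400000
set_option maxHeartbeats 1600000

noncomputable section

namespace Fermat.Agent.Lib.S17

open ModularCurve HahnSeries AlgebraicCurve IntermediateField Fermat.Agent.Lib.FF
  Fermat.Agent.Lib.S18 Fermat.Agent.Lib.S19 Fermat.Agent.Lib.S29 Fermat.Agent.Lib.S37
  Fermat.Agent.Lib.S44

local notation "Qbar" => AlgebraicClosure ℚ
local notation "Γℚ" => (AlgebraicClosure ℚ ≃ₐ[ℚ] AlgebraicClosure ℚ)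

variable (N : ℕ) [NeZero N]

/-! ## The curve -/

/-- the genus of `X₀(N)`. -/
def s17i_genus : ℕ := genusFF Qbar ↥(modularFunctionFieldBar N)

/-- `j` has a pole at `q = 0`. -/
theorem s17i_hne : ∃ y : ↥(modularFunctionFieldBar N),
    (y : LaurentSeries Qbar) ∉ s44h_LA (κ := Qbar) 0 := by
  refine ⟨ffd_jBar N, fun h => ?_⟩
  have h1 := h (-1) (by norm_num)
  have h2 : ((ffd_jBar N : ↥(modularFunctionFieldBar N)) : LaurentSeries Qbar) = ffd_jSeries := rfl
  rw [h2, ffd_jSeries_coeff_neg_one] at h1
  exact one_ne_zero h1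

/-- the cusp `∞`: the place `q = 0`. -/
def s17i_inf : Place Qbar ↥(modularFunctionFieldBar N) :=
  s44h_infPlace (modularFunctionFieldBar N) (s17i_hne N)

theorem s17i_mem_inf (f : ↥(modularFunctionFieldBar N)) :
    f ∈ (s17i_inf N).toValuationSubring ↔ ∀ k : ℤ, k < 0 → (f : LaurentSeries Qbar).coeff k = 0 :=
  s44h_mem_infPlace (s17i_hne N) f

/-- **the modular function field is a curve in the sense of `s17_Curve`.** -/
theorem s17i_curve : s17_Curve Qbar ↥(modularFunctionFieldBar N) (s17i_genus N) := by
  haveI : FFGen Qbar (ffd_jBar N) := s18r_ffGen N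
  have hR : s19_Riemann Qbar ↥(modularFunctionFieldBar N) (s17i_genus N) :=
    s19e_riemann_of_sep (ffd_jBar N)
  have hdeg : ∀ P : Place Qbar ↥(modularFunctionFieldBar N), P.deg = 1 :=
    fun P => s37i_deg_eq_one_bar N P
  refine
    { riemann := hR
      pd := inferInstance
      deg1 := hdeg
      inf := s19n_infinite_of_riemann hR hdeg (s17i_inf N)
      val := fun O hK hO => s17i_val (ffd_jBar N) O hK hO
      fib := ?_
      ess := fun P => s17i_ess (ffd_jBar N) P }
  intro u hu
  have htr : Transcendental Qbar u := by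
    intro halg
    obtain ⟨c, hc⟩ := ff_mem_range_of_isAlgebraic halg
    exact hu c hc.symm
  haveI hgen : FFGen Qbar u := ff_gen_of_transcendental (x := ffd_jBar N) htr
  exact ⟨hgen.finite, ff_fibreSum_poles Qbar u⟩

/-! ## The Galois action -/

theorem s17i_mem_fixingSubgroup (E : IntermediateField ℚ Qbar) (σ : Γℚ)
    (hσ : σ ∈ E.fixingSubgroup) : ∀ y ∈ E, σ y = y := by
  intro y hy
  exact (IntermediateField.mem_fixingSubgroup_iff E σ).mp hσ y hy

/-- the arithmetic Galois action fixes the cusp `∞`. -/
theorem s17i_fix_inf (σ : Γℚ) :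
    arithmeticGalois (L := Qbar) (modularFunctionFieldFull N) σ • s17i_inf N = s17i_inf N := by
  have key : ∀ (τ : Γℚ) (f : ↥(modularFunctionFieldBar N)),
      f ∈ (s17i_inf N).toValuationSubring →
        arithmeticGalois (L := Qbar) (modularFunctionFieldFull N) τ • f ∈
          (s17i_inf N).toValuationSubring := by
    intro τ f hf
    rw [s17i_mem_inf] at hf ⊢
    intro k hk
    rw [coe_arithmeticGalois_smul, coeffMap_coeff, hf k hk, map_zero]
  apply Place.ext
  ext f
  rw [SemilinearAut.smul_toValuationSubring, ValuationSubring.mem_pointwise_smul_iff_inv_smul_mem,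
    ← map_inv]
  constructor
  · intro h
    have h2 := key σ _ h
    rwa [← mul_smul, ← map_mul, mul_inv_cancel, map_one, one_smul] at h2
  · intro h
    exact key σ⁻¹ f h

/-- **the arithmetic Galois action satisfies `s17_Gal` with `P₀ = ∞`.** -/
theorem s17i_gal :
    s17_Gal (arithmeticGalois (L := Qbar) (modularFunctionFieldFull N)) (s17i_inf N) where
  base := fun σ => rfl
  fixP := s17i_fix_inf N
  openF := by
    classical
    intro f
    obtain ⟨E, hfin, hE⟩ := s18q_exists_field N {f}
    obtain ⟨f₀, hf₀⟩ := hE f (Finset.mem_singleton_self f)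
    refine ⟨E, hfin, fun σ hσ => ?_⟩
    rw [← hf₀]
    exact s29g_smul_incl N E σ (s17i_mem_fixingSubgroup E σ hσ) f₀
  openP := by
    classical
    intro P
    obtain ⟨E, hfin, hE⟩ := s29g_exists_level_places N {P}
    exact ⟨E, hfin, fun σ hσ =>
      hE σ (s17i_mem_fixingSubgroup E σ hσ) P (Finset.mem_singleton_self P)⟩

/-- **[INST]** -/
theorem s17i_inst : s17_Inst := by
  intro N _ _ _
  exact ⟨s17i_genus N, s17i_inf N, s17i_curve N, s17i_gal N⟩

end Fermat.Agent.Lib.S17
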