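/-
Programme MW (S17), brick [MODEL] (helper3, recipe of helper2 #2897), part 1: PRE-MODELS of the
function field of `C^m`, by induction on `m`, inside iterated Laurent series.

* `s17m_Pre K F m` : a field `L ⊇ K` with `m` embeddings `ι i : F →ₐ[K] L` having the joint
  specialisation property `spec` of `s17_Model` (no generation hypothesis);
* `s17m_pre_zero` : `L = K`;
* `s17m_pre_succ e₀ P` : `L' = L((t))`, the new coordinate is `F → K((t)) → L((t))` (a chart `e₀`
  followed by the coefficientwise extension), the old ones are constants.  Linear disjointness of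
  `C(L)` and the image of `K((t))` is the landed `s19b_indep`.
-/
import Fermat.Agent.Lib.S17.CIface
import Fermat.Agent.Lib.S19.BBaseChange

set_option autoImplicit false
set_option linter.unusedSectionVars false
set_option linter.unusedVariables false
set_option linter.style.haveILetI false

noncomputable section

namespace Fermat.Agent.Lib.S17

open AlgebraicCurve ModularCurve HahnSeries Fermat.Agent.Lib.S19
open scoped TensorProduct

/-! ## 1. Gluing two homomorphisms on linearly disjoint subalgebras -/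

section Glue

variable {K : Type} [Field K] {L : Type} [Field L] [Algebra K L]

/-- two `K`-algebra maps on linearly disjoint subalgebras glue to a map on their compositum. -/
theorem s17m_glue (A B : Subalgebra K L) (hd : A.LinearDisjoint B) (R : Type) [CommRing R]
    [Algebra K R] (f : ↥A →ₐ[K] R) (g : ↥B →ₐ[K] R) :
    ∃ H : ↥(A ⊔ B) →ₐ[K] R,
      (∀ (a : L) (ha : a ∈ A) (hmem : a ∈ A ⊔ B), H ⟨a, hmem⟩ = f ⟨a, ha⟩) ∧
      (∀ (b : L) (hb : b ∈ B) (hmem : b ∈ A ⊔ B), H ⟨b, hmem⟩ = g ⟨b, hb⟩) := by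
  let lift : ↥A ⊗[K] ↥B →ₐ[K] R :=
    Algebra.TensorProduct.lift f g (fun _ _ => Commute.all _ _)
  refine ⟨lift.comp (hd.mulMap.symm : ↥(A ⊔ B) →ₐ[K] ↥A ⊗[K] ↥B), ?_, ?_⟩
  · intro a ha hmem
    have h1 : hd.mulMap ((⟨a, ha⟩ : ↥A) ⊗ₜ[K] (1 : ↥B)) = ⟨a, hmem⟩ := by
      apply Subtype.ext
      rw [Subalgebra.LinearDisjoint.val_mulMap_tmul]
      show a * ((1 : ↥B) : L) = a
      rw [OneMemClass.coe_one, mul_one]
    have h2 : hd.mulMap.symm ⟨a, hmem⟩ = (⟨a, ha⟩ : ↥A) ⊗ₜ[K] (1 : ↥B) := by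
      rw [AlgEquiv.symm_apply_eq, h1]
    show lift (hd.mulMap.symm ⟨a, hmem⟩) = f ⟨a, ha⟩
    rw [h2, Algebra.TensorProduct.lift_tmul, map_one, mul_one]
  · intro b hb hmem
    have h1 : hd.mulMap ((1 : ↥A) ⊗ₜ[K] (⟨b, hb⟩ : ↥B)) = ⟨b, hmem⟩ := by
      apply Subtype.ext
      rw [Subalgebra.LinearDisjoint.val_mulMap_tmul]
      show ((1 : ↥A) : L) * b = b
      rw [OneMemClass.coe_one, one_mul]
    have h2 : hd.mulMap.symm ⟨b, hmem⟩ = (1 : ↥A) ⊗ₜ[K] (⟨b, hb⟩ : ↥B) := by
      rw [AlgEquiv.symm_apply_eq, h1]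
    show lift (hd.mulMap.symm ⟨b, hmem⟩) = g ⟨b, hb⟩
    rw [h2, Algebra.TensorProduct.lift_tmul, map_one, one_mul]

end Glue

/-! ## 2. Constants and coefficientwise extension in `L((t))` -/

section Laurent

attribute [local instance 100000] Algebra.toModule Algebra.toSMul

variable {K : Type} [Field K] (L : Type) [Field L] [Algebra K L]

theorem s17m_algebraMap_eq (a : K) :
    algebraMap K (LaurentSeries L) a = HahnSeries.C (algebraMap K L a) := by
  have h1 : algebraMap K (PowerSeries L) a = PowerSeries.C (algebraMap K L a) :=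
    PowerSeries.algebraMap_apply
  rw [HahnSeries.algebraMap_apply', h1, HahnSeries.ofPowerSeries_C]

theorem s17m_algebraMap_eq' (c : L) :
    algebraMap L (LaurentSeries L) c = HahnSeries.C c := by
  rw [algebraMap_laurentSeries_eq_single]
  rfl

/-- the constants `L → L((t))`, as a `K`-algebra map. -/
def s17m_cE : L →ₐ[K] LaurentSeries L :=
  { (HahnSeries.C : L →+* LaurentSeries L) with
    commutes' := fun a => (s17m_algebraMap_eq L a).symm }

theorem s17m_cE_apply (c : L) : s17m_cE (K := K) L c = HahnSeries.C c := rfl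

theorem s17m_cE_injective : Function.Injective (s17m_cE (K := K) L) :=
  (s17m_cE (K := K) L).toRingHom.injective

variable {F : Type} [Field F] [Algebra K F]

/-- the new coordinate `F → K((t)) → L((t))`. -/
def s17m_jF (e₀ : F →ₐ[K] LaurentSeries K) : F →ₐ[K] LaurentSeries L :=
  { (coeffMap (algebraMap K L)).comp (e₀ : F →+* LaurentSeries K) with
    commutes' := fun a => by
      show coeffMap (algebraMap K L) (e₀ (algebraMap K F a)) = _
      rw [e₀.commutes, s17m_algebraMap_eq, s17m_algebraMap_eq, Algebra.algebraMap_self,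
        RingHom.id_apply]
      exact coeffMap_single _ _ _ }

theorem s17m_jF_apply (e₀ : F →ₐ[K] LaurentSeries K) (f : F) :
    s17m_jF L e₀ f = coeffMap (algebraMap K L) (e₀ f) := rfl

theorem s17m_jF_injective (e₀ : F →ₐ[K] LaurentSeries K) : Function.Injective (s17m_jF L e₀) :=
  (s17m_jF L e₀).toRingHom.injective

/-- **linear disjointness** of the constants and the coefficientwise image of `K((t))`. -/
theorem s17m_ld (e₀ : F →ₐ[K] LaurentSeries K) :
    (s17m_cE (K := K) L).range.LinearDisjoint (s17m_jF L e₀).range := by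
  classical
  set A := (s17m_cE (K := K) L).range with hA
  set B := (s17m_jF L e₀).range with hB
  let a := Module.Basis.ofVectorSpace K ↥A
  refine Subalgebra.LinearDisjoint.of_basis_left A B a ?_
  rw [linearIndependent_iff']
  intro s g hg i hi
  -- the constants behind the basis vectors
  have hc : ∀ j, ∃ c : L, HahnSeries.C c = ((a j : ↥A) : LaurentSeries L) := fun j => (a j).2
  choose c hc using hc
  have hy : ∀ j, ∃ y : F, coeffMap (algebraMap K L) (e₀ y) = ((g j : ↥B) : LaurentSeries L) :=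
    fun j => (g j).2
  choose y hy using hy
  -- `c` is `K`-linearly independent
  have hcli : LinearIndependent K fun j : ↥s => c j := by
    have h1 : LinearIndependent K fun j : ↥s => ((a j : ↥A) : LaurentSeries L) := by
      have h2 : LinearIndependent K fun j : ↥s => a j :=
        a.linearIndependent.comp (fun j : ↥s => (j : _)) Subtype.val_injective
      exact h2.map' A.val.toLinearMap (LinearMap.ker_eq_bot.mpr Subtype.val_injective)
    have h3 : (fun j : ↥s => ((a j : ↥A) : LaurentSeries L)) =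
        (s17m_cE (K := K) L).toLinearMap ∘ fun j : ↥s => c j := by
      funext j
      exact (hc j).symm
    rw [h3] at h1
    exact LinearIndependent.of_comp _ h1
  have hsum : ∑ j : ↥s, s19b_C (c j) * s19b_iota (K' := L) (e₀ (y j)) = 0 := by
    have h1 : ∑ j ∈ s, g j • (A.val ∘ a) j = 0 := hg
    rw [← Finset.sum_coe_sort] at h1
    rw [← h1]
    refine Finset.sum_congr rfl fun j _ => ?_
    show s19b_C (c j) * coeffMap (algebraMap K L) (e₀ (y j)) =
      ((g j : ↥B) : LaurentSeries L) * ((a j : ↥A) : LaurentSeries L)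
    rw [hy, ← hc, s19b_C, s17m_algebraMap_eq', mul_comm]
  have h0 := s19b_indep (fun j : ↥s => c j) hcli (fun j : ↥s => e₀ (y j)) hsum ⟨i, hi⟩
  apply Subtype.ext
  rw [← hy]
  show coeffMap (algebraMap K L) (e₀ (y i)) = 0
  have h0' : e₀ (y i) = 0 := h0
  rw [h0', map_zero]

end Laurent

/-! ## 3. Pre-models -/

/-- a pre-model of `K(C^m)`: `s17_Model` without the generation hypothesis. -/
structure s17m_Pre (K F : Type) [Field K] [Field F] [Algebra K F] (m : ℕ) where
  L : Type
  [instField : Field L]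
  [instAlgebra : Algebra K L]
  ι : Fin m → F →ₐ[K] L
  spec : ∀ (S : Fin m → Subalgebra K F) (R : Type) [CommRing R] [Algebra K R]
    (h : ∀ i, ↥(S i) →ₐ[K] R),
    ∃ H : ↥(⨆ i, (S i).map (ι i)) →ₐ[K] R, ∀ (i : Fin m) (f : F) (hf : f ∈ S i)
      (hmem : ι i f ∈ ⨆ i, (S i).map (ι i)), H ⟨ι i f, hmem⟩ = h i ⟨f, hf⟩

attribute [instance] s17m_Pre.instField s17m_Pre.instAlgebra

section Pre

variable {K F : Type} [Field K] [Field F] [Algebra K F]

/-- the pre-model of `C^0`. -/
def s17m_pre_zero : s17m_Pre K F 0 where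
  L := K
  ι := fun i => Fin.elim0 i
  spec := fun S R _ _ h => by
    refine ⟨(Algebra.ofId K R).comp ?_, fun i => Fin.elim0 i⟩
    have hbot : (⨆ i : Fin 0, (S i).map ((fun i => Fin.elim0 i : Fin 0 → F →ₐ[K] K) i)) = ⊥ := by
      rw [iSup_of_empty]
    exact ((Algebra.botEquiv K K : ↥(⊥ : Subalgebra K K) →ₐ[K] K)).comp
      (Subalgebra.inclusion hbot.le)

variable {m : ℕ}

/-- the coordinates of the successor pre-model. -/
def s17m_succ_iota (e₀ : F →ₐ[K] LaurentSeries K) (P : s17m_Pre K F m) :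
    Fin (m + 1) → F →ₐ[K] LaurentSeries P.L :=
  Fin.cases (s17m_jF P.L e₀) fun i => (s17m_cE (K := K) P.L).comp (P.ι i)

theorem s17m_succ_iota_zero (e₀ : F →ₐ[K] LaurentSeries K) (P : s17m_Pre K F m) :
    s17m_succ_iota e₀ P 0 = s17m_jF P.L e₀ := rfl

theorem s17m_succ_iota_succ (e₀ : F →ₐ[K] LaurentSeries K) (P : s17m_Pre K F m) (i : Fin m) :
    s17m_succ_iota e₀ P i.succ = (s17m_cE (K := K) P.L).comp (P.ι i) := rfl

/-- the compositum over `Fin (m+1)` splits off the new coordinate. -/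
theorem s17m_iSup_succ (e₀ : F →ₐ[K] LaurentSeries K) (P : s17m_Pre K F m)
    (S : Fin (m + 1) → Subalgebra K F) :
    (⨆ i, (S i).map (s17m_succ_iota e₀ P i)) =
      (⨆ i : Fin m, (S i.succ).map (P.ι i)).map (s17m_cE (K := K) P.L) ⊔
        (S 0).map (s17m_jF P.L e₀) := by
  apply le_antisymm
  · refine iSup_le fun i => ?_
    induction i using Fin.cases with
    | zero => exact le_sup_right
    | succ i =>
      refine le_trans ?_ le_sup_left
      rw [s17m_succ_iota_succ, ← Subalgebra.map_map]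
      exact Subalgebra.map_mono (le_iSup (fun i : Fin m => (S i.succ).map (P.ι i)) i)
  · refine sup_le ?_ ?_
    · rw [Subalgebra.map_le]
      refine iSup_le fun i => ?_
      rw [← Subalgebra.map_le, Subalgebra.map_map, ← s17m_succ_iota_succ]
      exact le_iSup (fun i => (S i).map (s17m_succ_iota e₀ P i)) i.succ
    · exact le_iSup (fun i => (S i).map (s17m_succ_iota e₀ P i)) 0

/-- **the successor pre-model.** -/
def s17m_pre_succ (e₀ : F →ₐ[K] LaurentSeries K) (P : s17m_Pre K F m) :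
    s17m_Pre K F (m + 1) where
  L := LaurentSeries P.L
  ι := s17m_succ_iota e₀ P
  spec := fun S R _ _ h => by
    classical
    set Bo : Subalgebra K P.L := ⨆ i : Fin m, (S i.succ).map (P.ι i) with hBo
    obtain ⟨Hold, hHold⟩ : ∃ H : ↥Bo →ₐ[K] R, ∀ (i : Fin m) (f : F) (hf : f ∈ S i.succ)
        (hmem : P.ι i f ∈ Bo), H ⟨P.ι i f, hmem⟩ = h i.succ ⟨f, hf⟩ :=
      P.spec (fun i => S i.succ) R (fun i => h i.succ)
    set A' : Subalgebra K (LaurentSeries P.L) := Bo.map (s17m_cE (K := K) P.L) with hA'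
    set B' : Subalgebra K (LaurentSeries P.L) := (S 0).map (s17m_jF P.L e₀) with hB'
    have hAle : A' ≤ (s17m_cE (K := K) P.L).range := by
      rintro _ ⟨x, -, rfl⟩
      exact ⟨x, rfl⟩
    have hBle : B' ≤ (s17m_jF P.L e₀).range := by
      rintro _ ⟨x, -, rfl⟩
      exact ⟨x, rfl⟩
    have hd : A'.LinearDisjoint B' := (s17m_ld P.L e₀).of_le_of_flat_right hAle hBle
    let f : ↥A' →ₐ[K] R :=
      Hold.comp ((Bo.equivMapOfInjective (s17m_cE (K := K) P.L)
        (s17m_cE_injective P.L)).symm : ↥A' →ₐ[K] ↥Bo)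
    let g : ↥B' →ₐ[K] R :=
      (h 0).comp (((S 0).equivMapOfInjective (s17m_jF P.L e₀)
        (s17m_jF_injective P.L e₀)).symm : ↥B' →ₐ[K] ↥(S 0))
    obtain ⟨H₁, hH₁a, hH₁b⟩ := s17m_glue A' B' hd R f g
    have heq := s17m_iSup_succ e₀ P S
    refine ⟨H₁.comp (Subalgebra.inclusion heq.le), ?_⟩
    intro i
    induction i using Fin.cases with
    | zero =>
      intro x hx hmem
      have hxB : s17m_jF P.L e₀ x ∈ B' := ⟨x, hx, rfl⟩
      have h1 : (H₁.comp (Subalgebra.inclusion heq.le)) ⟨s17m_succ_iota e₀ P 0 x, hmem⟩ =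
          H₁ ⟨s17m_jF P.L e₀ x, heq.le hmem⟩ := rfl
      rw [h1, hH₁b _ hxB]
      show (h 0) ((((S 0).equivMapOfInjective (s17m_jF P.L e₀)
        (s17m_jF_injective P.L e₀)).symm) ⟨s17m_jF P.L e₀ x, hxB⟩) = h 0 ⟨x, hx⟩
      refine congrArg (h 0) ?_
      rw [AlgEquiv.symm_apply_eq]
      apply Subtype.ext
      rw [Subalgebra.coe_equivMapOfInjective_apply]
    | succ i =>
      intro x hx hmem
      have hxo : P.ι i x ∈ Bo :=
        (le_iSup (fun i : Fin m => (S i.succ).map (P.ι i)) i) ⟨x, hx, rfl⟩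
      have hxA : s17m_cE (K := K) P.L (P.ι i x) ∈ A' := ⟨P.ι i x, hxo, rfl⟩
      have h1 : (H₁.comp (Subalgebra.inclusion heq.le)) ⟨s17m_succ_iota e₀ P i.succ x, hmem⟩ =
          H₁ ⟨s17m_cE (K := K) P.L (P.ι i x), heq.le hmem⟩ := rfl
      rw [h1, hH₁a _ hxA]
      show Hold (((Bo.equivMapOfInjective (s17m_cE (K := K) P.L)
        (s17m_cE_injective P.L)).symm) ⟨s17m_cE (K := K) P.L (P.ι i x), hxA⟩) = h i.succ ⟨x, hx⟩
      rw [← hHold i x hx hxo]
      refine congrArg Hold ?_
      rw [AlgEquiv.symm_apply_eq]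
      apply Subtype.ext
      rw [Subalgebra.coe_equivMapOfInjective_apply]

/-- pre-models exist for every `m`, given one expansion `F → K((t))`. -/
def s17m_pre (e₀ : F →ₐ[K] LaurentSeries K) : ∀ m : ℕ, s17m_Pre K F m
  | 0 => s17m_pre_zero
  | m + 1 => s17m_pre_succ e₀ (s17m_pre e₀ m)

end Pre

end Fermat.Agent.Lib.S17
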