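/-
Programme MW (S17), brick [MODEL] (helper3, recipe of helper2 #2897), part 2: from a pre-model to
a MODEL (`s17_Model`): restrict to the subfield generated by the coordinates.
**`s17m_modelExists : s17_ModelExists`.**
-/
import Fermat.Agent.Lib.S17.MPre

set_option autoImplicit false
set_option linter.unusedSectionVars false
set_option linter.unusedVariables false
set_option linter.style.haveILetI false

noncomputable section

namespace Fermat.Agent.Lib.S17

open AlgebraicCurve ModularCurve HahnSeries Fermat.Agent.Lib.S19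

variable {K F : Type} [Field K] [Field F] [Algebra K F] {m : ℕ}

/-- `map` commutes with `iSup` of subalgebras. -/
theorem s17m_map_iSup {A B : Type} [CommRing A] [CommRing B] [Algebra K A] [Algebra K B]
    (φ : A →ₐ[K] B) {ι : Sort*} (U : ι → Subalgebra K A) :
    (⨆ i, U i).map φ = ⨆ i, (U i).map φ :=
  (Subalgebra.gc_map_comap φ).l_iSup

/-- the subalgebra generated by all coordinates. -/
def s17m_T (P : s17m_Pre K F m) : Subalgebra K P.L :=
  ⨆ i, (⊤ : Subalgebra K F).map (P.ι i)

/-- the subfield generated by all coordinates. -/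
def s17m_FF (P : s17m_Pre K F m) : IntermediateField K P.L :=
  IntermediateField.adjoin K (s17m_T P : Set P.L)

theorem s17m_iota_mem (P : s17m_Pre K F m) (i : Fin m) (f : F) : P.ι i f ∈ s17m_FF P := by
  apply IntermediateField.subset_adjoin K _
  exact (le_iSup (fun i => (⊤ : Subalgebra K F).map (P.ι i)) i) ⟨f, Algebra.mem_top, rfl⟩

/-- the coordinates, with values in the generated subfield. -/
def s17m_iota (P : s17m_Pre K F m) (i : Fin m) : F →ₐ[K] ↥(s17m_FF P) where
  toFun f := ⟨P.ι i f, s17m_iota_mem P i f⟩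
  map_one' := Subtype.ext (map_one _)
  map_mul' x y := Subtype.ext (map_mul _ x y)
  map_zero' := Subtype.ext (map_zero _)
  map_add' x y := Subtype.ext (map_add _ x y)
  commutes' a := Subtype.ext ((P.ι i).commutes a)

theorem s17m_val_comp_iota (P : s17m_Pre K F m) (i : Fin m) :
    (s17m_FF P).val.comp (s17m_iota P i) = P.ι i :=
  AlgHom.ext fun _ => rfl

theorem s17m_map_val (P : s17m_Pre K F m) (S : Fin m → Subalgebra K F) :
    (⨆ i, (S i).map (s17m_iota P i)).map (s17m_FF P).val = ⨆ i, (S i).map (P.ι i) := by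
  rw [s17m_map_iSup]
  refine iSup_congr fun i => ?_
  rw [Subalgebra.map_map, s17m_val_comp_iota]

/-- **the model attached to a pre-model.** -/
def s17m_model (P : s17m_Pre K F m) : s17_Model K F m where
  FF := ↥(s17m_FF P)
  ι := s17m_iota P
  spec := fun S R _ _ h => by
    obtain ⟨HL, hHL⟩ := P.spec S R h
    have hmem : ∀ x : ↥(⨆ i, (S i).map (s17m_iota P i)),
        (s17m_FF P).val (x : ↥(s17m_FF P)) ∈ ⨆ i, (S i).map (P.ι i) := by
      intro x
      rw [← s17m_map_val P S]
      exact ⟨(x : ↥(s17m_FF P)), x.2, rfl⟩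
    let ψ : ↥(⨆ i, (S i).map (s17m_iota P i)) →ₐ[K] ↥(⨆ i, (S i).map (P.ι i)) :=
      ((s17m_FF P).val.comp (Subalgebra.val _)).codRestrict _ hmem
    refine ⟨HL.comp ψ, fun i f hf hm => ?_⟩
    have h1 : ψ ⟨s17m_iota P i f, hm⟩ = ⟨P.ι i f, hmem ⟨s17m_iota P i f, hm⟩⟩ := rfl
    show HL (ψ ⟨s17m_iota P i f, hm⟩) = h i ⟨f, hf⟩
    rw [h1]
    exact hHL i f hf _
  gen := fun x => by
    have hT : (⨆ i, (⊤ : Subalgebra K F).map (s17m_iota P i)).map (s17m_FF P).val = s17m_T P :=
      s17m_map_val P fun _ => ⊤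
    have hx : (x : P.L) ∈ IntermediateField.adjoin K (s17m_T P : Set P.L) := x.2
    rw [IntermediateField.mem_adjoin_iff_div, Algebra.adjoin_eq] at hx
    obtain ⟨r, hr, s, hs, hxrs⟩ := hx
    rw [← hT] at hr hs
    obtain ⟨u, hu, rfl⟩ := hr
    obtain ⟨v, hv, rfl⟩ := hs
    by_cases hv0 : v = 0
    · refine ⟨0, 1, Subalgebra.zero_mem _, Subalgebra.one_mem _, one_ne_zero, ?_⟩
      apply Subtype.ext
      rw [mul_one]
      rw [hv0, map_zero, div_zero] at hxrs
      exact hxrs
    · refine ⟨u, v, hu, hv, hv0, ?_⟩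
      apply Subtype.ext
      have hv0' : ((s17m_FF P).val v : P.L) ≠ 0 := fun h => hv0 (Subtype.ext h)
      show (x : P.L) * (v : P.L) = (u : P.L)
      rw [hxrs]
      exact div_mul_cancel₀ _ hv0'

/-- **[MODEL]** models of `K(C^m)` exist. -/
theorem s17m_modelExists : s17_ModelExists := by
  intro K F _ _ _ _ g hC X m
  haveI := hC.inf
  obtain ⟨P₀⟩ : Nonempty (Place K F) := inferInstance
  let e₀ : F →ₐ[K] LaurentSeries K :=
    { X.exp P₀ with
      commutes' := fun a => by
        show X.exp P₀ (algebraMap K F a) = algebraMap K (LaurentSeries K) a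
        rw [s17m_algebraMap_eq' K a]
        exact X.exp_alg P₀ a }
  exact ⟨s17m_model (s17m_pre e₀ m)⟩

end Fermat.Agent.Lib.S17
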