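/-
Programme MW (S17), brick bpf — GENERIC AVOIDANCE from Riemann's theorem only (helper8).

`ℓ(D) = dim L(D)`.  For a function field with Riemann's theorem (`s19_Riemann`), all places of
degree one and infinitely many places:
* `s17p_down` : for all but finitely many places `P`, `ℓ(D - P) = ℓ(D) - 1` (truncated);
* `s17p_up`   : if `D` is special (`ℓ(D) > deg D + 1 - g`) then, off any finite set, there is a place
  `P` with `ℓ(D + P) = ℓ(D)` (else adding `m` fresh places would give `ℓ ≥ ℓ(D) + m`, against
  Riemann's equality in large degree);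
* `s17p_avoid` : for `ξ₁, ξ₂` of degree `g - 1` and a finite set `S₀` of places there is a divisor
  `t` of degree `0`, supported off `S₀`, with `ℓ(ξ₁ + t) = 0 = ℓ(ξ₂ - t)`;
* `s17p_weak_approx` : functions with prescribed orders at finitely many places.
-/
import Fermat.Agent.Lib.S19.NNonSp
import Fermat.Agent.Lib.S44.RRiemFull

set_option autoImplicit false

noncomputable section

namespace Fermat.Agent.Lib.S17

open AlgebraicCurve Fermat.Agent.Lib.FF Fermat.Agent.Lib.S19 Fermat.Agent.Lib.S44

variable {K F : Type*} [Field K] [Field F] [Algebra K F]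

/-- `ℓ(D) = dim L(D)`. -/
abbrev s17p_l (D : Divisor K F) : ℕ := Module.finrank K ↥(riemannRochSpace D)

local notation "ℓ" => s17p_l

theorem s17p_L_le_add (D : Divisor K F) (P : Place K F) :
    riemannRochSpace D ≤ riemannRochSpace (D + Finsupp.single P 1) := by
  classical
  refine s19n_L_mono fun v => ?_
  rw [Finsupp.add_apply, Finsupp.single_apply]
  split_ifs <;> omega

theorem s17p_L_sub_le (D : Divisor K F) (P : Place K F) :
    riemannRochSpace (D - Finsupp.single P 1) ≤ riemannRochSpace D := by
  have := s17p_L_le_add (D - Finsupp.single P 1) P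
  rwa [sub_add_cancel] at this

theorem s17p_finrank_le_of_le {g : ℕ} (hR : s19_Riemann K F g) {D D' : Divisor K F}
    (h : riemannRochSpace D ≤ riemannRochSpace D') : ℓ D ≤ ℓ D' := by
  have := hR.fin D'
  exact Submodule.finrank_mono h

theorem s17p_finrank_lt_of_lt {g : ℕ} (hR : s19_Riemann K F g) {D D' : Divisor K F}
    (h : riemannRochSpace D < riemannRochSpace D') : ℓ D < ℓ D' := by
  have := hR.fin D'
  exact Submodule.finrank_lt_finrank_of_lt h

/-- codimension at most one. -/
theorem s17p_finrank_add_le {g : ℕ} (hR : s19_Riemann K F g)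
    (hfr : ∀ Q : Place K F, Module.Finite K Q.ResidueField) (hdeg : ∀ Q : Place K F, Q.deg = 1)
    (D : Divisor K F) (P : Place K F) : ℓ (D + Finsupp.single P 1) ≤ ℓ D + 1 := by
  have := hfr P
  have := hR.fin (D + Finsupp.single P 1)
  have := s44rm_step_finrank_le D P
  rwa [hdeg P] at this

/-- **going down**: off a finite set of places, `ℓ(D - P) = ℓ(D) - 1`. -/
theorem s17p_down {g : ℕ} (hR : s19_Riemann K F g)
    (hfr : ∀ Q : Place K F, Module.Finite K Q.ResidueField) (hdeg : ∀ Q : Place K F, Q.deg = 1)
    [HasPrincipalDivisors K F] (D : Divisor K F) :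
    ∃ B : Finset (Place K F), ∀ P, P ∉ B → ℓ (D - Finsupp.single P 1) = ℓ D - 1 := by
  classical
  rcases Nat.eq_zero_or_pos (ℓ D) with h0 | hpos
  · refine ⟨∅, fun P _ => ?_⟩
    have := s17p_finrank_le_of_le hR (s17p_L_sub_le D P)
    omega
  · have := hR.fin D
    obtain ⟨⟨f, hfmem⟩, hfne⟩ := Module.finrank_pos_iff_exists_ne_zero.mp hpos
    have hf : f ≠ 0 := fun h => hfne (Subtype.ext h)
    obtain ⟨E, hE, -⟩ := HasPrincipalDivisors.exists_divisor (K := K) f hf
    refine ⟨D.support ∪ E.support, fun P hP => ?_⟩
    rw [Finset.mem_union, not_or, Finsupp.notMem_support_iff, Finsupp.notMem_support_iff] at hP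
    have hord : P.ord f = 0 := by rw [← hE P]; exact hP.2
    have hnot : f ∉ riemannRochSpace (D - Finsupp.single P 1) := by
      intro hmem
      rw [mem_riemannRochSpace_iff] at hmem
      rcases hmem P with h | h
      · exact hf h
      · rw [Finsupp.sub_apply, Finsupp.single_apply, if_pos rfl, hP.1, hord] at h
        omega
    have hlt : riemannRochSpace (D - Finsupp.single P 1) < riemannRochSpace D :=
      lt_of_le_of_ne (s17p_L_sub_le D P) fun heq => hnot (heq ▸ hfmem)
    have h1 := s17p_finrank_lt_of_lt hR hlt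
    have h2 := s17p_finrank_add_le hR hfr hdeg (D - Finsupp.single P 1) P
    rw [sub_add_cancel] at h2
    omega

/-- the chain lemma: fresh places each contributing a new function raise `ℓ` by their number. -/
theorem s17p_chain {g : ℕ} (hR : s19_Riemann K F g) (D : Divisor K F)
    (N : Finset (Place K F))
    (hbig : ∀ P ∈ N, ∃ f ∈ riemannRochSpace (D + Finsupp.single P 1), f ∉ riemannRochSpace D) :
    ∀ N' ⊆ N, ℓ D + N'.card ≤ ℓ (D + s19n_ind N') := by
  classical
  intro N'
  induction N' using Finset.induction_on with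
  | empty =>
    intro _
    rw [s19n_ind_empty, add_zero, Finset.card_empty, add_zero]
  | insert P N'' hPN ih =>
    intro hsub
    have ih' := ih ((Finset.subset_insert P N'').trans hsub)
    obtain ⟨f, hf1, hf2⟩ := hbig P (hsub (Finset.mem_insert_self P N''))
    have hle : riemannRochSpace (D + s19n_ind N'') ≤ riemannRochSpace (D + s19n_ind (insert P N'')) :=
      s19n_L_mono fun v => by
        rw [Finsupp.add_apply, Finsupp.add_apply]
        have := s19n_ind_mono (Finset.subset_insert P N'') v
        omega
    have hfin : f ∈ riemannRochSpace (D + s19n_ind (insert P N'')) := by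
      refine s19n_L_mono (fun v => ?_) hf1
      rw [Finsupp.add_apply, Finsupp.add_apply, Finsupp.single_apply]
      split_ifs with hv
      · subst hv
        rw [s19n_ind_of_mem (Finset.mem_insert_self _ N'')]
      · have := s19n_ind_nonneg (insert P N'') v
        omega
    have hfnot : f ∉ riemannRochSpace (D + s19n_ind N'') := by
      intro hmem
      apply hf2
      rw [mem_riemannRochSpace_iff] at hmem hf1 ⊢
      intro v
      by_cases hv : v = P
      · subst hv
        rcases hmem v with h | h
        · exact Or.inl h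
        · right
          rw [Finsupp.add_apply, s19n_ind_of_not_mem hPN, add_zero] at h
          exact h
      · rcases hf1 v with h | h
        · exact Or.inl h
        · right
          rw [Finsupp.add_apply, Finsupp.single_apply, if_neg (fun h => hv h.symm), add_zero] at h
          exact h
    have hlt := s17p_finrank_lt_of_lt hR (lt_of_le_of_ne hle fun heq => hfnot (heq ▸ hfin))
    rw [Finset.card_insert_of_notMem hPN]
    omega

/-- **going up**: a special divisor has, off any finite set, a place `P` with
`ℓ(D + P) = ℓ(D)`. -/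
theorem s17p_up {g : ℕ} (hR : s19_Riemann K F g) (hdeg : ∀ Q : Place K F, Q.deg = 1)
    [Infinite (Place K F)] (D : Divisor K F)
    (hsp : Divisor.degree D + 1 - g < (ℓ D : ℤ)) (S₀ : Finset (Place K F)) :
    ∃ P, P ∉ S₀ ∧ ℓ (D + Finsupp.single P 1) = ℓ D := by
  classical
  by_contra hcon
  replace hcon : ∀ P, P ∉ S₀ → ℓ (D + Finsupp.single P 1) ≠ ℓ D := fun P h1 h2 => hcon ⟨P, h1, h2⟩
  obtain ⟨c, hc⟩ := hR.large
  have hinf : ((↑S₀ : Set (Place K F))ᶜ).Infinite := S₀.finite_toSet.infinite_compl
  obtain ⟨N, hNsub, hNcard⟩ := hinf.exists_subset_card_eq (c - Divisor.degree D).toNat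
  have hNS : ∀ P ∈ N, P ∉ S₀ := by
    intro P hP
    have := hNsub (Finset.mem_coe.mpr hP)
    rwa [Set.mem_compl_iff, Finset.mem_coe] at this
  have hbig : ∀ P ∈ N, ∃ f ∈ riemannRochSpace (D + Finsupp.single P 1),
      f ∉ riemannRochSpace D := by
    intro P hP
    have hne : riemannRochSpace D ≠ riemannRochSpace (D + Finsupp.single P 1) := by
      intro heq
      apply hcon P (hNS P hP)
      show Module.finrank K ↥(riemannRochSpace (D + Finsupp.single P 1)) = Module.finrank K ↥(riemannRochSpace D)
      rw [← heq]
    obtain ⟨f, hf, hf'⟩ := SetLike.exists_of_lt (lt_of_le_of_ne (s17p_L_le_add D P) hne)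
    exact ⟨f, hf, hf'⟩
  have h1 := s17p_chain hR D N hbig N (Finset.Subset.refl N)
  have hdegDN : Divisor.degree (D + s19n_ind N) = Divisor.degree D + N.card := by
    rw [map_add, s19n_degree_ind hdeg]
  have h2 := hc (D + s19n_ind N) (by rw [hdegDN, hNcard]; omega)
  rw [hdegDN] at h2
  have h3 : ((ℓ D + N.card : ℕ) : ℤ) ≤ (ℓ (D + s19n_ind N) : ℤ) := by exact_mod_cast h1
  rw [h2] at h3
  push_cast at h3
  omega

end Fermat.Agent.Lib.S17
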