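/-
Programme MW (S17), brick (FC) — WEAK APPROXIMATION from Riemann's theorem (helper8):
`s17p_weak_approx` : a function with prescribed orders at finitely many places.
-/
import Fermat.Agent.Lib.S17.PAvoid

set_option autoImplicit false

noncomputable section

namespace Fermat.Agent.Lib.S17

open AlgebraicCurve Fermat.Agent.Lib.FF Fermat.Agent.Lib.S19 Fermat.Agent.Lib.S44

variable {K F : Type*} [Field K] [Field F] [Algebra K F]

local notation "ℓ" => s17p_l

theorem s17p_sum_single_apply [DecidableEq (Place K F)] (S : Finset (Place K F)) (s : Place K F → ℤ)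
    (P : Place K F) :
    (∑ v ∈ S, Finsupp.single v (s v) : Divisor K F) P = if P ∈ S then s P else 0 := by
  rw [Finsupp.finsetSum_apply]
  simp only [Finsupp.single_apply]
  rw [Finset.sum_ite_eq' S P]

/-- **weak approximation**: a function with prescribed orders on a finite set of places. -/
theorem s17p_weak_approx {g : ℕ} (hR : s19_Riemann K F g) (hdeg : ∀ Q : Place K F, Q.deg = 1)
    [Infinite K] [Infinite (Place K F)] (S : Finset (Place K F)) (s : Place K F → ℤ) :
    ∃ f : F, f ≠ 0 ∧ ∀ P ∈ S, P.ord f = s P := by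
  classical
  rcases S.eq_empty_or_nonempty with hS | ⟨P₁, hP₁⟩
  · exact ⟨1, one_ne_zero, fun P hP => by rw [hS] at hP; exact absurd hP (Finset.notMem_empty P)⟩
  obtain ⟨c, hc⟩ := hR.large
  obtain ⟨Q, hQ⟩ := Infinite.exists_notMem_finset S
  set E₀ : Divisor K F := -∑ v ∈ S, Finsupp.single v (s v) with hE₀
  set N : ℕ := (c + 1 - Divisor.degree E₀).toNat with hN
  set E : Divisor K F := E₀ + Finsupp.single Q (N : ℤ) with hE
  have hdegE : Divisor.degree E = Divisor.degree E₀ + N := by
    rw [hE, map_add, Divisor.degree_single, hdeg Q]; simp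
  have hEP : ∀ P ∈ S, E P = -s P := by
    intro P hP
    have hPQ : Q ≠ P := fun h => hQ (h ▸ hP)
    rw [hE, Finsupp.add_apply, hE₀, Finsupp.neg_apply, s17p_sum_single_apply, if_pos hP,
      Finsupp.single_apply, if_neg hPQ, add_zero]
  have hdegS : ∀ P : Place K F, Divisor.degree (Finsupp.single P (1 : ℤ)) = 1 := fun P => by
    rw [Divisor.degree_single, hdeg P]; simp
  have hlE : (ℓ E : ℤ) = Divisor.degree E + 1 - g := hc E (by rw [hdegE]; omega)
  have hlEP : ∀ P : Place K F, (ℓ (E - Finsupp.single P 1) : ℤ) = Divisor.degree E - 1 + 1 - g := by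
    intro P
    have := hc (E - Finsupp.single P 1) (by rw [map_sub, hdegS, hdegE]; omega)
    rw [this, map_sub, hdegS]
  -- the proper subspaces
  let p : ↥S → Submodule K ↥(riemannRochSpace E) := fun P =>
    (riemannRochSpace (E - Finsupp.single (P : Place K F) 1)).comap (riemannRochSpace E).subtype
  have hp : ∀ P, p P ≠ ⊤ := by
    intro P htop
    have hle : riemannRochSpace E ≤ riemannRochSpace (E - Finsupp.single (P : Place K F) 1) := by
      intro f hf
      have : (⟨f, hf⟩ : ↥(riemannRochSpace E)) ∈ p P := by rw [htop]; exact Submodule.mem_top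
      exact this
    have h1 := s17p_finrank_le_of_le hR hle
    have h2 := hlEP (P : Place K F)
    have h3 : ((ℓ E : ℕ) : ℤ) ≤ ((ℓ (E - Finsupp.single (P : Place K F) 1) : ℕ) : ℤ) := by
      exact_mod_cast h1
    omega
  obtain ⟨x, hx⟩ := Submodule.exists_forall_notMem_of_forall_ne_top p hp
  have hx0 : (x : F) ≠ 0 := by
    intro h0
    apply hx ⟨P₁, hP₁⟩
    show (x : F) ∈ riemannRochSpace (E - Finsupp.single P₁ 1)
    rw [h0]
    exact Submodule.zero_mem _
  refine ⟨x, hx0, fun P hP => ?_⟩
  have hmem := x.2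
  rw [mem_riemannRochSpace_iff] at hmem
  have h1 : s P ≤ P.ord (x : F) := by
    rcases hmem P with h | h
    · exact absurd h hx0
    · rw [hEP P hP, neg_neg] at h
      exact h
  by_contra hne
  have h2 : s P + 1 ≤ P.ord (x : F) := by omega
  apply hx ⟨P, hP⟩
  show (x : F) ∈ riemannRochSpace (E - Finsupp.single P 1)
  rw [mem_riemannRochSpace_iff]
  intro v
  right
  by_cases hv : v = P
  · subst hv
    rw [Finsupp.sub_apply, Finsupp.single_apply, if_pos rfl, hEP v hP]
    omega
  · rcases hmem v with h | h
    · exact absurd h hx0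
    · rw [Finsupp.sub_apply, Finsupp.single_apply, if_neg (fun h => hv h.symm), sub_zero]
      exact h

end Fermat.Agent.Lib.S17
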