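/-
Programme MW (S17), brick (FC) — part 4 (helper8): products of transition determinants.
For a finite family of pairs of systems `(D₁ i, b₁ i)`, `(D₂ i, b₂ i)` and local multipliers `g i`
with `∏ g i = 1`, the product `m = ∏ det_{b₁ i}(b₂ i) ∈ 𝕜` is a UNIT at the fibre, and its residue
is the product of the determinants of the reduced transition matrices.  Consequently (`s17p_const`)
an `m ∈ 𝕜` which is such a product at EVERY fibre is a constant.
-/
import Fermat.Agent.Lib.S17.PTrans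

set_option autoImplicit false

noncomputable section

open AlgebraicCurve WithZero Module

namespace Fermat.Agent.Lib.S17

variable {K F : Type*} [Field K] [Field F] [Algebra K F]
variable {𝕜 : IntermediateField K F} {S : Finset (Place K F)} {Z : Divisor K F} {n : ℕ}

/-- the transition holds modulo the fibre with the reduced matrix. -/
theorem s17p_transition_res (h : s17p_Fib 𝕜 S Z n) {D₁ D₂ : Divisor K F} {b₁ b₂ : Fin n → F}
    (hs₁ : s17p_Sys S Z D₁ b₁) {g : F}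
    (hg : ∀ v ∈ S, v.adicValuation g = exp ((D₂ - D₁) v))
    (T : Matrix (Fin n) (Fin n) (s17p_R 𝕜 S))
    (hT : ∀ k, b₂ k = ∑ l, (((T k l : s17p_R 𝕜 S) : 𝕜) : F) * (g * b₁ l)) (k : Fin n) :
    b₂ k - ∑ l, (s17p_rho h (T k l)) • (g * b₁ l) ∈ s17p_loc S (D₂ - Z) := by
  have hs' := hs₁.mul h hg
  have e : b₂ k - ∑ l, (s17p_rho h (T k l)) • (g * b₁ l)
      = ∑ l, ((((T k l : s17p_R 𝕜 S) : 𝕜) : F) - algebraMap K F (s17p_rho h (T k l)))
          * (g * b₁ l) := by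
    rw [hT k, ← Finset.sum_sub_distrib]
    refine Finset.sum_congr rfl fun l _ => ?_
    rw [Algebra.smul_def]
    ring
  rw [e]
  refine (s17p_loc S (D₂ - Z)).sum_mem fun l _ => ?_
  have := s17p_loc_mul (s17p_rho_spec h (T k l)) (hs'.mem l)
  rwa [neg_add_eq_sub] at this

/-- **the product lemma**. -/
theorem s17p_prod (h : s17p_Fib 𝕜 S Z n) {ι : Type*} [Fintype ι]
    (D₁ D₂ : ι → Divisor K F) (b₁ b₂ : ι → Fin n → F)
    (hs₁ : ∀ i, s17p_Sys S Z (D₁ i) (b₁ i)) (hs₂ : ∀ i, s17p_Sys S Z (D₂ i) (b₂ i))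
    (g : ι → F) (hg : ∀ i, ∀ v ∈ S, v.adicValuation (g i) = exp ((D₂ i - D₁ i) v))
    (hprod : ∏ i, g i = 1) :
    ∃ (u : (s17p_R 𝕜 S)ˣ) (Tb : ι → Matrix (Fin n) (Fin n) K),
      (((u : s17p_R 𝕜 S) : 𝕜)) = ∏ i, (s17p_basis h (hs₁ i)).det (b₂ i) ∧
      (∀ i k, b₂ i k - ∑ l, Tb i k l • (g i * b₁ i l) ∈ s17p_loc S (D₂ i - Z)) ∧
      s17p_rho h u = ∏ i, (Tb i).det := by
  classical
  have := h.finiteDimensional
  choose T hT1 hT2 hT3 using fun i => s17p_transition h (hs₁ i) (hs₂ i) (hg i)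
  refine ⟨∏ i, (hT2 i).unit, fun i => (T i).map (s17p_rho h), ?_, ?_, ?_⟩
  · have e1 : (((∏ i, (hT2 i).unit : (s17p_R 𝕜 S)ˣ) : s17p_R 𝕜 S) : 𝕜)
        = ∏ i, (((T i).det : s17p_R 𝕜 S) : 𝕜) := by
      rw [Units.coe_prod]
      simp only [IsUnit.unit_spec]
      exact map_prod (s17p_R 𝕜 S).subtype _ _
    rw [e1]
    simp_rw [hT3]
    rw [Finset.prod_mul_distrib, ← map_prod, hprod, map_one, one_mul]
  · intro i k
    have := s17p_transition_res h (hs₁ i) (hg i) (T i) (hT1 i) k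
    simpa [Matrix.map_apply] using this
  · rw [Units.coe_prod, map_prod]
    refine Finset.prod_congr rfl fun i _ => ?_
    rw [IsUnit.unit_spec, RingHom.map_det]
    rfl

/-- determinants of coordinate functionals transform with the reduced transition matrix. -/
theorem s17p_det_congr (h : s17p_Fib 𝕜 S Z n) {D : Divisor K F}
    (c : s17p_loc S D →ₗ[K] (Fin n → K))
    (hc : ∀ f : s17p_loc S D, (f : F) ∈ s17p_loc S (D - Z) → c f = 0)
    (b₂ b' : Fin n → F) (hb₂ : ∀ k, b₂ k ∈ s17p_loc S D) (hb' : ∀ k, b' k ∈ s17p_loc S D)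
    (Tb : Matrix (Fin n) (Fin n) K)
    (hT : ∀ k, b₂ k - ∑ l, Tb k l • b' l ∈ s17p_loc S (D - Z)) :
    Matrix.det (Matrix.of fun k => c ⟨b₂ k, hb₂ k⟩)
      = Tb.det * Matrix.det (Matrix.of fun l => c ⟨b' l, hb' l⟩) := by
  rw [← Matrix.det_mul]
  congr 1
  ext k j
  rw [Matrix.of_apply]
  have h1 : (⟨b₂ k, hb₂ k⟩ : s17p_loc S D)
      = ⟨b₂ k - ∑ l, Tb k l • b' l, s17p_loc_neg_le h D (hT k)⟩
        + ∑ l, Tb k l • (⟨b' l, hb' l⟩ : s17p_loc S D) := by
    apply Subtype.ext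
    simp
  rw [h1, map_add, hc _ (hT k), zero_add, map_sum]
  simp only [map_smul, Finset.sum_apply, Pi.smul_apply, smul_eq_mul, Matrix.mul_apply,
    Matrix.of_apply]

end Fermat.Agent.Lib.S17
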