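/-
Programme MW (S17), brick (FC) — part 6 (helper8): JETS.  The rows of the confluent matrix
`s17_conf X D A φ` are the values of the `K`-linear jet map `s17p_jet X A D : F → K^m`,
`f ↦ (coefficient of t^(-D(A i) + rank i) of f at A i)_i`.  On the semilocal lattice
`loc S D` (`S` = the places of `A`) its kernel is exactly `loc S (D - div A)`.
-/
import Fermat.Agent.Lib.S17.Iface
import Fermat.Agent.Lib.S17.PProd

set_option autoImplicit false

noncomputable section

open AlgebraicCurve WithZero Classical

namespace Fermat.Agent.Lib.S17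

variable {K F : Type} [Field K] [Field F] [Algebra K F]

/-! ### multiplicities and ranks -/

theorem s17p_div_apply {m : ℕ} (A : Fin m → Place K F) (P : Place K F) :
    s17_div A P = ((Finset.univ.filter fun i : Fin m => A i = P).card : ℤ) := by
  unfold s17_div
  rw [Finsupp.finsetSum_apply]
  simp only [Finsupp.single_apply]
  rw [Finset.sum_ite, Finset.sum_const_zero, add_zero, Finset.sum_const, nsmul_eq_mul, mul_one]

/-- the places of a tuple. -/
def s17p_supp {m : ℕ} (A : Fin m → Place K F) : Finset (Place K F) :=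
  Finset.univ.image A

theorem s17p_mem_supp {m : ℕ} (A : Fin m → Place K F) (i : Fin m) : A i ∈ s17p_supp A := by
  unfold s17p_supp
  exact Finset.mem_image_of_mem A (Finset.mem_univ i)

theorem s17p_mem_supp_iff {m : ℕ} (A : Fin m → Place K F) (P : Place K F) :
    P ∈ s17p_supp A ↔ ∃ i, A i = P := by
  unfold s17p_supp
  simp

theorem s17p_div_pos {m : ℕ} (A : Fin m → Place K F) {P : Place K F} (hP : P ∈ s17p_supp A) :
    0 < s17_div A P := by
  obtain ⟨i, hi⟩ := (s17p_mem_supp_iff A P).mp hP
  rw [s17p_div_apply]
  have : 0 < (Finset.univ.filter fun i : Fin m => A i = P).card :=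
    Finset.card_pos.mpr ⟨i, by simp [hi]⟩
  exact_mod_cast this

theorem s17p_div_eq_zero {m : ℕ} (A : Fin m → Place K F) {P : Place K F} (hP : P ∉ s17p_supp A) :
    s17_div A P = 0 := by
  rw [s17p_div_apply]
  have : (Finset.univ.filter fun i : Fin m => A i = P) = ∅ := by
    rw [Finset.filter_eq_empty_iff]
    intro i _ hi
    exact hP ((s17p_mem_supp_iff A P).mpr ⟨i, hi⟩)
  rw [this, Finset.card_empty, Nat.cast_zero]

theorem s17p_rank_lt {m : ℕ} (A : Fin m → Place K F) (i : Fin m) :
    (s17_rank A i : ℤ) < s17_div A (A i) := by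
  rw [s17p_div_apply]
  have hss : (Finset.univ.filter fun i' : Fin m => i' < i ∧ A i' = A i)
      ⊂ (Finset.univ.filter fun i' : Fin m => A i' = A i) := by
    rw [Finset.ssubset_iff_of_subset]
    · refine ⟨i, by simp, ?_⟩
      simp
    · intro j hj
      simp only [Finset.mem_filter, Finset.mem_univ, true_and] at hj ⊢
      exact hj.2
  have := Finset.card_lt_card hss
  unfold s17_rank
  exact_mod_cast this

/-- among the occurrences of one place the rank is strictly increasing. -/
theorem s17p_rank_lt_rank {m : ℕ} (A : Fin m → Place K F) {i i' : Fin m} (h : A i' = A i)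
    (hlt : i' < i) : s17_rank A i' < s17_rank A i := by
  unfold s17_rank
  apply Finset.card_lt_card
  rw [Finset.ssubset_iff_of_subset]
  · refine ⟨i', by simp [hlt, h], ?_⟩
    simp
  · intro j hj
    simp only [Finset.mem_filter, Finset.mem_univ, true_and] at hj ⊢
    exact ⟨hj.1.trans hlt, hj.2.trans h⟩

theorem s17p_rank_le_rank {m : ℕ} (A : Fin m → Place K F) {i i' : Fin m} (h : A i' = A i)
    (hle : i' ≤ i) : s17_rank A i' ≤ s17_rank A i := by
  rcases eq_or_lt_of_le hle with rfl | hlt
  · exact le_rfl
  · exact (s17p_rank_lt_rank A h hlt).le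

/-- the ranks of the occurrences of `A i` up to `i` are exactly `0, …, rank i`. -/
theorem s17p_image_rank {m : ℕ} (A : Fin m → Place K F) (i : Fin m) :
    (Finset.univ.filter fun i' : Fin m => A i' = A i ∧ i' ≤ i).image (s17_rank A)
      = Finset.range (s17_rank A i + 1) := by
  have hinj : Set.InjOn (s17_rank A)
      (Finset.univ.filter fun i' : Fin m => A i' = A i ∧ i' ≤ i : Finset (Fin m)) := by
    intro a ha b hb hab
    simp only [Finset.coe_filter, Finset.mem_univ, true_and, Set.mem_ofPred_eq] at ha hb
    by_contra hne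
    rcases lt_or_gt_of_ne hne with h | h
    · exact absurd hab (ne_of_lt (s17p_rank_lt_rank A (ha.1.trans hb.1.symm) h))
    · exact absurd hab.symm (ne_of_lt (s17p_rank_lt_rank A (hb.1.trans ha.1.symm) h))
  apply Finset.eq_of_subset_of_card_le
  · intro r hr
    rw [Finset.mem_image] at hr
    obtain ⟨i', hi', rfl⟩ := hr
    simp only [Finset.mem_filter, Finset.mem_univ, true_and] at hi'
    rw [Finset.mem_range]
    exact Nat.lt_succ_of_le (s17p_rank_le_rank A hi'.1 hi'.2)
  · rw [Finset.card_image_of_injOn hinj, Finset.card_range]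
    have e : (Finset.univ.filter fun i' : Fin m => A i' = A i ∧ i' ≤ i)
        = insert i (Finset.univ.filter fun i' : Fin m => i' < i ∧ A i' = A i) := by
      ext j
      simp only [Finset.mem_filter, Finset.mem_univ, true_and, Finset.mem_insert]
      constructor
      · rintro ⟨h1, h2⟩
        rcases eq_or_lt_of_le h2 with h | h
        · exact Or.inl h
        · exact Or.inr ⟨h, h1⟩
      · rintro (rfl | ⟨h1, h2⟩)
        · exact ⟨rfl, le_rfl⟩
        · exact ⟨h2, h1.le⟩
    rw [e, Finset.card_insert_of_notMem (by simp)]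
    unfold s17_rank
    exact le_rfl

/-- reindexing a sum over the occurrences of `A i` up to `i` by the rank. -/
theorem s17p_sum_rank {m : ℕ} (A : Fin m → Place K F) (i : Fin m) (φ : ℕ → K) :
    ∑ i' ∈ Finset.univ.filter (fun i' : Fin m => A i' = A i ∧ i' ≤ i), φ (s17_rank A i')
      = ∑ r ∈ Finset.range (s17_rank A i + 1), φ r := by
  rw [← s17p_image_rank A i, Finset.sum_image]
  intro a ha b hb hab
  simp only [Finset.coe_filter, Finset.mem_univ, true_and, Set.mem_ofPred_eq]
    at ha hb
  by_contra hne
  rcases lt_or_gt_of_ne hne with h | h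
  · exact absurd hab (ne_of_lt (s17p_rank_lt_rank A (ha.1.trans hb.1.symm) h))
  · exact absurd hab.symm (ne_of_lt (s17p_rank_lt_rank A (hb.1.trans ha.1.symm) h))

/-- every rank below the multiplicity occurs. -/
theorem s17p_exists_rank {m : ℕ} (A : Fin m → Place K F) {P : Place K F} {r : ℕ}
    (hr : (r : ℤ) < s17_div A P) : ∃ i, A i = P ∧ s17_rank A i = r := by
  -- the last occurrence
  have hne : (Finset.univ.filter fun i : Fin m => A i = P).Nonempty := by
    rw [← Finset.card_pos]
    rw [s17p_div_apply] at hr
    have : (0 : ℤ) ≤ r := Int.natCast_nonneg r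
    exact_mod_cast lt_of_le_of_lt this hr
  set i₀ := (Finset.univ.filter fun i : Fin m => A i = P).max' hne with hi₀
  have hi₀P : A i₀ = P := by
    have := Finset.max'_mem _ hne
    simp only [Finset.mem_filter, Finset.mem_univ, true_and] at this
    exact this
  have hall : (Finset.univ.filter fun i' : Fin m => A i' = A i₀ ∧ i' ≤ i₀)
      = (Finset.univ.filter fun i : Fin m => A i = P) := by
    ext j
    simp only [Finset.mem_filter, Finset.mem_univ, true_and]
    constructor
    · rintro ⟨h, -⟩
      exact h.trans hi₀P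
    · intro h
      exact ⟨h.trans hi₀P.symm, Finset.le_max' _ j (by simp [h])⟩
  have hinj : Set.InjOn (s17_rank A)
      (↑(Finset.univ.filter fun i' : Fin m => A i' = A i₀ ∧ i' ≤ i₀) : Set (Fin m)) := by
    intro a ha b hb hab
    simp only [Finset.coe_filter, Finset.mem_univ, true_and, Set.mem_ofPred_eq] at ha hb
    by_contra hne'
    rcases lt_or_gt_of_ne hne' with h | h
    · exact absurd hab (ne_of_lt (s17p_rank_lt_rank A (ha.1.trans hb.1.symm) h))
    · exact absurd hab.symm (ne_of_lt (s17p_rank_lt_rank A (hb.1.trans ha.1.symm) h))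
  have hcard : s17_rank A i₀ + 1 = (Finset.univ.filter fun i : Fin m => A i = P).card := by
    have h1 := congrArg Finset.card (s17p_image_rank A i₀)
    rw [Finset.card_range, Finset.card_image_of_injOn hinj, hall] at h1
    exact h1.symm
  have hr' : r ∈ Finset.range (s17_rank A i₀ + 1) := by
    rw [Finset.mem_range, hcard]
    rw [s17p_div_apply] at hr
    exact_mod_cast hr
  rw [← s17p_image_rank A i₀, Finset.mem_image] at hr'
  obtain ⟨i, hi, rfl⟩ := hr'
  simp only [Finset.mem_filter, Finset.mem_univ, true_and] at hi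
  exact ⟨i, hi.1.trans hi₀P, rfl⟩

end Fermat.Agent.Lib.S17
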