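/-
Programme MW (S17), brick (FC) — part 7 (helper8): the JET MAP and its kernel.
-/
import Fermat.Agent.Lib.S17.PJet

set_option autoImplicit false

noncomputable section

open AlgebraicCurve WithZero Classical

namespace Fermat.Agent.Lib.S17

variable {K F : Type} [Field K] [Field F] [Algebra K F]

/-- the jet map of a tuple: `f ↦ (coeff of t^(-D(A i) + rank i) of f at A i)_i`. -/
def s17p_jet (X : s17_Charts K F) {m : ℕ} (A : Fin m → Place K F) (D : Divisor K F) :
    F →ₗ[K] (Fin m → K) where
  toFun f i := (X.exp (A i) f).coeff (-(D (A i)) + (s17_rank A i : ℤ))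
  map_add' f g := by
    funext i
    simp only [map_add, HahnSeries.coeff_add, Pi.add_apply]
  map_smul' c f := by
    funext i
    simp only [Algebra.smul_def, map_mul, X.exp_alg, HahnSeries.C_mul_eq_smul,
      HahnSeries.coeff_smul, RingHom.id_apply, Pi.smul_apply]

theorem s17p_jet_apply (X : s17_Charts K F) {m : ℕ} (A : Fin m → Place K F) (D : Divisor K F)
    (f : F) (i : Fin m) :
    s17p_jet X A D f i = (X.exp (A i) f).coeff (-(D (A i)) + (s17_rank A i : ℤ)) := rfl

/-- the confluent determinant in terms of jets. -/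
theorem s17p_cdet_eq (X : s17_Charts K F) {m : ℕ} (A : Fin m → Place K F) (D : Divisor K F)
    (φ : Fin m → F) :
    s17_cdet X D A φ = Matrix.det (Matrix.of fun k => s17p_jet X A D (φ k)) := by
  unfold s17_cdet
  rw [← Matrix.det_transpose]
  rfl

/-- coefficients of an expansion below the order bound given by the lattice vanish. -/
theorem s17p_coeff_eq_zero (X : s17_Charts K F) (P : Place K F) {f : F} {n : ℤ}
    (hf : P.adicValuation f ≤ exp n) {k : ℤ} (hk : k < -n) : (X.exp P f).coeff k = 0 := by
  rcases eq_or_ne f 0 with rfl | hf0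
  · simp
  · rw [P.adicValuation_le_exp_iff] at hf
    rcases hf with h | h
    · exact absurd h hf0
    · apply HahnSeries.coeff_eq_zero_of_lt_order
      rw [X.exp_ord P f hf0]
      omega

/-- (J1) the jet map kills `loc S (D - div A)`. -/
theorem s17p_jet_eq_zero (X : s17_Charts K F) {m : ℕ} (A : Fin m → Place K F) (D : Divisor K F)
    {f : F} (hf : f ∈ s17p_loc (s17p_supp A) (D - s17_div A)) : s17p_jet X A D f = 0 := by
  funext i
  rw [s17p_jet_apply, Pi.zero_apply]
  apply s17p_coeff_eq_zero X (A i) (hf (A i) (s17p_mem_supp A i))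
  have := s17p_rank_lt A i
  rw [Finsupp.sub_apply]
  omega

/-- (J1') conversely, an element of `loc S D` with vanishing jet lies in `loc S (D - div A)`. -/
theorem s17p_mem_of_jet_eq_zero (X : s17_Charts K F) {m : ℕ} (A : Fin m → Place K F)
    (D : Divisor K F) {f : F} (hf : f ∈ s17p_loc (s17p_supp A) D) (hj : s17p_jet X A D f = 0) :
    f ∈ s17p_loc (s17p_supp A) (D - s17_div A) := by
  intro P hP
  rw [P.adicValuation_le_exp_iff]
  rcases eq_or_ne f 0 with rfl | hf0
  · exact Or.inl rfl
  right
  have h1 := hf P hP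
  rw [P.adicValuation_le_exp_iff] at h1
  have h1' : -(D P) ≤ P.ord f := h1.resolve_left hf0
  by_contra hcon
  push Not at hcon
  rw [Finsupp.sub_apply] at hcon
  -- the order is `-D P + r` with `r <` the multiplicity
  set r : ℕ := (P.ord f + D P).toNat with hr
  have hrr : (r : ℤ) = P.ord f + D P := by rw [hr, Int.toNat_of_nonneg]; omega
  obtain ⟨i, hiP, hir⟩ := s17p_exists_rank A (P := P) (r := r) (by omega)
  have h2 := congrFun hj i
  rw [s17p_jet_apply, Pi.zero_apply, hiP, hir, hrr] at h2
  have h3 : -(D P) + (P.ord f + D P) = (X.exp P f).order := by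
    rw [X.exp_ord P f hf0]; ring
  rw [h3] at h2
  have h4 : X.exp P f ≠ 0 := by
    intro h0
    have := (map_eq_zero_iff (X.exp P) (X.exp P).injective).mp h0
    exact hf0 this
  exact h4 (HahnSeries.coeff_order_eq_zero.mp h2)

end Fermat.Agent.Lib.S17
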