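/-
Programme MW (S17), brick (FC) — part 8 (helper8): jets of `g · f` for a local multiplier `g`.
`jet_{D+E}(g f) = Γ_g · jet_D(f)` with `Γ_g` lower triangular for the order of `Fin m`, with
diagonal entries the leading coefficients of `g` at the places of the tuple.
-/
import Fermat.Agent.Lib.S17.PJet2

set_option autoImplicit false

noncomputable section

open AlgebraicCurve WithZero Classical

namespace Fermat.Agent.Lib.S17

variable {K F : Type} [Field K] [Field F] [Algebra K F]

/-- the coefficient of a product of two Laurent series with supports bounded below. -/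
theorem s17p_coeff_mul_shift (x y : LaurentSeries K) (a b : ℤ)
    (hx : ∀ n < a, x.coeff n = 0) (hy : ∀ n < b, y.coeff n = 0) (r : ℕ) :
    (x * y).coeff (a + b + r)
      = ∑ i ∈ Finset.range (r + 1), x.coeff (a + ((r - i : ℕ) : ℤ)) * y.coeff (b + (i : ℤ)) := by
  rw [HahnSeries.coeff_mul]
  set T : Finset (ℤ × ℤ) :=
    (Finset.range (r + 1)).image (fun i : ℕ => (a + ((r - i : ℕ) : ℤ), b + (i : ℤ))) with hT
  have hsub : Finset.antidiagonal x.isPWO_support y.isPWO_support (a + b + r) ⊆ T := by
    rintro ⟨p, q⟩ hpq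
    rw [Finset.mem_antidiagonal] at hpq
    obtain ⟨hp, hq, hs⟩ := hpq
    simp only at hp hq hs
    have hp' : a ≤ p := by
      by_contra h
      push Not at h
      exact hp (hx p h)
    have hq' : b ≤ q := by
      by_contra h
      push Not at h
      exact hq (hy q h)
    rw [hT, Finset.mem_image]
    refine ⟨(q - b).toNat, ?_, ?_⟩
    · rw [Finset.mem_range]; omega
    · have h1 : (((q - b).toNat : ℕ) : ℤ) = q - b := Int.toNat_of_nonneg (by omega)
      have h2 : ((r - (q - b).toNat : ℕ) : ℤ) = r - (q - b) := by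
        rw [Nat.cast_sub (by omega), h1]
      ext
      · simp only; rw [h2]; omega
      · simp only; rw [h1]; omega
  rw [Finset.sum_subset hsub, hT, Finset.sum_image]
  · intro i _ j _ hij
    simp only [Prod.mk.injEq] at hij
    omega
  · rintro ⟨p, q⟩ hpq hnot
    rw [hT, Finset.mem_image] at hpq
    obtain ⟨i, hi, hpq⟩ := hpq
    rw [Finset.mem_range] at hi
    simp only [Prod.mk.injEq] at hpq
    rw [Finset.mem_antidiagonal] at hnot
    simp only at hnot
    by_cases hp : x.coeff p = 0
    · rw [hp, zero_mul]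
    by_cases hq : y.coeff q = 0
    · rw [hq, mul_zero]
    exfalso
    apply hnot
    refine ⟨hp, hq, ?_⟩
    have : ((r - i : ℕ) : ℤ) = r - i := Nat.cast_sub (by omega)
    omega

/-- the multiplier matrix of `g` (with `ord g = -E` on the places of `A`). -/
def s17p_Gam (X : s17_Charts K F) {m : ℕ} (A : Fin m → Place K F) (E : Divisor K F) (g : F) :
    Matrix (Fin m) (Fin m) K := fun i i' =>
  if A i' = A i ∧ i' ≤ i then
    (X.exp (A i) g).coeff (-(E (A i)) + ((s17_rank A i - s17_rank A i' : ℕ) : ℤ))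
  else 0

/-- (J3) jets of `g · f`. -/
theorem s17p_jet_mul (X : s17_Charts K F) {m : ℕ} (A : Fin m → Place K F) (D E : Divisor K F)
    {g : F} (hg : ∀ v ∈ s17p_supp A, v.adicValuation g = exp (E v)) {f : F}
    (hf : f ∈ s17p_loc (s17p_supp A) D) :
    s17p_jet X A (D + E) (g * f) = (s17p_Gam X A E g).mulVec (s17p_jet X A D f) := by
  funext i
  rw [s17p_jet_apply, map_mul, Matrix.mulVec, dotProduct]
  have hi := s17p_mem_supp A i
  have h1 := s17p_coeff_mul_shift (X.exp (A i) g) (X.exp (A i) f) (-(E (A i))) (-(D (A i)))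
    (fun n hn => s17p_coeff_eq_zero X (A i) (hg (A i) hi).le hn)
    (fun n hn => s17p_coeff_eq_zero X (A i) (hf (A i) hi) hn) (s17_rank A i)
  have e : -((D + E) (A i)) + (s17_rank A i : ℤ)
      = -(E (A i)) + -(D (A i)) + (s17_rank A i : ℤ) := by
    rw [Finsupp.add_apply]; ring
  rw [e, h1]
  -- reindex by the rank
  have h2 := s17p_sum_rank A i (fun r => (X.exp (A i) g).coeff
    (-(E (A i)) + ((s17_rank A i - r : ℕ) : ℤ)) * (X.exp (A i) f).coeff (-(D (A i)) + (r : ℤ)))
  rw [← h2, Finset.sum_filter]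
  refine Finset.sum_congr rfl fun i' _ => ?_
  unfold s17p_Gam
  by_cases hc : A i' = A i ∧ i' ≤ i
  · rw [if_pos hc, if_pos hc, s17p_jet_apply, hc.1]
  · rw [if_neg hc, if_neg hc, zero_mul]

theorem s17p_Gam_lower (X : s17_Charts K F) {m : ℕ} (A : Fin m → Place K F) (E : Divisor K F)
    (g : F) : (s17p_Gam X A E g).BlockTriangular ⇑OrderDual.toDual := by
  intro i j hij
  have hlt : i < j := hij
  unfold s17p_Gam
  rw [if_neg]
  rintro ⟨-, hle⟩
  exact absurd hlt (not_lt.mpr hle)

theorem s17p_det_Gam (X : s17_Charts K F) {m : ℕ} (A : Fin m → Place K F) (E : Divisor K F)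
    (g : F) : (s17p_Gam X A E g).det = ∏ i, (X.exp (A i) g).coeff (-(E (A i))) := by
  rw [Matrix.det_of_lowerTriangular _ (s17p_Gam_lower X A E g)]
  refine Finset.prod_congr rfl fun i _ => ?_
  unfold s17p_Gam
  rw [if_pos ⟨rfl, le_rfl⟩, Nat.sub_self, Nat.cast_zero, add_zero]

/-- (J3') determinants of jets of `g · b`. -/
theorem s17p_det_jet_mul (X : s17_Charts K F) {m : ℕ} (A : Fin m → Place K F) (D E : Divisor K F)
    {g : F} (hg : ∀ v ∈ s17p_supp A, v.adicValuation g = exp (E v)) (b : Fin m → F)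
    (hb : ∀ k, b k ∈ s17p_loc (s17p_supp A) D) :
    Matrix.det (Matrix.of fun k => s17p_jet X A (D + E) (g * b k))
      = (∏ i, (X.exp (A i) g).coeff (-(E (A i))))
        * Matrix.det (Matrix.of fun k => s17p_jet X A D (b k)) := by
  have e : (Matrix.of fun k => s17p_jet X A (D + E) (g * b k))
      = (Matrix.of fun k => s17p_jet X A D (b k)) * (s17p_Gam X A E g).transpose := by
    ext k i
    rw [Matrix.of_apply, s17p_jet_mul X A D E hg (hb k), Matrix.mul_apply, Matrix.mulVec,
      dotProduct]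
    refine Finset.sum_congr rfl fun i' _ => ?_
    rw [Matrix.transpose_apply, Matrix.of_apply, mul_comm]
  rw [e, Matrix.det_mul, Matrix.det_transpose, s17p_det_Gam, mul_comm]

/-- the leading coefficient at a place: the coefficient at the order. -/
theorem s17p_lc_mul (X : s17_Charts K F) (P : Place K F) {g₁ g₂ : F} {e₁ e₂ : ℤ}
    (h₁ : P.adicValuation g₁ = exp e₁) (h₂ : P.adicValuation g₂ = exp e₂) :
    (X.exp P (g₁ * g₂)).coeff (-(e₁ + e₂))
      = (X.exp P g₁).coeff (-e₁) * (X.exp P g₂).coeff (-e₂) := by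
  have hne : ∀ {g : F} {e : ℤ}, P.adicValuation g = exp e → g ≠ 0 := by
    rintro g e h rfl
    rw [map_zero] at h
    exact WithZero.exp_ne_zero h.symm
  have hord : ∀ {g : F} {e : ℤ}, P.adicValuation g = exp e → (X.exp P g).order = -e := by
    intro g e h
    rw [X.exp_ord P g (hne h)]
    have := P.adicValuation_eq_exp_neg_ord (hne h)
    rw [h, exp_inj] at this
    omega
  have h3 := HahnSeries.coeff_mul_order_add_order (X.exp P g₁) (X.exp P g₂)
  rw [HahnSeries.leadingCoeff_eq, HahnSeries.leadingCoeff_eq, hord h₁, hord h₂] at h3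
  rw [map_mul, neg_add]
  exact h3

end Fermat.Agent.Lib.S17
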