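/-
Programme MW (S17), brick (FC) — part 9 (helper8): the WRONSKIAN CRITERION [WR] `s17_WR`.
For `φ` a basis of `L(D)`, `ℓ(D) = m`: the confluent determinant at the tuple `A` is non-zero
iff `L(D - div A) = 0`.  (Rows of the confluent matrix = jets; the jet map on the semilocal
lattice `loc (supp A) D` has kernel `loc (supp A) (D - div A)`.)
-/
import Fermat.Agent.Lib.S17.PJet3

set_option autoImplicit false

noncomputable section

open AlgebraicCurve WithZero Classical

namespace Fermat.Agent.Lib.S17

variable {K F : Type} [Field K] [Field F] [Algebra K F]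

/-- `L(D) ∩ loc (supp A) (D - div A) = L(D - div A)`. -/
theorem s17p_mem_L_sub {m : ℕ} (A : Fin m → Place K F) (D : Divisor K F) {f : F}
    (hf : f ∈ riemannRochSpace D) (hl : f ∈ s17p_loc (s17p_supp A) (D - s17_div A)) :
    f ∈ riemannRochSpace (D - s17_div A) := by
  intro v
  by_cases hv : v ∈ s17p_supp A
  · exact hl v hv
  · rw [Finsupp.sub_apply, s17p_div_eq_zero A hv, sub_zero]
    exact hf v

theorem s17p_L_sub_div_le {m : ℕ} (A : Fin m → Place K F) (D : Divisor K F) :
    riemannRochSpace (D - s17_div A) ≤ riemannRochSpace D := by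
  intro f hf v
  refine (hf v).trans (exp_le_exp.mpr ?_)
  rw [Finsupp.sub_apply]
  by_cases hv : v ∈ s17p_supp A
  · have := s17p_div_pos A hv
    omega
  · rw [s17p_div_eq_zero A hv, sub_zero]

/-- a `K`-independent family in `L(D)` is a system at the fibre `div A` as soon as
`L(D - div A) = 0`. -/
theorem s17p_sys_of_bot {m n : ℕ} (A : Fin m → Place K F) (D : Divisor K F) (φ : Fin n → F)
    (hφ : ∀ k, φ k ∈ riemannRochSpace D) (hli : LinearIndependent K φ)
    (hbot : riemannRochSpace (D - s17_div A) = ⊥) :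
    s17p_Sys (s17p_supp A) (s17_div A) D φ := by
  refine ⟨fun i => s17p_rr_le_loc _ D (hφ i), fun c hc => ?_⟩
  have h1 : (∑ i, c i • φ i) ∈ riemannRochSpace D :=
    (riemannRochSpace D).sum_mem fun i _ => (riemannRochSpace D).smul_mem _ (hφ i)
  have h2 := s17p_mem_L_sub A D h1 hc
  rw [hbot, Submodule.mem_bot] at h2
  funext i
  exact (Fintype.linearIndependent_iff.mp hli) c h2 i

/-- the jets of a system (with `n = m`) are independent: the confluent determinant is
non-zero. -/
theorem s17p_det_jet_ne_zero (X : s17_Charts K F) {m : ℕ} (A : Fin m → Place K F)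
    (D : Divisor K F) (φ : Fin m → F) (hs : s17p_Sys (s17p_supp A) (s17_div A) D φ) :
    Matrix.det (Matrix.of fun k => s17p_jet X A D (φ k)) ≠ 0 := by
  have hli : LinearIndependent K (Matrix.of fun k => s17p_jet X A D (φ k)).row := by
    rw [Fintype.linearIndependent_iff]
    intro c hc
    have h1 : s17p_jet X A D (∑ k, c k • φ k) = 0 := by
      rw [map_sum]
      rw [← hc]
      refine Finset.sum_congr rfl fun k _ => ?_
      rw [map_smul]
      rfl
    have h2 := s17p_mem_of_jet_eq_zero X A D
      ((s17p_loc (s17p_supp A) D).sum_mem fun k _ =>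
        (s17p_loc (s17p_supp A) D).smul_mem (c k) (hs.mem k)) h1
    have := hs.ind c h2
    intro i
    rw [this]
    rfl
  have := Matrix.linearIndependent_rows_iff_isUnit.mp hli
  exact ((Matrix.isUnit_iff_isUnit_det _).mp this).ne_zero

/-- if `L(D - div A) ≠ 0` then the confluent determinant of any family spanning `L(D)`
vanishes. -/
theorem s17p_det_jet_eq_zero (X : s17_Charts K F) {m : ℕ} (A : Fin m → Place K F)
    (D : Divisor K F) (φ : Fin m → F)
    (hspan : ∀ f ∈ riemannRochSpace D, ∃ c : Fin m → K, ∑ k, c k • φ k = f)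
    (hne : riemannRochSpace (D - s17_div A) ≠ ⊥) :
    Matrix.det (Matrix.of fun k => s17p_jet X A D (φ k)) = 0 := by
  by_contra hdet
  obtain ⟨f, hf, hf0⟩ := Submodule.exists_mem_ne_zero_of_ne_bot hne
  obtain ⟨c, hc⟩ := hspan f (s17p_L_sub_div_le A D hf)
  have hli := Matrix.linearIndependent_rows_of_det_ne_zero hdet
  rw [Fintype.linearIndependent_iff] at hli
  have hj : s17p_jet X A D f = 0 :=
    s17p_jet_eq_zero X A D (s17p_rr_le_loc _ _ hf)
  have h1 : ∑ k, c k • (Matrix.of fun k => s17p_jet X A D (φ k)).row k = 0 := by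
    rw [← hj, ← hc, map_sum]
    refine Finset.sum_congr rfl fun k _ => ?_
    rw [map_smul]
    rfl
  have h2 := hli c h1
  apply hf0
  rw [← hc]
  exact Finset.sum_eq_zero fun k _ => by rw [h2 k, zero_smul]

/-- an independent family of `ℓ(D)` elements of `L(D)` spans it. -/
theorem s17p_span_of_li {m : ℕ} (D : Divisor K F) (φ : Fin m → F)
    (hfin : Module.Finite K ↥(riemannRochSpace D))
    (hφ : ∀ k, φ k ∈ riemannRochSpace D) (hli : LinearIndependent K φ)
    (hfr : Module.finrank K ↥(riemannRochSpace D) = m) :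
    ∀ f ∈ riemannRochSpace D, ∃ c : Fin m → K, ∑ k, c k • φ k = f := by
  intro f hf
  set φ' : Fin m → ↥(riemannRochSpace D) := fun k => ⟨φ k, hφ k⟩ with hφ'
  have hli' : LinearIndependent K φ' := by
    apply LinearIndependent.of_comp (riemannRochSpace D).subtype
    exact hli
  have htop := hli'.span_eq_top_of_card_eq_finrank' (by rw [Fintype.card_fin, hfr])
  have hmem : (⟨f, hf⟩ : ↥(riemannRochSpace D)) ∈ Submodule.span K (Set.range φ') := by
    rw [htop]; exact Submodule.mem_top
  obtain ⟨c, hc⟩ := (Submodule.mem_span_range_iff_exists_fun K).mp hmem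
  refine ⟨c, ?_⟩
  have := congrArg (riemannRochSpace D).subtype hc
  rw [map_sum] at this
  simpa [hφ'] using this

/-- **[WR]** the Wronskian criterion. -/
theorem s17p_wr : s17_WR := by
  intro K F _ _ _ _ g hC X m D A φ hφ hli hfr
  rw [s17p_cdet_eq]
  constructor
  · intro hne
    by_contra hbot
    exact hne (s17p_det_jet_eq_zero X A D φ
      (s17p_span_of_li D φ (hC.riemann.fin D) hφ hli hfr) hbot)
  · intro hbot
    exact s17p_det_jet_ne_zero X A D φ (s17p_sys_of_bot A D φ hφ hli hbot)

end Fermat.Agent.Lib.S17
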