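/-
Programme MW (S17), brick (FC) — part 10 (helper8): the three abstract steps of the pencil
argument for a triple product `∏_{j<3} det_{b₀_j}(b_j)` of transition determinants:
* `s17p_const`  : if the systems are systems at every fibre of `𝕜`, the product is a constant;
* `s17p_local`  : at the fibre `div A` the constant is the ratio of the confluent determinants;
* `s17p_compare`: two subfields `𝕜₁`, `𝕜₂` sharing one fibre give the same constant.
-/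
import Fermat.Agent.Lib.S17.PWR
import Fermat.Agent.Lib.S17.PApprox

set_option autoImplicit false

noncomputable section

open AlgebraicCurve WithZero Classical Fermat.Agent.Lib.S19

namespace Fermat.Agent.Lib.S17

variable {K F : Type} [Field K] [Field F] [Algebra K F]
variable {𝕜 : IntermediateField K F} {S : Finset (Place K F)} {Z : Divisor K F} {m : ℕ}

/-- local multipliers for a triple of divisors with sum zero on `S`. -/
theorem s17p_multipliers {g : ℕ} (hR : s19_Riemann K F g) (hdeg : ∀ Q : Place K F, Q.deg = 1)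
    [Infinite K] [Infinite (Place K F)] (S : Finset (Place K F)) (E : Fin 3 → Divisor K F)
    (hsum : ∀ v ∈ S, E 0 v + E 1 v + E 2 v = 0) :
    ∃ γ : Fin 3 → F, (∀ j, ∀ v ∈ S, v.adicValuation (γ j) = exp (E j v)) ∧ ∏ j, γ j = 1 := by
  obtain ⟨g0, hg0, ho0⟩ := s17p_weak_approx hR hdeg S fun v => -E 0 v
  obtain ⟨g1, hg1, ho1⟩ := s17p_weak_approx hR hdeg S fun v => -E 1 v
  have h0 : ∀ v ∈ S, v.adicValuation g0 = exp (E 0 v) := fun v hv => by
    rw [v.adicValuation_eq_exp_neg_ord hg0, ho0 v hv, neg_neg]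
  have h1 : ∀ v ∈ S, v.adicValuation g1 = exp (E 1 v) := fun v hv => by
    rw [v.adicValuation_eq_exp_neg_ord hg1, ho1 v hv, neg_neg]
  refine ⟨![g0, g1, (g0 * g1)⁻¹], ?_, ?_⟩
  · intro j v hv
    fin_cases j
    · exact h0 v hv
    · exact h1 v hv
    · show v.adicValuation (g0 * g1)⁻¹ = exp (E 2 v)
      rw [map_inv₀, map_mul, h0 v hv, h1 v hv, ← WithZero.exp_add, ← WithZero.exp_neg]
      congr 1
      have := hsum v hv
      omega
  · rw [Fin.prod_univ_three]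
    show g0 * g1 * (g0 * g1)⁻¹ = 1
    exact mul_inv_cancel₀ (mul_ne_zero hg0 hg1)

/-- `s17p_prod` for triples, with the bases given externally. -/
theorem s17p_prod3 (h : s17p_Fib 𝕜 S Z m) (D₀ D : Fin 3 → Divisor K F)
    (b₀ b : Fin 3 → Fin m → F)
    (hs₀ : ∀ j, s17p_Sys S Z (D₀ j) (b₀ j)) (hs : ∀ j, s17p_Sys S Z (D j) (b j))
    (e : Fin 3 → Module.Basis (Fin m) 𝕜 F) (he : ∀ j, ⇑(e j) = b₀ j)
    (γ : Fin 3 → F) (hγ : ∀ j, ∀ v ∈ S, v.adicValuation (γ j) = exp ((D j - D₀ j) v))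
    (hprod : ∏ j, γ j = 1) :
    ∃ (u : (s17p_R 𝕜 S)ˣ) (Tb : Fin 3 → Matrix (Fin m) (Fin m) K),
      ((u : s17p_R 𝕜 S) : 𝕜) = ∏ j, (e j).det (b j) ∧
      (∀ j k, b j k - ∑ l, Tb j k l • (γ j * b₀ j l) ∈ s17p_loc S (D j - Z)) ∧
      s17p_rho h u = ∏ j, (Tb j).det := by
  obtain ⟨u, Tb, hu, hcong, hrho⟩ := s17p_prod h D₀ D b₀ b hs₀ hs γ hγ hprod
  refine ⟨u, Tb, ?_, hcong, hrho⟩
  rw [hu]
  refine Finset.prod_congr rfl fun j _ => ?_
  have : s17p_basis h (hs₀ j) = e j :=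
    DFunLike.coe_injective ((s17p_coe_basis h (hs₀ j)).trans (he j).symm)
  rw [this]

/-- **constancy**: if the two triples of systems are systems at a family of fibres of `𝕜`
covering all places, the product of the transition determinants is a constant. -/
theorem s17p_const {g : ℕ} (hR : s19_Riemann K F g) (hdeg : ∀ Q : Place K F, Q.deg = 1)
    [HasPrincipalDivisors K F] [Infinite K] [Infinite (Place K F)]
    (D₀ D : Fin 3 → Divisor K F)
    (hsum : ∀ v, (D 0 - D₀ 0) v + (D 1 - D₀ 1) v + (D 2 - D₀ 2) v = 0)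
    (b₀ b : Fin 3 → Fin m → F)
    (e : Fin 3 → Module.Basis (Fin m) 𝕜 F) (he : ∀ j, ⇑(e j) = b₀ j)
    (hcov : ∀ P : Place K F, ∃ (S : Finset (Place K F)) (Z : Divisor K F), P ∈ S ∧
      s17p_Fib 𝕜 S Z m ∧ (∀ j, s17p_Sys S Z (D₀ j) (b₀ j)) ∧ (∀ j, s17p_Sys S Z (D j) (b j))) :
    ∃ μ : K, ((∏ j, (e j).det (b j) : 𝕜) : F) = algebraMap K F μ := by
  have hval : ∀ P : Place K F, P.adicValuation ((∏ j, (e j).det (b j) : 𝕜) : F) = 1 := by
    intro P
    obtain ⟨S, Z, hP, h, hs₀, hs⟩ := hcov P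
    obtain ⟨γ, hγ, hprod⟩ := s17p_multipliers hR hdeg S (fun j => D j - D₀ j)
      (fun v _ => hsum v)
    obtain ⟨u, Tb, hu, -, -⟩ := s17p_prod3 h D₀ D b₀ b hs₀ hs e he γ hγ hprod
    rw [← hu]
    exact s17p_unit_val u hP
  obtain ⟨Q⟩ : Nonempty (Place K F) := inferInstance
  have hmem : ((∏ j, (e j).det (b j) : 𝕜) : F) ∈ riemannRochSpace (0 : Divisor K F) := by
    intro v
    rw [hval v, Finsupp.zero_apply, WithZero.exp_zero]
  rw [s19n_L_zero hdeg Q, Submodule.mem_span_singleton] at hmem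
  obtain ⟨c, hc⟩ := hmem
  refine ⟨c, ?_⟩
  rw [← hc, Algebra.smul_def, mul_one]

/-- product of the leading coefficients of three local multipliers with product one. -/
theorem s17p_lc_prod3 (X : s17_Charts K F) (P : Place K F) (γ : Fin 3 → F) (E : Fin 3 → ℤ)
    (hγ : ∀ j, P.adicValuation (γ j) = exp (E j)) (hE : E 0 + E 1 + E 2 = 0)
    (hprod : ∏ j, γ j = 1) :
    ∏ j, (X.exp P (γ j)).coeff (-(E j)) = 1 := by
  have h01 : P.adicValuation (γ 0 * γ 1) = exp (E 0 + E 1) := by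
    rw [map_mul, hγ 0, hγ 1, WithZero.exp_add]
  have e1 := s17p_lc_mul X P (hγ 0) (hγ 1)
  have e2 := s17p_lc_mul X P h01 (hγ 2)
  rw [Fin.prod_univ_three] at hprod ⊢
  rw [← e1, ← e2, hprod, hE, neg_zero, map_one, HahnSeries.coeff_one, if_pos rfl]

/-- **the local step**: at the fibre `div A` the constant is the ratio of the products of the
confluent determinants. -/
theorem s17p_local {g : ℕ} (hR : s19_Riemann K F g) (hdeg : ∀ Q : Place K F, Q.deg = 1)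
    [Infinite K] [Infinite (Place K F)] (X : s17_Charts K F) (A : Fin m → Place K F)
    (h : s17p_Fib 𝕜 (s17p_supp A) (s17_div A) m)
    (D₀ D : Fin 3 → Divisor K F)
    (hsum : ∀ v, (D 0 - D₀ 0) v + (D 1 - D₀ 1) v + (D 2 - D₀ 2) v = 0)
    (b₀ b : Fin 3 → Fin m → F)
    (hs₀ : ∀ j, s17p_Sys (s17p_supp A) (s17_div A) (D₀ j) (b₀ j))
    (hs : ∀ j, s17p_Sys (s17p_supp A) (s17_div A) (D j) (b j))
    (e : Fin 3 → Module.Basis (Fin m) 𝕜 F) (he : ∀ j, ⇑(e j) = b₀ j) (μ : K)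
    (hμ : ((∏ j, (e j).det (b j) : 𝕜) : F) = algebraMap K F μ) :
    ∏ j, Matrix.det (Matrix.of fun k => s17p_jet X A (D j) (b j k))
      = μ * ∏ j, Matrix.det (Matrix.of fun k => s17p_jet X A (D₀ j) (b₀ j k)) := by
  obtain ⟨γ, hγ, hprod⟩ := s17p_multipliers hR hdeg (s17p_supp A) (fun j => D j - D₀ j)
    (fun v _ => hsum v)
  obtain ⟨u, Tb, hu, hcong, hrho⟩ := s17p_prod3 h D₀ D b₀ b hs₀ hs e he γ hγ hprod
  have hμ' : s17p_rho h u = μ := s17p_rho_const h u μ (by rw [hu]; exact hμ)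
  have hstep : ∀ j, Matrix.det (Matrix.of fun k => s17p_jet X A (D j) (b j k))
      = (Tb j).det * ((∏ i, (X.exp (A i) (γ j)).coeff (-((D j - D₀ j) (A i))))
        * Matrix.det (Matrix.of fun k => s17p_jet X A (D₀ j) (b₀ j k))) := by
    intro j
    have hsm := s17p_Sys.mul h (hs₀ j) (hγ j)
    have h1 := s17p_det_congr h
      ((s17p_jet X A (D j)).domRestrict (s17p_loc (s17p_supp A) (D j)))
      (fun f hf => s17p_jet_eq_zero X A (D j) hf)
      (b j) (fun l => γ j * b₀ j l) (hs j).mem hsm.mem (Tb j) (hcong j)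
    have h2 := s17p_det_jet_mul X A (D₀ j) (D j - D₀ j) (hγ j) (b₀ j) (hs₀ j).mem
    rw [add_sub_cancel] at h2
    rw [← h2]
    exact h1
  rw [Finset.prod_congr rfl fun j _ => hstep j, Finset.prod_mul_distrib,
    Finset.prod_mul_distrib, ← hrho, hμ', Finset.prod_comm]
  have hone : ∀ i, ∏ j, (X.exp (A i) (γ j)).coeff (-((D j - D₀ j) (A i))) = 1 := fun i =>
    s17p_lc_prod3 X (A i) γ (fun j => (D j - D₀ j) (A i))
      (fun j => hγ j (A i) (s17p_mem_supp A i)) (hsum (A i)) hprod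
  rw [Finset.prod_congr rfl fun i _ => hone i, Finset.prod_const_one, one_mul]

/-- **comparison**: two subfields with a common fibre give the same constant. -/
theorem s17p_compare {g : ℕ} (hR : s19_Riemann K F g) (hdeg : ∀ Q : Place K F, Q.deg = 1)
    [Infinite K] [Infinite (Place K F)] {𝕜₁ 𝕜₂ : IntermediateField K F}
    (h₁ : s17p_Fib 𝕜₁ S Z m) (h₂ : s17p_Fib 𝕜₂ S Z m)
    (D₀ D : Fin 3 → Divisor K F)
    (hsum : ∀ v, (D 0 - D₀ 0) v + (D 1 - D₀ 1) v + (D 2 - D₀ 2) v = 0)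
    (b₀ b : Fin 3 → Fin m → F)
    (hs₀ : ∀ j, s17p_Sys S Z (D₀ j) (b₀ j)) (hs : ∀ j, s17p_Sys S Z (D j) (b j))
    (e₁ : Fin 3 → Module.Basis (Fin m) 𝕜₁ F) (he₁ : ∀ j, ⇑(e₁ j) = b₀ j)
    (e₂ : Fin 3 → Module.Basis (Fin m) 𝕜₂ F) (he₂ : ∀ j, ⇑(e₂ j) = b₀ j) (μ₁ μ₂ : K)
    (hμ₁ : ((∏ j, (e₁ j).det (b j) : 𝕜₁) : F) = algebraMap K F μ₁)
    (hμ₂ : ((∏ j, (e₂ j).det (b j) : 𝕜₂) : F) = algebraMap K F μ₂) : μ₁ = μ₂ := by
  obtain ⟨γ, hγ, hprod⟩ := s17p_multipliers hR hdeg S (fun j => D j - D₀ j)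
    (fun v _ => hsum v)
  obtain ⟨u₁, Tb₁, hu₁, hcong₁, hrho₁⟩ := s17p_prod3 h₁ D₀ D b₀ b hs₀ hs e₁ he₁ γ hγ hprod
  obtain ⟨u₂, Tb₂, hu₂, hcong₂, hrho₂⟩ := s17p_prod3 h₂ D₀ D b₀ b hs₀ hs e₂ he₂ γ hγ hprod
  have hμ₁' : s17p_rho h₁ u₁ = μ₁ := s17p_rho_const h₁ u₁ μ₁ (by rw [hu₁]; exact hμ₁)
  have hμ₂' : s17p_rho h₂ u₂ = μ₂ := s17p_rho_const h₂ u₂ μ₂ (by rw [hu₂]; exact hμ₂)
  have hT : ∀ j, Tb₁ j = Tb₂ j := by
    intro j
    have hsm := s17p_Sys.mul h₁ (hs₀ j) (hγ j)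
    ext k l
    have hdiff : (∑ l, (Tb₁ j k l - Tb₂ j k l) • (γ j * b₀ j l)) ∈ s17p_loc S (D j - Z) := by
      have := (s17p_loc S (D j - Z)).sub_mem (hcong₂ j k) (hcong₁ j k)
      convert this using 1
      rw [sub_sub_sub_cancel_left, ← Finset.sum_sub_distrib]
      exact Finset.sum_congr rfl fun l _ => sub_smul _ _ _
    have := congrFun (hsm.ind _ hdiff) l
    exact sub_eq_zero.mp this
  rw [← hμ₁', ← hμ₂', hrho₁, hrho₂]
  exact Finset.prod_congr rfl fun j _ => by rw [hT j]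

end Fermat.Agent.Lib.S17
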