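/-
Programme MW (S17), brick (FC) — part 5 (helper8): the fibre datum `s17p_Fib` for `𝕜 = K(v)`.
If `v ∈ F` generates `𝕜` over `K`, `S` is the set of zeros of `v`, `Z v' = ord_{v'} v` on `S`, and
`Σ_{S} Z = [F : 𝕜] > 0`, then `s17p_Fib 𝕜 S Z n` holds: an element `r = p(v)/q(v)` of `K(v)` is
`v^k · unit` at every zero of `v`, and is congruent to a constant modulo `v` if `k ≥ 0`.
-/
import Fermat.Agent.Lib.S17.PProd

set_option autoImplicit false

noncomputable section

open AlgebraicCurve WithZero Module Polynomial IntermediateField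

namespace Fermat.Agent.Lib.S17

variable {K F : Type*} [Field K] [Field F] [Algebra K F]

theorem s17p_val_aeval_le_one (P : Place K F) {v : F} (hv : P.adicValuation v ≤ 1) (p : K[X]) :
    P.adicValuation (aeval v p) ≤ 1 := by
  rw [aeval_eq_sum_range]
  refine Valuation.map_sum_le _ fun i _ => ?_
  rw [Algebra.smul_def, map_mul, map_pow]
  exact mul_le_one' (P.adicValuation_algebraMap_le_one _) (pow_le_one' hv i)

theorem s17p_aeval_eq (v : F) (p : K[X]) :
    aeval v p = aeval v p.divX * v + algebraMap K F (p.coeff 0) := by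
  conv_lhs => rw [← divX_mul_X_add p]
  simp

theorem s17p_val_aeval_sub_coeff (P : Place K F) {v : F} (hv : P.adicValuation v ≤ 1) (p : K[X]) :
    P.adicValuation (aeval v p - algebraMap K F (p.coeff 0)) ≤ P.adicValuation v := by
  rw [s17p_aeval_eq v p, add_sub_cancel_right, map_mul]
  exact mul_le_of_le_one_left' (s17p_val_aeval_le_one P hv _)

theorem s17p_val_aeval_unit (P : Place K F) {v : F} (hv : P.adicValuation v < 1) {p : K[X]}
    (hp : p.coeff 0 ≠ 0) : P.adicValuation (aeval v p) = 1 := by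
  have h1 : P.adicValuation (algebraMap K F (p.coeff 0)) = 1 := s17p_adicValuation_algebraMap P hp
  have h2 : P.adicValuation (aeval v p.divX * v) < 1 := by
    rw [map_mul]
    exact lt_of_le_of_lt (mul_le_of_le_one_left' (s17p_val_aeval_le_one P hv.le _)) hv
  rw [s17p_aeval_eq v p, Valuation.map_add_eq_of_lt_right _ (by rw [h1]; exact h2), h1]

omit [Field F] [Algebra K F] in
/-- a non-zero polynomial is `X^m · (polynomial with non-zero constant term)`. -/
theorem s17p_exists_X_pow {p : K[X]} (hp : p ≠ 0) :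
    ∃ (m : ℕ) (p₁ : K[X]), p = X ^ m * p₁ ∧ p₁.coeff 0 ≠ 0 := by
  obtain ⟨q, hq, hnd⟩ := exists_eq_pow_rootMultiplicity_mul_and_not_dvd p hp 0
  refine ⟨p.rootMultiplicity 0, q, ?_, ?_⟩
  · conv_lhs => rw [hq]
    rw [C_0, sub_zero]
  · intro h0
    apply hnd
    rw [C_0, sub_zero]
    exact X_dvd_iff.mpr h0

variable {S : Finset (Place K F)} {Z : Divisor K F} {n : ℕ}

/-- **the fibre of a generator**. -/
theorem s17p_fib_of_gen (v : F) (S : Finset (Place K F)) (Z : Divisor K F) (n : ℕ)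
    (hne : S.Nonempty) (hZ : ∀ P ∈ S, 0 < Z P)
    (hv : ∀ P ∈ S, P.adicValuation v = exp (-(Z P)))
    (hrank : Module.finrank K⟮v⟯ F = n) (hn : 0 < n) :
    s17p_Fib K⟮v⟯ S Z n := by
  have hvlt : ∀ P ∈ S, P.adicValuation v < 1 := fun P hP => by
    rw [hv P hP, ← WithZero.exp_zero, exp_lt_exp]
    have := hZ P hP
    omega
  -- the shape of an element of `K(v)`
  have key : ∀ r : K⟮v⟯, r ≠ 0 → ∃ (m₁ m₂ : ℕ) (p₁ q₁ : K[X]), p₁.coeff 0 ≠ 0 ∧ q₁.coeff 0 ≠ 0 ∧
      aeval v q₁ ≠ 0 ∧ v ≠ 0 ∧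
      (r : F) = (v ^ m₁ * aeval v p₁) / (v ^ m₂ * aeval v q₁) := by
    intro r hr
    obtain ⟨p, q, hpq⟩ := (mem_adjoin_simple_iff K (r : F)).mp r.2
    have hr' : (r : F) ≠ 0 := fun h => hr (by exact_mod_cast h)
    have hp0 : aeval v p ≠ 0 := by
      intro h
      rw [h, zero_div] at hpq
      exact hr' hpq
    have hq0 : aeval v q ≠ 0 := by
      intro h
      rw [h, div_zero] at hpq
      exact hr' hpq
    have hp : p ≠ 0 := by rintro rfl; simp at hp0
    have hq : q ≠ 0 := by rintro rfl; simp at hq0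
    obtain ⟨m₁, p₁, hp₁, hp₁c⟩ := s17p_exists_X_pow hp
    obtain ⟨m₂, q₁, hq₁, hq₁c⟩ := s17p_exists_X_pow hq
    have hv0 : v ≠ 0 := by
      obtain ⟨P, hP⟩ := hne
      rintro rfl
      have := hv P hP
      rw [map_zero] at this
      exact WithZero.exp_ne_zero this.symm
    refine ⟨m₁, m₂, p₁, q₁, hp₁c, hq₁c, ?_, hv0, ?_⟩
    · intro h
      apply hq0
      rw [hq₁, map_mul, h, mul_zero]
    · rw [hpq, hp₁, hq₁]
      simp
  refine ⟨hne, hZ, hrank, hn, ?_, ?_⟩
  · intro r hr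
    obtain ⟨m₁, m₂, p₁, q₁, hp₁, hq₁, -, -, hrr⟩ := key r hr
    refine ⟨(m₁ : ℤ) - m₂, fun P hP => ?_⟩
    rw [hrr, map_div₀, map_mul, map_mul, map_pow, map_pow,
      s17p_val_aeval_unit P (hvlt P hP) hp₁, s17p_val_aeval_unit P (hvlt P hP) hq₁, mul_one,
      mul_one, hv P hP, ← WithZero.exp_nsmul, ← WithZero.exp_nsmul, ← WithZero.exp_sub]
    congr 1
    simp only [nsmul_eq_mul]
    ring
  · intro r hrint
    rcases eq_or_ne r 0 with rfl | hr
    · exact ⟨0, by simp⟩
    obtain ⟨m₁, m₂, p₁, q₁, hp₁, hq₁, hq0, hv0, hrr⟩ := key r hr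
    have hval : ∀ P ∈ S, P.adicValuation (r : F) = exp (-(((m₁ : ℤ) - m₂) * Z P)) := by
      intro P hP
      rw [hrr, map_div₀, map_mul, map_mul, map_pow, map_pow,
        s17p_val_aeval_unit P (hvlt P hP) hp₁, s17p_val_aeval_unit P (hvlt P hP) hq₁, mul_one,
        mul_one, hv P hP, ← WithZero.exp_nsmul, ← WithZero.exp_nsmul, ← WithZero.exp_sub]
      congr 1
      simp only [nsmul_eq_mul]
      ring
    have hk : (m₂ : ℤ) ≤ m₁ := by
      obtain ⟨P, hP⟩ := hne
      have h1 := hrint P hP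
      rw [hval P hP, Finsupp.zero_apply, exp_le_exp] at h1
      have h2 := hZ P hP
      by_contra hcon
      push Not at hcon
      have : ((m₁ : ℤ) - m₂) * Z P < 0 := mul_neg_of_neg_of_pos (by omega) h2
      omega
    rcases eq_or_lt_of_le hk with hk0 | hklt
    · -- `k = 0`: the residue is `p₁(0)/q₁(0)`
      have hm : m₁ = m₂ := by exact_mod_cast hk0.symm
      refine ⟨p₁.coeff 0 / q₁.coeff 0, fun P hP => ?_⟩
      have e : (r : F) - algebraMap K F (p₁.coeff 0 / q₁.coeff 0)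
          = aeval v (p₁ - C (p₁.coeff 0 / q₁.coeff 0) * q₁) / aeval v q₁ := by
        rw [hrr, hm, map_sub, map_mul, aeval_C]
        have : v ^ m₂ ≠ 0 := pow_ne_zero _ hv0
        field_simp
      have hc0 : (p₁ - C (p₁.coeff 0 / q₁.coeff 0) * q₁).coeff 0 = 0 := by
        rw [coeff_sub, coeff_C_mul]
        field_simp
        ring
      have h1 := s17p_val_aeval_sub_coeff P (hvlt P hP).le (p₁ - C (p₁.coeff 0 / q₁.coeff 0) * q₁)
      rw [hc0, map_zero, sub_zero] at h1
      rw [e, map_div₀, s17p_val_aeval_unit P (hvlt P hP) hq₁, div_one, Finsupp.neg_apply]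
      exact h1.trans (hv P hP).le
    · refine ⟨0, fun P hP => ?_⟩
      rw [map_zero, sub_zero, hval P hP, Finsupp.neg_apply, exp_le_exp]
      have h2 := hZ P hP
      have : 1 * Z P ≤ ((m₁ : ℤ) - m₂) * Z P := mul_le_mul_of_nonneg_right (by omega) h2.le
      omega

end Fermat.Agent.Lib.S17
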