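/-
Programme MW (S17), brick (FC) — part 11 (helper8): FIBRES OF A PENCIL.
From the fundamental identity `s17_Curve.fib`: for a non-constant `t` the zero fibre
`(S_t, Z_t)`, `Z_t v = max (ord_v t) 0`, is a fibre datum `s17p_Fib K⟮t⟯ S_t Z_t [F : K(t)]`.
The fibres `t = u⁻¹`, `t = u - c` of a pencil `u` cover all places and are linearly equivalent.
-/
import Fermat.Agent.Lib.S17.PFC1
import Fermat.Agent.Lib.S17.PFib

set_option autoImplicit false

noncomputable section

open AlgebraicCurve WithZero Classical Fermat.Agent.Lib.S19 Fermat.Agent.Lib.FF IntermediateField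

namespace Fermat.Agent.Lib.S17

variable {K F : Type} [Field K] [Field F] [Algebra K F]

theorem s17p_adjoin_sub_const (x : F) (c : K) : K⟮x - algebraMap K F c⟯ = K⟮x⟯ := by
  apply le_antisymm
  · rw [adjoin_simple_le_iff]
    exact sub_mem (mem_adjoin_simple_self K x) (IntermediateField.algebraMap_mem _ c)
  · rw [adjoin_simple_le_iff]
    have h := add_mem (mem_adjoin_simple_self K (x - algebraMap K F c))
      (IntermediateField.algebraMap_mem K⟮x - algebraMap K F c⟯ c)
    rwa [sub_add_cancel] at h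

theorem s17p_adjoin_inv (x : F) : K⟮x⁻¹⟯ = K⟮x⟯ := by
  apply le_antisymm
  · rw [adjoin_simple_le_iff]
    exact inv_mem (mem_adjoin_simple_self K x)
  · rw [adjoin_simple_le_iff]
    have h := inv_mem (mem_adjoin_simple_self K x⁻¹)
    rwa [inv_inv] at h

/-! ### general lemmas on `L(D - Z)` -/

/-- `L(D) ∩ loc S (D - Z) ⊆ L(D - Z)` if `Z` is supported in `S`. -/
theorem s17p_mem_L_of_loc {S : Finset (Place K F)} {Z : Divisor K F} (hZ : ∀ v ∉ S, Z v = 0)
    {D : Divisor K F} {f : F} (hf : f ∈ riemannRochSpace D) (hl : f ∈ s17p_loc S (D - Z)) :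
    f ∈ riemannRochSpace (D - Z) := by
  intro v
  by_cases hv : v ∈ S
  · exact hl v hv
  · rw [Finsupp.sub_apply, hZ v hv, sub_zero]
    exact hf v

/-- a `K`-independent family in `L(D)` is a system at the fibre `(S, Z)` as soon as
`L(D - Z) = 0`. -/
theorem s17p_sys_of_bot' {n : ℕ} {S : Finset (Place K F)} {Z : Divisor K F}
    (hZ : ∀ v ∉ S, Z v = 0) (D : Divisor K F) (φ : Fin n → F)
    (hφ : ∀ k, φ k ∈ riemannRochSpace D) (hli : LinearIndependent K φ)
    (hbot : riemannRochSpace (D - Z) = ⊥) : s17p_Sys S Z D φ := by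
  refine ⟨fun i => s17p_rr_le_loc _ D (hφ i), fun c hc => ?_⟩
  have h1 : (∑ i, c i • φ i) ∈ riemannRochSpace D :=
    (riemannRochSpace D).sum_mem fun i _ => (riemannRochSpace D).smul_mem _ (hφ i)
  have h2 := s17p_mem_L_of_loc hZ h1 hc
  rw [hbot, Submodule.mem_bot] at h2
  funext i
  exact (Fintype.linearIndependent_iff.mp hli) c h2 i

/-- `L(D - Z) = 0` depends only on the linear equivalence class of `Z`. -/
theorem s17p_L_bot_of_linEq {D Z Z' : Divisor K F} {w : F} (hw : w ≠ 0)
    (hord : ∀ v : Place K F, v.ord w = (Z' - Z) v) (hbot : riemannRochSpace (D - Z) = ⊥) :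
    riemannRochSpace (D - Z') = ⊥ := by
  rw [eq_bot_iff]
  intro f hf
  rw [Submodule.mem_bot]
  by_contra hf0
  have hmem : w⁻¹ * f ∈ riemannRochSpace (D - Z) := by
    rw [mem_riemannRochSpace_iff] at hf ⊢
    intro v
    right
    have h1 := (hf v).resolve_left hf0
    rw [v.ord_mul (inv_ne_zero hw) hf0, v.ord_inv, hord v]
    simp only [Finsupp.sub_apply] at h1 ⊢
    omega
  rw [hbot, Submodule.mem_bot] at hmem
  exact (mul_ne_zero (inv_ne_zero hw) hf0) hmem

/-! ### the zero fibre of a non-constant function -/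

theorem s17p_ne_zero_of_nonconst {t : F} (ht : ∀ c : K, t ≠ algebraMap K F c) : t ≠ 0 :=
  fun h => ht 0 (by rw [h, map_zero])

theorem s17p_inv_nonconst {t : F} (ht : ∀ c : K, t ≠ algebraMap K F c) :
    ∀ c : K, t⁻¹ ≠ algebraMap K F c := by
  intro c hc
  apply ht c⁻¹
  rw [map_inv₀, ← hc, inv_inv]

theorem s17p_sub_nonconst {t : F} (ht : ∀ c : K, t ≠ algebraMap K F c) (a : K) :
    ∀ c : K, t - algebraMap K F a ≠ algebraMap K F c := by
  intro c hc
  apply ht (c + a)
  rw [map_add, ← hc, sub_add_cancel]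

/-- **the zero fibre of a non-constant function.** -/
theorem s17p_exists_fibre {g : ℕ} (hC : s17_Curve K F g) (t : F)
    (ht : ∀ c : K, t ≠ algebraMap K F c) :
    ∃ (S : Finset (Place K F)) (Z : Divisor K F), (∀ v, v ∈ S ↔ 0 < v.ord t) ∧
      (∀ v, Z v = max (v.ord t) 0) ∧ s17p_Fib K⟮t⟯ S Z (Module.finrank K⟮t⟯ F) ∧
      Divisor.degree Z = (Module.finrank K⟮t⟯ F : ℤ) := by
  have ht0 := s17p_ne_zero_of_nonconst ht
  obtain ⟨hfd, S, hS, hsum⟩ := hC.fib t⁻¹ (s17p_inv_nonconst ht)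
  rw [s17p_adjoin_inv] at hfd hsum
  have hS' : ∀ v, v ∈ S ↔ 0 < v.ord t := by
    intro v
    rw [hS, Place.ord_inv]
    omega
  set Z : Divisor K F := ∑ v ∈ S, Finsupp.single v (v.ord t) with hZ
  have hZv : ∀ v, Z v = max (v.ord t) 0 := by
    intro v
    rw [hZ, s17p_sum_single_apply]
    by_cases hv : v ∈ S
    · rw [if_pos hv, max_eq_left ((hS' v).mp hv).le]
    · rw [if_neg hv, max_eq_right (not_lt.mp fun h => hv ((hS' v).mpr h))]
  have hn : 0 < Module.finrank K⟮t⟯ F := Module.finrank_pos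
  have hsum' : ∑ v ∈ S, v.ord t = (Module.finrank K⟮t⟯ F : ℤ) := by
    have : ∑ v ∈ S, v.ord t⁻¹ = -∑ v ∈ S, v.ord t := by
      rw [← Finset.sum_neg_distrib]
      exact Finset.sum_congr rfl fun v _ => v.ord_inv t
    rw [this] at hsum
    omega
  have hne : S.Nonempty := by
    rw [Finset.nonempty_iff_ne_empty]
    rintro rfl
    rw [Finset.sum_empty] at hsum'
    omega
  refine ⟨S, Z, hS', hZv, ?_, ?_⟩
  · refine s17p_fib_of_gen t S Z _ hne (fun P hP => ?_) (fun P hP => ?_) rfl hn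
    · rw [hZv, max_eq_left ((hS' P).mp hP).le]
      exact (hS' P).mp hP
    · rw [P.adicValuation_eq_exp_neg_ord ht0, hZv, max_eq_left ((hS' P).mp hP).le]
  · rw [hZ, map_sum, ← hsum']
    refine Finset.sum_congr rfl fun v _ => ?_
    rw [Divisor.degree_single, hC.deg1 v, Nat.cast_one, mul_one]

/-! ### the fibres of a pencil -/

/-- the zero divisor of `u - c` minus the polar divisor of `u` is the divisor of `u - c`. -/
theorem s17p_ord_sub_const {u : F} (hu : ∀ c : K, u ≠ algebraMap K F c) (c : K)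
    (v : Place K F) :
    max (v.ord (u - algebraMap K F c)) 0 - max (v.ord u⁻¹) 0
      = v.ord (u - algebraMap K F c) := by
  have hu0 := s17p_ne_zero_of_nonconst hu
  have huc := s17p_ne_zero_of_nonconst (s17p_sub_nonconst hu c)
  rw [Place.ord_inv]
  by_cases h : v.ord u < 0
  · have hval : v.adicValuation (algebraMap K F c) < v.adicValuation u := by
      refine lt_of_le_of_lt (v.adicValuation_algebraMap_le_one c) ?_
      rw [v.adicValuation_eq_exp_neg_ord hu0, ← WithZero.exp_zero, exp_lt_exp]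
      omega
    have hord : v.ord (u - algebraMap K F c) = v.ord u := by
      unfold Place.ord
      rw [Valuation.map_sub_eq_of_lt_left _ hval]
    rw [hord, max_eq_right h.le, max_eq_left (by omega)]
    ring
  · push Not at h
    have h1 : v.adicValuation u ≤ 1 := v.adicValuation_le_one_iff.mpr (Or.inr h)
    have h2 : v.adicValuation (u - algebraMap K F c) ≤ 1 :=
      Valuation.map_sub_le _ h1 (v.adicValuation_algebraMap_le_one c)
    have h3 : 0 ≤ v.ord (u - algebraMap K F c) :=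
      (v.adicValuation_le_one_iff.mp h2).resolve_left huc
    rw [max_eq_left h3, max_eq_right (by omega)]
    ring

theorem s17p_fibre_supp {S : Finset (Place K F)} {Z : Divisor K F} {t : F}
    (hS : ∀ v, v ∈ S ↔ 0 < v.ord t) (hZ : ∀ v, Z v = max (v.ord t) 0) :
    ∀ v ∉ S, Z v = 0 := by
  intro v hv
  rw [hZ, max_eq_right (not_lt.mp fun h => hv ((hS v).mpr h))]

/-- the fibres of the pencil `u` cover all places and are linearly equivalent to the polar
divisor `Zi` of `u`. -/
theorem s17p_pencil_cover [IsAlgClosed K] {g : ℕ} (hC : s17_Curve K F g) {u : F}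
    (hu : ∀ c : K, u ≠ algebraMap K F c) (Zi : Divisor K F)
    (hZi : ∀ v, Zi v = max (v.ord u⁻¹) 0) (P : Place K F) :
    ∃ (S : Finset (Place K F)) (Z : Divisor K F), P ∈ S ∧
      s17p_Fib K⟮u⟯ S Z (Module.finrank K⟮u⟯ F) ∧ (∀ v ∉ S, Z v = 0) ∧
      ∃ w : F, w ≠ 0 ∧ ∀ v : Place K F, v.ord w = (Z - Zi) v := by
  have hu0 := s17p_ne_zero_of_nonconst hu
  by_cases h : P.ord u < 0
  · obtain ⟨S, Z, hS, hZ, hfib, -⟩ := s17p_exists_fibre hC u⁻¹ (s17p_inv_nonconst hu)
    rw [s17p_adjoin_inv] at hfib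
    refine ⟨S, Z, (hS P).mpr (by rw [Place.ord_inv]; omega), hfib, s17p_fibre_supp hS hZ,
      1, one_ne_zero, fun v => ?_⟩
    rw [Place.ord_one, Finsupp.sub_apply, hZ, hZi, sub_self]
  · push Not at h
    have hmem : u ∈ P.toValuationSubring := (ff_mem_iff_ord_nonneg P hu0).mpr h
    obtain ⟨c, hc⟩ := s19n_exists_value P (hC.deg1 P) u hmem
    have huc := s17p_ne_zero_of_nonconst (s17p_sub_nonconst hu c)
    obtain ⟨S, Z, hS, hZ, hfib, -⟩ :=
      s17p_exists_fibre hC (u - algebraMap K F c) (s17p_sub_nonconst hu c)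
    rw [s17p_adjoin_sub_const] at hfib
    refine ⟨S, Z, (hS P).mpr (hc.resolve_left huc), hfib, s17p_fibre_supp hS hZ,
      u - algebraMap K F c, huc, fun v => ?_⟩
    rw [Finsupp.sub_apply, hZ, hZi, s17p_ord_sub_const hu c v]

end Fermat.Agent.Lib.S17
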