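/-
Programme MW (S17), brick (FC) — part 12 (helper8): THE PENCIL PROPOSITION.
For a pencil `u` whose polar divisor is `div A` and two triples of bases of `L(D₀ j)`, `L(D j)`
(`∑ (D j - D₀ j) = 0`, all `L(· - div A) = 0`): the product of the transition determinants is a
constant `μ`, and the products of the confluent determinants at `A` differ by the factor `μ`.
-/
import Fermat.Agent.Lib.S17.PFC2

set_option autoImplicit false

noncomputable section

open AlgebraicCurve WithZero Classical Fermat.Agent.Lib.S19 Fermat.Agent.Lib.FF IntermediateField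

namespace Fermat.Agent.Lib.S17

variable {K F : Type} [Field K] [Field F] [Algebra K F]

theorem s17p_degree_div (hdeg : ∀ Q : Place K F, Q.deg = 1) {m : ℕ} (A : Fin m → Place K F) :
    Divisor.degree (s17_div A) = m := by
  unfold s17_div
  rw [map_sum]
  simp only [Divisor.degree_single, hdeg, Nat.cast_one, mul_one, Finset.sum_const,
    Finset.card_univ, Fintype.card_fin, nsmul_eq_mul]

theorem s17p_mem_supp_iff_pos {m : ℕ} (A : Fin m → Place K F) (v : Place K F) :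
    v ∈ s17p_supp A ↔ 0 < s17_div A v := by
  constructor
  · exact s17p_div_pos A
  · intro h
    by_contra hv
    rw [s17p_div_eq_zero A hv] at h
    exact lt_irrefl _ h

/-- **the pencil proposition.** -/
theorem s17p_pencil [IsAlgClosed K] {g : ℕ} (hC : s17_Curve K F g) (X : s17_Charts K F) {m : ℕ}
    (A : Fin m → Place K F) {u : F} (hu : ∀ c : K, u ≠ algebraMap K F c)
    (hpol : ∀ v, s17_div A v = max (v.ord u⁻¹) 0)
    (D₀ D : Fin 3 → Divisor K F)
    (hsum : ∀ v, (D 0 - D₀ 0) v + (D 1 - D₀ 1) v + (D 2 - D₀ 2) v = 0)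
    (b₀ b : Fin 3 → Fin m → F)
    (hb₀ : ∀ j k, b₀ j k ∈ riemannRochSpace (D₀ j)) (hli₀ : ∀ j, LinearIndependent K (b₀ j))
    (hbot₀ : ∀ j, riemannRochSpace (D₀ j - s17_div A) = ⊥)
    (hb : ∀ j k, b j k ∈ riemannRochSpace (D j)) (hli : ∀ j, LinearIndependent K (b j))
    (hbot : ∀ j, riemannRochSpace (D j - s17_div A) = ⊥) :
    Module.finrank K⟮u⟯ F = m ∧
      ∃ (μ : K) (e : Fin 3 → Module.Basis (Fin m) K⟮u⟯ F), (∀ j, ⇑(e j) = b₀ j) ∧
        ((∏ j, (e j).det (b j) : K⟮u⟯) : F) = algebraMap K F μ ∧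
        ∏ j, Matrix.det (Matrix.of fun k => s17p_jet X A (D j) (b j k))
          = μ * ∏ j, Matrix.det (Matrix.of fun k => s17p_jet X A (D₀ j) (b₀ j k)) := by
  have := hC.pd
  have := hC.inf
  obtain ⟨S, Z, hS, hZ, hfib, hdegZ⟩ := s17p_exists_fibre hC u⁻¹ (s17p_inv_nonconst hu)
  rw [s17p_adjoin_inv] at hfib hdegZ
  have hZA : Z = s17_div A := Finsupp.ext fun v => by rw [hZ, hpol]
  have hSA : S = s17p_supp A := by
    ext v
    rw [hS, s17p_mem_supp_iff_pos, hpol, lt_max_iff]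
    simp
  have hfr : Module.finrank K⟮u⟯ F = m := by
    rw [hZA, s17p_degree_div hC.deg1] at hdegZ
    exact_mod_cast hdegZ.symm
  rw [hZA, hSA, hfr] at hfib
  have hs₀ : ∀ j, s17p_Sys (s17p_supp A) (s17_div A) (D₀ j) (b₀ j) := fun j =>
    s17p_sys_of_bot A (D₀ j) (b₀ j) (hb₀ j) (hli₀ j) (hbot₀ j)
  have hs : ∀ j, s17p_Sys (s17p_supp A) (s17_div A) (D j) (b j) := fun j =>
    s17p_sys_of_bot A (D j) (b j) (hb j) (hli j) (hbot j)
  set e : Fin 3 → Module.Basis (Fin m) K⟮u⟯ F := fun j => s17p_basis hfib (hs₀ j) with he'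
  have he : ∀ j, ⇑(e j) = b₀ j := fun j => s17p_coe_basis hfib (hs₀ j)
  have hcov : ∀ P : Place K F, ∃ (S : Finset (Place K F)) (Z : Divisor K F), P ∈ S ∧
      s17p_Fib K⟮u⟯ S Z m ∧ (∀ j, s17p_Sys S Z (D₀ j) (b₀ j)) ∧
      (∀ j, s17p_Sys S Z (D j) (b j)) := by
    intro P
    obtain ⟨S', Z', hP, hfib', hZ0, w, hw, hord⟩ := s17p_pencil_cover hC hu (s17_div A) hpol P
    rw [hfr] at hfib'
    exact ⟨S', Z', hP, hfib',
      fun j => s17p_sys_of_bot' hZ0 (D₀ j) (b₀ j) (hb₀ j) (hli₀ j)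
        (s17p_L_bot_of_linEq hw hord (hbot₀ j)),
      fun j => s17p_sys_of_bot' hZ0 (D j) (b j) (hb j) (hli j)
        (s17p_L_bot_of_linEq hw hord (hbot j))⟩
  obtain ⟨μ, hμ⟩ := s17p_const hC.riemann hC.deg1 D₀ D hsum b₀ b e he hcov
  exact ⟨hfr, μ, e, he, hμ,
    s17p_local hC.riemann hC.deg1 X A hfib D₀ D hsum b₀ b hs₀ hs e he μ hμ⟩

end Fermat.Agent.Lib.S17
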