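/-
Programme MW (S17), brick (FC) — part 13 (helper8): the two pencils through `A`, `A'`.
`Big (m - 1)` ⇒ the complete linear system `|div A|` has no base points; a generic
`v ∈ L(div A)` has polar divisor exactly `div A` and no zero on `supp A ∪ supp A'`; the pencils
`u₁ = v` (through `A`) and `u₂ = v / w` (through `A'`, `div w = div A' - div A`) have the same
zero fibre.
-/
import Fermat.Agent.Lib.S17.PFC3

set_option autoImplicit false

noncomputable section

open AlgebraicCurve WithZero Classical Fermat.Agent.Lib.S19 Fermat.Agent.Lib.FF IntermediateField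

namespace Fermat.Agent.Lib.S17

variable {K F : Type} [Field K] [Field F] [Algebra K F]

theorem s17p_ord_algebraMap (P : Place K F) (c : K) : P.ord (algebraMap K F c) = 0 := by
  rcases eq_or_ne c 0 with rfl | hc
  · rw [map_zero, Place.ord_zero]
  · unfold Place.ord
    rw [s17p_adicValuation_algebraMap P hc]
    simp

theorem s17p_nonconst_of_ord_neg {u : F} {P : Place K F} (h : P.ord u < 0) :
    ∀ c : K, u ≠ algebraMap K F c := by
  intro c hc
  rw [hc, s17p_ord_algebraMap] at h
  exact lt_irrefl _ h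

/-- **the two pencils.** -/
theorem s17p_exists_pencils [IsAlgClosed K] {g : ℕ} (hC : s17_Curve K F g) {m : ℕ} (hm : 0 < m)
    (hBig : s17_Big K F g ((m : ℤ) - 1)) (A A' : Fin m → Place K F) (hlin : s17_LinEq A A') :
    ∃ u₁ u₂ : F, (∀ c : K, u₁ ≠ algebraMap K F c) ∧ (∀ c : K, u₂ ≠ algebraMap K F c) ∧
      (∀ v : Place K F, s17_div A v = max (v.ord u₁⁻¹) 0) ∧
      (∀ v : Place K F, s17_div A' v = max (v.ord u₂⁻¹) 0) ∧
      (∀ v : Place K F, max (v.ord u₁) 0 = max (v.ord u₂) 0) := by
  have hR := hC.riemann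
  have hdeg := hC.deg1
  obtain ⟨w, hw, hword⟩ := hlin
  have hdegA : Divisor.degree (s17_div A) = m := s17p_degree_div hdeg A
  have hlA : (Module.finrank K ↥(riemannRochSpace (s17_div A)) : ℤ) = m + 1 - g := by
    rw [hBig _ (by rw [hdegA]; omega), hdegA]
  have hlAP : ∀ P : Place K F,
      (Module.finrank K ↥(riemannRochSpace (s17_div A - Finsupp.single P 1)) : ℤ) = m - g := by
    intro P
    have hd : Divisor.degree (s17_div A - Finsupp.single P 1) = m - 1 := by
      rw [map_sub, hdegA, Divisor.degree_single, hdeg P]; simp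
    rw [hBig _ (by rw [hd]), hd]
    ring
  -- the generic element
  have hne : ∀ P : ↥(s17p_supp A ∪ s17p_supp A'),
      Submodule.comap (riemannRochSpace (s17_div A)).subtype
        (riemannRochSpace (s17_div A - Finsupp.single (P : Place K F) 1)) ≠ ⊤ := by
    intro P htop
    have hle : riemannRochSpace (s17_div A)
        ≤ riemannRochSpace (s17_div A - Finsupp.single (P : Place K F) 1) := by
      intro f hf
      have : (⟨f, hf⟩ : ↥(riemannRochSpace (s17_div A))) ∈ Submodule.comap
          (riemannRochSpace (s17_div A)).subtype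
          (riemannRochSpace (s17_div A - Finsupp.single (P : Place K F) 1)) := by
        rw [htop]; exact Submodule.mem_top
      exact this
    have := hR.fin (s17_div A - Finsupp.single (P : Place K F) 1)
    have h1 := Submodule.finrank_mono hle
    have h2 := hlAP P
    omega
  obtain ⟨x, hx⟩ := Submodule.exists_forall_notMem_of_forall_ne_top _ hne
  obtain ⟨v, hvL⟩ := x
  have hvP : ∀ P ∈ s17p_supp A ∪ s17p_supp A',
      v ∉ riemannRochSpace (s17_div A - Finsupp.single P 1) := fun P hP h => hx ⟨P, hP⟩ h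
  have hP₁ : A ⟨0, hm⟩ ∈ s17p_supp A ∪ s17p_supp A' :=
    Finset.mem_union_left _ (s17p_mem_supp A _)
  have hv0 : v ≠ 0 := by
    rintro rfl
    exact hvP _ hP₁ (Submodule.zero_mem _)
  have hv1 : ∀ Q : Place K F, -(s17_div A Q) ≤ Q.ord v := fun Q =>
    ((mem_riemannRochSpace_iff.mp hvL) Q).resolve_left hv0
  have hv2 : ∀ P ∈ s17p_supp A ∪ s17p_supp A', P.ord v = -(s17_div A P) := by
    intro P hP
    by_contra hne'
    apply hvP P hP
    rw [mem_riemannRochSpace_iff]
    intro Q
    right
    rw [Finsupp.sub_apply, Finsupp.single_apply]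
    have h1 := hv1 Q
    split_ifs with hPQ
    · subst hPQ
      omega
    · omega
  have hA0 : ∀ Q : Place K F, 0 ≤ s17_div A Q := fun Q => by
    rw [s17p_div_apply]; positivity
  have hA'0 : ∀ Q : Place K F, 0 ≤ s17_div A' Q := fun Q => by
    rw [s17p_div_apply]; positivity
  have hu2 : ∀ Q : Place K F, Q.ord (v * w⁻¹) = Q.ord v - (s17_div A' Q - s17_div A Q) := by
    intro Q
    rw [Q.ord_mul hv0 (inv_ne_zero hw), Q.ord_inv, ← hword Q, Finsupp.sub_apply]
    ring
  have hmemA : ∀ Q : Place K F, Q ∈ s17p_supp A → Q.ord v = -(s17_div A Q) := fun Q hQ =>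
    hv2 Q (Finset.mem_union_left _ hQ)
  have hmemA' : ∀ Q : Place K F, Q ∈ s17p_supp A' → Q.ord v = -(s17_div A Q) := fun Q hQ =>
    hv2 Q (Finset.mem_union_right _ hQ)
  refine ⟨v, v * w⁻¹, ?_, ?_, ?_, ?_, ?_⟩
  · apply s17p_nonconst_of_ord_neg (P := A ⟨0, hm⟩)
    rw [hmemA _ (s17p_mem_supp A _)]
    have := s17p_div_pos A (s17p_mem_supp A ⟨0, hm⟩)
    omega
  · apply s17p_nonconst_of_ord_neg (P := A' ⟨0, hm⟩)
    rw [hu2, hmemA' _ (s17p_mem_supp A' _)]
    have := s17p_div_pos A' (s17p_mem_supp A' ⟨0, hm⟩)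
    omega
  · intro Q
    rw [Place.ord_inv]
    by_cases hQ : Q ∈ s17p_supp A
    · rw [hmemA Q hQ, neg_neg, max_eq_left (hA0 Q)]
    · have h1 := hv1 Q
      rw [s17p_div_eq_zero A hQ] at h1 ⊢
      rw [max_eq_right (by omega)]
  · intro Q
    rw [Place.ord_inv, hu2]
    by_cases hQ : Q ∈ s17p_supp A'
    · rw [hmemA' Q hQ]
      have := hA'0 Q
      rw [max_eq_left (by omega)]
      ring
    · have h1 := hv1 Q
      rw [s17p_div_eq_zero A' hQ]
      rw [max_eq_right (by omega)]
  · intro Q
    rw [hu2]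
    by_cases hQ : Q ∈ s17p_supp A ∪ s17p_supp A'
    · rw [hv2 Q hQ]
      have h1 := hA0 Q
      have h2 := hA'0 Q
      rw [max_eq_right (by omega), max_eq_right (by omega)]
    · rw [Finset.mem_union, not_or] at hQ
      rw [s17p_div_eq_zero A hQ.1, s17p_div_eq_zero A' hQ.2, sub_zero, sub_zero]

end Fermat.Agent.Lib.S17
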