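/-
Programme MW (S17), brick (FC) — part 14 (helper8): **FIBRE CONSTANCY** `s17p_fc : s17_FC`.
Linearly equivalent tuples `A ~ A'` have proportional theta vectors: for translation triples
`T`, `T₀` which are good for the class (all `L(B + T j - div A) = 0`) the ratio
`θ_T / θ_{T₀}` is the same constant at `A` and at `A'` (two pencils through a common generic
fibre); for the other `T` both values vanish (Wronskian criterion).
-/
import Fermat.Agent.Lib.S17.PFC4

set_option autoImplicit false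

noncomputable section

open AlgebraicCurve WithZero Classical Fermat.Agent.Lib.S19 Fermat.Agent.Lib.FF IntermediateField

namespace Fermat.Agent.Lib.S17

variable {K F : Type} [Field K] [Field F] [Algebra K F]

theorem s17p_basis_spec (D : Divisor K F) (m : ℕ)
    (hfin : Module.Finite K ↥(riemannRochSpace D))
    (hfr : Module.finrank K ↥(riemannRochSpace D) = m) :
    (∀ k, s17_basis D m k ∈ riemannRochSpace D) ∧ LinearIndependent K (s17_basis D m) := by
  unfold s17_basis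
  rw [dif_pos ⟨hfin, hfr⟩]
  refine ⟨fun k => Subtype.property _, ?_⟩
  have := (Module.finBasisOfFinrankEq K ↥(riemannRochSpace D) hfr).linearIndependent
  exact this.map' (riemannRochSpace D).subtype (Submodule.ker_subtype _)

theorem s17p_thetaVal_eq (X : s17_Charts K F) (P₀ : Place K F) (g m : ℕ)
    (T : Fin 3 → Divisor K F) (A : Fin m → Place K F) :
    s17_thetaVal X P₀ g m T A = ∏ j : Fin 3, Matrix.det (Matrix.of fun k =>
      s17p_jet X A (s17_B P₀ g m + T j) (s17_basis (s17_B P₀ g m + T j) m k)) := by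
  unfold s17_thetaVal
  exact Finset.prod_congr rfl fun j _ => s17p_cdet_eq X A _ _

/-- **the key step**: the ratio of two good theta values is the same at `A` and at `A'`. -/
theorem s17p_ratio [IsAlgClosed K] {g : ℕ} (hC : s17_Curve K F g) (X : s17_Charts K F) {m : ℕ}
    (A A' : Fin m → Place K F) {u₁ u₂ : F}
    (hu₁ : ∀ c : K, u₁ ≠ algebraMap K F c) (hu₂ : ∀ c : K, u₂ ≠ algebraMap K F c)
    (hpol₁ : ∀ v : Place K F, s17_div A v = max (v.ord u₁⁻¹) 0)
    (hpol₂ : ∀ v : Place K F, s17_div A' v = max (v.ord u₂⁻¹) 0)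
    (hzero : ∀ v : Place K F, max (v.ord u₁) 0 = max (v.ord u₂) 0)
    (D₀ D : Fin 3 → Divisor K F)
    (hsum : ∀ v, (D 0 - D₀ 0) v + (D 1 - D₀ 1) v + (D 2 - D₀ 2) v = 0)
    (b₀ b : Fin 3 → Fin m → F)
    (hb₀ : ∀ j k, b₀ j k ∈ riemannRochSpace (D₀ j)) (hli₀ : ∀ j, LinearIndependent K (b₀ j))
    (hbot₀ : ∀ j, riemannRochSpace (D₀ j - s17_div A) = ⊥)
    (hbot₀' : ∀ j, riemannRochSpace (D₀ j - s17_div A') = ⊥)
    (hb : ∀ j k, b j k ∈ riemannRochSpace (D j)) (hli : ∀ j, LinearIndependent K (b j))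
    (hbot : ∀ j, riemannRochSpace (D j - s17_div A) = ⊥)
    (hbot' : ∀ j, riemannRochSpace (D j - s17_div A') = ⊥) :
    ∃ μ : K,
      ∏ j, Matrix.det (Matrix.of fun k => s17p_jet X A (D j) (b j k))
        = μ * ∏ j, Matrix.det (Matrix.of fun k => s17p_jet X A (D₀ j) (b₀ j k)) ∧
      ∏ j, Matrix.det (Matrix.of fun k => s17p_jet X A' (D j) (b j k))
        = μ * ∏ j, Matrix.det (Matrix.of fun k => s17p_jet X A' (D₀ j) (b₀ j k)) := by
  have := hC.pd
  have := hC.inf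
  obtain ⟨hfr₁, μ₁, e₁, he₁, hμ₁, eq₁⟩ := s17p_pencil hC X A hu₁ hpol₁ D₀ D hsum b₀ b
    hb₀ hli₀ hbot₀ hb hli hbot
  obtain ⟨hfr₂, μ₂, e₂, he₂, hμ₂, eq₂⟩ := s17p_pencil hC X A' hu₂ hpol₂ D₀ D hsum b₀ b
    hb₀ hli₀ hbot₀' hb hli hbot'
  -- the common zero fibre
  obtain ⟨S₁, Z₁, hS₁, hZ₁, hfib₁, -⟩ := s17p_exists_fibre hC u₁ hu₁
  obtain ⟨S₂, Z₂, hS₂, hZ₂, hfib₂, -⟩ := s17p_exists_fibre hC u₂ hu₂
  have hZ : Z₂ = Z₁ := Finsupp.ext fun v => by rw [hZ₁, hZ₂, hzero]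
  have hS : S₂ = S₁ := by
    ext v
    rw [hS₁, hS₂]
    have := hzero v
    constructor
    · intro h
      rw [max_eq_left h.le] at this
      by_contra hcon
      rw [max_eq_right (not_lt.mp hcon)] at this
      omega
    · intro h
      rw [max_eq_left h.le] at this
      by_contra hcon
      rw [max_eq_right (not_lt.mp hcon)] at this
      omega
  rw [hfr₁] at hfib₁
  rw [hfr₂, hZ, hS] at hfib₂
  have hu₁0 := s17p_ne_zero_of_nonconst hu₁
  have hord : ∀ v : Place K F, v.ord u₁ = (Z₁ - s17_div A) v := by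
    intro v
    rw [Finsupp.sub_apply, hZ₁, hpol₁, Place.ord_inv]
    rcases le_total 0 (v.ord u₁) with h | h
    · rw [max_eq_left h, max_eq_right (by omega)]; ring
    · rw [max_eq_right h, max_eq_left (by omega)]; ring
  have hZ0 := s17p_fibre_supp hS₁ hZ₁
  have hs₀ : ∀ j, s17p_Sys S₁ Z₁ (D₀ j) (b₀ j) := fun j =>
    s17p_sys_of_bot' hZ0 (D₀ j) (b₀ j) (hb₀ j) (hli₀ j)
      (s17p_L_bot_of_linEq hu₁0 hord (hbot₀ j))
  have hs : ∀ j, s17p_Sys S₁ Z₁ (D j) (b j) := fun j =>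
    s17p_sys_of_bot' hZ0 (D j) (b j) (hb j) (hli j)
      (s17p_L_bot_of_linEq hu₁0 hord (hbot j))
  have hμ : μ₁ = μ₂ := s17p_compare hC.riemann hC.deg1 hfib₁ hfib₂ D₀ D hsum b₀ b hs₀ hs
    e₁ he₁ e₂ he₂ μ₁ μ₂ hμ₁ hμ₂
  exact ⟨μ₁, eq₁, by rw [hμ]; exact eq₂⟩

/-- **[FC] fibre constancy.** -/
theorem s17p_fc : s17_FC := by
  intro K F _ _ _ _ g hC hg X P₀ m hm hBig A A' hlin
  have hR := hC.riemann
  have hdeg := hC.deg1
  -- the divisors `B + T j` have degree `g + m - 1` and `ℓ = m`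
  have hdegB : ∀ T : Fin 3 → Divisor K F, s17_Adm T → ∀ j,
      Divisor.degree (s17_B P₀ g m + T j) = (g : ℤ) + m - 1 := by
    intro T hT j
    rw [map_add, hT.1 j, add_zero]
    unfold s17_B
    rw [Divisor.degree_single, hdeg P₀]
    push_cast
    omega
  have hl : ∀ T : Fin 3 → Divisor K F, s17_Adm T → ∀ j,
      Module.finrank K ↥(riemannRochSpace (s17_B P₀ g m + T j)) = m := by
    intro T hT j
    have h1 := hBig (s17_B P₀ g m + T j) (by rw [hdegB T hT j]; omega)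
    rw [hdegB T hT j] at h1
    omega
  have hspec : ∀ T : Fin 3 → Divisor K F, s17_Adm T → ∀ j,
      (∀ k, s17_basis (s17_B P₀ g m + T j) m k ∈ riemannRochSpace (s17_B P₀ g m + T j)) ∧
        LinearIndependent K (s17_basis (s17_B P₀ g m + T j) m) := fun T hT j =>
    s17p_basis_spec _ m (hR.fin _) (hl T hT j)
  -- goodness depends only on the class
  obtain ⟨w, hw, hword⟩ := id hlin
  have hcls : ∀ D : Divisor K F, riemannRochSpace (D - s17_div A) = ⊥ ↔
      riemannRochSpace (D - s17_div A') = ⊥ := by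
    intro D
    constructor
    · exact s17p_L_bot_of_linEq hw (fun v => (hword v).symm)
    · refine s17p_L_bot_of_linEq (inv_ne_zero hw) (fun v => ?_)
      rw [Place.ord_inv, ← hword v]
      simp only [Finsupp.sub_apply]
      ring
  -- bad triples: both values vanish
  have hbad : ∀ T : Fin 3 → Divisor K F, s17_Adm T →
      (¬ ∀ j, riemannRochSpace (s17_B P₀ g m + T j - s17_div A) = ⊥) →
      s17_thetaVal X P₀ g m T A = 0 ∧ s17_thetaVal X P₀ g m T A' = 0 := by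
    intro T hT hnot
    push Not at hnot
    obtain ⟨j, hj⟩ := hnot
    have hj' : riemannRochSpace (s17_B P₀ g m + T j - s17_div A') ≠ ⊥ := fun h =>
      hj ((hcls _).mpr h)
    have hsp := s17p_span_of_li (s17_B P₀ g m + T j) (s17_basis (s17_B P₀ g m + T j) m)
      (hR.fin _) (hspec T hT j).1 (hspec T hT j).2 (hl T hT j)
    rw [s17p_thetaVal_eq, s17p_thetaVal_eq]
    exact ⟨Finset.prod_eq_zero (Finset.mem_univ j) (s17p_det_jet_eq_zero X A _ _ hsp hj),
      Finset.prod_eq_zero (Finset.mem_univ j) (s17p_det_jet_eq_zero X A' _ _ hsp hj')⟩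
  by_cases hex : ∃ T₀ : Fin 3 → Divisor K F, s17_Adm T₀ ∧
      ∀ j, riemannRochSpace (s17_B P₀ g m + T₀ j - s17_div A) = ⊥
  swap
  · refine ⟨1, one_ne_zero, fun T hT => ?_⟩
    have hnot : ¬ ∀ j, riemannRochSpace (s17_B P₀ g m + T j - s17_div A) = ⊥ := fun h =>
      hex ⟨T, hT, h⟩
    obtain ⟨h1, h2⟩ := hbad T hT hnot
    rw [h1, h2, mul_zero]
  obtain ⟨T₀, hT₀, hgood₀⟩ := hex
  obtain ⟨u₁, u₂, hu₁, hu₂, hpol₁, hpol₂, hzero⟩ := s17p_exists_pencils hC hm hBig A A' hlin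
  -- the reference values are non-zero
  have hne₀ : s17_thetaVal X P₀ g m T₀ A ≠ 0 := by
    rw [s17p_thetaVal_eq]
    exact Finset.prod_ne_zero_iff.mpr fun j _ => s17p_det_jet_ne_zero X A _ _
      (s17p_sys_of_bot A _ _ (hspec T₀ hT₀ j).1 (hspec T₀ hT₀ j).2 (hgood₀ j))
  have hne₀' : s17_thetaVal X P₀ g m T₀ A' ≠ 0 := by
    rw [s17p_thetaVal_eq]
    exact Finset.prod_ne_zero_iff.mpr fun j _ => s17p_det_jet_ne_zero X A' _ _
      (s17p_sys_of_bot A' _ _ (hspec T₀ hT₀ j).1 (hspec T₀ hT₀ j).2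
        ((hcls _).mp (hgood₀ j)))
  refine ⟨s17_thetaVal X P₀ g m T₀ A' / s17_thetaVal X P₀ g m T₀ A,
    div_ne_zero hne₀' hne₀, fun T hT => ?_⟩
  by_cases hgood : ∀ j, riemannRochSpace (s17_B P₀ g m + T j - s17_div A) = ⊥
  · have hsum : ∀ v : Place K F,
        ((fun j => s17_B P₀ g m + T j) 0 - (fun j => s17_B P₀ g m + T₀ j) 0) v
          + ((fun j => s17_B P₀ g m + T j) 1 - (fun j => s17_B P₀ g m + T₀ j) 1) v
          + ((fun j => s17_B P₀ g m + T j) 2 - (fun j => s17_B P₀ g m + T₀ j) 2) v = 0 := by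
      intro v
      have h1 := DFunLike.congr_fun hT.2 v
      have h2 := DFunLike.congr_fun hT₀.2 v
      simp only [Finsupp.add_apply, Finsupp.sub_apply, Finsupp.zero_apply] at h1 h2 ⊢
      omega
    obtain ⟨μ, h1, h2⟩ := s17p_ratio hC X A A' hu₁ hu₂ hpol₁ hpol₂ hzero
      (fun j => s17_B P₀ g m + T₀ j) (fun j => s17_B P₀ g m + T j) hsum
      (fun j => s17_basis (s17_B P₀ g m + T₀ j) m) (fun j => s17_basis (s17_B P₀ g m + T j) m)
      (fun j => (hspec T₀ hT₀ j).1) (fun j => (hspec T₀ hT₀ j).2) hgood₀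
      (fun j => (hcls _).mp (hgood₀ j))
      (fun j => (hspec T hT j).1) (fun j => (hspec T hT j).2) hgood
      (fun j => (hcls _).mp (hgood j))
    rw [s17p_thetaVal_eq X P₀ g m T A', s17p_thetaVal_eq X P₀ g m T A, h1, h2,
      ← s17p_thetaVal_eq, ← s17p_thetaVal_eq]
    field_simp
  · obtain ⟨h1, h2⟩ := hbad T hT hgood
    rw [h1, h2, mul_zero]

end Fermat.Agent.Lib.S17
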