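/-
Programme MW (S17), contract [G0] `s17_Genus0` (helper8): on a curve of genus `0` every divisor
of degree `0` is principal (Riemann: `ℓ(D) ≥ 1`; `div f + D` is effective of degree `0`).
-/
import Fermat.Agent.Lib.S17.Iface
import Fermat.Agent.Lib.S19.NNonSp

set_option autoImplicit false

noncomputable section

open AlgebraicCurve Fermat.Agent.Lib.S19

namespace Fermat.Agent.Lib.S17

theorem s17p_principal_of_degree_zero {K F : Type} [Field K] [Field F] [Algebra K F]
    (hC : s17_Curve K F 0) (D : Divisor K F) (hD : Divisor.degree D = 0) :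
    D ∈ Divisor.principal (K := K) (F := F) := by
  have := hC.pd
  have hfin := hC.riemann.fin D
  have hineq := hC.riemann.ineq D
  rw [hD] at hineq
  have hpos : 0 < Module.finrank K ↥(riemannRochSpace D) := by
    have : (1 : ℤ) ≤ (Module.finrank K ↥(riemannRochSpace D) : ℤ) := by
      simpa using hineq
    exact_mod_cast this
  have hnb : riemannRochSpace D ≠ ⊥ := by
    intro h
    rw [h, finrank_bot] at hpos
    exact lt_irrefl _ hpos
  obtain ⟨f, hf, hf0⟩ := Submodule.exists_mem_ne_zero_of_ne_bot hnb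
  obtain ⟨Df, hDf, hdegf⟩ := HasPrincipalDivisors.exists_divisor (K := K) f hf0
  have hnn : ∀ v, 0 ≤ (Df + D) v := by
    intro v
    rw [Finsupp.add_apply, hDf v]
    have := ((mem_riemannRochSpace_iff.mp hf) v).resolve_left hf0
    omega
  have hdeg0 : Divisor.degree (Df + D) = 0 := by rw [map_add, hdegf, hD, add_zero]
  have hzero : Df + D = 0 := by
    ext v
    have h1 := s19n_not_pos_of_degree_zero hC.deg1 hnn hdeg0 v
    have h2 := hnn v
    rw [Finsupp.zero_apply]
    omega
  have hDeq : D = -Df := by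
    rw [eq_neg_iff_add_eq_zero, add_comm]; exact hzero
  rw [hDeq]
  exact (Divisor.principal (K := K) (F := F)).neg_mem ⟨f, hf0, hDf⟩

/-- **[G0]** genus zero: `Pic⁰` is trivial. -/
theorem s17p_genus0 : s17_Genus0 := by
  intro K F _ _ _ _ hC x
  obtain ⟨D, rfl⟩ := Pic0.mk_surjective x
  show Pic0.mk D = 0
  unfold Pic0.mk
  rw [QuotientAddGroup.eq_zero_iff, AddSubgroup.mem_addSubgroupOf]
  exact s17p_principal_of_degree_zero hC D.1 D.2

end Fermat.Agent.Lib.S17
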