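/-
Programme MW (S17), brick [FCG] (helper9), abstract part: FINITENESS OF THE FROBENIUS-FIXED DIVISOR
CLASSES of a function field `F / k` whose places all have degree one.

Setting: `HasPrincipalDivisors k F`, all `L(D)` finite-dimensional, `L(D) ≠ 0` as soon as
`deg D ≥ g` (Riemann), a semilinear automorphism `ψ` fixing a place `P₀`, and for every `d ≥ 1`
only finitely many places fixed by `ψ ^ d`.  Then `{c : Pic0 k F | ψ • c = c}` is finite.

Proof: for a class `c` let `m` be minimal with `L(c + m P₀) ≠ 0`; then `m ≤ g` and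
`dim L(c + m P₀) = 1`, so there is a UNIQUE effective divisor `E` in the class `c + m P₀`;
if `ψ • c = c` uniqueness gives `ψ • E = E`.  An effective `ψ`-stable divisor of degree `≤ g` is
supported on places fixed by `ψ ^ (g!)` (pigeonhole on the orbit) with coefficients `≤ g`:
finitely many.
-/
import Fermat.Agent.Lib.S44.RRiemIneq
import Fermat.Prelude.Def_AlgebraicCurve_BaseChangeGalois

set_option autoImplicit false
set_option linter.unusedSectionVars false
set_option linter.unusedVariables false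
set_option linter.style.haveILetI false

noncomputable section

namespace Fermat.Agent.Lib.S17

open AlgebraicCurve Fermat.Agent.Lib.FF Fermat.Agent.Lib.S44

variable {k F : Type*} [Field k] [Field F] [Algebra k F]

/-- the degree is the sum of the coefficients when all places have degree one. -/
theorem s17f_degree_eq_sum (hdeg : ∀ P : Place k F, P.deg = 1) (D : Divisor k F) :
    Divisor.degree D = D.sum fun _ n => n := by
  rw [Divisor.degree, Finsupp.liftAddHom_apply]
  refine Finsupp.sum_congr fun v _ => ?_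
  rw [AddMonoidHom.coe_mulRight, hdeg v]
  simp

theorem s17f_degree_nonneg (hdeg : ∀ P : Place k F, P.deg = 1) {E : Divisor k F} (hE : 0 ≤ E) :
    0 ≤ Divisor.degree E := by
  rw [s17f_degree_eq_sum hdeg]
  exact Finsupp.sum_nonneg fun v _ => Finsupp.le_def.mp hE v

/-- a coefficient of an effective divisor is at most its degree. -/
theorem s17f_apply_le_degree (hdeg : ∀ P : Place k F, P.deg = 1) {E : Divisor k F} (hE : 0 ≤ E)
    (P : Place k F) : E P ≤ Divisor.degree E := by
  rw [s17f_degree_eq_sum hdeg, Finsupp.sum]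
  by_cases hP : P ∈ E.support
  · exact Finset.single_le_sum (f := fun v => E v) (fun v _ => Finsupp.le_def.mp hE v) hP
  · rw [Finsupp.notMem_support_iff.mp hP]
    exact Finset.sum_nonneg fun v _ => Finsupp.le_def.mp hE v

/-- the support of an effective divisor has at most `deg` elements. -/
theorem s17f_card_support_le (hdeg : ∀ P : Place k F, P.deg = 1) {E : Divisor k F} (hE : 0 ≤ E) :
    (E.support.card : ℤ) ≤ Divisor.degree E := by
  rw [s17f_degree_eq_sum hdeg, Finsupp.sum]
  have h1 : ∀ v ∈ E.support, (1 : ℤ) ≤ E v := by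
    intro v hv
    have h0 : 0 ≤ E v := Finsupp.le_def.mp hE v
    have hne : E v ≠ 0 := Finsupp.mem_support_iff.mp hv
    omega
  calc (E.support.card : ℤ) = ∑ _v ∈ E.support, (1 : ℤ) := by simp
    _ ≤ ∑ v ∈ E.support, E v := Finset.sum_le_sum h1

/-- `L(D) = 0` when `deg D < 0`. -/
theorem s17f_L_eq_bot_of_degree_neg [HasPrincipalDivisors k F]
    (hdeg : ∀ P : Place k F, P.deg = 1) {D : Divisor k F} (hD : Divisor.degree D < 0) :
    riemannRochSpace D = ⊥ := by
  rw [Submodule.eq_bot_iff]
  intro f hf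
  by_contra hf0
  obtain ⟨Df, hDf, hDf0⟩ := HasPrincipalDivisors.exists_divisor (K := k) f hf0
  have h1 : 0 ≤ D + Df := by
    rw [Finsupp.le_def]
    intro v
    rw [Finsupp.add_apply, hDf v]
    exact (s44rm_mem_L hf0).mp hf v
  have h2 := s17f_degree_nonneg hdeg h1
  rw [map_add, hDf0, add_zero] at h2
  omega

/-- the divisor of `ψ • f` is `ψ •` the divisor of `f`. -/
theorem s17f_smul_divisor (ψ : SemilinearAut k F) {f : F} {Df : Divisor k F}
    (hDf : ∀ v : Place k F, Df v = v.ord f) (w : Place k F) :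
    (ψ • Df) w = w.ord (ψ • f) := by
  rw [SemilinearAut.divisor_smul_apply, hDf]
  have h := SemilinearAut.ord_smul ψ (ψ⁻¹ • w) f
  rw [smul_inv_smul] at h
  exact h.symm

theorem s17f_smul_nonneg (ψ : SemilinearAut k F) {E : Divisor k F} (hE : 0 ≤ E) : 0 ≤ ψ • E := by
  rw [Finsupp.le_def]
  intro w
  rw [SemilinearAut.divisor_smul_apply]
  exact Finsupp.le_def.mp hE _

theorem s17f_smul_ne_zero (ψ : SemilinearAut k F) {f : F} (hf : f ≠ 0) : ψ • f ≠ 0 := by
  intro h
  apply hf
  have := congrArg (ψ⁻¹ • ·) h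
  simpa using this

/-- a `ψ`-stable divisor is constant on `ψ`-orbits. -/
theorem s17f_apply_pow_smul (ψ : SemilinearAut k F) {E : Divisor k F} (hE : ψ • E = E)
    (P : Place k F) (i : ℕ) : E (ψ ^ i • P) = E P := by
  induction i with
  | zero => rw [pow_zero, one_smul]
  | succ n ih =>
    rw [pow_succ', mul_smul]
    have h := SemilinearAut.divisor_smul_apply_smul ψ E (ψ ^ n • P)
    rw [hE] at h
    rw [h, ih]

section Main

variable [HasPrincipalDivisors k F] (hdeg : ∀ P : Place k F, P.deg = 1)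
  (hfin : ∀ D : Divisor k F, Module.Finite k ↥(riemannRochSpace D)) (g : ℕ)
  (hR : ∀ D : Divisor k F, (g : ℤ) ≤ Divisor.degree D → riemannRochSpace D ≠ ⊥)
  (ψ : SemilinearAut k F) (P₀ : Place k F) (hP₀ : ψ • P₀ = P₀)

include hdeg hfin hR hP₀ in
/-- **the canonical representative of a `ψ`-fixed class is `ψ`-stable.** -/
theorem s17f_exists_fixed_rep (D₀ : Divisor.degZero (K := k) (F := F))
    (hc : ψ • Pic0.mk D₀ = Pic0.mk D₀) :
    ∃ (m : ℕ) (E : Divisor k F), m ≤ g ∧ 0 ≤ E ∧ Divisor.degree E = m ∧ ψ • E = E ∧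
      (E - Finsupp.single P₀ (m : ℤ)) - (D₀ : Divisor k F) ∈
        Divisor.principal (K := k) (F := F) := by
  classical
  have hD₀ : Divisor.degree (D₀ : Divisor k F) = 0 := D₀.2
  set B : ℕ → Divisor k F := fun m => (D₀ : Divisor k F) + Finsupp.single P₀ (m : ℤ) with hB
  have hBdeg : ∀ m : ℕ, Divisor.degree (B m) = m := fun m => by
    rw [hB]
    simp only [map_add, hD₀, Divisor.degree_single, hdeg P₀, zero_add, Nat.cast_one, mul_one]
  have hex : ∃ m : ℕ, riemannRochSpace (B m) ≠ ⊥ := ⟨g, hR _ (by rw [hBdeg])⟩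
  set m₀ := Nat.find hex with hm₀
  have hm₀g : m₀ ≤ g := Nat.find_min' hex (hR _ (by rw [hBdeg]))
  have hm₀ne : riemannRochSpace (B m₀) ≠ ⊥ := Nat.find_spec hex
  -- the previous space vanishes
  have hprev : riemannRochSpace (B m₀ - Finsupp.single P₀ 1) = ⊥ := by
    rcases Nat.eq_zero_or_pos m₀ with h0 | hpos
    · apply s17f_L_eq_bot_of_degree_neg hdeg
      rw [map_sub, hBdeg, h0, Divisor.degree_single, hdeg P₀]
      norm_num
    · have hlt : m₀ - 1 < m₀ := by omega
      have := Nat.find_min hex hlt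
      rw [not_not] at this
      have hBm : B m₀ - Finsupp.single P₀ 1 = B (m₀ - 1) := by
        rw [hB]
        simp only
        rw [add_sub_assoc, ← Finsupp.single_sub]
        congr 2
        omega
      rw [hBm]
      exact this
  -- hence the dimension is one
  haveI hres : Module.Finite k P₀.ResidueField := by
    have h := hdeg P₀
    unfold Place.deg at h
    exact Module.finite_of_finrank_pos (by rw [h]; exact Nat.one_pos)
  have hle1 : Module.finrank k ↥(riemannRochSpace (B m₀)) ≤ 1 := by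
    have hsplit : B m₀ = (B m₀ - Finsupp.single P₀ 1) + Finsupp.single P₀ 1 := by abel
    haveI : Module.Finite k
        ↥(riemannRochSpace ((B m₀ - Finsupp.single P₀ 1) + Finsupp.single P₀ 1)) := hfin _
    have h1 := s44rm_step_finrank_le (K := k) (F := F) (D := B m₀ - Finsupp.single P₀ 1)
      (P := P₀)
    haveI := hfin (B m₀ - Finsupp.single P₀ 1)
    have h2 : Module.finrank k ↥(riemannRochSpace (B m₀ - Finsupp.single P₀ 1)) = 0 :=
      Submodule.finrank_eq_zero.mpr hprev
    rw [h2, hdeg P₀, zero_add, ← hsplit] at h1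
    exact h1
  -- a nonzero element
  obtain ⟨f, hfL, hf0⟩ := Submodule.exists_mem_ne_zero_of_ne_bot hm₀ne
  obtain ⟨Df, hDf, hDf0⟩ := HasPrincipalDivisors.exists_divisor (K := k) f hf0
  -- every element of the space is a multiple of `f`
  have hmult : ∀ h ∈ riemannRochSpace (B m₀), ∃ a : k, h = a • f := by
    intro h hh
    haveI := hfin (B m₀)
    obtain ⟨v₀, hv₀⟩ := finrank_le_one_iff.mp hle1
    obtain ⟨c₁, hc₁⟩ := hv₀ ⟨f, hfL⟩
    obtain ⟨c₂, hc₂⟩ := hv₀ ⟨h, hh⟩
    have hc₁' : c₁ • (v₀ : F) = f := congrArg Subtype.val hc₁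
    have hc₂' : c₂ • (v₀ : F) = h := congrArg Subtype.val hc₂
    have hc₁0 : c₁ ≠ 0 := by
      rintro rfl
      rw [zero_smul] at hc₁'
      exact hf0 hc₁'.symm
    refine ⟨c₂ * c₁⁻¹, ?_⟩
    rw [← hc₁', ← hc₂', smul_smul, mul_assoc, inv_mul_cancel₀ hc₁0, mul_one]
  set E : Divisor k F := B m₀ + Df with hE
  have hE0 : 0 ≤ E := by
    rw [Finsupp.le_def]
    intro v
    rw [hE, Finsupp.add_apply, hDf v]
    exact (s44rm_mem_L hf0).mp hfL v
  have hEdeg : Divisor.degree E = m₀ := by rw [hE, map_add, hBdeg, hDf0, add_zero]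
  refine ⟨m₀, E, hm₀g, hE0, hEdeg, ?_, ?_⟩
  · -- stability
    -- the class is fixed: `D₀ - ψ • D₀` is principal
    rw [SemilinearAut.pic0_smul_mk] at hc
    have hc' := QuotientAddGroup.eq.mp hc
    rw [AddSubgroup.mem_addSubgroupOf] at hc'
    obtain ⟨u, hu0, hu⟩ := hc'
    have hu' : ∀ v : Place k F, v.ord u = (D₀ : Divisor k F) v - (ψ • (D₀ : Divisor k F)) v := by
      intro v
      have := hu v
      rw [AddSubgroup.coe_add, AddSubgroup.coe_neg, SemilinearAut.coe_degZeroSMulHom,
        Finsupp.add_apply, Finsupp.neg_apply] at this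
      omega
    -- `ψ • E = B m₀ + div (ψ f / u)`
    have hψf0 : ψ • f ≠ 0 := s17f_smul_ne_zero ψ hf0
    set w : F := ψ • f * u⁻¹ with hw
    have hw0 : w ≠ 0 := mul_ne_zero hψf0 (inv_ne_zero hu0)
    have hψE : ∀ v : Place k F, (ψ • E) v = B m₀ v + v.ord w := by
      intro v
      rw [hE, smul_add, Finsupp.add_apply, s17f_smul_divisor ψ hDf, hw,
        v.ord_mul hψf0 (inv_ne_zero hu0), v.ord_inv, hu' v, hB]
      simp only [smul_add, SemilinearAut.smul_single, hP₀, Finsupp.add_apply]
      ring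
    have hwL : w ∈ riemannRochSpace (B m₀) := by
      rw [s44rm_mem_L hw0]
      intro v
      rw [← hψE v]
      exact Finsupp.le_def.mp (s17f_smul_nonneg ψ hE0) v
    obtain ⟨a, ha⟩ := hmult w hwL
    have ha0 : a ≠ 0 := by
      rintro rfl
      rw [zero_smul] at ha
      exact hw0 ha
    ext v
    have h1 : E v = B m₀ v + v.ord f := by rw [hE, Finsupp.add_apply, hDf v]
    rw [hψE v, h1, ha, Algebra.smul_def,
      v.ord_mul ((map_ne_zero (algebraMap k F)).mpr ha0) hf0, ff_ord_algebraMap, zero_add]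
  · -- the class
    refine ⟨f, hf0, fun v => ?_⟩
    rw [hE, hB, ← hDf v]
    simp only [Finsupp.sub_apply, Finsupp.add_apply]
    ring

include hdeg in
/-- an effective `ψ`-stable divisor of degree `≤ g` is supported on the places fixed by
`ψ ^ (g !)`. -/
theorem s17f_support_fixed {E : Divisor k F} (hE0 : 0 ≤ E)
    (hEg : Divisor.degree E ≤ g) (hE : ψ • E = E) (P : Place k F) (hP : P ∈ E.support) :
    ψ ^ (g.factorial) • P = P := by
  classical
  -- the orbit map `Fin (g+1) → support`
  have hmem : ∀ i : ℕ, ψ ^ i • P ∈ E.support := fun i => by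
    rw [Finsupp.mem_support_iff, s17f_apply_pow_smul ψ hE P i]
    exact Finsupp.mem_support_iff.mp hP
  have hcard : E.support.card < (Finset.range (g + 1)).card := by
    rw [Finset.card_range]
    have := s17f_card_support_le hdeg hE0
    have : (E.support.card : ℤ) ≤ g := le_trans this hEg
    omega
  obtain ⟨i, hi, j, hj, hij, heq⟩ := Finset.exists_ne_map_eq_of_card_lt_of_maps_to hcard
    (f := fun i => ψ ^ i • P) (fun i _ => hmem i)
  rw [Finset.mem_range] at hi hj
  -- wlog `i < j`
  have key : ∀ a b : ℕ, a < b → b ≤ g → ψ ^ a • P = ψ ^ b • P → ψ ^ (g.factorial) • P = P := by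
    intro a b hab hb h
    have hd : ψ ^ (b - a) • P = P := by
      have h1 : ψ ^ b = ψ ^ a * ψ ^ (b - a) := by rw [← pow_add]; congr 1; omega
      rw [h1, mul_smul] at h
      exact (MulAction.injective (ψ ^ a) h).symm
    have hdvd : (b - a) ∣ g.factorial := Nat.dvd_factorial (by omega) (by omega)
    obtain ⟨c, hc⟩ := hdvd
    rw [hc, pow_mul]
    have : ∀ n : ℕ, (ψ ^ (b - a)) ^ n • P = P := by
      intro n
      induction n with
      | zero => rw [pow_zero, one_smul]
      | succ n ih => rw [pow_succ, mul_smul, hd, ih]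
    exact this c
  rcases lt_or_gt_of_ne hij with h | h
  · exact key i j h (by omega) heq
  · exact key j i h (by omega) heq.symm

include hdeg in
/-- **finitely many effective `ψ`-stable divisors of degree `≤ g`.** -/
theorem s17f_finite_stable
    (hT : ∀ d : ℕ, 0 < d → {P : Place k F | ψ ^ d • P = P}.Finite) :
    {E : Divisor k F | 0 ≤ E ∧ Divisor.degree E ≤ g ∧ ψ • E = E}.Finite := by
  classical
  have hTfin := hT g.factorial (Nat.factorial_pos g)
  set T : Finset (Place k F) := hTfin.toFinset with hTdef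
  -- the set injects into functions `T → Fin (g+1)`
  let Φ : (↥T → Fin (g + 1)) → Divisor k F := fun φ =>
    Finsupp.onFinset T (fun P => if h : P ∈ T then ((φ ⟨P, h⟩ : ℕ) : ℤ) else 0) (by
      intro P hP
      by_contra hPT
      rw [dif_neg hPT] at hP
      exact hP rfl)
  refine Set.Finite.subset (Set.finite_range Φ) ?_
  rintro E ⟨hE0, hEg, hE⟩
  have hsupp : ∀ P ∈ E.support, P ∈ T := fun P hP => by
    rw [hTdef, Set.Finite.mem_toFinset]
    exact s17f_support_fixed hdeg g ψ hE0 hEg hE P hP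
  have hle : ∀ P, E P ≤ g := fun P => le_trans (s17f_apply_le_degree hdeg hE0 P) hEg
  have h0 : ∀ P, 0 ≤ E P := fun P => Finsupp.le_def.mp hE0 P
  refine ⟨fun P => ⟨(E P).toNat, by have := hle P; have := h0 P; omega⟩, ?_⟩
  ext P
  show (Finsupp.onFinset T _ _) P = E P
  rw [Finsupp.onFinset_apply]
  by_cases hPT : P ∈ T
  · rw [dif_pos hPT]
    show (((E P).toNat : ℕ) : ℤ) = E P
    exact Int.toNat_of_nonneg (h0 P)
  · rw [dif_neg hPT]
    by_contra hne
    exact hPT (hsupp P (Finsupp.mem_support_iff.mpr (Ne.symm hne)))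

include hdeg hfin hR hP₀ in
/-- **[FCG], abstract form: the `ψ`-fixed divisor classes of degree zero are finitely many.** -/
theorem s17f_finite_fixed_abs
    (hT : ∀ d : ℕ, 0 < d → {P : Place k F | ψ ^ d • P = P}.Finite) :
    {c : Pic0 k F | ψ • c = c}.Finite := by
  classical
  have hS := s17f_finite_stable hdeg g ψ hT
  -- the class of `E - m P₀`
  let Θ : ℕ → Divisor k F → Pic0 k F := fun m E =>
    if h : E - Finsupp.single P₀ (m : ℤ) ∈ Divisor.degZero (K := k) (F := F) then
      Pic0.mk ⟨E - Finsupp.single P₀ (m : ℤ), h⟩ else 0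
  have hfin2 : (Set.image2 Θ (↑(Finset.range (g + 1)) : Set ℕ)
      {E : Divisor k F | 0 ≤ E ∧ Divisor.degree E ≤ g ∧ ψ • E = E}).Finite :=
    Set.Finite.image2 Θ (Finset.finite_toSet _) hS
  refine Set.Finite.subset hfin2 ?_
  intro c hc
  obtain ⟨D₀, rfl⟩ := Pic0.mk_surjective c
  obtain ⟨m, E, hmg, hE0, hEdeg, hEψ, hprin⟩ :=
    s17f_exists_fixed_rep hdeg hfin g hR ψ P₀ hP₀ D₀ hc
  refine ⟨m, ?_, E, ⟨hE0, by rw [hEdeg]; exact_mod_cast hmg, hEψ⟩, ?_⟩
  · rw [Finset.coe_range, Set.mem_Iio]
    omega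
  · have hmem : E - Finsupp.single P₀ (m : ℤ) ∈ Divisor.degZero (K := k) (F := F) := by
      rw [Divisor.mem_degZero, map_sub, hEdeg, Divisor.degree_single, hdeg P₀]
      simp
    show (if h : E - Finsupp.single P₀ (m : ℤ) ∈ Divisor.degZero (K := k) (F := F) then
      Pic0.mk ⟨E - Finsupp.single P₀ (m : ℤ), h⟩ else 0) = Pic0.mk D₀
    rw [dif_pos hmem]
    symm
    apply QuotientAddGroup.eq.mpr
    rw [AddSubgroup.mem_addSubgroupOf]
    have : ((-D₀ + ⟨E - Finsupp.single P₀ (m : ℤ), hmem⟩ :
        Divisor.degZero (K := k) (F := F)) : Divisor k F) =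
        (E - Finsupp.single P₀ (m : ℤ)) - (D₀ : Divisor k F) := by
      rw [AddSubgroup.coe_add, AddSubgroup.coe_neg]
      abel
    rw [this]
    exact hprin

end Main

end Fermat.Agent.Lib.S17
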