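/-
Programme MW (S17), brick [RATREP] (helper9, prefix `s17r_`): `s17r_ratRep : s17_RatRep`.

A class `x ∈ Pic⁰` fixed by a group of semilinear automorphisms fixing `P₀` is represented by a
tuple `A : Fin m → Place` (`m ≥ g`) which is stable up to permutation.

Proof: the canonical effective divisor `E_x` (minimal `d` with `L(x + d P₀) ≠ 0`, then `d ≤ g` and
`dim L = 1`) depends only on `x` and `P₀`, hence is stable under every automorphism fixing `x` and
`P₀` (`s17r_exists_canon`, the uniform version of `s17f_exists_fixed_rep`); enumerate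
`E_x + (m - d) P₀` as a tuple (`s17r_exists_tuple`); two tuples with the same divisor differ by a
permutation (`s17r_exists_perm`).
-/
import Fermat.Agent.Lib.S17.Iface
import Fermat.Agent.Lib.S17.FFixAbs

set_option autoImplicit false
set_option linter.unusedSectionVars false
set_option linter.unusedVariables false
set_option linter.style.haveILetI false

noncomputable section

namespace Fermat.Agent.Lib.S17

open AlgebraicCurve Fermat.Agent.Lib.FF Fermat.Agent.Lib.S44 Fermat.Agent.Lib.S19

section Canon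

variable {k F : Type*} [Field k] [Field F] [Algebra k F] [HasPrincipalDivisors k F]
  (hdeg : ∀ P : Place k F, P.deg = 1)
  (hfin : ∀ D : Divisor k F, Module.Finite k ↥(riemannRochSpace D)) (g : ℕ)
  (hR : ∀ D : Divisor k F, (g : ℤ) ≤ Divisor.degree D → riemannRochSpace D ≠ ⊥)
  (P₀ : Place k F)

include hdeg hfin hR in
/-- **the canonical representative** `E - d P₀` of a class, `d ≤ g` minimal: it is stable under
every semilinear automorphism fixing the class and `P₀`. -/
theorem s17r_exists_canon (D₀ : Divisor.degZero (K := k) (F := F)) :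
    ∃ (m : ℕ) (E : Divisor k F), m ≤ g ∧ 0 ≤ E ∧ Divisor.degree E = m ∧
      ((E - Finsupp.single P₀ (m : ℤ)) - (D₀ : Divisor k F) ∈
        Divisor.principal (K := k) (F := F)) ∧
      ∀ ψ : SemilinearAut k F, ψ • P₀ = P₀ → ψ • Pic0.mk D₀ = Pic0.mk D₀ → ψ • E = E := by
  classical
  have hD₀ : Divisor.degree (D₀ : Divisor k F) = 0 := D₀.2
  set B : ℕ → Divisor k F := fun m => (D₀ : Divisor k F) + Finsupp.single P₀ (m : ℤ) with hB
  have hBdeg : ∀ m : ℕ, Divisor.degree (B m) = m := fun m => by
    rw [hB]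
    simp only [map_add, hD₀, Divisor.degree_single, hdeg P₀, zero_add, Nat.cast_one, mul_one]
  have hex : ∃ m : ℕ, riemannRochSpace (B m) ≠ ⊥ := ⟨g, hR _ (by rw [hBdeg])⟩
  set m₀ := Nat.find hex with hm₀
  have hm₀g : m₀ ≤ g := Nat.find_min' hex (hR _ (by rw [hBdeg]))
  have hm₀ne : riemannRochSpace (B m₀) ≠ ⊥ := Nat.find_spec hex
  -- the previous space vanishes
  have hprev : riemannRochSpace (B m₀ - Finsupp.single P₀ 1) = ⊥ := by
    rcases Nat.eq_zero_or_pos m₀ with h0 | hpos
    · apply s17f_L_eq_bot_of_degree_neg hdeg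
      rw [map_sub, hBdeg, h0, Divisor.degree_single, hdeg P₀]
      norm_num
    · have hlt : m₀ - 1 < m₀ := by omega
      have := Nat.find_min hex hlt
      rw [not_not] at this
      have hBm : B m₀ - Finsupp.single P₀ 1 = B (m₀ - 1) := by
        rw [hB]
        simp only
        rw [add_sub_assoc, ← Finsupp.single_sub]
        congr 2
        omega
      rw [hBm]
      exact this
  -- hence the dimension is one
  haveI hres : Module.Finite k P₀.ResidueField := by
    have h := hdeg P₀
    unfold Place.deg at h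
    exact Module.finite_of_finrank_pos (by rw [h]; exact Nat.one_pos)
  have hle1 : Module.finrank k ↥(riemannRochSpace (B m₀)) ≤ 1 := by
    have hsplit : B m₀ = (B m₀ - Finsupp.single P₀ 1) + Finsupp.single P₀ 1 := by abel
    haveI : Module.Finite k
        ↥(riemannRochSpace ((B m₀ - Finsupp.single P₀ 1) + Finsupp.single P₀ 1)) := hfin _
    have h1 := s44rm_step_finrank_le (K := k) (F := F) (D := B m₀ - Finsupp.single P₀ 1)
      (P := P₀)
    haveI := hfin (B m₀ - Finsupp.single P₀ 1)
    have h2 : Module.finrank k ↥(riemannRochSpace (B m₀ - Finsupp.single P₀ 1)) = 0 :=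
      Submodule.finrank_eq_zero.mpr hprev
    rw [h2, hdeg P₀, zero_add, ← hsplit] at h1
    exact h1
  -- a nonzero element
  obtain ⟨f, hfL, hf0⟩ := Submodule.exists_mem_ne_zero_of_ne_bot hm₀ne
  obtain ⟨Df, hDf, hDf0⟩ := HasPrincipalDivisors.exists_divisor (K := k) f hf0
  -- every element of the space is a multiple of `f`
  have hmult : ∀ h ∈ riemannRochSpace (B m₀), ∃ a : k, h = a • f := by
    intro h hh
    haveI := hfin (B m₀)
    obtain ⟨v₀, hv₀⟩ := finrank_le_one_iff.mp hle1
    obtain ⟨c₁, hc₁⟩ := hv₀ ⟨f, hfL⟩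
    obtain ⟨c₂, hc₂⟩ := hv₀ ⟨h, hh⟩
    have hc₁' : c₁ • (v₀ : F) = f := congrArg Subtype.val hc₁
    have hc₂' : c₂ • (v₀ : F) = h := congrArg Subtype.val hc₂
    have hc₁0 : c₁ ≠ 0 := by
      rintro rfl
      rw [zero_smul] at hc₁'
      exact hf0 hc₁'.symm
    refine ⟨c₂ * c₁⁻¹, ?_⟩
    rw [← hc₁', ← hc₂', smul_smul, mul_assoc, inv_mul_cancel₀ hc₁0, mul_one]
  set E : Divisor k F := B m₀ + Df with hE
  have hE0 : 0 ≤ E := by
    rw [Finsupp.le_def]
    intro v
    rw [hE, Finsupp.add_apply, hDf v]
    exact (s44rm_mem_L hf0).mp hfL v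
  have hEdeg : Divisor.degree E = m₀ := by rw [hE, map_add, hBdeg, hDf0, add_zero]
  refine ⟨m₀, E, hm₀g, hE0, hEdeg, ?_, ?_⟩
  · -- the class
    refine ⟨f, hf0, fun v => ?_⟩
    rw [hE, hB, ← hDf v]
    simp only [Finsupp.sub_apply, Finsupp.add_apply]
    ring
  · -- stability
    intro ψ hP₀ hc
    rw [SemilinearAut.pic0_smul_mk] at hc
    have hc' := QuotientAddGroup.eq.mp hc
    rw [AddSubgroup.mem_addSubgroupOf] at hc'
    obtain ⟨u, hu0, hu⟩ := hc'
    have hu' : ∀ v : Place k F, v.ord u = (D₀ : Divisor k F) v - (ψ • (D₀ : Divisor k F)) v := by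
      intro v
      have := hu v
      rw [AddSubgroup.coe_add, AddSubgroup.coe_neg, SemilinearAut.coe_degZeroSMulHom,
        Finsupp.add_apply, Finsupp.neg_apply] at this
      omega
    have hψf0 : ψ • f ≠ 0 := s17f_smul_ne_zero ψ hf0
    set w : F := ψ • f * u⁻¹ with hw
    have hw0 : w ≠ 0 := mul_ne_zero hψf0 (inv_ne_zero hu0)
    have hψE : ∀ v : Place k F, (ψ • E) v = B m₀ v + v.ord w := by
      intro v
      rw [hE, smul_add, Finsupp.add_apply, s17f_smul_divisor ψ hDf, hw,
        v.ord_mul hψf0 (inv_ne_zero hu0), v.ord_inv, hu' v, hB]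
      simp only [smul_add, SemilinearAut.smul_single, hP₀, Finsupp.add_apply]
      ring
    have hwL : w ∈ riemannRochSpace (B m₀) := by
      rw [s44rm_mem_L hw0]
      intro v
      rw [← hψE v]
      exact Finsupp.le_def.mp (s17f_smul_nonneg ψ hE0) v
    obtain ⟨a, ha⟩ := hmult w hwL
    have ha0 : a ≠ 0 := by
      rintro rfl
      rw [zero_smul] at ha
      exact hw0 ha
    ext v
    have h1 : E v = B m₀ v + v.ord f := by rw [hE, Finsupp.add_apply, hDf v]
    rw [hψE v, h1, ha, Algebra.smul_def,
      v.ord_mul ((map_ne_zero (algebraMap k F)).mpr ha0) hf0, ff_ord_algebraMap, zero_add]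

end Canon

section Tuples

variable {K F : Type} [Field K] [Field F] [Algebra K F]

open Classical in
/-- the coefficient of the divisor of a tuple = the number of occurrences. -/
theorem s17r_div_apply {m : ℕ} (A : Fin m → Place K F) (P : Place K F) :
    (s17_div A) P = ((Finset.univ.filter fun i : Fin m => A i = P).card : ℤ) := by
  classical
  rw [s17_div, Finsupp.finsetSum_apply]
  simp only [Finsupp.single_apply]
  rw [Finset.sum_boole]

/-- an effective divisor of degree `m` is the divisor of a tuple of length `m`. -/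
theorem s17r_exists_tuple (hdeg : ∀ P : Place K F, P.deg = 1) :
    ∀ (m : ℕ) (E : Divisor K F), 0 ≤ E → Divisor.degree E = m →
      ∃ A : Fin m → Place K F, s17_div A = E := by
  classical
  intro m
  induction m with
  | zero =>
    intro E hE hdegE
    refine ⟨Fin.elim0, ?_⟩
    have h0 : E = 0 := by
      ext P
      have h1 := s17f_apply_le_degree hdeg hE P
      have h2 : 0 ≤ E P := Finsupp.le_def.mp hE P
      rw [hdegE] at h1
      simp only [Nat.cast_zero] at h1
      rw [Finsupp.zero_apply]
      omega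
    rw [h0, s17_div]
    simp
  | succ m ih =>
    intro E hE hdegE
    have hne : E ≠ 0 := by
      rintro rfl
      rw [map_zero] at hdegE
      have : (0 : ℤ) = ((m + 1 : ℕ) : ℤ) := hdegE
      omega
    obtain ⟨P, hP⟩ : ∃ P, E P ≠ 0 := by
      by_contra hcon
      apply hne
      ext Q
      by_contra hQ
      exact hcon ⟨Q, hQ⟩
    have hP1 : 1 ≤ E P := by
      have h2 : 0 ≤ E P := Finsupp.le_def.mp hE P
      omega
    set E' : Divisor K F := E - Finsupp.single P 1 with hE'
    have hE'0 : 0 ≤ E' := by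
      rw [Finsupp.le_def]
      intro Q
      rw [hE', Finsupp.sub_apply, Finsupp.single_apply, Finsupp.zero_apply]
      have h2 : 0 ≤ E Q := Finsupp.le_def.mp hE Q
      split_ifs with hPQ
      · rw [← hPQ]; omega
      · omega
    have hE'deg : Divisor.degree E' = m := by
      rw [hE', map_sub, hdegE, Divisor.degree_single, hdeg P]
      push_cast
      ring
    obtain ⟨A', hA'⟩ := ih E' hE'0 hE'deg
    refine ⟨Fin.cons P A', ?_⟩
    rw [s17_div, Fin.sum_univ_succ]
    simp only [Fin.cons_zero, Fin.cons_succ]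
    have : (∑ i : Fin m, Finsupp.single (A' i) (1 : ℤ)) = E' := hA'
    rw [this, hE']
    abel

open Classical in
/-- two tuples with the same numbers of occurrences differ by a permutation. -/
theorem s17r_exists_perm {α : Type*} {m : ℕ} (A B : Fin m → α)
    (h : ∀ P : α, (Finset.univ.filter fun i : Fin m => B i = P).card =
      (Finset.univ.filter fun i : Fin m => A i = P).card) :
    ∃ π : Equiv.Perm (Fin m), ∀ i, B i = A (π i) := by
  classical
  have e : ∀ c : α, {i : Fin m // B i = c} ≃ {i : Fin m // A i = c} := fun c =>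
    Fintype.equivOfCardEq (by rw [Fintype.card_subtype, Fintype.card_subtype]; exact h c)
  exact ⟨Equiv.ofFiberEquiv e, fun i => (Equiv.ofFiberEquiv_map e i).symm⟩

end Tuples

/-- **[RATREP]**. -/
theorem s17r_ratRep : s17_RatRep := by
  classical
  intro K F _ _ _ _ g hC P₀ G _ ρ hP₀ m hgm x hx
  haveI := hC.pd
  obtain ⟨D₀, rfl⟩ := Pic0.mk_surjective x
  have hR : ∀ D : Divisor K F, (g : ℤ) ≤ Divisor.degree D → riemannRochSpace D ≠ ⊥ := by
    intro D hD hbot
    have h1 := hC.riemann.ineq D
    haveI := hC.riemann.fin D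
    have h2 : Module.finrank K ↥(riemannRochSpace D) = 0 := Submodule.finrank_eq_zero.mpr hbot
    rw [h2] at h1
    push_cast at h1
    omega
  obtain ⟨d, E, hdg, hE0, hEdeg, hprin, hstab⟩ :=
    s17r_exists_canon hC.deg1 hC.riemann.fin g hR P₀ D₀
  have hdm : d ≤ m := hdg.trans hgm
  set E' : Divisor K F := E + Finsupp.single P₀ ((m - d : ℕ) : ℤ) with hE'
  have hE'0 : 0 ≤ E' := by
    rw [Finsupp.le_def]
    intro Q
    rw [hE', Finsupp.add_apply, Finsupp.single_apply, Finsupp.zero_apply]
    have h2 : 0 ≤ E Q := Finsupp.le_def.mp hE0 Q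
    split_ifs
    · positivity
    · omega
  have hE'deg : Divisor.degree E' = m := by
    rw [hE', map_add, hEdeg, Divisor.degree_single, hC.deg1 P₀]
    push_cast [Nat.cast_sub hdm]
    ring
  obtain ⟨A, hA⟩ := s17r_exists_tuple hC.deg1 m E' hE'0 hE'deg
  have hdiff : s17_div A - Finsupp.single P₀ (m : ℤ) = E - Finsupp.single P₀ (d : ℤ) := by
    rw [hA, hE', Nat.cast_sub hdm, Finsupp.single_sub]
    abel
  refine ⟨A, ?_, fun σ => ?_⟩
  · have hmem : s17_div A - Finsupp.single P₀ (m : ℤ) ∈ Divisor.degZero (K := K) (F := F) := by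
      rw [hdiff, Divisor.mem_degZero, map_sub, hEdeg, Divisor.degree_single, hC.deg1 P₀]
      push_cast
      ring
    refine ⟨hmem, ?_⟩
    apply QuotientAddGroup.eq.mpr
    rw [AddSubgroup.mem_addSubgroupOf]
    have h1 : ((-(⟨s17_div A - Finsupp.single P₀ (m : ℤ), hmem⟩ :
        Divisor.degZero (K := K) (F := F)) + D₀ : Divisor.degZero (K := K) (F := F)) :
          Divisor K F) = -((E - Finsupp.single P₀ (d : ℤ)) - (D₀ : Divisor K F)) := by
      rw [AddSubgroup.coe_add, AddSubgroup.coe_neg]
      show -(s17_div A - Finsupp.single P₀ (m : ℤ)) + (D₀ : Divisor K F) = _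
      rw [hdiff]
      abel
    rw [h1]
    exact (Divisor.principal (K := K) (F := F)).neg_mem hprin
  · set ψ := ρ σ with hψ
    have hψE' : ψ • E' = E' := by
      rw [hE', smul_add, SemilinearAut.smul_single, hP₀ σ, hstab ψ (hP₀ σ) (hx σ)]
    refine s17r_exists_perm A (fun i => ψ • A i) fun P => ?_
    have h1 : (Finset.univ.filter fun i : Fin m => ψ • A i = P) =
        Finset.univ.filter fun i : Fin m => A i = ψ⁻¹ • P := by
      ext i
      simp only [Finset.mem_filter, Finset.mem_univ, true_and]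
      exact smul_eq_iff_eq_inv_smul ψ
    have h2 := s17r_div_apply A (ψ⁻¹ • P)
    have h3 := s17r_div_apply A P
    rw [hA] at h2 h3
    have h4 : E' (ψ⁻¹ • P) = E' P := by
      rw [← SemilinearAut.divisor_smul_apply, hψE']
    rw [h1]
    have : ((Finset.univ.filter fun i : Fin m => A i = ψ⁻¹ • P).card : ℤ) =
        ((Finset.univ.filter fun i : Fin m => A i = P).card : ℤ) := by
      rw [← h2, ← h3, h4]
    exact_mod_cast this

end Fermat.Agent.Lib.S17
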