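/-
Programme MW (S17), brick [CLv] part 1 (helper9, prefix `s17v_`): CHEVALLEY'S EXTENSION THEOREM for
places with values in an algebraically closed field `K` (Mathlib-only).

A partial `K`-algebra homomorphism `L ⊇ S → K` is encoded by its GRAPH, a `K`-subalgebra `Γ` of
`L × K` which is FUNCTIONAL (`s17v_IsFun`: `(0, c) ∈ Γ → c = 0`).

`s17v_chevalley`: every functional `Γ₀` is contained in a functional `Γ` whose domain is a valuation
ring of `L` with residue field `K`:
  * `∀ x ≠ 0, (∃ c, (x, c) ∈ Γ) ∨ (∃ c, (x⁻¹, c) ∈ Γ)`;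
  * `(x, c) ∈ Γ → c ≠ 0 → (x⁻¹, c⁻¹) ∈ Γ`.

Proof: Zorn gives a maximal functional `Γ`; Mathlib's (unrefined) existence of valuation rings gives
a valuation ring `V ⊇ dom Γ` in which the elements of `ker (dom Γ → K)` are non-units; every
`x ∈ V` can be adjoined to `Γ` (`s17v_ext`: the obstruction would be a relation
`1 + m₀ + m₁ x + … + m_n x^n = 0` with `m_j ∈ ker`, impossible in `V`; the value of `x` is a common
root of an ideal of `K[T]`), so `dom Γ = V` by maximality.
-/
import Mathlib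

set_option autoImplicit false
set_option linter.unusedSectionVars false
set_option linter.unusedVariables false
set_option linter.style.haveILetI false

noncomputable section

namespace Fermat.Agent.Lib.S17

open Polynomial

variable {K L : Type*} [Field K] [Field L] [Algebra K L]

/-- a subalgebra of `L × K` is the graph of a partial homomorphism. -/
def s17v_IsFun (Γ : Subalgebra K (L × K)) : Prop := ∀ p ∈ Γ, p.1 = 0 → p.2 = 0

theorem s17v_isFun_unique {Γ : Subalgebra K (L × K)} (h : s17v_IsFun Γ) {x : L} {c c' : K}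
    (h1 : (x, c) ∈ Γ) (h2 : (x, c') ∈ Γ) : c = c' := by
  have h3 := h _ (Γ.sub_mem h1 h2) (by simp)
  simpa [sub_eq_zero] using h3

theorem s17v_const_mem (Γ : Subalgebra K (L × K)) (c : K) : (algebraMap K L c, c) ∈ Γ := by
  have := Γ.algebraMap_mem c
  simpa [Prod.algebraMap_apply] using this

/-- first projection of a graph. -/
def s17v_fst (Γ : Subalgebra K (L × K)) : ↥Γ →+* L :=
  ((AlgHom.fst K L K).comp Γ.val : ↥Γ →ₐ[K] L)

/-- second projection of a graph. -/
def s17v_snd (Γ : Subalgebra K (L × K)) : ↥Γ →+* K :=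
  ((AlgHom.snd K L K).comp Γ.val : ↥Γ →ₐ[K] K)

theorem s17v_fst_apply (Γ : Subalgebra K (L × K)) (p : ↥Γ) : s17v_fst Γ p = (p : L × K).1 := rfl

theorem s17v_snd_apply (Γ : Subalgebra K (L × K)) (p : ↥Γ) : s17v_snd Γ p = (p : L × K).2 := rfl

theorem s17v_snd_surjective (Γ : Subalgebra K (L × K)) : Function.Surjective (s17v_snd Γ) :=
  fun c => ⟨⟨_, s17v_const_mem Γ c⟩, rfl⟩

/-- **extension**: if no relation `P(x) = 0` has image `1` in `K[T]`, then `x` can be adjoined. -/
theorem s17v_ext [IsAlgClosed K] {Γ : Subalgebra K (L × K)} (hΓ : s17v_IsFun Γ) (x : L)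
    (hN : ∀ P : Polynomial ↥Γ, eval₂ (s17v_fst Γ) x P = 0 → P.map (s17v_snd Γ) ≠ 1) :
    ∃ (c : K) (Γ' : Subalgebra K (L × K)), Γ ≤ Γ' ∧ s17v_IsFun Γ' ∧ (x, c) ∈ Γ' := by
  classical
  set evx : Polynomial ↥Γ →+* L := eval₂RingHom (s17v_fst Γ) x with hevx
  set sndP : Polynomial ↥Γ →+* Polynomial K := mapRingHom (s17v_snd Γ) with hsndP
  have hsurj : Function.Surjective sndP := Polynomial.map_surjective _ (s17v_snd_surjective Γ)
  set I : Ideal (Polynomial K) := Ideal.map sndP (RingHom.ker evx) with hI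
  have hI1 : (1 : Polynomial K) ∉ I := by
    intro h1
    rw [hI, Ideal.mem_map_iff_of_surjective sndP hsurj] at h1
    obtain ⟨P, hP, hP1⟩ := h1
    exact hN P (RingHom.mem_ker.mp hP) hP1
  -- a common root of `I`
  obtain ⟨c, hc⟩ : ∃ c : K, ∀ h ∈ I, eval c h = 0 := by
    obtain ⟨f, hf⟩ := (IsPrincipalIdealRing.principal I).principal
    by_cases hf0 : f = 0
    · refine ⟨0, fun h hh => ?_⟩
      rw [hf, hf0, Ideal.submodule_span_eq, Ideal.mem_span_singleton, zero_dvd_iff] at hh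
      rw [hh, eval_zero]
    · have hdeg : f.degree ≠ 0 := by
        intro hd
        apply hI1
        have hu : IsUnit f := Polynomial.isUnit_iff_degree_eq_zero.mpr hd
        rw [hf, Ideal.submodule_span_eq, Ideal.mem_span_singleton]
        exact hu.dvd
      obtain ⟨c, hc⟩ := IsAlgClosed.exists_root f hdeg
      refine ⟨c, fun h hh => ?_⟩
      rw [hf, Ideal.submodule_span_eq, Ideal.mem_span_singleton] at hh
      obtain ⟨q, rfl⟩ := hh
      rw [eval_mul, hc.eq_zero, zero_mul]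
  set φ : Polynomial ↥Γ →+* L × K := evx.prod ((evalRingHom c).comp sndP) with hφ
  have hφC : ∀ p : ↥Γ, φ (C p) = (p : L × K) := by
    intro p
    apply Prod.ext
    · show eval₂ (s17v_fst Γ) x (C p) = _
      rw [eval₂_C]; rfl
    · show eval c (Polynomial.map (s17v_snd Γ) (C p)) = _
      rw [Polynomial.map_C, eval_C]; rfl
  have hφX : φ X = (x, c) := by
    apply Prod.ext
    · show eval₂ (s17v_fst Γ) x X = _
      rw [eval₂_X]
    · show eval c (Polynomial.map (s17v_snd Γ) X) = _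
      rw [Polynomial.map_X, eval_X]
  set Γ' : Subalgebra K (L × K) :=
    { φ.range with
      algebraMap_mem' := fun k => ⟨C (algebraMap K ↥Γ k), by rw [hφC]; rfl⟩ } with hΓ'
  refine ⟨c, Γ', ?_, ?_, ?_⟩
  · intro p hp
    exact ⟨C ⟨p, hp⟩, hφC _⟩
  · rintro _ ⟨P, rfl⟩ h0
    have hP : P ∈ RingHom.ker evx := RingHom.mem_ker.mpr h0
    exact hc _ (Ideal.mem_map_of_mem sndP hP)
  · exact ⟨X, hφX⟩

/-- Zorn: every functional graph is contained in a maximal one. -/
theorem s17v_exists_maximal (Γ₀ : Subalgebra K (L × K)) (h₀ : s17v_IsFun Γ₀) :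
    ∃ Γ : Subalgebra K (L × K), Γ₀ ≤ Γ ∧ Maximal (fun Γ => s17v_IsFun Γ) Γ := by
  refine zorn_le_nonempty₀ {Γ | s17v_IsFun Γ} ?_ Γ₀ h₀
  intro c hc hchain y hy
  haveI : Nonempty ↥c := ⟨⟨y, hy⟩⟩
  have hdir : Directed (· ≤ ·) (fun Γ : ↥c => (Γ : Subalgebra K (L × K))) := hchain.directed
  refine ⟨⨆ Γ : ↥c, (Γ : Subalgebra K (L × K)), ?_, fun z hz => le_iSup (fun Γ : ↥c =>
    (Γ : Subalgebra K (L × K))) ⟨z, hz⟩⟩
  intro p hp h0
  have hp' : p ∈ ((⨆ Γ : ↥c, (Γ : Subalgebra K (L × K)) : Subalgebra K (L × K)) : Set (L × K)) :=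
    hp
  rw [Subalgebra.coe_iSup_of_directed hdir, Set.mem_iUnion] at hp'
  obtain ⟨Γ, hΓ⟩ := hp'
  exact hc Γ.2 p hΓ h0

/-- **a maximal functional graph has a valuation ring as domain** (with residue field `K`). -/
theorem s17v_maximal_spec [IsAlgClosed K] {Γ : Subalgebra K (L × K)}
    (hmax : Maximal (fun Γ => s17v_IsFun Γ) Γ) :
    ∃ V : ValuationSubring L, (∀ p ∈ Γ, p.1 ∈ V) ∧ (∀ p ∈ Γ, p.2 = 0 → p.1 ∈ V.nonunits) ∧
      ∀ y ∈ V, ∃ c : K, (y, c) ∈ Γ := by
  classical
  have hΓ : s17v_IsFun Γ := hmax.prop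
  set A : Subring L := (s17v_fst Γ).range with hA
  set I : Ideal ↥A := Ideal.map (s17v_fst Γ).rangeRestrict (RingHom.ker (s17v_snd Γ)) with hI
  have hsurj : Function.Surjective (s17v_fst Γ).rangeRestrict :=
    (s17v_fst Γ).rangeRestrict_surjective
  have hItop : I ≠ ⊤ := by
    intro htop
    have h1 : (1 : ↥A) ∈ I := by rw [htop]; trivial
    rw [hI, Ideal.mem_map_iff_of_surjective _ hsurj] at h1
    obtain ⟨p, hp, hp1⟩ := h1
    have hp1' : (p : L × K).1 = 1 := congrArg Subtype.val hp1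
    have hp2 : (p : L × K).2 = 0 := RingHom.mem_ker.mp hp
    have h3 := hΓ _ (Γ.sub_mem p.2 Γ.one_mem) (by simp [hp1'])
    simp [hp2] at h3
  obtain ⟨V, hAV, hIV⟩ := Ideal.image_subset_nonunits_valuationSubring I hItop
  have h1 : ∀ p ∈ Γ, p.1 ∈ V := fun p hp => hAV ⟨⟨p, hp⟩, rfl⟩
  have h2 : ∀ p ∈ Γ, p.2 = 0 → p.1 ∈ V.nonunits := by
    intro p hp hp0
    apply hIV
    refine ⟨⟨p.1, ⟨⟨p, hp⟩, rfl⟩⟩, ?_, rfl⟩
    rw [SetLike.mem_coe, hI, Ideal.mem_map_iff_of_surjective _ hsurj]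
    exact ⟨⟨p, hp⟩, RingHom.mem_ker.mpr hp0, rfl⟩
  refine ⟨V, h1, h2, fun y hy => ?_⟩
  -- `y` can be adjoined
  have hN : ∀ P : Polynomial ↥Γ, eval₂ (s17v_fst Γ) y P = 0 → P.map (s17v_snd Γ) ≠ 1 := by
    intro P hP0 hP1
    have hcoeff : ∀ j : ℕ, ((P.coeff j : ↥Γ) : L × K).2 = if j = 0 then 1 else 0 := by
      intro j
      have := congrArg (fun Q : Polynomial K => Q.coeff j) hP1
      simp only [Polynomial.coeff_map, Polynomial.coeff_one] at this
      rw [← s17v_snd_apply]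
      exact this
    set v := V.valuation with hv
    have hvy : v y ≤ 1 := (V.valuation_le_one_iff y).mpr hy
    rw [eval₂_eq_sum_range] at hP0
    -- the terms minus the constant `1`
    have hlt : ∀ j ∈ Finset.range (P.natDegree + 1),
        v (s17v_fst Γ (P.coeff j) * y ^ j - if j = 0 then 1 else 0) < 1 := by
      intro j _
      by_cases hj : j = 0
      · subst hj
        rw [pow_zero, mul_one, if_pos rfl]
        have hmem : ((P.coeff 0 : ↥Γ) : L × K) - 1 ∈ Γ := Γ.sub_mem (P.coeff 0).2 Γ.one_mem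
        have h20 : (((P.coeff 0 : ↥Γ) : L × K) - 1).2 = 0 := by
          have := hcoeff 0
          rw [if_pos rfl] at this
          rw [Prod.snd_sub, this, Prod.snd_one, sub_self]
        have := h2 _ hmem h20
        rw [Prod.fst_sub, Prod.fst_one] at this
        exact this
      · rw [if_neg hj, sub_zero, map_mul, map_pow]
        have ha : v (s17v_fst Γ (P.coeff j)) < 1 := by
          have := h2 _ (P.coeff j).2 (by rw [hcoeff j, if_neg hj])
          exact this
        calc v (s17v_fst Γ (P.coeff j)) * v y ^ j ≤ v (s17v_fst Γ (P.coeff j)) * 1 := by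
              gcongr
              exact pow_le_one' hvy j
          _ < 1 := by rw [mul_one]; exact ha
    have hsum := Valuation.map_sum_lt v (one_ne_zero) hlt
    rw [Finset.sum_sub_distrib, hP0, zero_sub, Finset.sum_ite_eq' ] at hsum
    simp at hsum
  obtain ⟨c, Γ', hle, hΓ', hmem⟩ := s17v_ext hΓ y hN
  have hge : Γ' ≤ Γ := hmax.le_of_ge hΓ' hle
  exact ⟨c, hge hmem⟩

/-- **Chevalley's extension theorem** (graph form). -/
theorem s17v_chevalley [IsAlgClosed K] (Γ₀ : Subalgebra K (L × K)) (h₀ : s17v_IsFun Γ₀) :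
    ∃ Γ : Subalgebra K (L × K), Γ₀ ≤ Γ ∧ s17v_IsFun Γ ∧
      (∀ x : L, x ≠ 0 → (∃ c, (x, c) ∈ Γ) ∨ (∃ c, (x⁻¹, c) ∈ Γ)) ∧
      (∀ (x : L) (c : K), (x, c) ∈ Γ → c ≠ 0 → (x⁻¹, c⁻¹) ∈ Γ) := by
  classical
  obtain ⟨Γ, hle, hmax⟩ := s17v_exists_maximal Γ₀ h₀
  have hΓ : s17v_IsFun Γ := hmax.prop
  obtain ⟨V, h1, h2, h3⟩ := s17v_maximal_spec hmax
  refine ⟨Γ, hle, hΓ, fun x hx => ?_, fun x c hxc hc => ?_⟩
  · rcases V.mem_or_inv_mem x with h | h
    · exact Or.inl (h3 x h)
    · exact Or.inr (h3 _ h)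
  · -- `x` is a unit of `V`
    have hxV : x ∈ V := h1 _ hxc
    have hnot : x ∉ V.nonunits := by
      intro hnon
      -- `(x c⁻¹ - 1, 0) ∈ Γ`
      have hk : (algebraMap K L c⁻¹, c⁻¹) ∈ Γ := s17v_const_mem Γ c⁻¹
      have hm : (x * algebraMap K L c⁻¹ - 1, (0 : K)) ∈ Γ := by
        have := Γ.sub_mem (Γ.mul_mem hxc hk) Γ.one_mem
        have heq : (x, c) * (algebraMap K L c⁻¹, c⁻¹) - 1 =
            (x * algebraMap K L c⁻¹ - 1, (0 : K)) := by
          apply Prod.ext
          · simp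
          · simp [mul_inv_cancel₀ hc]
        rw [heq] at this
        exact this
      have hn1 := h2 _ hm rfl
      have hkV : algebraMap K L c⁻¹ ∈ V := h1 _ hk
      have hn2 : x * algebraMap K L c⁻¹ ∈ V.nonunits := by
        rw [ValuationSubring.mem_nonunits_iff] at hnon ⊢
        rw [map_mul]
        calc V.valuation x * V.valuation (algebraMap K L c⁻¹)
            ≤ V.valuation x * 1 := by
              gcongr
              exact (V.valuation_le_one_iff _).mpr hkV
          _ < 1 := by rw [mul_one]; exact hnon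
      have hone : (1 : L) ∈ V.nonunits := by
        have := V.nonunits.sub_mem hn2 hn1
        simpa using this
      rw [ValuationSubring.mem_nonunits_iff, map_one] at hone
      exact lt_irrefl _ hone
    rw [ValuationSubring.mem_nonunits_iff_or] at hnot
    push Not at hnot
    obtain ⟨hx0, hxinv⟩ := hnot
    obtain ⟨c', hc'⟩ := h3 _ hxinv
    have hprod : ((1 : L), c * c') ∈ Γ := by
      have := Γ.mul_mem hxc hc'
      simpa [mul_inv_cancel₀ hx0] using this
    have hone : ((1 : L), (1 : K)) ∈ Γ := Γ.one_mem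
    have hcc : c * c' = 1 := s17v_isFun_unique hΓ hprod hone
    have : c' = c⁻¹ := eq_inv_of_mul_eq_one_right hcc
    rw [← this]
    exact hc'

end Fermat.Agent.Lib.S17
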