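/-
Programme MW (S17), brick [CLv] part 2 (helper9, prefix `s17v_`): THE VALUATIVE CRITERION
`s17v_clv : s17_CLv`.

A family `r : ι → K(C^m)` with, at every point `A`, a common denominator `γ` making all `r a / γ`
regular at `A` with values `U A a`, not all zero, has Zariski-closed value set.

Proof.  `z` in the closure, `z a₀ ≠ 0`.  Then `r a₀ ≠ 0`, and `q(r/r a₀) = 0 ⇒ q(z/z a₀) = 0`
(homogenise `q`, use the hypothesis on `z` and `s17v_aeval_val`: polynomial relations between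
regular elements pass to their values).  So the graph `Γ₀ = {(q(r/r a₀), q(z/z a₀))}` is functional;
Chevalley (`s17v_chevalley`, VChev) extends it to a `K`-valued place `Γ` of `K(C^m)`.  Its
restrictions to the `m` copies of `F` are non-trivial (`F ≠ K`), hence places `A i` (`s17_Curve.val`);
`Γ` contains the graph of the evaluation at `A` and therefore `(r a / γ, U A a)` for the common
denominator `γ` at `A`.  Comparing with `(r a / r a₀, z a / z a₀) ∈ Γ` gives `z ∝ U A`.
-/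
import Fermat.Agent.Lib.S17.CIface
import Fermat.Agent.Lib.S17.VChev
import Fermat.Agent.Lib.FF.FFBasicPlace

set_option autoImplicit false
set_option linter.unusedSectionVars false
set_option linter.unusedVariables false
set_option linter.style.haveILetI false

noncomputable section

namespace Fermat.Agent.Lib.S17

open AlgebraicCurve Fermat.Agent.Lib.S19 Fermat.Agent.Lib.FF MvPolynomial

section Graph

variable {K L : Type*} [Field K] [Field L] [Algebra K L] {ι : Type*}

/-- polynomial expressions of elements of a graph lie in the graph. -/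
theorem s17v_aeval_mem (Γ : Subalgebra K (L × K)) (x : ι → L) (c : ι → K)
    (h : ∀ a, (x a, c a) ∈ Γ) (p : MvPolynomial ι K) : (aeval x p, aeval c p) ∈ Γ := by
  set y : ι → ↥Γ := fun a => ⟨(x a, c a), h a⟩ with hy
  have h1 : (aeval x p, aeval c p) = ((aeval y p : ↥Γ) : L × K) := by
    apply Prod.ext
    · have := congrArg (fun φ : MvPolynomial ι K →ₐ[K] L => φ p)
        (comp_aeval (f := y) ((AlgHom.fst K L K).comp Γ.val))
      exact this.symm
    · have := congrArg (fun φ : MvPolynomial ι K →ₐ[K] K => φ p)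
        (comp_aeval (f := y) ((AlgHom.snd K L K).comp Γ.val))
      exact this.symm
  rw [h1]
  exact Subtype.mem _

end Graph

section Homog

variable {K : Type*} [Field K] {ι : Type*}

/-- the homogenisation of `q` with respect to the variable `a₀`. -/
def s17v_hom (q : MvPolynomial ι K) (a₀ : ι) : MvPolynomial ι K :=
  ∑ k ∈ Finset.range (q.totalDegree + 1),
    homogeneousComponent k q * X a₀ ^ (q.totalDegree - k)

theorem s17v_hom_isHomogeneous (q : MvPolynomial ι K) (a₀ : ι) :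
    (s17v_hom q a₀).IsHomogeneous q.totalDegree := by
  apply IsHomogeneous.sum
  intro k hk
  have hk' : k ≤ q.totalDegree := by
    have := Finset.mem_range.mp hk
    omega
  have h1 : (homogeneousComponent k q).IsHomogeneous k := homogeneousComponent_isHomogeneous k q
  have h2 : (X a₀ ^ (q.totalDegree - k) : MvPolynomial ι K).IsHomogeneous (q.totalDegree - k) :=
    isHomogeneous_X_pow a₀ _
  have := h1.mul h2
  rwa [Nat.add_sub_cancel' hk'] at this

theorem s17v_aeval_hom {S : Type*} [Field S] [Algebra K S] (q : MvPolynomial ι K) (a₀ : ι)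
    (y : ι → S) (hy : y a₀ ≠ 0) :
    aeval y (s17v_hom q a₀) = y a₀ ^ q.totalDegree * aeval (fun a => y a / y a₀) q := by
  set s := y a₀ with hs
  set w : ι → S := fun a => y a / s with hw
  have hyw : y = s • w := by
    funext a
    simp only [hw, Pi.smul_apply, smul_eq_mul]
    field_simp
  have hq : aeval w q = ∑ k ∈ Finset.range (q.totalDegree + 1),
      aeval w (homogeneousComponent k q) := by
    conv_lhs => rw [← sum_homogeneousComponent q]
    rw [map_sum]
  rw [s17v_hom, map_sum, hq, Finset.mul_sum]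
  refine Finset.sum_congr rfl fun k hk => ?_
  have hk' : k ≤ q.totalDegree := by
    have := Finset.mem_range.mp hk
    omega
  rw [map_mul, map_pow, aeval_X, ← hs]
  conv_lhs => rw [hyw]
  rw [s17n_aeval_smul (homogeneousComponent_isHomogeneous k q) s w]
  have : s ^ q.totalDegree = s ^ k * s ^ (q.totalDegree - k) := by
    rw [← pow_add, Nat.add_sub_cancel' hk']
  rw [this]
  ring

end Homog

section Val

variable {K F : Type} [Field K] [Field F] [Algebra K F] {m : ℕ}

/-- the evaluation at a point is unique. -/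
theorem s17v_eval_unique (M : s17_Model K F m) (X : s17_Charts K F) (A : Fin m → Place K F)
    {e e' : ↥(s17_TA M A) →ₐ[K] K} (he : s17_IsEvalAt M X A e) (he' : s17_IsEvalAt M X A e') :
    e = e' := by
  apply AlgHom.ext
  rintro ⟨t, ht⟩
  refine Algebra.iSup_induction' (fun i => (s17_OP (A i)).map (M.ι i))
    (motive := fun x hx => e ⟨x, hx⟩ = e' ⟨x, hx⟩) ht ?_ ?_ ?_ ?_
  · intro i x hx
    obtain ⟨f, hf, rfl⟩ := Subalgebra.mem_map.mp hx
    exact (he i f hf _).trans (he' i f hf _).symm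
  · intro x y hx hy h1 h2
    have : (⟨x + y, add_mem hx hy⟩ : ↥(s17_TA M A)) = ⟨x, hx⟩ + ⟨y, hy⟩ := rfl
    rw [this, map_add, map_add, h1, h2]
  · intro x y hx hy h1 h2
    have : (⟨x * y, mul_mem hx hy⟩ : ↥(s17_TA M A)) = ⟨x, hx⟩ * ⟨y, hy⟩ := rfl
    rw [this, map_mul, map_mul, h1, h2]
  · intro k
    have : (⟨algebraMap K M.FF k, Subalgebra.algebraMap_mem _ k⟩ : ↥(s17_TA M A)) =
        algebraMap K ↥(s17_TA M A) k := rfl
    rw [this, AlgHom.commutes, AlgHom.commutes]

/-- the value of `0` is `0`. -/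
theorem s17v_hasVal_zero {M : s17_Model K F m} {X : s17_Charts K F} {A : Fin m → Place K F}
    {c : K} (h : s17_HasVal M X A 0 c) : c = 0 := by
  obtain ⟨e, he, u, v, hv, huv, hu⟩ := h
  rw [zero_mul] at huv
  have hu0 : u = 0 := Subtype.ext huv.symm
  rw [hu0, map_zero] at hu
  rcases mul_eq_zero.mp hu.symm with h | h
  · exact h
  · exact absurd h hv

/-- **regular elements lie in every `K`-valued place containing the graph of the evaluation.** -/
theorem s17v_mem_of_hasVal {M : s17_Model K F m} {X : s17_Charts K F} {A : Fin m → Place K F}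
    (Γ : Subalgebra K (M.FF × K)) (hfun : s17v_IsFun Γ)
    (hunit : ∀ (x : M.FF) (c : K), (x, c) ∈ Γ → c ≠ 0 → (x⁻¹, c⁻¹) ∈ Γ)
    (hT : ∀ e : ↥(s17_TA M A) →ₐ[K] K, s17_IsEvalAt M X A e →
      ∀ t : ↥(s17_TA M A), ((t : M.FF), e t) ∈ Γ)
    {x : M.FF} {c : K} (h : s17_HasVal M X A x c) : (x, c) ∈ Γ := by
  obtain ⟨e, he, u, v, hv, hxv, hu⟩ := h
  have hvΓ := hT e he v
  have huΓ := hT e he u
  have hv0 : (v : M.FF) ≠ 0 := by
    intro h0
    rw [h0] at hvΓ
    exact hv (hfun _ hvΓ rfl)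
  have hinv := hunit _ _ hvΓ hv
  have hprod := Γ.mul_mem huΓ hinv
  have hx : x = (u : M.FF) * (v : M.FF)⁻¹ := by
    rw [← hxv, mul_assoc, mul_inv_cancel₀ hv0, mul_one]
  have hc : c = e u * (e v)⁻¹ := by
    rw [hu, mul_assoc, mul_inv_cancel₀ hv, mul_one]
  rw [hx, hc]
  exact hprod

/-- **polynomial relations between regular elements pass to the values.** -/
theorem s17v_aeval_val [IsAlgClosed K] {M : s17_Model K F m} {X : s17_Charts K F}
    {A : Fin m → Place K F} {ι : Type*} [Nonempty ι] (ρ : ι → M.FF) (c : ι → K)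
    (h : ∀ a, s17_HasVal M X A (ρ a) (c a)) (p : MvPolynomial ι K) (hp : aeval ρ p = 0) :
    aeval c p = 0 := by
  obtain ⟨e, he, -⟩ := h (Classical.arbitrary ι)
  set Γ₀ : Subalgebra K (M.FF × K) := (AlgHom.prod (s17_TA M A).val e).range with hΓ₀
  have hfun₀ : s17v_IsFun Γ₀ := by
    rintro _ ⟨t, rfl⟩ h0
    have ht : t = 0 := Subtype.ext h0
    show e t = 0
    rw [ht, map_zero]
  obtain ⟨Γ, hle, hfun, -, hunit⟩ := s17v_chevalley Γ₀ hfun₀
  have hT : ∀ e' : ↥(s17_TA M A) →ₐ[K] K, s17_IsEvalAt M X A e' →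
      ∀ t : ↥(s17_TA M A), ((t : M.FF), e' t) ∈ Γ := by
    intro e' he' t
    rw [s17v_eval_unique M X A he' he]
    exact hle ⟨t, rfl⟩
  have hmem : ∀ a, (ρ a, c a) ∈ Γ := fun a => s17v_mem_of_hasVal Γ hfun hunit hT (h a)
  have h1 := s17v_aeval_mem Γ ρ c hmem p
  rw [hp] at h1
  exact hfun _ h1 rfl

end Val

section Places

variable {K F L : Type*} [Field K] [Field F] [Field L] [Algebra K F] [Algebra K L]

/-- the restriction of a `K`-valued place (in graph form) along an embedding `F → L`. -/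
def s17v_ring (Γ : Subalgebra K (L × K))
    (hdich : ∀ x : L, x ≠ 0 → (∃ c, (x, c) ∈ Γ) ∨ (∃ c, (x⁻¹, c) ∈ Γ)) (φ : F →ₐ[K] L) :
    ValuationSubring F where
  carrier := {f | ∃ c : K, (φ f, c) ∈ Γ}
  mul_mem' := by
    rintro f f' ⟨c, hc⟩ ⟨c', hc'⟩
    refine ⟨c * c', ?_⟩
    rw [map_mul]
    exact Γ.mul_mem hc hc'
  one_mem' := ⟨1, by rw [map_one]; exact Γ.one_mem⟩
  add_mem' := by
    rintro f f' ⟨c, hc⟩ ⟨c', hc'⟩
    refine ⟨c + c', ?_⟩
    rw [map_add]
    exact Γ.add_mem hc hc'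
  zero_mem' := ⟨0, by rw [map_zero]; exact Γ.zero_mem⟩
  neg_mem' := by
    rintro f ⟨c, hc⟩
    refine ⟨-c, ?_⟩
    rw [map_neg]
    exact Γ.neg_mem hc
  mem_or_inv_mem' := by
    intro f
    by_cases hf : f = 0
    · left
      exact ⟨0, by rw [hf, map_zero]; exact Γ.zero_mem⟩
    · rcases hdich (φ f) ((map_ne_zero φ).mpr hf) with ⟨c, hc⟩ | ⟨c, hc⟩
      · left; exact ⟨c, hc⟩
      · right
        refine ⟨c, ?_⟩
        rw [map_inv₀]
        exact hc

theorem s17v_mem_ring (Γ : Subalgebra K (L × K))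
    (hdich : ∀ x : L, x ≠ 0 → (∃ c, (x, c) ∈ Γ) ∨ (∃ c, (x⁻¹, c) ∈ Γ)) (φ : F →ₐ[K] L) (f : F) :
    f ∈ s17v_ring Γ hdich φ ↔ ∃ c : K, (φ f, c) ∈ Γ := Iff.rfl

theorem s17v_algebraMap_mem_ring (Γ : Subalgebra K (L × K))
    (hdich : ∀ x : L, x ≠ 0 → (∃ c, (x, c) ∈ Γ) ∨ (∃ c, (x⁻¹, c) ∈ Γ)) (φ : F →ₐ[K] L) (k : K) :
    algebraMap K F k ∈ s17v_ring Γ hdich φ := by
  refine ⟨k, ?_⟩
  rw [AlgHom.commutes]
  exact s17v_const_mem Γ k

/-- the restriction is non-trivial as soon as `F` has a non-constant element. -/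
theorem s17v_ring_ne_top (Γ : Subalgebra K (L × K)) (hfun : s17v_IsFun Γ)
    (hdich : ∀ x : L, x ≠ 0 → (∃ c, (x, c) ∈ Γ) ∨ (∃ c, (x⁻¹, c) ∈ Γ)) (φ : F →ₐ[K] L)
    (f : F) (hf : ∀ k : K, f ≠ algebraMap K F k) : s17v_ring Γ hdich φ ≠ ⊤ := by
  intro htop
  have hall : ∀ f' : F, ∃ c : K, (φ f', c) ∈ Γ := fun f' => by
    have : f' ∈ s17v_ring Γ hdich φ := by rw [htop]; exact ValuationSubring.mem_top _
    exact this
  obtain ⟨c, hc⟩ := hall f
  set h : F := f - algebraMap K F c with hh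
  have hh0 : h ≠ 0 := sub_ne_zero.mpr (hf c)
  have h1 : (φ h, (0 : K)) ∈ Γ := by
    have := Γ.sub_mem hc (s17v_const_mem Γ c)
    rw [hh, map_sub, AlgHom.commutes]
    simpa using this
  obtain ⟨c', hc'⟩ := hall h⁻¹
  have h2 := Γ.mul_mem h1 hc'
  rw [Prod.mk_mul_mk, ← map_mul, mul_inv_cancel₀ hh0, map_one, zero_mul] at h2
  have h3 := hfun _ (Γ.sub_mem h2 Γ.one_mem) (by simp)
  simp at h3

end Places

section Main

variable {K F : Type} [Field K] [Field F] [Algebra K F] {m : ℕ}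

/-- the value of a `K`-valued place on the local ring of a place `P` of `F` is the constant term of
the expansion. -/
theorem s17v_place_val {L : Type*} [Field L] [Algebra K L] (X : s17_Charts K F) (P : Place K F)
    (Γ : Subalgebra K (L × K)) (hfun : s17v_IsFun Γ)
    (hunit : ∀ (x : L) (c : K), (x, c) ∈ Γ → c ≠ 0 → (x⁻¹, c⁻¹) ∈ Γ) (φ : F →ₐ[K] L)
    (hP : ∀ f : F, f ∈ P.toValuationSubring ↔ ∃ c : K, (φ f, c) ∈ Γ)
    (f : F) (hf : f ∈ P.toValuationSubring) : (φ f, (X.exp P f).coeff 0) ∈ Γ := by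
  obtain ⟨c, hc⟩ := (hP f).mp hf
  set c₀ : K := (X.exp P f).coeff 0 with hc₀
  by_cases hcc : c = c₀
  · rw [← hcc]; exact hc
  exfalso
  set h : F := f - algebraMap K F c₀ with hh
  have hhΓ : (φ h, c - c₀) ∈ Γ := by
    have := Γ.sub_mem hc (s17v_const_mem Γ c₀)
    rw [hh, map_sub, AlgHom.commutes]
    exact this
  have hcne : c - c₀ ≠ 0 := sub_ne_zero.mpr hcc
  have hh0 : h ≠ 0 := by
    intro h0
    rw [h0, map_zero] at hhΓ
    exact hcne (hfun _ hhΓ rfl)
  have hinv := hunit _ _ hhΓ hcne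
  rw [← map_inv₀] at hinv
  have hinvP : h⁻¹ ∈ P.toValuationSubring := (hP _).mpr ⟨_, hinv⟩
  have hhP : h ∈ P.toValuationSubring :=
    P.toValuationSubring.sub_mem hf (P.algebraMap_mem' c₀)
  have ho1 : 0 ≤ P.ord h := (ff_mem_iff_ord_nonneg P hh0).mp hhP
  have ho2 : 0 ≤ P.ord h⁻¹ := (ff_mem_iff_ord_nonneg P (inv_ne_zero hh0)).mp hinvP
  rw [P.ord_inv] at ho2
  have ho : P.ord h = 0 := by omega
  -- the expansion of `h` has order `0` and constant term `0`
  have hexp : X.exp P h = X.exp P f - HahnSeries.C c₀ := by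
    rw [hh, map_sub, X.exp_alg]
  have hcoeff : (X.exp P h).coeff 0 = 0 := by
    rw [hexp, HahnSeries.coeff_sub]
    have : (HahnSeries.C c₀ : LaurentSeries K).coeff 0 = c₀ := HahnSeries.coeff_single_same 0 c₀
    rw [this, hc₀, sub_self]
  have hord : (X.exp P h).order = 0 := by rw [X.exp_ord P h hh0, ho]
  have hne : X.exp P h ≠ 0 := (map_ne_zero (X.exp P)).mpr hh0
  apply hne
  rw [← HahnSeries.coeff_order_eq_zero, hord]
  exact hcoeff

/-- **[CLv]: the valuative criterion.** -/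
theorem s17v_clv : s17_CLv := by
  classical
  intro K F _ _ _ _ g hC X m M ι _ r U hreg hbpf z hz
  by_cases hz0 : z = 0
  · exact Or.inl hz0
  right
  obtain ⟨a₀, ha₀⟩ : ∃ a₀, z a₀ ≠ 0 := by
    by_contra hcon
    apply hz0
    funext a
    by_contra ha
    exact hcon ⟨a, ha⟩
  haveI : Nonempty ι := ⟨a₀⟩
  -- Step 1: `r a₀ ≠ 0`
  have hr0 : r a₀ ≠ 0 := by
    intro h0
    apply ha₀
    have h1 := hz 1 (MvPolynomial.X a₀) (isHomogeneous_X K a₀) (fun A => by
      obtain ⟨γ, hγ, hval⟩ := hreg A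
      have h1 := hval a₀
      rw [h0, zero_div] at h1
      rw [aeval_X]
      exact s17v_hasVal_zero h1)
    rwa [aeval_X] at h1
  set ρ : ι → M.FF := fun a => r a / r a₀ with hρ
  set ζ : ι → K := fun a => z a / z a₀ with hζ
  -- Step 2: relations between the `ρ a` hold for the `ζ a`
  have hrel : ∀ q : MvPolynomial ι K, aeval ρ q = 0 → aeval ζ q = 0 := by
    intro q hq
    have hp := s17v_hom_isHomogeneous q a₀
    have h1 : aeval r (s17v_hom q a₀) = 0 := by
      rw [s17v_aeval_hom q a₀ r hr0]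
      show r a₀ ^ q.totalDegree * aeval ρ q = 0
      rw [hq, mul_zero]
    have h2 : ∀ A : Fin m → Place K F, aeval (U A) (s17v_hom q a₀) = 0 := by
      intro A
      obtain ⟨γ, hγ, hval⟩ := hreg A
      apply s17v_aeval_val (fun a => r a / γ) (U A) hval
      have h3 : (fun a => r a / γ) = γ⁻¹ • r := by
        funext a
        simp only [Pi.smul_apply, smul_eq_mul]
        rw [div_eq_inv_mul]
      rw [h3, s17n_aeval_smul hp, h1, mul_zero]
    have h3 := hz _ _ hp h2
    rw [s17v_aeval_hom q a₀ z ha₀] at h3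
    rcases mul_eq_zero.mp h3 with h | h
    · exact absurd (pow_eq_zero_iff (by
        intro hd
        rw [hd, pow_zero] at h
        exact one_ne_zero h) |>.mp h) ha₀
    · exact h
  -- the graph of `ρ a ↦ ζ a`
  set Ψ : MvPolynomial ι K →ₐ[K] M.FF × K := (aeval ρ).prod (aeval ζ) with hΨ
  have hfun₀ : s17v_IsFun Ψ.range := by
    rintro _ ⟨q, rfl⟩ h0
    exact hrel q h0
  obtain ⟨Γ, hle, hfun, hdich, hunit⟩ := s17v_chevalley Ψ.range hfun₀
  have hρζ : ∀ a, (ρ a, ζ a) ∈ Γ := by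
    intro a
    apply hle
    refine ⟨MvPolynomial.X a, ?_⟩
    show (aeval ρ (MvPolynomial.X a), aeval ζ (MvPolynomial.X a)) = _
    rw [aeval_X, aeval_X]
  -- Step 3: the centre
  obtain ⟨P₁⟩ : Nonempty (Place K F) := by
    haveI := hC.inf
    exact inferInstance
  obtain ⟨f₁, hf₁⟩ : ∃ f₁ : F, f₁ ∉ P₁.toValuationSubring := by
    by_contra hcon
    push Not at hcon
    exact P₁.ne_top' (SetLike.ext fun x => ⟨fun _ => ValuationSubring.mem_top x, fun _ => hcon x⟩)
  have hf₁c : ∀ k : K, f₁ ≠ algebraMap K F k := by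
    rintro k rfl
    exact hf₁ (P₁.algebraMap_mem' k)
  have hex : ∀ i : Fin m, ∃ P : Place K F, P.toValuationSubring = s17v_ring Γ hdich (M.ι i) :=
    fun i => hC.val _ (s17v_algebraMap_mem_ring Γ hdich (M.ι i))
      (s17v_ring_ne_top Γ hfun hdich (M.ι i) f₁ hf₁c)
  choose A hA using hex
  have hAmem : ∀ (i : Fin m) (f : F),
      f ∈ (A i).toValuationSubring ↔ ∃ c : K, (M.ι i f, c) ∈ Γ := by
    intro i f
    rw [hA i]
    exact Iff.rfl
  -- Step 4: `Γ` contains the graph of the evaluation at `A`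
  have hT : ∀ e : ↥(s17_TA M A) →ₐ[K] K, s17_IsEvalAt M X A e →
      ∀ t : ↥(s17_TA M A), ((t : M.FF), e t) ∈ Γ := by
    rintro e he ⟨t, ht⟩
    refine Algebra.iSup_induction' (fun i => (s17_OP (A i)).map (M.ι i))
      (motive := fun x hx => (x, e ⟨x, hx⟩) ∈ Γ) ht ?_ ?_ ?_ ?_
    · intro i x hx
      obtain ⟨f, hf, rfl⟩ := Subalgebra.mem_map.mp hx
      have h1 := he i f hf (Algebra.mem_iSup_of_mem i hx)
      have h2 := s17v_place_val X (A i) Γ hfun hunit (M.ι i) (hAmem i) f hf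
      rw [← h1] at h2
      exact h2
    · intro x y hx hy h1 h2
      have : (⟨x + y, add_mem hx hy⟩ : ↥(s17_TA M A)) = ⟨x, hx⟩ + ⟨y, hy⟩ := rfl
      rw [this, map_add]
      exact Γ.add_mem h1 h2
    · intro x y hx hy h1 h2
      have : (⟨x * y, mul_mem hx hy⟩ : ↥(s17_TA M A)) = ⟨x, hx⟩ * ⟨y, hy⟩ := rfl
      rw [this, map_mul]
      exact Γ.mul_mem h1 h2
    · intro k
      have : (⟨algebraMap K M.FF k, Subalgebra.algebraMap_mem _ k⟩ : ↥(s17_TA M A)) =
          algebraMap K ↥(s17_TA M A) k := rfl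
      rw [this, AlgHom.commutes]
      exact s17v_const_mem Γ k
  -- Step 5: compare
  obtain ⟨γ, hγ, hval⟩ := hreg A
  have hmem : ∀ a, (r a / γ, U A a) ∈ Γ := fun a =>
    s17v_mem_of_hasVal Γ hfun hunit hT (hval a)
  obtain ⟨a₁, ha₁⟩ := hbpf A
  -- `U A a₀ ≠ 0`
  have hprod : ∀ a, (r a / γ, ζ a * U A a₀) ∈ Γ := by
    intro a
    have := Γ.mul_mem (hρζ a) (hmem a₀)
    rw [Prod.mk_mul_mk] at this
    have heq : ρ a * (r a₀ / γ) = r a / γ := by
      simp only [hρ]
      field_simp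
    rwa [heq] at this
  have hU : ∀ a, U A a = ζ a * U A a₀ := fun a => s17v_isFun_unique hfun (hmem a) (hprod a)
  have hU0 : U A a₀ ≠ 0 := by
    intro h0
    apply ha₁
    rw [hU a₁, h0, mul_zero]
  refine ⟨A, z a₀ / U A a₀, ?_⟩
  funext a
  simp only [Pi.smul_apply, smul_eq_mul]
  rw [hU a]
  simp only [hζ]
  field_simp

end Main

end Fermat.Agent.Lib.S17
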