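/-
Programme MW (S17), brick [FCG] (helper9), concrete part: on the special fibre
`F̄ = modularFunctionFieldFullC κ M` (`κ` algebraically closed of characteristic `ℓ`) the divisor
classes fixed by the coefficientwise Frobenius `ψ = s37e_psi κ M ℓ` are FINITELY MANY; hence the
image of the Galois-fixed points `J₀(N)(ℚ)` under `reductionModL A N` is FINITE
(landed (U2) `s37u_reductionModL_frobenius`).

* `s17f_finite_fixed_places`: for `φ : κ ≃+* κ` with finitely many fixed points, only finitely
  many places of `F̄` are fixed by the coefficientwise action of `φ` (they lie over `j̄ = ∞` or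
  over a fixed point of `φ`);
* `s17f_psi_inf`: the cusp `∞̃` (`q = 0`) is fixed by every coefficientwise automorphism;
* `s17f_finite_fixed`: `{c : JZeroC κ M | ψ • c = c}.Finite`;
* `s17f_finite_red_fixedPoints`: `(reductionModL A N '' {x | ∀ σ, σ • x = x}).Finite`.
-/
import Fermat.Agent.Lib.S17.FFixAbs
import Fermat.Agent.Lib.S44.HResP
import Fermat.Agent.Lib.S37.UFinal
import Fermat.Agent.Lib.Frobenius.Exists

set_option autoImplicit false
set_option linter.unusedSectionVars false
set_option linter.unusedVariables false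
set_option linter.style.haveILetI false
set_option synthInstance.maxHeartbeats 400000
set_option maxHeartbeats 800000

noncomputable section

namespace Fermat.Agent.Lib.S17

open AlgebraicCurve ModularCurve HahnSeries Fermat.Agent.Lib.FF Fermat.Agent.Lib.S44
  Fermat.Agent.Lib.S37 Fermat.Agent.Lib.S18

section Special

variable (κ : Type*) [Field κ] [IsAlgClosed κ] (M : ℕ) [NeZero M]

/-- the coordinate `j̄` is fixed by every coefficientwise automorphism. -/
theorem s17f_coeffAut_jbar (φ : κ ≃+* κ) :
    s37e_coeffAut M φ • s44rq_jbar κ M = s44rq_jbar κ M := by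
  apply Subtype.ext
  rw [s37e_coe_coeffAut_smul]
  show coeffMap (φ : κ →+* κ) (jqModC κ) = jqModC κ
  exact coeffMap_jqModC _

/-- the cusp `∞̃` is fixed by every coefficientwise automorphism. -/
theorem s17f_coeffAut_inf (φ : κ ≃+* κ) :
    s37e_coeffAut M φ • s44h_fbarInf κ M = s44h_fbarInf κ M := by
  ext1
  rw [SemilinearAut.smul_toValuationSubring]
  ext f
  rw [ValuationSubring.mem_pointwise_smul_iff_inv_smul_mem, s44h_mem_fbarInf, s44h_mem_fbarInf]
  have hinv : (s37e_coeffAut M φ)⁻¹ = s37e_coeffAut M φ⁻¹ := (map_inv (s37e_coeffAut M) φ).symm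
  rw [hinv]
  have hcoe : (((s37e_coeffAut M φ⁻¹) • f : ↥(modularFunctionFieldFullC κ M)) : LaurentSeries κ) =
      coeffMap ((φ⁻¹ : κ ≃+* κ) : κ →+* κ) (f : LaurentSeries κ) := s37e_coe_coeffAut_smul M _ f
  constructor
  · intro h n hn
    have h1 := h n hn
    rw [hcoe, coeffMap_coeff] at h1
    exact (map_eq_zero_iff _ (φ⁻¹ : κ ≃+* κ).injective).mp h1
  · intro h n hn
    rw [hcoe, coeffMap_coeff, h n hn, map_zero]

/-- the zeros and poles of a nonzero function are finitely many. -/
theorem s17f_finite_ord_ne_zero (p : ℕ) [Fact p.Prime] [CharP κ p]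
    (f : ↥(modularFunctionFieldFullC κ M)) (hf : f ≠ 0) :
    {P : Place κ ↥(modularFunctionFieldFullC κ M) | P.ord f ≠ 0}.Finite := by
  haveI := s44rq_fbar_hasPrincipalDivisors κ M p
  obtain ⟨D, hD, -⟩ := HasPrincipalDivisors.exists_divisor (K := κ) f hf
  refine Set.Finite.subset D.support.finite_toSet ?_
  intro P hP
  rw [Finset.mem_coe, Finsupp.mem_support_iff, hD P]
  exact hP

/-- **finitely many places are fixed** by the coefficientwise action of an automorphism of `κ`
with finitely many fixed points. -/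
theorem s17f_finite_fixed_places (p : ℕ) [Fact p.Prime] [CharP κ p]
    (φ : κ ≃+* κ) (hφ : {a : κ | φ a = a}.Finite) :
    {P : Place κ ↥(modularFunctionFieldFullC κ M) | s37e_coeffAut M φ • P = P}.Finite := by
  classical
  haveI := s44rq_jbar_ffGen κ M
  haveI := s44rq_jbar_isSeparable κ M p
  set x := s44rq_jbar κ M with hx
  set Ψ := s37e_coeffAut M φ with hΨ
  have hxne : ∀ a : κ, x - algebraMap κ ↥(modularFunctionFieldFullC κ M) a ≠ 0 :=
    fun a => ff_sub_ne_zero (K := κ) (x := x) a
  have hx0 : x ≠ 0 := by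
    have := hxne 0
    rwa [map_zero, sub_zero] at this
  -- the finite set of candidates
  have hfin : ({P : Place κ ↥(modularFunctionFieldFullC κ M) | P.ord x ≠ 0} ∪
      ⋃ a ∈ {a : κ | φ a = a}, {P : Place κ ↥(modularFunctionFieldFullC κ M) |
        P.ord (x - algebraMap κ ↥(modularFunctionFieldFullC κ M) a) ≠ 0}).Finite := by
    refine Set.Finite.union (s17f_finite_ord_ne_zero κ M p x hx0) ?_
    exact Set.Finite.biUnion hφ fun a _ => s17f_finite_ord_ne_zero κ M p _ (hxne a)
  refine Set.Finite.subset hfin ?_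
  intro P hP
  rw [Set.mem_setOf_eq] at hP
  by_cases hxP : x ∈ P.toValuationSubring
  · right
    obtain ⟨a, ha⟩ := s44rm_exists_ord_sub_pos x P hxP
    -- transport by `Ψ`
    have h1 := SemilinearAut.ord_smul Ψ P (x - algebraMap κ ↥(modularFunctionFieldFullC κ M) a)
    rw [hP, smul_sub, hΨ, s17f_coeffAut_jbar, SemilinearAut.smul_algebraMap,
      s37e_baseAut_coeffAut] at h1
    have ha2 : 0 < P.ord (x - algebraMap κ ↥(modularFunctionFieldFullC κ M) (φ a)) := by
      rw [h1]; exact ha
    have hfix : φ a = a := by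
      by_contra hne
      have hc : algebraMap κ ↥(modularFunctionFieldFullC κ M) (φ a - a) ≠ 0 :=
        (map_ne_zero _).mpr (sub_ne_zero.mpr hne)
      have hdiff : (x - algebraMap κ ↥(modularFunctionFieldFullC κ M) a) +
          -(x - algebraMap κ ↥(modularFunctionFieldFullC κ M) (φ a)) =
          algebraMap κ ↥(modularFunctionFieldFullC κ M) (φ a - a) := by
        rw [map_sub]; ring
      have hneg : -(x - algebraMap κ ↥(modularFunctionFieldFullC κ M) (φ a)) ≠ 0 :=
        neg_ne_zero.mpr (hxne (φ a))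
      have hge := ff_ord_add_ge P (hxne a) hneg (by rw [hdiff]; exact hc)
      rw [hdiff, ff_ord_algebraMap] at hge
      have hordneg : P.ord (-(x - algebraMap κ ↥(modularFunctionFieldFullC κ M) (φ a))) =
          P.ord (x - algebraMap κ ↥(modularFunctionFieldFullC κ M) (φ a)) := by
        have h2 : -(x - algebraMap κ ↥(modularFunctionFieldFullC κ M) (φ a)) =
            algebraMap κ ↥(modularFunctionFieldFullC κ M) (-1) *
              (x - algebraMap κ ↥(modularFunctionFieldFullC κ M) (φ a)) := by
          rw [map_neg, map_one]; ring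
        rw [h2, P.ord_mul ((map_ne_zero _).mpr (by norm_num)) (hxne (φ a)), ff_ord_algebraMap,
          zero_add]
      rw [hordneg] at hge
      have := le_min ha.le ha2.le
      have hmin : 0 < min (P.ord (x - algebraMap κ ↥(modularFunctionFieldFullC κ M) a))
          (P.ord (x - algebraMap κ ↥(modularFunctionFieldFullC κ M) (φ a))) := lt_min ha ha2
      omega
    rw [Set.mem_iUnion₂]
    exact ⟨a, hfix, ne_of_gt ha⟩
  · left
    rw [Set.mem_setOf_eq]
    intro h0
    apply hxP
    rw [ff_mem_iff_ord_nonneg P hx0, h0]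

/-- the fixed points of a power of Frobenius are finitely many. -/
theorem s17f_finite_frob_fixed (p : ℕ) [Fact p.Prime] [CharP κ p] [PerfectRing κ p]
    (d : ℕ) (hd : 0 < d) :
    {a : κ | (frobeniusEquiv κ p ^ d) a = a}.Finite := by
  classical
  have hpow : ∀ (n : ℕ) (a : κ), (frobeniusEquiv κ p ^ n) a = a ^ p ^ n := by
    intro n
    induction n with
    | zero => intro a; simp
    | succ n ih =>
      intro a
      rw [pow_succ', RingAut.mul_apply, ih, frobeniusEquiv_apply, frobenius_def, ← pow_mul,
        pow_succ]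
  have hp1 : 1 < p ^ d := Nat.one_lt_pow hd.ne' (Fact.out : p.Prime).one_lt
  set P : Polynomial κ := Polynomial.X ^ (p ^ d) - Polynomial.X with hP
  have hP0 : P ≠ 0 := FiniteField.X_pow_card_sub_X_ne_zero κ hp1
  refine Set.Finite.subset (P.roots.toFinset.finite_toSet) ?_
  intro a ha
  rw [Set.mem_setOf_eq, hpow] at ha
  rw [Finset.mem_coe, Multiset.mem_toFinset, Polynomial.mem_roots hP0, Polynomial.IsRoot, hP,
    Polynomial.eval_sub, Polynomial.eval_pow, Polynomial.eval_X, ha, sub_self]

/-- **[FCG]: the Frobenius-fixed divisor classes of the special fibre are finitely many.** -/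
theorem s17f_finite_fixed (p : ℕ) [Fact p.Prime] [CharP κ p] [PerfectRing κ p] :
    {c : JZeroC κ M | s37e_psi κ M p • c = c}.Finite := by
  haveI := s44rq_fbar_hasPrincipalDivisors κ M p
  have hdeg := s44rq_fbar_deg_eq_one κ M
  have hfin := s44rq_fbar_finite_L κ M p
  set g : ℕ := genusFF κ ↥(modularFunctionFieldFullC κ M) with hg
  have hR : ∀ D : Divisor κ ↥(modularFunctionFieldFullC κ M), (g : ℤ) ≤ Divisor.degree D →
      riemannRochSpace D ≠ ⊥ := by
    intro D hD hbot
    have h1 := s44rq_fbar_riemann κ M p D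
    haveI := hfin D
    have h2 : Module.finrank κ ↥(riemannRochSpace D) = 0 := Submodule.finrank_eq_zero.mpr hbot
    rw [h2] at h1
    have h3 : (0 : ℤ) ≤ Module.finrank κ (H1 D) := Int.natCast_nonneg _
    push_cast at h1
    omega
  refine s17f_finite_fixed_abs hdeg hfin g hR (s37e_psi κ M p) (s44h_fbarInf κ M)
    (s17f_coeffAut_inf κ M _) ?_
  intro d hd
  have hpsi : s37e_psi κ M p ^ d = s37e_coeffAut M (frobeniusEquiv κ p ^ d) := by
    rw [s37e_psi, ← map_pow]
  rw [hpsi]
  exact s17f_finite_fixed_places κ M p _ (s17f_finite_frob_fixed κ p d hd)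

end Special

section Reduction

local notation "Γ" => AlgebraicClosure ℚ ≃ₐ[ℚ] AlgebraicClosure ℚ

/-- **the reduction of the rational points of `J₀(N)` is finite.** -/
theorem s17f_finite_red_fixedPoints (N : ℕ) [NeZero N]
    (A : ValuationSubring (AlgebraicClosure ℚ)) (ℓ : ℕ) [hℓ : Fact ℓ.Prime]
    (hA : A.LiesOverPrime ℓ) (hℓN : ¬ ℓ ∣ N) :
    ((reductionModL A N) '' {x : JZero N | ∀ σ : Γ, σ • x = x}).Finite := by
  by_cases h : ReductionInputsModL A N
  · haveI := s18n_charP_residueField A hℓ.out hA
    haveI : IsAlgClosed (IsLocalRing.ResidueField A) := s18n_isAlgClosed_residueField A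
    haveI : PerfectRing (IsLocalRing.ResidueField A) ℓ := inferInstance
    obtain ⟨σ, hσ⟩ := Fermat.Agent.Lib.Frobenius.exists_isFrobeniusAt_of_liesOverPrime A ℓ
      hℓ.out hA
    refine Set.Finite.subset (s17f_finite_fixed (IsLocalRing.ResidueField A) N ℓ) ?_
    rintro _ ⟨x, hx, rfl⟩
    rw [Set.mem_setOf_eq]
    have h1 := s37u_reductionModL_frobenius N A hA hℓN h σ hσ x
    rw [hx σ] at h1
    exact h1.symm
  · rw [reductionModL_of_not h]
    refine Set.Finite.subset (Set.finite_singleton (0 : JZeroC (IsLocalRing.ResidueField A) N)) ?_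
    rintro _ ⟨x, -, rfl⟩
    rfl

end Reduction

end Fermat.Agent.Lib.S17
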