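/-
Programme MW (S17), weak Mordell–Weil half, abstract part (helper3).

`Γ` a group acting on an abelian group `J` by automorphisms, `G = J^Γ` the fixed points,
`G' = G ∩ 2J` (`s17w_halvable`).  From

* (FCG) a homomorphism `red : J → X` with `red(G)` finite,
* (W1)  `red x = 0 → x ∈ 2J` for `x ∈ G`,
* (W2)  a finite index subgroup `U ≤ Γ` fixing every `y` with `2y ∈ G`,
* `J[2]` finite,

the subgroup `2G` has finite index in `G` (`s17w_finiteIndex_two`, `s17w_finiteIndex_zsmul_two`):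
`[G : 2G] = [G : G'] [G' : 2G]`, `G' ⊇ ker (red|G)`, and `G'/2G ↪ Map(Γ/U, J[2])`,
`2y ↦ (σ ↦ σy − y)`.  Mathlib only.
-/
import Mathlib

set_option autoImplicit false
set_option linter.style.haveILetI false

namespace Fermat.Agent.Lib.S17

section General

/-- a subgroup `H` of an abelian group `A` has finite index as soon as some map `f` from `A` to a
finite type separates the cosets of `H`. -/
theorem s17w_finiteIndex_of_map {A : Type*} [AddCommGroup A] (H : AddSubgroup A) {S : Type*}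
    [Finite S] (f : A → S) (hf : ∀ a b, f a = f b → a - b ∈ H) : H.FiniteIndex := by
  haveI : Finite (A ⧸ H) := by
    refine Finite.of_injective (fun q : A ⧸ H => f q.out) ?_
    intro q q' h
    have h1 : q.out - q'.out ∈ H := hf _ _ h
    have h2 : (QuotientAddGroup.mk q.out : A ⧸ H) = QuotientAddGroup.mk q'.out := by
      rw [QuotientAddGroup.eq]
      have : -q.out + q'.out = -(q.out - q'.out) := by abel
      rw [this]
      exact H.neg_mem h1
    rwa [QuotientAddGroup.out_eq', QuotientAddGroup.out_eq'] at h2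
  exact AddSubgroup.finiteIndex_of_finite_quotient

end General

section Abs

variable (Γ J : Type*) [Group Γ] [AddCommGroup J] [DistribMulAction Γ J]

/-- the subgroup `G' = G ∩ 2J` of the group `G = J^Γ` of fixed points. -/
def s17w_halvable : AddSubgroup ↥(FixedPoints.addSubgroup Γ J) where
  carrier := {x | ∃ y : J, 2 • y = (x : J)}
  zero_mem' := ⟨0, by simp⟩
  add_mem' := by
    rintro a b ⟨y, hy⟩ ⟨z, hz⟩
    exact ⟨y + z, by rw [smul_add, hy, hz]; rfl⟩
  neg_mem' := by
    rintro a ⟨y, hy⟩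
    exact ⟨-y, by rw [smul_neg, hy]; rfl⟩

variable {Γ J}

theorem s17w_mem_halvable {x : ↥(FixedPoints.addSubgroup Γ J)} :
    x ∈ s17w_halvable Γ J ↔ ∃ y : J, 2 • y = (x : J) := Iff.rfl

/-- `2G ≤ G'`. -/
theorem s17w_range_le_halvable :
    (nsmulAddMonoidHom (α := ↥(FixedPoints.addSubgroup Γ J)) 2).range ≤ s17w_halvable Γ J := by
  rintro x ⟨g, rfl⟩
  exact ⟨(g : J), rfl⟩

/-- **(FCG) + (W1) ⇒ `G'` has finite index in `G`.** -/
theorem s17w_halvable_finiteIndex {X : Type*} [AddCommGroup X] (red : J →+ X)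
    (hF : (red '' {x : J | ∀ σ : Γ, σ • x = x}).Finite)
    (hW1 : ∀ x : J, (∀ σ : Γ, σ • x = x) → red x = 0 → ∃ y : J, 2 • y = x) :
    (s17w_halvable Γ J).FiniteIndex := by
  set r : ↥(FixedPoints.addSubgroup Γ J) →+ X :=
    red.comp (FixedPoints.addSubgroup Γ J).subtype with hr
  haveI : Finite r.range := by
    have hsub : (r.range : Set X) ⊆ red '' {x : J | ∀ σ : Γ, σ • x = x} := by
      rintro _ ⟨x, rfl⟩
      exact ⟨(x : J), x.2, rfl⟩
    exact (hF.subset hsub).to_subtype
  have hk : r.ker.FiniteIndex := inferInstance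
  exact AddSubgroup.finiteIndex_of_le (H := r.ker) (fun x hx => hW1 (x : J) x.2 hx)

/-- the cocycle value `σ y − y` is `2`-torsion when `2y` is fixed. -/
theorem s17w_two_smul_sub (σ : Γ) {y : J} (hy : ∀ τ : Γ, τ • (2 • y) = 2 • y) :
    2 • (σ • y - y) = 0 := by
  rw [smul_sub, ← smul_comm σ 2 y, hy σ, sub_self]

/-- **(W2) ⇒ `2G` has finite index in `G'`.** -/
theorem s17w_relIndex_ne_zero (U : Subgroup Γ) [U.FiniteIndex]
    (hU : ∀ σ ∈ U, ∀ y : J, (∀ τ : Γ, τ • (2 • y) = 2 • y) → σ • y = y)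
    (hT : {t : J | 2 • t = 0}.Finite) :
    ((nsmulAddMonoidHom (α := ↥(FixedPoints.addSubgroup Γ J)) 2).range).relIndex
      (s17w_halvable Γ J) ≠ 0 := by
  classical
  haveI : Finite ↥{t : J | 2 • t = 0} := hT.to_subtype
  -- a half of every element of `G'`
  have hex : ∀ x : ↥(s17w_halvable Γ J), ∃ y : J, 2 • y = ((x : ↥(FixedPoints.addSubgroup Γ J)) : J) :=
    fun x => x.2
  choose half hhalf using hex
  have hfix : ∀ x : ↥(s17w_halvable Γ J), ∀ τ : Γ, τ • (2 • half x) = 2 • half x := by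
    intro x τ
    rw [hhalf x]
    exact (x : ↥(FixedPoints.addSubgroup Γ J)).2 τ
  -- the cocycle
  let f : ↥(s17w_halvable Γ J) → (Γ ⧸ U → ↥{t : J | 2 • t = 0}) :=
    fun x q => ⟨q.out • half x - half x, s17w_two_smul_sub q.out (hfix x)⟩
  -- every `σ` acts on a half through its coset
  have hact : ∀ (x : ↥(s17w_halvable Γ J)) (σ : Γ),
      σ • half x = (QuotientGroup.mk σ : Γ ⧸ U).out • half x := by
    intro x σ
    obtain ⟨h, hh, hout⟩ : ∃ h ∈ U, (QuotientGroup.mk σ : Γ ⧸ U).out = σ * h := by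
      obtain ⟨h, hh⟩ := QuotientGroup.mk_out_eq_mul U σ
      exact ⟨h, h.2, hh⟩
    rw [hout, mul_smul, hU h hh (half x) (hfix x)]
  have key : (((nsmulAddMonoidHom (α := ↥(FixedPoints.addSubgroup Γ J)) 2).range).addSubgroupOf
      (s17w_halvable Γ J)).FiniteIndex := by
    refine s17w_finiteIndex_of_map _ f ?_
    intro a b hab
    have hq : ∀ q : Γ ⧸ U, q.out • half a - half a = q.out • half b - half b := by
      intro q
      have := congrArg Subtype.val (congrFun hab q)
      exact this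
    have hfixd : ∀ σ : Γ, σ • (half a - half b) = half a - half b := by
      intro σ
      rw [smul_sub, hact a σ, hact b σ]
      have := hq (QuotientGroup.mk σ : Γ ⧸ U)
      have h2 : (QuotientGroup.mk σ : Γ ⧸ U).out • half a - (QuotientGroup.mk σ : Γ ⧸ U).out • half b
          = ((QuotientGroup.mk σ : Γ ⧸ U).out • half a - half a)
            - ((QuotientGroup.mk σ : Γ ⧸ U).out • half b - half b) + (half a - half b) := by abel
      rw [h2, this, sub_self, zero_add]
    rw [AddSubgroup.mem_addSubgroupOf]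
    refine ⟨⟨half a - half b, hfixd⟩, ?_⟩
    apply Subtype.ext
    show 2 • (half a - half b) = (((a - b : ↥(s17w_halvable Γ J)) : ↥(FixedPoints.addSubgroup Γ J)) : J)
    rw [smul_sub, hhalf a, hhalf b]
    rfl
  exact key.index_ne_zero

/-- **the abstract weak Mordell–Weil statement**, `nsmul` form. -/
theorem s17w_finiteIndex_two {X : Type*} [AddCommGroup X] (red : J →+ X)
    (hF : (red '' {x : J | ∀ σ : Γ, σ • x = x}).Finite)
    (hW1 : ∀ x : J, (∀ σ : Γ, σ • x = x) → red x = 0 → ∃ y : J, 2 • y = x)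
    (U : Subgroup Γ) [U.FiniteIndex]
    (hU : ∀ σ ∈ U, ∀ y : J, (∀ τ : Γ, τ • (2 • y) = 2 • y) → σ • y = y)
    (hT : {t : J | 2 • t = 0}.Finite) :
    (nsmulAddMonoidHom (α := ↥(FixedPoints.addSubgroup Γ J)) 2).range.FiniteIndex := by
  have h1 := s17w_halvable_finiteIndex red hF hW1
  have h2 := s17w_relIndex_ne_zero U hU hT
  have h3 := AddSubgroup.relIndex_mul_index (s17w_range_le_halvable (Γ := Γ) (J := J))
  refine ⟨?_⟩
  rw [← h3]
  exact mul_ne_zero h2 h1.index_ne_zero

/-- `zsmul` and `nsmul` by `2` have the same range. -/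
theorem s17w_range_zsmul_two (A : Type*) [AddCommGroup A] :
    (zsmulAddGroupHom (α := A) 2).range = (nsmulAddMonoidHom (α := A) 2).range := by
  ext x
  constructor
  · rintro ⟨y, rfl⟩
    exact ⟨y, by simp [two_nsmul, two_zsmul]⟩
  · rintro ⟨y, rfl⟩
    exact ⟨y, by simp [two_nsmul, two_zsmul]⟩

/-- **the abstract weak Mordell–Weil statement**, `zsmul` form. -/
theorem s17w_finiteIndex_zsmul_two {X : Type*} [AddCommGroup X] (red : J →+ X)
    (hF : (red '' {x : J | ∀ σ : Γ, σ • x = x}).Finite)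
    (hW1 : ∀ x : J, (∀ σ : Γ, σ • x = x) → red x = 0 → ∃ y : J, 2 • y = x)
    (U : Subgroup Γ) [U.FiniteIndex]
    (hU : ∀ σ ∈ U, ∀ y : J, (∀ τ : Γ, τ • (2 • y) = 2 • y) → σ • y = y)
    (hT : {t : J | 2 • t = 0}.Finite) :
    (zsmulAddGroupHom (α := ↥(FixedPoints.addSubgroup Γ J)) 2).range.FiniteIndex := by
  rw [s17w_range_zsmul_two]
  exact s17w_finiteIndex_two red hF hW1 U hU hT

end Abs

end Fermat.Agent.Lib.S17
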