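/-
Programme MW (S17), weak Mordell–Weil half: THE CONTRACTS (helper3, co-architect; shape of
helper9's restructuring).

`N ≥ 1`, `Γ = Gal(ℚ̄/ℚ)`, `G = J₀(N)(ℚ̄)^Γ`, `A` a valuation subring of `ℚ̄` (a place over one good
prime `ℓ ∤ 2N`), `red = reductionModL A N`.

* `s17_FCG N A` (helper9)          : `red(G)` is finite;
* `s17_W1 N A`  (helper5, helper7) : every `x ∈ G` with `red x = 0` has a half in `J₀(N)(ℚ̄)`;
* `s17_W2 N`    (helper3)          : some open subgroup `Gal(ℚ̄/F)`, `F/ℚ` finite, fixes every `y`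
                                      with `2y ∈ G`;
* `s17_WMWz N`   (helper3)          : `2G` has finite index in `G` — the hypothesis `H₁` of Mathlib's
                                      `AddCommGroup.fg_of_descent` (`zsmul` form; `s17_WMWn` is the
                                      `nsmul` form).
-/
import Mathlib
import Fermat.Prelude.Def_ModularCurve_ArithmeticGalois
import Fermat.Prelude.Def_ModularCurve_ReductionModL

set_option autoImplicit false

namespace Fermat.Agent.Lib.S17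

open ModularCurve AlgebraicCurve

/-- **[FCG]**: the image of the rational points under the reduction map at `A` is finite. -/
def s17_FCG (N : ℕ) [NeZero N] (A : ValuationSubring (AlgebraicClosure ℚ)) : Prop :=
  (reductionModL A N ''
    {x : JZero N | ∀ σ : AlgebraicClosure ℚ ≃ₐ[ℚ] AlgebraicClosure ℚ, σ • x = x}).Finite

/-- **[W1′]**: a rational point with trivial reduction at `A` is divisible by `2` in
`J₀(N)(ℚ̄)`. -/
def s17_W1 (N : ℕ) [NeZero N] (A : ValuationSubring (AlgebraicClosure ℚ)) : Prop :=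
  ∀ x : JZero N, (∀ σ : AlgebraicClosure ℚ ≃ₐ[ℚ] AlgebraicClosure ℚ, σ • x = x) →
    reductionModL A N x = 0 → ∃ y : JZero N, 2 • y = x

/-- **[W2]**: all halves of rational points are defined over one number field. -/
def s17_W2 (N : ℕ) [NeZero N] : Prop :=
  ∃ F : IntermediateField ℚ (AlgebraicClosure ℚ), FiniteDimensional ℚ F ∧
    ∀ σ : AlgebraicClosure ℚ ≃ₐ[ℚ] AlgebraicClosure ℚ, (∀ z ∈ F, σ z = z) →
      ∀ y : JZero N,
        (∀ τ : AlgebraicClosure ℚ ≃ₐ[ℚ] AlgebraicClosure ℚ, τ • (2 • y) = 2 • y) → σ • y = y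

/-- **[WMW]**, `zsmul` form: `2 J₀(N)(ℚ)` has finite index in `J₀(N)(ℚ)`. -/
def s17_WMWz (N : ℕ) [NeZero N] : Prop :=
  (zsmulAddGroupHom (α := ↥(FixedPoints.addSubgroup
    (AlgebraicClosure ℚ ≃ₐ[ℚ] AlgebraicClosure ℚ) (JZero N))) 2).range.FiniteIndex

/-- **[WMW]**, `nsmul` form (literally `H₁` of `AddCommGroup.fg_of_descent` with `n = 2`). -/
def s17_WMWn (N : ℕ) [NeZero N] : Prop :=
  (nsmulAddMonoidHom (α := ↥(FixedPoints.addSubgroup
    (AlgebraicClosure ℚ ≃ₐ[ℚ] AlgebraicClosure ℚ) (JZero N))) 2).range.FiniteIndex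

end Fermat.Agent.Lib.S17
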