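/-
Programme MW (S17), weak Mordell–Weil half: **[WMW] from [FCG], [W1′], [W2]** (helper3).
`J₀(N)(ℚ̄)[2]` is finite by the landed `s30a_finite_torsion`; the rest is `WAbs`.
-/
import Mathlib
import Fermat.Agent.Lib.S17.WIface
import Fermat.Agent.Lib.S17.WAbs
import Fermat.Agent.Lib.S30.TateLevel

set_option autoImplicit false
set_option linter.style.haveILetI false

namespace Fermat.Agent.Lib.S17

open ModularCurve AlgebraicCurve Fermat.Agent.Lib.S29 Fermat.Agent.Lib.S30

local notation "Γℚ" => (AlgebraicClosure ℚ ≃ₐ[ℚ] AlgebraicClosure ℚ)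

variable (N : ℕ) [NeZero N]

/-- `J₀(N)(ℚ̄)[2]` is finite. -/
theorem s17w_finite_two_torsion : {t : JZero N | 2 • t = 0}.Finite := by
  haveI : Finite (s29k_Jp N 2) := s30a_finite_torsion N 2
  have h : {t : JZero N | 2 • t = 0} =
      ((Pic0.torsion (AlgebraicClosure ℚ) (modularFunctionFieldBar N) 2 : AddSubgroup (JZero N)) :
        Set (JZero N)) := by
    ext t
    rw [Set.mem_ofPred_eq, SetLike.mem_coe, Pic0.mem_torsion, ← natCast_zsmul]
  rw [h]
  exact Set.toFinite _

/-- the fixing subgroup of a finite extension has finite index. -/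
theorem s17w_finiteIndex_fixingSubgroup (F : IntermediateField ℚ (AlgebraicClosure ℚ))
    [FiniteDimensional ℚ F] : (F.fixingSubgroup : Subgroup Γℚ).FiniteIndex := by
  have hopen : IsOpen (F.fixingSubgroup : Set Γℚ) := F.fixingSubgroup_isOpen
  have : Finite (Γℚ ⧸ F.fixingSubgroup) := Subgroup.quotient_finite_of_isOpen _ hopen
  exact Subgroup.finiteIndex_of_finite_quotient

/-- **[WMW] (`nsmul` form) from [FCG], [W1′], [W2].** -/
theorem s17w_wmwn_of (A : ValuationSubring (AlgebraicClosure ℚ)) (hF : s17_FCG N A)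
    (h1 : s17_W1 N A) (h2 : s17_W2 N) : s17_WMWn N := by
  obtain ⟨F, hFd, hfix⟩ := h2
  haveI := hFd
  haveI := s17w_finiteIndex_fixingSubgroup F
  refine s17w_finiteIndex_two (reductionModL A N) hF h1 F.fixingSubgroup ?_
    (s17w_finite_two_torsion N)
  intro σ hσ y hy
  exact hfix σ (fun z hz => hσ ⟨z, hz⟩) y hy

/-- **[WMW] (`zsmul` form) from [FCG], [W1′], [W2].** -/
theorem s17w_wmwz_of (A : ValuationSubring (AlgebraicClosure ℚ)) (hF : s17_FCG N A)
    (h1 : s17_W1 N A) (h2 : s17_W2 N) : s17_WMWz N := by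
  unfold s17_WMWz
  rw [s17w_range_zsmul_two]
  exact s17w_wmwn_of N A hF h1 h2

end Fermat.Agent.Lib.S17
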