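/-
Programme MW (S17), weak Mordell–Weil half, Galois part (helper3):
**Kummer generator of an index-2 open subgroup.**

`E ⊆ ℚ̄` a subfield, `U₀ = Gal(ℚ̄/E)`, `V ≤ U₀` an open subgroup (it contains `Gal(ℚ̄/F)` for a
finite `F/ℚ`) of index `≤ 2` in `U₀` (phrased: the product of two elements of `U₀ ∖ V` is in `V`).
If `V ≠ U₀` there is `z ∈ ℚ̄ˣ` with `z² ∈ E`, fixed by `V` and negated by `U₀ ∖ V`
(`s17w_exists_kummer`); consequently `V = U₀ ∩ Stab z` (`s17w_eq_stab`).
-/
import Mathlib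
import Fermat.Agent.Lib.CFT.RamBridge

set_option autoImplicit false
set_option linter.unusedSectionVars false
set_option linter.style.haveILetI false

namespace Fermat.Agent.Lib.S17

open Fermat.Agent.Lib.CFT

local notation "Qbar" => AlgebraicClosure ℚ
local notation "GQ" => (AlgebraicClosure ℚ ≃ₐ[ℚ] AlgebraicClosure ℚ)

attribute [local instance] cfg_isGalois_QBar

/-- a subgroup containing the fixing subgroup of a finite extension is closed, hence equal to the
fixing subgroup of its fixed field. -/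
theorem s17w_fixingSubgroup_fixedField (V : Subgroup GQ)
    (hlev : ∃ F : IntermediateField ℚ Qbar, FiniteDimensional ℚ F ∧ F.fixingSubgroup ≤ V) :
    (IntermediateField.fixedField V).fixingSubgroup = V := by
  obtain ⟨F, hF, hFV⟩ := hlev
  have hopen : IsOpen (V : Set GQ) :=
    Subgroup.isOpen_mono hFV (IntermediateField.fixingSubgroup_isOpen F)
  have hclosed : IsClosed (V : Set GQ) := OpenSubgroup.isClosed ⟨V, hopen⟩
  exact InfiniteGalois.fixingSubgroup_fixedField (k := ℚ) (K := Qbar) ⟨V, hclosed⟩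

/-- the fixed field of a subgroup containing the fixing subgroup of a finite extension is
finite. -/
theorem s17w_fixedField_finiteDimensional (V : Subgroup GQ)
    (hlev : ∃ F : IntermediateField ℚ Qbar, FiniteDimensional ℚ F ∧ F.fixingSubgroup ≤ V) :
    FiniteDimensional ℚ (IntermediateField.fixedField V) := by
  obtain ⟨F, hF, hFV⟩ := hlev
  have hle : IntermediateField.fixedField V ≤ F := by
    have h1 : IntermediateField.fixedField V ≤
        IntermediateField.fixedField F.fixingSubgroup :=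
      IntermediateField.fixedField_antitone hFV
    rwa [InfiniteGalois.fixedField_fixingSubgroup F] at h1
  exact FiniteDimensional.of_injective (IntermediateField.inclusion hle).toLinearMap
    (IntermediateField.inclusion_injective hle)

variable (E : IntermediateField ℚ Qbar) (V : Subgroup GQ)

/-- **the Kummer generator.** -/
theorem s17w_exists_kummer (hVE : V ≤ E.fixingSubgroup)
    (hlev : ∃ F : IntermediateField ℚ Qbar, FiniteDimensional ℚ F ∧ F.fixingSubgroup ≤ V)
    (hidx : ∀ σ τ : GQ, σ ∈ E.fixingSubgroup → τ ∈ E.fixingSubgroup → σ ∉ V → τ ∉ V → σ * τ ∈ V)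
    (hne : V ≠ E.fixingSubgroup) :
    ∃ z : Qbar, z ≠ 0 ∧ (∀ σ ∈ V, σ z = z) ∧
      (∀ σ ∈ E.fixingSubgroup, σ ∉ V → σ z = -z) ∧ z ^ 2 ∈ E := by
  -- an element of `U₀ ∖ V`
  obtain ⟨σ₀, hσ₀U, hσ₀V⟩ : ∃ σ₀ ∈ E.fixingSubgroup, σ₀ ∉ V := by
    by_contra hcon
    push Not at hcon
    exact hne (le_antisymm hVE hcon)
  have hσ₀inv : σ₀⁻¹ ∉ V := fun h => hσ₀V (by simpa using V.inv_mem h)
  have hσ₀invU : σ₀⁻¹ ∈ E.fixingSubgroup := E.fixingSubgroup.inv_mem hσ₀U
  -- an element of the fixed field of `V` outside `E`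
  have hfix := s17w_fixingSubgroup_fixedField V hlev
  obtain ⟨w, hwV, hwE⟩ : ∃ w : Qbar, (∀ σ ∈ V, σ w = w) ∧ w ∉ E := by
    by_contra hcon
    push Not at hcon
    have hle : IntermediateField.fixedField V ≤ E := by
      intro w hw
      rw [IntermediateField.mem_fixedField_iff] at hw
      exact hcon w hw
    have h1 := IntermediateField.fixingSubgroup_antitone hle
    rw [hfix] at h1
    exact hσ₀V (h1 hσ₀U)
  -- membership in `E` through the fixing subgroup
  have hmemE : ∀ u : Qbar, (∀ σ ∈ E.fixingSubgroup, σ u = u) → u ∈ E := by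
    intro u hu
    have h1 : u ∈ IntermediateField.fixedField E.fixingSubgroup := by
      rw [IntermediateField.mem_fixedField_iff]
      exact hu
    rwa [InfiniteGalois.fixedField_fixingSubgroup E] at h1
  -- the action of `U₀` on `w`
  have hact : ∀ σ ∈ E.fixingSubgroup, σ ∉ V → σ w = σ₀ w := by
    intro σ hσU hσV
    have h1 : σ₀⁻¹ * σ ∈ V := hidx σ₀⁻¹ σ hσ₀invU hσU hσ₀inv hσV
    have h2 := hwV _ h1
    have h3 : σ w = σ₀ ((σ₀⁻¹ * σ) w) := by
      rw [← AlgEquiv.mul_apply, ← mul_assoc, mul_inv_cancel, one_mul]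
    rw [h3, h2]
  refine ⟨w - σ₀ w, ?_, ?_, ?_, ?_⟩
  · intro h0
    have hw0 : σ₀ w = w := (sub_eq_zero.mp h0).symm
    apply hwE
    refine hmemE w fun σ hσU => ?_
    by_cases hσV : σ ∈ V
    · exact hwV σ hσV
    · rw [hact σ hσU hσV, hw0]
  · intro σ hσV
    have hσU := hVE hσV
    have h1 : σ * σ₀ ∉ V := by
      intro h
      apply hσ₀V
      have := V.mul_mem (V.inv_mem hσV) h
      simpa [← mul_assoc] using this
    have h2 : σ * σ₀ ∈ E.fixingSubgroup := E.fixingSubgroup.mul_mem hσU hσ₀U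
    have h3 : (σ * σ₀) w = σ₀ w := hact _ h2 h1
    rw [map_sub, hwV σ hσV, ← AlgEquiv.mul_apply, h3]
  · intro σ hσU hσV
    have h1 : σ * σ₀ ∈ V := hidx σ σ₀ hσU hσ₀U hσV hσ₀V
    have h2 : (σ * σ₀) w = w := hwV _ h1
    rw [map_sub, ← AlgEquiv.mul_apply, h2, hact σ hσU hσV]
    ring
  · have hz : ∀ σ ∈ E.fixingSubgroup, σ ((w - σ₀ w) ^ 2) = (w - σ₀ w) ^ 2 := by
      intro σ hσU
      by_cases hσV : σ ∈ V
      · have h1 : σ * σ₀ ∉ V := by
          intro h
          apply hσ₀V
          have := V.mul_mem (V.inv_mem hσV) h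
          simpa [← mul_assoc] using this
        have h2 : σ * σ₀ ∈ E.fixingSubgroup := E.fixingSubgroup.mul_mem hσU hσ₀U
        have h3 : (σ * σ₀) w = σ₀ w := hact _ h2 h1
        rw [map_pow, map_sub, hwV σ hσV, ← AlgEquiv.mul_apply, h3]
      · have h1 : σ * σ₀ ∈ V := hidx σ σ₀ hσU hσ₀U hσV hσ₀V
        have h2 : (σ * σ₀) w = w := hwV _ h1
        rw [map_pow, map_sub, ← AlgEquiv.mul_apply, h2, hact σ hσU hσV]
        ring
    exact hmemE _ hz

/-- `V` is the stabiliser of its Kummer generator inside `U₀`. -/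
theorem s17w_eq_stab (hVE : V ≤ E.fixingSubgroup) {z : Qbar} (hz0 : z ≠ 0)
    (hzV : ∀ σ ∈ V, σ z = z) (hzU : ∀ σ ∈ E.fixingSubgroup, σ ∉ V → σ z = -z) (σ : GQ) :
    σ ∈ V ↔ σ ∈ E.fixingSubgroup ∧ σ z = z := by
  constructor
  · intro h
    exact ⟨hVE h, hzV σ h⟩
  · rintro ⟨hσU, hσz⟩
    by_contra hσV
    have h1 := hzU σ hσU hσV
    rw [hσz] at h1
    have h2 : (2 : Qbar) * z = 0 := by linear_combination h1
    rcases mul_eq_zero.mp h2 with h | h
    · exact two_ne_zero h
    · exact hz0 h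

end Fermat.Agent.Lib.S17
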