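/-
Programme MW (S17), weak Mordell–Weil half, number-field part 1 (helper3):
**unramified ⇒ even valuation**.

`K ⊆ L` number fields inside a Galois extension `Ω/ℚ`, `L/ℚ` Galois.  If all the inertia groups of
`Ω/ℚ` at the places over a prime number `ℓ` fix `L` pointwise, then every prime of `L` over `ℓ` is
unramified over `K` (`s17w_isUnramifiedAt`, the per-prime form of `cfg_unram_of_galois`), and the
valuation at a prime `v ∣ ℓ` of `K` of an element `x ∈ K` which is a square in `L` is a square in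
`ℤᵐ⁰`, i.e. `ord_v x` is even (`s17w_valuation_sq_of_unram`).
-/
import Mathlib
import Fermat.Agent.Lib.CFT.RamBridge

set_option autoImplicit false
set_option linter.unusedSectionVars false
set_option linter.style.haveILetI false

namespace Fermat.Agent.Lib.S17

open NumberField IsDedekindDomain Fermat.Agent.Lib.CFT

section Unram

variable {Ω : Type*} [Field Ω] [Algebra ℚ Ω] [IsGalois ℚ Ω]

/-- per-prime form of `cfg_unram_of_galois`: trivial inertia at the places of `Ω` over `ℓ` makes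
the primes of `L` over `ℓ` unramified over `K`. -/
theorem s17w_isUnramifiedAt {K L : Type*} [Field K] [NumberField K] [Field L]
    [NumberField L] [Algebra K L] [Algebra K Ω] [Algebra L Ω] [IsScalarTower K L Ω] [IsGalois ℚ L]
    (Q : Ideal (𝓞 L)) [Q.IsPrime] (hQ : Q ≠ ⊥) {ℓ : ℕ} (hℓ : ℓ.Prime) (hℓQ : (ℓ : 𝓞 L) ∈ Q)
    (h1 : ∀ A : ValuationSubring Ω, A.LiesOverPrime ℓ →
      ∀ σ ∈ A.inertiaSubgroupIn ℚ, ∀ x : L, σ (algebraMap L Ω x) = algebraMap L Ω x) :
    Algebra.IsUnramifiedAt (𝓞 K) Q := by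
  have : IsGalois K L := IsGalois.tower_top_of_isGalois ℚ K L
  refine cfg_isUnramifiedAt_of_inertia Q hQ ?_
  intro τ hτ
  have hQmax : Q.IsMaximal := Ideal.IsPrime.isMaximal inferInstance hQ
  obtain ⟨A, hA, -, hI, -⟩ := cfg_exists_valuationSubring (Ω := Ω) Q hℓ hℓQ
  have hτ' : ∀ y : 𝓞 L, (τ.restrictScalars ℚ) • y - y ∈ Q := hτ
  obtain ⟨σ, hσA, hσ⟩ := hI (τ.restrictScalars ℚ) hτ'
  ext x
  apply (algebraMap L Ω).injective
  change algebraMap L Ω (τ x) = algebraMap L Ω x
  rw [← h1 A hA σ hσA x, hσ x]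
  rfl

end Unram

section Parity

variable {K L : Type*} [Field K] [NumberField K] [Field L] [NumberField L] [Algebra K L]

/-- at an unramified prime the valuation of a square root is half the valuation. -/
theorem s17w_valuation_eq_sq (v : HeightOneSpectrum (𝓞 K)) (w : HeightOneSpectrum (𝓞 L))
    [w.asIdeal.LiesOver v.asIdeal] [Algebra.IsUnramifiedAt (𝓞 K) w.asIdeal]
    (x : K) (z : L) (hz : z ^ 2 = algebraMap K L x) :
    v.valuation K x = (w.valuation L z) ^ 2 := by
  have h := HeightOneSpectrum.valuation_liesOver L v w x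
  have he : v.asIdeal.ramificationIdx' w.asIdeal = 1 := by
    rw [Ideal.ramificationIdx'_eq_ramificationIdx v.asIdeal w.asIdeal v.ne_bot]
    exact Ideal.ramificationIdx_eq_one w.asIdeal (𝓞 K)
  rw [he, pow_one, ← hz, map_pow] at h
  exact h

/-- every prime of `K` has a prime of `L` above it. -/
theorem s17w_exists_liesOver (v : HeightOneSpectrum (𝓞 K)) :
    ∃ w : HeightOneSpectrum (𝓞 L), w.asIdeal.LiesOver v.asIdeal := by
  haveI : v.asIdeal.IsMaximal := v.isMaximal
  obtain ⟨Q, hQ, hQv⟩ := Ideal.exists_ideal_over_maximal_of_isIntegral (S := 𝓞 L) v.asIdeal (by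
    rw [(RingHom.injective_iff_ker_eq_bot _).mp
      (FaithfulSMul.algebraMap_injective (𝓞 K) (𝓞 L))]
    exact bot_le)
  have hlo : Q.LiesOver v.asIdeal := ⟨hQv.symm⟩
  have hQbot : Q ≠ ⊥ := Ideal.ne_bot_of_liesOver_of_ne_bot v.ne_bot Q
  exact ⟨⟨Q, hQ.isPrime, hQbot⟩, hlo⟩

end Parity

section Main

variable {Ω : Type*} [Field Ω] [Algebra ℚ Ω] [IsGalois ℚ Ω]

/-- **unramified ⇒ even valuation.**  If the inertia groups of `Ω/ℚ` over `ℓ` fix the Galois
number field `L ⊇ K` pointwise and `x ∈ K` is a square in `L`, then `ord_v x` is even for every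
prime `v ∣ ℓ` of `K`. -/
theorem s17w_valuation_sq_of_unram {K L : Type*} [Field K] [NumberField K] [Field L]
    [NumberField L] [Algebra K L] [Algebra K Ω] [Algebra L Ω] [IsScalarTower K L Ω] [IsGalois ℚ L]
    (v : HeightOneSpectrum (𝓞 K)) {ℓ : ℕ} (hℓ : ℓ.Prime) (hℓv : (ℓ : 𝓞 K) ∈ v.asIdeal)
    (h1 : ∀ A : ValuationSubring Ω, A.LiesOverPrime ℓ →
      ∀ σ ∈ A.inertiaSubgroupIn ℚ, ∀ x : L, σ (algebraMap L Ω x) = algebraMap L Ω x)
    (x : K) (z : L) (hz : z ^ 2 = algebraMap K L x) :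
    ∃ c : WithZero (Multiplicative ℤ), v.valuation K x = c ^ 2 := by
  obtain ⟨w, hw⟩ := s17w_exists_liesOver (L := L) v
  have hℓw : (ℓ : 𝓞 L) ∈ w.asIdeal := by
    have h2 : (ℓ : 𝓞 K) ∈ w.asIdeal.under (𝓞 K) := by
      rw [← hw.over]; exact hℓv
    rw [Ideal.under_def, Ideal.mem_comap, map_natCast] at h2
    exact h2
  haveI := s17w_isUnramifiedAt (Ω := Ω) (K := K) w.asIdeal w.ne_bot hℓ hℓw h1
  exact ⟨w.valuation L z, s17w_valuation_eq_sq v w x z hz⟩

end Main

end Fermat.Agent.Lib.S17
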