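/-
Programme MW (S17), weak Mordell–Weil half (helper3): **[HM2]** — a number field `E ⊆ ℚ̄` has only
finitely many open subgroups `V ≤ Gal(ℚ̄/E)` of index `≤ 2` which contain all the inertia groups at
the places outside a finite set `T` of primes (i.e. finitely many extensions of degree `≤ 2`
unramified outside `T`), from the 2-Selmer finiteness `s17w_SelmerFinite` of `E`.

`V ≠ Gal(ℚ̄/E)` has a Kummer generator `z`, `x = z² ∈ Eˣ` (`WKum`); the Galois closure of the
fixed field of `V` is unramified outside `T`, so `ord_v x` is even for all `v ∤ T` (`WRam`); by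
Selmer finiteness `x = ξ α²` with `ξ` in a fixed finite set, and `V = Gal(ℚ̄/E) ∩ Stab √ξ`.
-/
import Mathlib
import Fermat.Agent.Lib.S17.WRam
import Fermat.Agent.Lib.S17.WKum
import Fermat.Agent.Lib.PT.GLevelField

set_option autoImplicit false
set_option linter.unusedSectionVars false
set_option linter.style.haveILetI false

namespace Fermat.Agent.Lib.S17

open NumberField IsDedekindDomain Fermat.Agent.Lib.CFT Fermat.Agent.Lib.PT

local notation "Qbar" => AlgebraicClosure ℚ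
local notation "GQ" => (AlgebraicClosure ℚ ≃ₐ[ℚ] AlgebraicClosure ℚ)

attribute [local instance] cfg_isGalois_QBar

/-- **2-Selmer finiteness of number fields** (contract): the elements of `Eˣ` with even valuation
outside a finite set `T` of primes are, modulo squares, finitely many. -/
def s17w_SelmerFinite : Prop :=
  ∀ (E : Type) [Field E] [NumberField E] (T : Finset (HeightOneSpectrum (𝓞 E))),
    ∃ Ξ : Finset Eˣ, ∀ x : Eˣ,
      (∀ v : HeightOneSpectrum (𝓞 E), v ∉ T →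
        ∃ c : WithZero (Multiplicative ℤ), v.valuation E (x : E) = c ^ 2) →
      ∃ ξ ∈ Ξ, ∃ α : Eˣ, x = ξ * α ^ 2

/-- the primes of a number field above a finite set of prime numbers form a finite set. -/
theorem s17w_exists_primesAbove (E : Type*) [Field E] [NumberField E] (T : Finset Nat.Primes) :
    ∃ TE : Finset (HeightOneSpectrum (𝓞 E)), ∀ v : HeightOneSpectrum (𝓞 E), v ∉ TE →
      ∃ ℓ : ℕ, ∃ hℓ : ℓ.Prime, (⟨ℓ, hℓ⟩ : Nat.Primes) ∉ T ∧ (ℓ : 𝓞 E) ∈ v.asIdeal := by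
  classical
  have hfin : (⋃ q ∈ T, {v : HeightOneSpectrum (𝓞 E) |
      v.asIdeal ∣ Ideal.span {((q : ℕ) : 𝓞 E)}}).Finite := by
    refine Set.Finite.biUnion T.finite_toSet fun q _ => ?_
    refine Ideal.finite_factors ?_
    intro h
    have h1 : ((q : ℕ) : 𝓞 E) = 0 := by
      have h2 : ((q : ℕ) : 𝓞 E) ∈ Ideal.span {((q : ℕ) : 𝓞 E)} := Ideal.mem_span_singleton_self _
      rw [h] at h2
      exact h2
    exact q.2.ne_zero (Nat.cast_eq_zero.mp h1)
  refine ⟨hfin.toFinset, fun v hv => ?_⟩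
  obtain ⟨ℓ, hℓ, hℓv⟩ := cfg_exists_prime_mem v.asIdeal v.ne_bot
  refine ⟨ℓ, hℓ, fun hT => hv ?_, hℓv⟩
  rw [Set.Finite.mem_toFinset]
  refine Set.mem_biUnion (x := (⟨ℓ, hℓ⟩ : Nat.Primes)) hT ?_
  show v.asIdeal ∣ Ideal.span {(ℓ : 𝓞 E)}
  rw [Ideal.dvd_iff_le, Ideal.span_singleton_le_iff_mem]
  exact hℓv

/-- the stabiliser of `z ∈ ℚ̄` inside `Gal(ℚ̄/E)`. -/
def s17w_stab (E : IntermediateField ℚ Qbar) (z : Qbar) : Subgroup GQ where
  carrier := {σ | σ ∈ E.fixingSubgroup ∧ σ z = z}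
  one_mem' := ⟨E.fixingSubgroup.one_mem, rfl⟩
  mul_mem' := by
    rintro a b ⟨ha, haz⟩ ⟨hb, hbz⟩
    exact ⟨E.fixingSubgroup.mul_mem ha hb, by rw [AlgEquiv.mul_apply, hbz, haz]⟩
  inv_mem' := by
    rintro a ⟨ha, haz⟩
    refine ⟨E.fixingSubgroup.inv_mem ha, ?_⟩
    have h1 : a⁻¹ (a z) = z := by
      rw [← AlgEquiv.mul_apply, inv_mul_cancel, AlgEquiv.one_apply]
    rw [haz] at h1
    exact h1

theorem s17w_mem_stab {E : IntermediateField ℚ Qbar} {z : Qbar} {σ : GQ} :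
    σ ∈ s17w_stab E z ↔ σ ∈ E.fixingSubgroup ∧ σ z = z := Iff.rfl

/-- the Galois closure inside `ℚ̄` is Galois over `ℚ`. -/
theorem s17w_isGalois_galClosure (M : IntermediateField ℚ Qbar) :
    IsGalois ℚ ↥(pta_galClosure M) := by
  have hn : Normal ℚ ↥(pta_galClosure M) := by
    rw [pta_galClosure_eq_normalClosure]
    exact normalClosure.normal ℚ M Qbar
  exact ⟨⟩

set_option maxHeartbeats 800000 in
/-- **the parity of the Kummer radicand**: if `V ≤ Gal(ℚ̄/E)` is open, contains the inertia groups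
at the places over the prime number `ℓ`, and fixes `z` with `z² = x ∈ E`, then `ord_v x` is even at
every prime `v ∣ ℓ` of `E`. -/
theorem s17w_radicand_parity (E : IntermediateField ℚ Qbar) [FiniteDimensional ℚ E]
    [NumberField E] (T : Finset Nat.Primes) (V : Subgroup GQ) (hVE : V ≤ E.fixingSubgroup)
    (hlev : ∃ F : IntermediateField ℚ Qbar, FiniteDimensional ℚ F ∧ F.fixingSubgroup ≤ V)
    (hin : ∀ q : Nat.Primes, q ∉ T → ∀ A : ValuationSubring Qbar, A.LiesOverPrime (q : ℕ) →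
      A.inertiaSubgroupIn ℚ ≤ V)
    (z : Qbar) (hzV : ∀ σ ∈ V, σ z = z) (x : E) (hzx : z ^ 2 = (x : Qbar))
    (v : HeightOneSpectrum (𝓞 E)) {ℓ : ℕ} (hℓ : ℓ.Prime) (hℓT : (⟨ℓ, hℓ⟩ : Nat.Primes) ∉ T)
    (hℓv : (ℓ : 𝓞 E) ∈ v.asIdeal) :
    ∃ c : WithZero (Multiplicative ℤ), v.valuation E x = c ^ 2 := by
  have hfix := s17w_fixingSubgroup_fixedField V hlev
  set M : IntermediateField ℚ Qbar := IntermediateField.fixedField V with hM
  have hMfin : FiniteDimensional ℚ M := s17w_fixedField_finiteDimensional V hlev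
  have hMun : M.IsUnramifiedOutside T := by
    refine ⟨hMfin, fun q hq A hA => ?_⟩
    rw [hM, hfix]
    exact hin q hq A hA
  have hLun := pta_isUnramifiedOutside_galClosure hMun
  set L : IntermediateField ℚ Qbar := pta_galClosure M with hL
  haveI : FiniteDimensional ℚ L := hLun.1
  haveI : NumberField L := ⟨⟩
  haveI : IsGalois ℚ L := s17w_isGalois_galClosure M
  have hEM : E ≤ M := by
    have h1 : IntermediateField.fixedField E.fixingSubgroup ≤ IntermediateField.fixedField V :=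
      IntermediateField.fixedField_antitone hVE
    rwa [InfiniteGalois.fixedField_fixingSubgroup E] at h1
  have hML : M ≤ L := pta_le_galClosure M
  have hEL : E ≤ L := hEM.trans hML
  have hzM : z ∈ M := by
    rw [hM, IntermediateField.mem_fixedField_iff]
    exact hzV
  have hzL : z ∈ L := hML hzM
  letI : Algebra E L := (IntermediateField.inclusion hEL).toRingHom.toAlgebra
  haveI : IsScalarTower E L Qbar := IsScalarTower.of_algebraMap_eq (fun x => rfl)
  have h1 : ∀ A : ValuationSubring Qbar, A.LiesOverPrime ℓ →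
      ∀ σ ∈ A.inertiaSubgroupIn ℚ, ∀ y : L, σ (algebraMap L Qbar y) = algebraMap L Qbar y := by
    intro A hA σ hσ y
    have h2 := hLun.2 ⟨ℓ, hℓ⟩ hℓT A hA hσ
    rw [IntermediateField.mem_fixingSubgroup_iff] at h2
    exact h2 y y.2
  have hz' : (⟨z, hzL⟩ : L) ^ 2 = algebraMap E L x := by
    apply Subtype.ext
    show z ^ 2 = (x : Qbar)
    exact hzx
  exact s17w_valuation_sq_of_unram (Ω := Qbar) (K := E) (L := L) v hℓ hℓv h1 x ⟨z, hzL⟩ hz'

set_option maxHeartbeats 800000 in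
/-- **[HM2]**: finitely many open subgroups of index `≤ 2` of `Gal(ℚ̄/E)` unramified outside
`T`. -/
theorem s17w_HM2 (hSel : s17w_SelmerFinite) (E : IntermediateField ℚ Qbar)
    [FiniteDimensional ℚ E] (T : Finset Nat.Primes) :
    {V : Subgroup GQ | V ≤ E.fixingSubgroup ∧
      (∃ F : IntermediateField ℚ Qbar, FiniteDimensional ℚ F ∧ F.fixingSubgroup ≤ V) ∧
      (∀ σ τ : GQ, σ ∈ E.fixingSubgroup → τ ∈ E.fixingSubgroup → σ ∉ V → τ ∉ V → σ * τ ∈ V) ∧
      (∀ q : Nat.Primes, q ∉ T → ∀ A : ValuationSubring Qbar, A.LiesOverPrime (q : ℕ) →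
        A.inertiaSubgroupIn ℚ ≤ V)}.Finite := by
  classical
  haveI : NumberField E := ⟨⟩
  obtain ⟨TE, hTE⟩ := s17w_exists_primesAbove E T
  obtain ⟨Ξ, hΞ⟩ := hSel E TE
  -- square roots
  have hroot : ∀ ξ : Eˣ, ∃ r : Qbar, r ^ 2 = ((ξ : E) : Qbar) := fun ξ =>
    IsAlgClosed.exists_pow_nat_eq _ (by norm_num)
  choose r hr using hroot
  refine Set.Finite.subset
    ((Set.finite_singleton E.fixingSubgroup).union
      ((Ξ.finite_toSet).image (fun ξ => s17w_stab E (r ξ)))) ?_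
  rintro V ⟨hVE, hlev, hidx, hin⟩
  by_cases hne : V = E.fixingSubgroup
  · exact Or.inl hne
  right
  obtain ⟨z, hz0, hzV, hzU, hzE⟩ := s17w_exists_kummer E V hVE hlev hidx hne
  -- the radicand
  set x₀ : E := ⟨z ^ 2, hzE⟩ with hx₀
  have hx₀ne : x₀ ≠ 0 := by
    intro h
    have h1 : ((x₀ : E) : Qbar) = 0 := by rw [h]; rfl
    exact pow_ne_zero 2 hz0 h1
  set x : Eˣ := Units.mk0 x₀ hx₀ne with hx
  have hpar : ∀ v : HeightOneSpectrum (𝓞 E), v ∉ TE →
      ∃ c : WithZero (Multiplicative ℤ), v.valuation E (x : E) = c ^ 2 := by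
    intro v hv
    obtain ⟨ℓ, hℓ, hℓT, hℓv⟩ := hTE v hv
    exact s17w_radicand_parity E T V hVE hlev hin z hzV x₀ rfl v hℓ hℓT hℓv
  obtain ⟨ξ, hξ, α, hxα⟩ := hΞ x hpar
  refine ⟨ξ, hξ, ?_⟩
  -- `V = Stab (r ξ)` inside `Gal(ℚ̄/E)`
  have hα0 : (((α : E) : Qbar)) ≠ 0 := by
    intro h
    have : (α : E) = 0 := by
      apply Subtype.ext
      exact h
    exact α.ne_zero this
  have hsq : z ^ 2 = (r ξ * ((α : E) : Qbar)) ^ 2 := by
    have h1 : ((x : E) : Qbar) = (((ξ : E) : Qbar)) * (((α : E) : Qbar)) ^ 2 := by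
      rw [hxα]
      simp
    rw [mul_pow, hr ξ, ← h1]
    rfl
  have hαfix : ∀ σ ∈ E.fixingSubgroup, σ ((α : E) : Qbar) = ((α : E) : Qbar) := by
    intro σ hσ
    rw [IntermediateField.mem_fixingSubgroup_iff] at hσ
    exact hσ _ (α : E).2
  show s17w_stab E (r ξ) = V
  ext σ
  rw [s17w_mem_stab, s17w_eq_stab E V hVE hz0 hzV hzU σ]
  constructor
  · rintro ⟨hσU, hσr⟩
    refine ⟨hσU, ?_⟩
    rcases sq_eq_sq_iff_eq_or_eq_neg.mp hsq with h | h
    · rw [h, map_mul, hσr, hαfix σ hσU]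
    · rw [h, map_neg, map_mul, hσr, hαfix σ hσU]
  · rintro ⟨hσU, hσz⟩
    refine ⟨hσU, ?_⟩
    rcases sq_eq_sq_iff_eq_or_eq_neg.mp hsq with h | h
    · rw [h, map_mul, hαfix σ hσU] at hσz
      exact mul_right_cancel₀ hα0 hσz
    · rw [h, map_neg, map_mul, hαfix σ hσU, neg_inj] at hσz
      exact mul_right_cancel₀ hα0 hσz

end Fermat.Agent.Lib.S17
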