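/-
Programme MW (S17), weak Mordell–Weil, brick [HM2] (c2) for helper3 (author helper4, prefix
`s17ws_`): **finiteness of the 2-Selmer group of a number field**.

For a number field `E` and a finite set `T` of primes, the elements of `Eˣ` with even valuation
outside `T` are `ξ * α ^ 2` with `ξ` in a fixed finite set.

* `s17ws_val_of_ideal_eq` : from `(x) * v = (y) * I` the valuations of `y / x` at the primes not
  dividing `I`;
* `s17ws_exists_gens` : a finite `T' ⊇ T` such that every prime `v ∉ T'` has a generator `π_v`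
  modulo `T'` (finiteness of the class group);
* `s17ws_exists_sq` : every `x` with even valuations outside `T` is `u * α ^ 2`, `u` a `T'`-unit;
* `s17ws_selmer_finite` : the statement, from Dirichlet's `S`-unit theorem `cfh_sUnit_finite`.
-/
import Fermat.Agent.Lib.PT.SUnitA

set_option autoImplicit false

noncomputable section

namespace Fermat.Agent.Lib.S17

open IsDedekindDomain NumberField WithZero Fermat.Agent.Lib.PT

variable (E : Type*) [Field E] [NumberField E]

open Classical in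
/-- From `(x) * v = (y) * I`: the valuation of `y / x` at a prime `w` not dividing `I`. -/
theorem s17ws_val_of_ideal_eq (v : HeightOneSpectrum (𝓞 E)) (I : Ideal (𝓞 E)) (hI : I ≠ 0)
    {x y : 𝓞 E} (hx : x ≠ 0) (hy : y ≠ 0)
    (h : Ideal.span {x} * v.asIdeal = Ideal.span {y} * I)
    (w : HeightOneSpectrum (𝓞 E)) (hw : ¬ I ≤ w.asIdeal) :
    w.valuation E (algebraMap (𝓞 E) E y / algebraMap (𝓞 E) E x) =
      if w = v then exp (-1 : ℤ) else 1 := by
  classical
  have hwirr : Irreducible (Associates.mk w.asIdeal) := w.associates_irreducible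
  have hvirr : Irreducible (Associates.mk v.asIdeal) := v.associates_irreducible
  have hsx : Ideal.span {x} ≠ 0 := by
    rw [ne_eq, Ideal.zero_eq_bot, Ideal.span_singleton_eq_bot]; exact hx
  have hsy : Ideal.span {y} ≠ 0 := by
    rw [ne_eq, Ideal.zero_eq_bot, Ideal.span_singleton_eq_bot]; exact hy
  have hmk : ∀ {J : Ideal (𝓞 E)}, J ≠ 0 → Associates.mk J ≠ 0 := fun hJ =>
    Associates.mk_ne_zero.mpr hJ
  have hcount := congrArg (fun J => (Associates.mk w.asIdeal).count (Associates.mk J).factors) h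
  simp only [← Associates.mk_mul_mk] at hcount
  rw [Associates.count_mul (hmk hsx) (hmk v.ne_bot) hwirr,
    Associates.count_mul (hmk hsy) (hmk hI) hwirr] at hcount
  have hI0 : (Associates.mk w.asIdeal).count (Associates.mk I).factors = 0 := by
    by_contra hne
    exact hw (Ideal.dvd_iff_le.mp ((Associates.count_ne_zero_iff_dvd hI w.irreducible).mp hne))
  rw [hI0, add_zero] at hcount
  rw [map_div₀, HeightOneSpectrum.valuation_of_algebraMap, HeightOneSpectrum.valuation_of_algebraMap,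
    w.intValuation_if_neg hx, w.intValuation_if_neg hy, ← hcount, ← exp_sub]
  by_cases hwv : w = v
  · subst hwv
    rw [Associates.count_self hwirr, if_pos rfl]
    congr 1
    push_cast
    ring
  · have h0 : (Associates.mk w.asIdeal).count (Associates.mk v.asIdeal).factors = 0 := by
      refine Associates.count_eq_zero_of_ne hwirr hvirr fun heq => hwv ?_
      have h1 : w.asIdeal = v.asIdeal := by
        have := Associates.mk_eq_mk_iff_associated.mp heq
        exact associated_iff_eq.mp this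
      exact HeightOneSpectrum.ext h1
    rw [h0, if_neg hwv, ← exp_zero]
    congr 1
    push_cast
    ring

open Classical in
/-- A finite set `T' ⊇ T` of primes such that every prime outside `T'` has a generator modulo
`T'`. -/
theorem s17ws_exists_gens (T : Finset (HeightOneSpectrum (𝓞 E))) :
    ∃ T' : Finset (HeightOneSpectrum (𝓞 E)), T ⊆ T' ∧
      ∀ v : HeightOneSpectrum (𝓞 E), v ∉ T' → ∃ π : Eˣ,
        ∀ w : HeightOneSpectrum (𝓞 E), w ∉ T' →
          w.valuation E (π : E) = if w = v then exp (-1 : ℤ) else 1 := by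
  classical
  -- representatives of the ideal classes
  choose I hIc using fun c : ClassGroup (𝓞 E) => ClassGroup.mk0_surjective c
  have hI0 : ∀ c, (I c : Ideal (𝓞 E)) ≠ 0 := fun c => nonZeroDivisors.ne_zero (I c).2
  have hfin : ∀ c, {w : HeightOneSpectrum (𝓞 E) | w.asIdeal ∣ (I c : Ideal (𝓞 E))}.Finite :=
    fun c => Ideal.finite_factors (hI0 c)
  refine ⟨T ∪ Finset.univ.biUnion fun c => (hfin c).toFinset, Finset.subset_union_left,
    fun v hv => ?_⟩
  have hv0 : v.asIdeal ∈ nonZeroDivisors (Ideal (𝓞 E)) :=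
    mem_nonZeroDivisors_of_ne_zero v.ne_bot
  obtain ⟨x, y, hx, hy, hxy⟩ :=
    ClassGroup.mk0_eq_mk0_iff.mp (hIc (ClassGroup.mk0 ⟨v.asIdeal, hv0⟩)).symm
  set c := ClassGroup.mk0 ⟨v.asIdeal, hv0⟩ with hc
  have hxE : algebraMap (𝓞 E) E x ≠ 0 :=
    (map_ne_zero_iff _ (FaithfulSMul.algebraMap_injective (𝓞 E) E)).mpr hx
  have hyE : algebraMap (𝓞 E) E y ≠ 0 :=
    (map_ne_zero_iff _ (FaithfulSMul.algebraMap_injective (𝓞 E) E)).mpr hy
  refine ⟨Units.mk0 (algebraMap (𝓞 E) E y / algebraMap (𝓞 E) E x) (div_ne_zero hyE hxE),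
    fun w hw => ?_⟩
  rw [Units.val_mk0]
  refine s17ws_val_of_ideal_eq E v (I c) (hI0 c) hx hy hxy w fun hle => hw ?_
  refine Finset.mem_union_right _ (Finset.mem_biUnion.mpr ⟨c, Finset.mem_univ _, ?_⟩)
  rw [Set.Finite.mem_toFinset]
  exact Ideal.dvd_iff_le.mpr hle

/-- Every `x` with even valuations outside `T` is a `T'`-unit times a square. -/
theorem s17ws_exists_sq (T : Finset (HeightOneSpectrum (𝓞 E))) :
    ∃ T' : Finset (HeightOneSpectrum (𝓞 E)), T ⊆ T' ∧ ∀ x : Eˣ,
      (∀ v : HeightOneSpectrum (𝓞 E), v ∉ T → ∃ c : ℤᵐ⁰, v.valuation E (x : E) = c ^ 2) →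
      ∃ α : Eˣ, x / α ^ 2 ∈ cfh_SUnit E T' := by
  classical
  obtain ⟨T', hTT', hgen⟩ := s17ws_exists_gens E T
  refine ⟨T', hTT', fun x hx => ?_⟩
  -- generators
  have hgen' : ∀ v : HeightOneSpectrum (𝓞 E), ∃ π : Eˣ, v ∉ T' →
      ∀ w : HeightOneSpectrum (𝓞 E), w ∉ T' →
        w.valuation E (π : E) = if w = v then exp (-1 : ℤ) else 1 := by
    intro v
    by_cases hv : v ∈ T'
    · exact ⟨1, fun h => absurd hv h⟩
    · obtain ⟨π, hπ⟩ := hgen v hv
      exact ⟨π, fun _ => hπ⟩
  choose π hπ using hgen'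
  -- half valuations
  have hhalf : ∀ v : HeightOneSpectrum (𝓞 E), ∃ m : ℤ, v ∉ T →
      v.valuation E (x : E) = exp (2 * m) := by
    intro v
    by_cases hv : v ∈ T
    · exact ⟨0, fun h => absurd hv h⟩
    · obtain ⟨c, hc⟩ := hx v hv
      have hc0 : c ≠ 0 := by
        rintro rfl
        rw [zero_pow two_ne_zero] at hc
        exact (Valuation.ne_zero_iff _).mpr x.ne_zero hc
      refine ⟨log c, fun _ => ?_⟩
      rw [hc, two_mul, exp_add, exp_log hc0, sq]
  choose m hm using hhalf
  -- the support of `x`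
  have hsupp : {v : HeightOneSpectrum (𝓞 E) | v.valuation E (x : E) ≠ 1}.Finite := by
    have h1 := HeightOneSpectrum.Support.finite (𝓞 E) (x : E)
    have h2 := HeightOneSpectrum.Support.finite (𝓞 E) ((x⁻¹ : Eˣ) : E)
    refine (h1.union h2).subset fun v hv => ?_
    simp only [Set.mem_ofPred_eq] at hv
    rcases lt_or_gt_of_ne hv with h | h
    · right
      show 1 < v.valuation E ((x⁻¹ : Eˣ) : E)
      rw [Units.val_inv_eq_inv_val, map_inv₀]
      exact (one_lt_inv₀ ((Valuation.pos_iff _).mpr x.ne_zero)).mpr h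
    · left; exact h
  set S : Finset (HeightOneSpectrum (𝓞 E)) := hsupp.toFinset.filter fun v => v ∉ T' with hS
  refine ⟨∏ v ∈ S, π v ^ (-(m v)), fun w hw => ?_⟩
  have hw' : w ∉ T' := by simpa using hw
  have hwT : w ∉ T := fun h => hw' (hTT' h)
  -- valuation of `α`
  have hα : w.valuation E ((∏ v ∈ S, π v ^ (-(m v)) : Eˣ) : E) =
      if w ∈ S then exp (m w) else 1 := by
    rw [Units.coe_prod, map_prod]
    have hterm : ∀ v ∈ S, w.valuation E ((π v ^ (-(m v)) : Eˣ) : E) =
        if v = w then exp (m w) else 1 := by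
      intro v hv
      have hvT' : v ∉ T' := (Finset.mem_filter.mp hv).2
      rw [Units.val_zpow_eq_zpow_val, map_zpow₀, hπ v hvT' w hw']
      by_cases hvw : v = w
      · subst hvw
        rw [if_pos rfl, if_pos rfl, ← exp_zsmul]
        congr 1
        simp
      · rw [if_neg (Ne.symm hvw), if_neg hvw, one_zpow]
    rw [Finset.prod_congr rfl hterm, Finset.prod_ite_eq' S w]
  show w.valuation E ((x / (∏ v ∈ S, π v ^ (-(m v))) ^ 2 : Eˣ) : E) = 1
  rw [Units.val_div_eq_div_val, Units.val_pow_eq_pow_val, map_div₀, map_pow, hα, hm w hwT]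
  by_cases hwS : w ∈ S
  · rw [if_pos hwS, ← exp_nsmul, nsmul_eq_mul]
    have : ((2 : ℕ) : ℤ) * m w = 2 * m w := by norm_num
    rw [this]
    exact div_self exp_ne_zero
  · rw [if_neg hwS, one_pow, div_one]
    have : w ∉ hsupp.toFinset := fun h => hwS (Finset.mem_filter.mpr ⟨h, hw'⟩)
    rw [Set.Finite.mem_toFinset] at this
    simp only [Set.mem_ofPred_eq, not_not] at this
    rw [← hm w hwT]
    exact this

/-- **Finiteness of the 2-Selmer group.** -/
theorem s17ws_selmer_finite (E : Type*) [Field E] [NumberField E]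
    (T : Finset (HeightOneSpectrum (𝓞 E))) :
    ∃ Ξ : Finset Eˣ, ∀ x : Eˣ,
      (∀ v : HeightOneSpectrum (𝓞 E), v ∉ T → ∃ c : ℤᵐ⁰, v.valuation E (x : E) = c ^ 2) →
      ∃ ξ ∈ Ξ, ∃ α : Eˣ, x = ξ * α ^ 2 := by
  classical
  obtain ⟨T', -, hsq⟩ := s17ws_exists_sq E T
  -- the `T'`-units modulo squares are finite
  have : Module.Finite ℤ (Additive (cfh_SUnit E T')) := cfh_sUnit_finite E T'
  have : AddGroup.FG (Additive (cfh_SUnit E T')) := Module.Finite.iff_addGroup_fg.mp inferInstance
  have : Group.FG (cfh_SUnit E T') := GroupFG.iff_add_fg.mpr inferInstance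
  have hfi : (powMonoidHom (α := cfh_SUnit E T') 2).range.FiniteIndex :=
    Subgroup.finiteIndex_range_powMonoidHom_of_fg _ two_ne_zero
  have : Finite (cfh_SUnit E T' ⧸ (powMonoidHom (α := cfh_SUnit E T') 2).range) :=
    Subgroup.finite_quotient_of_finiteIndex
  have : Fintype (cfh_SUnit E T' ⧸ (powMonoidHom (α := cfh_SUnit E T') 2).range) :=
    Fintype.ofFinite _
  refine ⟨Finset.univ.image fun q : cfh_SUnit E T' ⧸ (powMonoidHom (α := cfh_SUnit E T') 2).range =>
    ((Quotient.out q : cfh_SUnit E T') : Eˣ), fun x hx => ?_⟩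
  obtain ⟨α, hα⟩ := hsq x hx
  set u : cfh_SUnit E T' := ⟨x / α ^ 2, hα⟩ with hu
  set q : cfh_SUnit E T' ⧸ (powMonoidHom (α := cfh_SUnit E T') 2).range := QuotientGroup.mk u
    with hq
  have hout : (QuotientGroup.mk (Quotient.out q) : cfh_SUnit E T' ⧸ _) = QuotientGroup.mk u :=
    Quotient.out_eq q
  rw [QuotientGroup.eq] at hout
  obtain ⟨β, hβ⟩ := hout
  refine ⟨((Quotient.out q : cfh_SUnit E T') : Eˣ), Finset.mem_image.mpr ⟨q, Finset.mem_univ _, rfl⟩,
    (β : Eˣ) * α, ?_⟩
  have hβ' : ((β : cfh_SUnit E T') : Eˣ) ^ 2 = ((Quotient.out q : cfh_SUnit E T') : Eˣ)⁻¹ * (x / α ^ 2) := by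
    have := congrArg (fun t : cfh_SUnit E T' => (t : Eˣ)) hβ
    simpa [hu] using this
  rw [mul_pow, ← mul_assoc, hβ', mul_inv_cancel_left, div_mul_cancel]

end Fermat.Agent.Lib.S17
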