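/-
Programme MW (S17), weak Mordell–Weil half (helper3): **[W2]** — all halves of rational points of
`J₀(N)` are defined over ONE number field.

* `s17w_inertia_fix` : for `ℓ ∤ 2N`, an inertia element `τ` at a place over `ℓ` fixes every `y`
  such that `τ y − y` is `2`-torsion (reduction is inertia-invariant and injective on `2`-power
  torsion: landed `s29g_redAt`);
* `s17w_U0`, `E = fixedField U₀`: the pointwise stabiliser of `J[2]` (open, contains the inertia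
  groups outside `T = {q ∣ 2N}`);
* for `y` with `2y` rational and `λ ∈ Hom(J[2], ℤ/2)`: `s17w_V y λ = {σ ∈ U₀ | λ(σ y − y) = 0}`, an
  open subgroup of index `≤ 2` of `U₀` containing the inertia groups outside `T`;
* [HM2] (`WHM` + helper4's `WSelmer`) ⇒ finitely many such subgroups ⇒ `s17w_W2 : s17_W2 N`.
-/
import Mathlib
import Fermat.Agent.Lib.S17.WIface
import Fermat.Agent.Lib.S17.WAbs
import Fermat.Agent.Lib.S17.WHM
import Fermat.Agent.Lib.S17.WSelmer
import Fermat.Agent.Lib.S30.TateLevel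

set_option autoImplicit false
set_option linter.unusedSectionVars false
set_option linter.style.haveILetI false

namespace Fermat.Agent.Lib.S17

open ModularCurve AlgebraicCurve NumberField IsDedekindDomain
open Fermat.Agent.Lib.CFT Fermat.Agent.Lib.PT Fermat.Agent.Lib.S29 Fermat.Agent.Lib.S30

local notation "Qbar" => AlgebraicClosure ℚ
local notation "GQ" => (AlgebraicClosure ℚ ≃ₐ[ℚ] AlgebraicClosure ℚ)

attribute [local instance] cfg_isGalois_QBar

noncomputable section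

/-- 2-Selmer finiteness (helper4's brick). -/
theorem s17w_selmerFinite : s17w_SelmerFinite :=
  fun E _ _ T => s17ws_selmer_finite E T

variable (N : ℕ) [NeZero N]

/-- **inertia outside `2N` fixes the halves**: for `ℓ ∤ 2N`, `τ` in an inertia group over `ℓ` and
`τ y − y` of order `≤ 2`, `τ y = y`. -/
theorem s17w_inertia_fix (ℓ : ℕ) (hℓ : ℓ.Prime) (hℓN : ¬ ℓ ∣ N * 2)
    (A : ValuationSubring Qbar) (hA : A.LiesOverPrime ℓ) (τ : GQ)
    (hτ : τ ∈ A.inertiaSubgroupIn ℚ) (y : JZero N) (hy : 2 • (τ • y - y) = 0) : τ • y = y := by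
  obtain ⟨σ₀, hσ₀⟩ := Fermat.Agent.Lib.Frobenius.exists_isFrobeniusAt_of_liesOverPrime A ℓ hℓ hA
  obtain ⟨X, _, red, h_in, -, h_inj⟩ := s29g_redAt N 2 ℓ hℓ hℓN A hA σ₀ hσ₀
  have h2 : red (τ • y - y) = 0 := by rw [map_sub, h_in τ hτ y, sub_self]
  exact sub_eq_zero.mp (h_inj _ ⟨1, by rwa [pow_one]⟩ h2)

/-- the bad primes `T = {q ∣ 2N}`. -/
def s17w_T : Finset Nat.Primes :=
  (Finset.subtype (fun p : ℕ => p.Prime) (N * 2).primeFactors : Finset {p : ℕ // p.Prime})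

theorem s17w_not_dvd_of_not_mem {q : Nat.Primes} (hq : q ∉ s17w_T N) : ¬ (q : ℕ) ∣ N * 2 := by
  intro h
  apply hq
  exact Finset.mem_subtype.mpr
    (Nat.mem_primeFactors.mpr ⟨q.2, h, mul_ne_zero (NeZero.ne N) two_ne_zero⟩)

/-- membership in `J[2]`. -/
theorem s17w_mem_tors {t : JZero N} :
    t ∈ Pic0.torsion Qbar (modularFunctionFieldBar N) 2 ↔ 2 • t = 0 := by
  rw [Pic0.mem_torsion, ← natCast_zsmul]

/-- the pointwise stabiliser of `J[2]`. -/
def s17w_U0 : Subgroup GQ where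
  carrier := {σ | ∀ t : JZero N, 2 • t = 0 → σ • t = t}
  one_mem' := fun t _ => one_smul _ t
  mul_mem' := fun {a b} ha hb t ht => by rw [mul_smul, hb t ht, ha t ht]
  inv_mem' := fun {a} ha t ht => by rw [inv_smul_eq_iff, ha t ht]

theorem s17w_mem_U0 {σ : GQ} : σ ∈ s17w_U0 N ↔ ∀ t : JZero N, 2 • t = 0 → σ • t = t := Iff.rfl

/-- `U₀` is open. -/
theorem s17w_U0_level :
    ∃ F : IntermediateField ℚ Qbar, FiniteDimensional ℚ F ∧ F.fixingSubgroup ≤ s17w_U0 N := by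
  obtain ⟨L, hL, -, hfix⟩ := s30a_exists_level N 2
  refine ⟨L, hL, fun σ hσ t ht => ?_⟩
  rw [IntermediateField.mem_fixingSubgroup_iff] at hσ
  refine hfix σ hσ t ?_
  rw [← ht, ← natCast_zsmul]

/-- the inertia groups outside `T` lie in `U₀`. -/
theorem s17w_inertia_le_U0 (q : Nat.Primes) (hq : q ∉ s17w_T N) (A : ValuationSubring Qbar)
    (hA : A.LiesOverPrime (q : ℕ)) : A.inertiaSubgroupIn ℚ ≤ s17w_U0 N := by
  intro σ hσ t ht
  exact s17w_inertia_fix N q q.2 (s17w_not_dvd_of_not_mem N hq) A hA σ hσ t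
    (s17w_two_smul_sub σ (fun τ => by rw [ht, smul_zero]))

/-- the field of definition of `J[2]`. -/
def s17w_E : IntermediateField ℚ Qbar := IntermediateField.fixedField (s17w_U0 N)

theorem s17w_E_fixingSubgroup : (s17w_E N).fixingSubgroup = s17w_U0 N :=
  s17w_fixingSubgroup_fixedField (s17w_U0 N) (s17w_U0_level N)

instance s17w_E_finiteDimensional : FiniteDimensional ℚ (s17w_E N) :=
  s17w_fixedField_finiteDimensional (s17w_U0 N) (s17w_U0_level N)

section Cocycle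

variable {N}
variable (y : JZero N) (hy : ∀ τ : GQ, τ • (2 • y) = 2 • y)

/-- for `2y` rational, `σ y − y` as an element of `J[2]`. -/
def s17w_coc (σ : GQ) : ↥(Pic0.torsion Qbar (modularFunctionFieldBar N) 2) :=
  ⟨σ • y - y, (s17w_mem_tors N).2 (s17w_two_smul_sub σ hy)⟩

theorem s17w_coc_val (σ : GQ) : ((s17w_coc y hy σ : ↥(Pic0.torsion Qbar (modularFunctionFieldBar N) 2)) :
    JZero N) = σ • y - y := rfl

theorem s17w_coc_eq_zero_iff (σ : GQ) : s17w_coc y hy σ = 0 ↔ σ • y = y := by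
  rw [← Subtype.coe_inj, s17w_coc_val, ZeroMemClass.coe_zero, sub_eq_zero]

theorem s17w_coc_mul {σ : GQ} (hσ : σ ∈ s17w_U0 N) (τ : GQ) :
    s17w_coc y hy (σ * τ) = s17w_coc y hy τ + s17w_coc y hy σ := by
  apply Subtype.ext
  rw [AddSubgroup.coe_add, s17w_coc_val, s17w_coc_val, s17w_coc_val]
  have h1 : σ • (τ • y - y) = τ • y - y := hσ _ (s17w_two_smul_sub τ hy)
  rw [smul_sub] at h1
  rw [mul_smul]
  have h2 : σ • τ • y = τ • y - y + σ • y := by
    rw [← h1]; abel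
  rw [h2]; abel

variable (lam : Module.Dual (ZMod 2) ↥(Pic0.torsion Qbar (modularFunctionFieldBar N) 2))

/-- `{σ ∈ U₀ | λ(σ y − y) = 0}`. -/
def s17w_V : Subgroup GQ where
  carrier := {σ | σ ∈ s17w_U0 N ∧ lam (s17w_coc y hy σ) = 0}
  one_mem' := by
    refine ⟨(s17w_U0 N).one_mem, ?_⟩
    have : s17w_coc y hy 1 = 0 := (s17w_coc_eq_zero_iff y hy 1).2 (one_smul _ y)
    rw [this, map_zero]
  mul_mem' := by
    rintro a b ⟨ha, hal⟩ ⟨hb, hbl⟩
    refine ⟨(s17w_U0 N).mul_mem ha hb, ?_⟩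
    rw [s17w_coc_mul y hy ha b, map_add, hal, hbl, add_zero]
  inv_mem' := by
    rintro a ⟨ha, hal⟩
    refine ⟨(s17w_U0 N).inv_mem ha, ?_⟩
    have h1 := s17w_coc_mul y hy ha a⁻¹
    rw [mul_inv_cancel] at h1
    have h0 : s17w_coc y hy 1 = 0 := (s17w_coc_eq_zero_iff y hy 1).2 (one_smul _ y)
    rw [h0] at h1
    have h2 := congrArg lam h1
    rw [map_zero, map_add, hal, add_zero] at h2
    exact h2.symm

theorem s17w_mem_V {σ : GQ} :
    σ ∈ s17w_V y hy lam ↔ σ ∈ s17w_U0 N ∧ lam (s17w_coc y hy σ) = 0 := Iff.rfl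

/-- `V` is one of the subgroups counted by [HM2]. -/
theorem s17w_V_mem :
    s17w_V y hy lam ∈ {V : Subgroup GQ | V ≤ (s17w_E N).fixingSubgroup ∧
      (∃ F : IntermediateField ℚ Qbar, FiniteDimensional ℚ F ∧ F.fixingSubgroup ≤ V) ∧
      (∀ σ τ : GQ, σ ∈ (s17w_E N).fixingSubgroup → τ ∈ (s17w_E N).fixingSubgroup →
        σ ∉ V → τ ∉ V → σ * τ ∈ V) ∧
      (∀ q : Nat.Primes, q ∉ s17w_T N → ∀ A : ValuationSubring Qbar,
        A.LiesOverPrime (q : ℕ) → A.inertiaSubgroupIn ℚ ≤ V)} := by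
  rw [s17w_E_fixingSubgroup]
  refine ⟨fun σ hσ => hσ.1, ?_, ?_, ?_⟩
  · obtain ⟨F₀, hF₀, hF₀U⟩ := s17w_U0_level N
    obtain ⟨F₁, hF₁, hF₁y⟩ := s29g_S37Int.openStab N y
    haveI := hF₀
    haveI := hF₁
    refine ⟨F₀ ⊔ F₁, IntermediateField.finiteDimensional_sup F₀ F₁, ?_⟩
    rw [IntermediateField.fixingSubgroup_sup]
    rintro σ ⟨h0, h1⟩
    refine ⟨hF₀U h0, ?_⟩
    have h1' : σ ∈ F₁.fixingSubgroup := h1
    rw [IntermediateField.mem_fixingSubgroup_iff] at h1'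
    have : s17w_coc y hy σ = 0 := (s17w_coc_eq_zero_iff y hy σ).2 (hF₁y σ h1')
    rw [this, map_zero]
  · intro σ τ hσ hτ hσV hτV
    refine ⟨(s17w_U0 N).mul_mem hσ hτ, ?_⟩
    have h1 : lam (s17w_coc y hy σ) ≠ 0 := fun h => hσV ⟨hσ, h⟩
    have h2 : lam (s17w_coc y hy τ) ≠ 0 := fun h => hτV ⟨hτ, h⟩
    have key : ∀ a b : ZMod 2, a ≠ 0 → b ≠ 0 → b + a = 0 := by decide
    rw [s17w_coc_mul y hy hσ τ, map_add]
    exact key _ _ h1 h2
  · intro q hq A hA σ hσ
    refine ⟨s17w_inertia_le_U0 N q hq A hA hσ, ?_⟩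
    have h1 : σ • y = y :=
      s17w_inertia_fix N q q.2 (s17w_not_dvd_of_not_mem N hq) A hA σ hσ y
        (s17w_two_smul_sub σ hy)
    have : s17w_coc y hy σ = 0 := (s17w_coc_eq_zero_iff y hy σ).2 h1
    rw [this, map_zero]

end Cocycle

/-- **[W2]**: all halves of rational points are defined over one number field. -/
theorem s17w_W2 : s17_W2 N := by
  classical
  have hfin := s17w_HM2 s17w_selmerFinite (s17w_E N) (s17w_T N)
  set 𝓥 : Set (Subgroup GQ) := {V : Subgroup GQ | V ≤ (s17w_E N).fixingSubgroup ∧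
      (∃ F : IntermediateField ℚ Qbar, FiniteDimensional ℚ F ∧ F.fixingSubgroup ≤ V) ∧
      (∀ σ τ : GQ, σ ∈ (s17w_E N).fixingSubgroup → τ ∈ (s17w_E N).fixingSubgroup →
        σ ∉ V → τ ∉ V → σ * τ ∈ V) ∧
      (∀ q : Nat.Primes, q ∉ s17w_T N → ∀ A : ValuationSubring Qbar,
        A.LiesOverPrime (q : ℕ) → A.inertiaSubgroupIn ℚ ≤ V)} with h𝓥
  haveI : Finite ↥𝓥 := hfin.to_subtype
  have hlev : ∀ V : ↥𝓥, ∃ F : IntermediateField ℚ Qbar, FiniteDimensional ℚ F ∧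
      F.fixingSubgroup ≤ (V : Subgroup GQ) := fun V => V.2.2.1
  choose FV hFVfin hFV using hlev
  haveI : ∀ V : ↥𝓥, FiniteDimensional ℚ (FV V) := hFVfin
  refine ⟨⨆ V : ↥𝓥, FV V, IntermediateField.finiteDimensional_iSup_of_finite, ?_⟩
  intro σ hσ y hy
  have hmem : ∀ lam : Module.Dual (ZMod 2) ↥(Pic0.torsion Qbar (modularFunctionFieldBar N) 2),
      σ ∈ s17w_V y hy lam := by
    intro lam
    have hV : s17w_V y hy lam ∈ 𝓥 := s17w_V_mem y hy lam
    refine hFV ⟨_, hV⟩ ?_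
    rw [IntermediateField.mem_fixingSubgroup_iff]
    intro z hz
    exact hσ z ((le_iSup FV ⟨_, hV⟩) hz)
  have hzero : s17w_coc y hy σ = 0 := by
    rw [← Module.forall_dual_apply_eq_zero_iff (ZMod 2)]
    intro lam
    exact (hmem lam).2
  exact (s17w_coc_eq_zero_iff y hy σ).1 hzero

end

end Fermat.Agent.Lib.S17
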