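/-
Programme MW (S17), weak Mordell–Weil half (helper3): **[WMW] from [W1′] alone.**
[FCG] = helper9's `s17f_finite_red_fixedPoints`, [W2] = `s17w_W2`; the only remaining input is
`s17_W1 N A` at ONE place `A` over ONE prime `ℓ ∤ N`.
-/
import Mathlib
import Fermat.Agent.Lib.S17.WGlue
import Fermat.Agent.Lib.S17.WUnr
import Fermat.Agent.Lib.S17.FFix

set_option autoImplicit false

namespace Fermat.Agent.Lib.S17

open ModularCurve AlgebraicCurve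

variable (N : ℕ) [NeZero N]

/-- [FCG] (helper9). -/
theorem s17w_FCG (A : ValuationSubring (AlgebraicClosure ℚ)) (ℓ : ℕ) [Fact ℓ.Prime]
    (hA : A.LiesOverPrime ℓ) (hℓN : ¬ ℓ ∣ N) : s17_FCG N A :=
  s17f_finite_red_fixedPoints N A ℓ hA hℓN

/-- **[WMW], `nsmul` form, from [W1′]** at one place over one prime `ℓ ∤ N`. -/
theorem s17w_wmwn (A : ValuationSubring (AlgebraicClosure ℚ)) (ℓ : ℕ) [Fact ℓ.Prime]
    (hA : A.LiesOverPrime ℓ) (hℓN : ¬ ℓ ∣ N) (h1 : s17_W1 N A) : s17_WMWn N :=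
  s17w_wmwn_of N A (s17w_FCG N A ℓ hA hℓN) h1 (s17w_W2 N)

/-- **[WMW], `zsmul` form, from [W1′]** at one place over one prime `ℓ ∤ N`. -/
theorem s17w_wmwz (A : ValuationSubring (AlgebraicClosure ℚ)) (ℓ : ℕ) [Fact ℓ.Prime]
    (hA : A.LiesOverPrime ℓ) (hℓN : ¬ ℓ ∣ N) (h1 : s17_W1 N A) : s17_WMWz N :=
  s17w_wmwz_of N A (s17w_FCG N A ℓ hA hℓN) h1 (s17w_W2 N)

end Fermat.Agent.Lib.S17
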