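/-
Programme MW (S17), brick [W1′], abstract part [AH] (helper7, prefix `s17y_`), file 3 (Mathlib only):
in characteristic zero an element `x` of a field extension `L/K` (NOT necessarily finitely
generated) with `d x = 0` in `Ω[L⁄K]` is algebraic over `K`.

Proof: `E = K⟮x⟯`; `L/E` is formally smooth (transcendence basis + separable algebraic), so
`H¹(L_{L/E}) = 0` and the Jacobi–Zariski sequence makes `L ⊗_E Ω[E⁄K] → Ω[L⁄K]` injective; hence
`d x = 0` in `Ω[E⁄K]`, so `Ω[E⁄K] = 0`, `E/K` is formally unramified and essentially of finite type,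
hence separable algebraic.
-/
import Mathlib

set_option autoImplicit false

namespace Fermat.Agent.Lib.S17

open scoped TensorProduct

theorem s17y_formallySmooth_of_charZero {E L : Type*} [Field E] [CharZero E] [Field L] [Algebra E L] :
    Algebra.FormallySmooth E L := by
  obtain ⟨ι, v, hv⟩ := exists_isTranscendenceBasis' E L
  have : Algebra.IsAlgebraic (IntermediateField.adjoin E (Set.range v)) L := hv.isAlgebraic_field
  have : Algebra.IsSeparable (IntermediateField.adjoin E (Set.range v)) L := inferInstance
  exact Algebra.FormallySmooth.of_algebraicIndependent_of_isSeparable hv.1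

/-- a derivation of a simple extension `K⟮x⟯` which kills `x` is zero. -/
theorem s17y_derivation_adjoin_simple {K L M : Type*} [Field K] [Field L] [Algebra K L] (x : L)
    [AddCommGroup M] [Module K M] [Module ↥(IntermediateField.adjoin K {x}) M]
    [IsScalarTower K ↥(IntermediateField.adjoin K {x}) M]
    (δ : Derivation K ↥(IntermediateField.adjoin K {x}) M)
    (hx : δ ⟨x, IntermediateField.mem_adjoin_simple_self K x⟩ = 0) (y : ↥(IntermediateField.adjoin K {x})) :
    δ y = 0 := by
  obtain ⟨r, s, hy⟩ := (IntermediateField.mem_adjoin_simple_iff K (y : L)).mp y.2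
  set xE : ↥(IntermediateField.adjoin K {x}) := ⟨x, IntermediateField.mem_adjoin_simple_self K x⟩
  have hy' : y = Polynomial.aeval xE r / Polynomial.aeval xE s := by
    apply Subtype.ext
    rw [hy]
    simp only [IntermediateField.coe_div]
    congr 1
    · exact (Polynomial.aeval_algebraMap_apply L xE r).symm ▸ rfl
    · exact (Polynomial.aeval_algebraMap_apply L xE s).symm ▸ rfl
  rw [hy', Derivation.leibniz_div, Derivation.map_aeval, Derivation.map_aeval, hx]
  simp

theorem s17y_isAlgebraic_of_D_eq_zero {K L : Type*} [Field K] [CharZero K] [Field L] [Algebra K L]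
    (x : L) (hx : KaehlerDifferential.D K L x = 0) : IsAlgebraic K x := by
  set E : IntermediateField K L := IntermediateField.adjoin K {x} with hE
  set xE : ↥E := ⟨x, IntermediateField.mem_adjoin_simple_self K x⟩ with hxE
  have : CharZero ↥E := charZero_of_injective_algebraMap (algebraMap K ↥E).injective
  have : Algebra.FormallySmooth ↥E L := s17y_formallySmooth_of_charZero
  have : Subsingleton (Algebra.H1Cotangent ↥E L) := Algebra.FormallySmooth.subsingleton_h1Cotangent
  have hexact := Algebra.H1Cotangent.exact_δ_mapBaseChange K ↥E L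
  -- injectivity of the base-change map
  have hinj : ∀ y : L ⊗[↥E] Ω[↥E⁄K], KaehlerDifferential.mapBaseChange K ↥E L y = 0 → y = 0 := by
    intro y hy
    obtain ⟨z, hz⟩ := (hexact y).mp hy
    rw [← hz, Subsingleton.elim z 0, map_zero]
  have h1 : (1 : L) ⊗ₜ[↥E] KaehlerDifferential.D K ↥E xE = 0 := by
    apply hinj
    rw [KaehlerDifferential.mapBaseChange_tmul, KaehlerDifferential.map_D, one_smul]
    exact hx
  have h2 : KaehlerDifferential.D K ↥E xE = 0 := by
    have hinj2 := Module.Flat.tensorProduct_mk_injective ↥E (Ω[↥E⁄K]) L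
    apply hinj2
    rw [map_zero]
    exact h1
  have h3 : ∀ y : ↥E, KaehlerDifferential.D K ↥E y = 0 :=
    s17y_derivation_adjoin_simple x (KaehlerDifferential.D K ↥E) h2
  have : Subsingleton (Ω[↥E⁄K]) := by
    have hspan := KaehlerDifferential.span_range_derivation K ↥E
    have hbot : Submodule.span ↥E (Set.range (KaehlerDifferential.D K ↥E)) = ⊥ := by
      rw [Submodule.span_eq_bot]
      rintro _ ⟨y, rfl⟩
      exact h3 y
    rw [hbot] at hspan
    exact (Submodule.subsingleton_iff ↥E).mp (subsingleton_of_bot_eq_top hspan)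
  have : Algebra.FormallyUnramified K ↥E := ⟨inferInstance⟩
  have : Algebra.EssFiniteType K ↥E :=
    IntermediateField.essFiniteType_iff.mpr ⟨{x}, by simp [hE]⟩
  have : Algebra.IsSeparable K ↥E := Algebra.FormallyUnramified.isSeparable K ↥E
  have h4 : IsAlgebraic K xE := (Algebra.IsSeparable.isIntegral K xE).isAlgebraic
  exact (isAlgebraic_algebraMap_iff (algebraMap ↥E L).injective).mpr h4

end Fermat.Agent.Lib.S17
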