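/-
Programme MW (S17), brick [W1′] "J¹ ⊆ 2·J(ℚ̄)", abstract part [AH] (helper7, prefix `s17y_`), file 1:
SECOND-ORDER CALCULUS ON AN ABSTRACT DISC `D : s19_Disc A W G` (landed `Lib/S19/IfaceAlg`,
`Lib/S19/DDiffBasic`).

* `s17y_t1 D q h`, `s17y_t2 D q h`: the first and second Taylor coefficients of `h` at the point of
  parameter `q` (`= s19_dd` with repeated nodes);
* second-order expansions `ev a h = ev b h + (a-b)·t1 b h + (a-b)²·ρ`,
  `t1 a h = t1 b h + (a-b)·2·t2 b h + (a-b)²·ρ`;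
* Leibniz rule for `dq` and `t1`;
* `ev q h = 0`, `t1 q h = 0` ⇒ `h = (t - q)²·h''`.
-/
import Fermat.Agent.Lib.S19.DDiffBasic

set_option autoImplicit false

noncomputable section

namespace Fermat.Agent.Lib.S17

open IsLocalRing Fermat.Agent.Lib.S19

variable {A : Type*} [CommRing A] [IsLocalRing A] {W : Subring A}
  {G : Type*} [CommRing G] [Algebra A G] (D : s19_Disc A W G)

/-- the first Taylor coefficient of `h` at the point of parameter `q`. -/
def s17y_t1 (q : ↥(maximalIdeal A)) (h : G) : A := D.ev q (D.dq q h)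

/-- the second Taylor coefficient of `h` at the point of parameter `q`. -/
def s17y_t2 (q : ↥(maximalIdeal A)) (h : G) : A := D.ev q (D.dq q (D.dq q h))

lemma s17y_t1_eq_dd (q : ↥(maximalIdeal A)) (h : G) : s17y_t1 D q h = s19_dd D [q] q h := rfl

lemma s17y_t2_eq_dd (q : ↥(maximalIdeal A)) (h : G) : s17y_t2 D q h = s19_dd D [q, q] q h := rfl

lemma s17y_t1_zero_eq_tay (h : G) : s17y_t1 D 0 h = s19_tay D 1 h := rfl

lemma s17y_t2_zero_eq_tay (h : G) : s17y_t2 D 0 h = s19_tay D 2 h := rfl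

lemma s17y_ev_zero_eq_tay (h : G) : D.ev 0 h = s19_tay D 0 h := rfl

lemma s17y_t1_add (q : ↥(maximalIdeal A)) (g h : G) :
    s17y_t1 D q (g + h) = s17y_t1 D q g + s17y_t1 D q h := by
  unfold s17y_t1
  rw [s19d_dq_add, map_add]

lemma s17y_t1_smul (q : ↥(maximalIdeal A)) (a : A) (h : G) :
    s17y_t1 D q (algebraMap A G a * h) = a * s17y_t1 D q h := by
  unfold s17y_t1
  rw [s19d_dq_smul, map_mul, AlgHom.commutes]
  simp

lemma s17y_t1_const (q : ↥(maximalIdeal A)) (a : A) : s17y_t1 D q (algebraMap A G a) = 0 := by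
  unfold s17y_t1
  rw [s19d_dq_const, map_zero]

lemma s17y_t1_t (q : ↥(maximalIdeal A)) : s17y_t1 D q D.t = 1 := by
  unfold s17y_t1
  rw [s19d_dq_t, map_one]

lemma s17y_t1_sum {μ : Type*} (s : Finset μ) (q : ↥(maximalIdeal A)) (g : μ → G) :
    s17y_t1 D q (∑ m ∈ s, g m) = ∑ m ∈ s, s17y_t1 D q (g m) := by
  unfold s17y_t1
  rw [s19d_dq_sum, map_sum]

lemma s17y_t2_add (q : ↥(maximalIdeal A)) (g h : G) :
    s17y_t2 D q (g + h) = s17y_t2 D q g + s17y_t2 D q h := by
  unfold s17y_t2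
  rw [s19d_dq_add, s19d_dq_add, map_add]

lemma s17y_t2_smul (q : ↥(maximalIdeal A)) (a : A) (h : G) :
    s17y_t2 D q (algebraMap A G a * h) = a * s17y_t2 D q h := by
  unfold s17y_t2
  rw [s19d_dq_smul, s19d_dq_smul, map_mul, AlgHom.commutes]
  simp

lemma s17y_t2_sum {μ : Type*} (s : Finset μ) (q : ↥(maximalIdeal A)) (g : μ → G) :
    s17y_t2 D q (∑ m ∈ s, g m) = ∑ m ∈ s, s17y_t2 D q (g m) := by
  unfold s17y_t2
  rw [s19d_dq_sum, s19d_dq_sum, map_sum]

lemma s17y_ev_smul (q : ↥(maximalIdeal A)) (a : A) (h : G) :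
    D.ev q (algebraMap A G a * h) = a * D.ev q h := by
  rw [map_mul, AlgHom.commutes]
  simp

/-- second-order expansion of `q ↦ ev q h`. -/
lemma s17y_ev_exp2 (a b : ↥(maximalIdeal A)) (h : G) :
    D.ev a h = D.ev b h + ((a : A) - (b : A)) * s17y_t1 D b h +
      ((a : A) - (b : A)) ^ 2 * D.ev a (D.dq b (D.dq b h)) := by
  unfold s17y_t1
  have h1 := s19d_ev_change D a b h
  have h2 := s19d_ev_change D a b (D.dq b h)
  rw [h1, h2]
  ring

/-- first-order expansion of `q ↦ ev q h`. -/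
lemma s17y_ev_exp1 (a b : ↥(maximalIdeal A)) (h : G) :
    ((a : A) - (b : A)) ∣ D.ev a h - D.ev b h :=
  ⟨D.ev a (D.dq b h), by rw [s19d_ev_change D a b h]; ring⟩

/-- first-order expansion of `q ↦ t1 q h`. -/
lemma s17y_t1_exp1 (a b : ↥(maximalIdeal A)) (h : G) :
    s17y_t1 D a h = s17y_t1 D b h + ((a : A) - (b : A)) *
      (D.ev a (D.dq b (D.dq b h)) + D.ev a (D.dq a (D.dq b h))) := by
  unfold s17y_t1
  have h1 := congrArg (D.ev a) (s19d_dq_change D a b h)
  rw [map_add, map_mul, AlgHom.commutes] at h1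
  have h2 := s19d_ev_change D a b (D.dq b h)
  rw [h1, h2]
  simp only [Algebra.algebraMap_self, RingHom.id_apply]
  ring

lemma s17y_t1_dvd (a b : ↥(maximalIdeal A)) (h : G) :
    ((a : A) - (b : A)) ∣ s17y_t1 D a h - s17y_t1 D b h :=
  ⟨D.ev a (D.dq b (D.dq b h)) + D.ev a (D.dq a (D.dq b h)), by
    rw [s17y_t1_exp1 D a b h]; ring⟩

/-- second-order expansion of `q ↦ t1 q h`. -/
lemma s17y_t1_exp2 (a b : ↥(maximalIdeal A)) (h : G) :
    ∃ ρ : A, s17y_t1 D a h = s17y_t1 D b h + ((a : A) - (b : A)) * (2 * s17y_t2 D b h) +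
      ((a : A) - (b : A)) ^ 2 * ρ := by
  have h1 := congrArg (D.ev a) (s19d_dq_change D a b h)
  rw [map_add, map_mul, AlgHom.commutes] at h1
  simp only [Algebra.algebraMap_self, RingHom.id_apply] at h1
  have h2 := s17y_ev_exp2 D a b (D.dq b h)
  have h3 := s17y_t1_exp1 D a b (D.dq b h)
  refine ⟨D.ev a (D.dq b (D.dq b (D.dq b h))) +
    (D.ev a (D.dq b (D.dq b (D.dq b h))) + D.ev a (D.dq a (D.dq b (D.dq b h)))), ?_⟩
  unfold s17y_t1 s17y_t2 at *
  rw [h1, h2, h3]
  ring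

/-- Leibniz rule for the divided-difference operator. -/
lemma s17y_dq_mul (q : ↥(maximalIdeal A)) (g h : G) :
    D.dq q (g * h) = D.dq q g * h + algebraMap A G (D.ev q g) * D.dq q h := by
  refine (s19d_unique D q (x := D.ev q g * D.ev q h) ?_).2
  have h1 := D.dq_spec q g
  have h2 := D.dq_spec q h
  rw [map_mul]
  linear_combination h * h1 + (algebraMap A G (D.ev q g)) * h2

/-- Leibniz rule for the first Taylor coefficient. -/
lemma s17y_t1_mul (q : ↥(maximalIdeal A)) (g h : G) :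
    s17y_t1 D q (g * h) = s17y_t1 D q g * D.ev q h + D.ev q g * s17y_t1 D q h := by
  unfold s17y_t1
  rw [s17y_dq_mul, map_add, map_mul, map_mul, AlgHom.commutes]
  simp

/-- a function vanishing to second order at `q` is divisible by `(t - q)²`. -/
lemma s17y_sq_dvd (q : ↥(maximalIdeal A)) (h : G) (h0 : D.ev q h = 0) (h1 : s17y_t1 D q h = 0) :
    h = (D.t - algebraMap A G (q : A)) ^ 2 * D.dq q (D.dq q h) := by
  have e1 := D.dq_spec q h
  have e2 := D.dq_spec q (D.dq q h)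
  unfold s17y_t1 at h1
  rw [h0, map_zero, zero_add] at e1
  rw [h1, map_zero, zero_add] at e2
  calc h = (D.t - algebraMap A G (q : A)) * D.dq q h := e1
    _ = (D.t - algebraMap A G (q : A)) * ((D.t - algebraMap A G (q : A)) * D.dq q (D.dq q h)) := by
        rw [← e2]
    _ = _ := by ring

/-- moving the node and the function inside the maximal ideal: `t2`. -/
lemma s17y_t2_congr (a : ↥(maximalIdeal A)) {g h : G} (hgh : g - h ∈ s19d_mG A G) :
    s17y_t2 D a g - s19_tay D 2 h ∈ maximalIdeal A := by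
  have := s19d_ev_congr D a 0 (s19d_dqs_congr D [a, a] [0, 0] rfl hgh)
  exact this

/-- moving the node inside the maximal ideal: `ev`. -/
lemma s17y_ev_congr (a : ↥(maximalIdeal A)) (h : G) :
    D.ev a h - s19_tay D 0 h ∈ maximalIdeal A := by
  have := s19d_red D [] a h
  exact this

end Fermat.Agent.Lib.S17
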