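/-
Programme MW (S17), brick [W1′], abstract part [AH] (helper7, prefix `s17y_`), file 2:
THE DOUBLE-ZERO SYSTEM ON A FAMILY OF DISCS AND ITS NEWTON ITERATION (pure commutative algebra).

Discs `D i : s19_Disc A W (G i)`, functions `ψ0 i, ψ k i ∈ G i`.  For `c : ι → A`, `q : ι → 𝔪`:
`Ψ_i(c) = ψ0 i + Σ_k c_k ψ k i`, `E0_i(c,q) = Ψ_i(c)(q_i)`, `E1_i(c,q) = Ψ_i(c)'(q_i)`.
If the matrix `(ψ k i)(0)` is invertible, `ψ0 i` has a non-degenerate double zero modulo `𝔪` and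
`2` is a unit, then a solution modulo `d ∈ 𝔪` can be improved to a solution modulo `d²`
(`s17y_newton_step`), hence sequences `c n, q n` with `d₀^(2^n) ∣ E(c n, q n)` and
`d₀^(2^n) ∣ (c,q)(n+1) - (c,q)(n)` (`s17y_newton_seq`).
-/
import Fermat.Agent.Lib.S17.YDisc

set_option autoImplicit false
set_option linter.unusedSectionVars false
set_option linter.unusedVariables false

noncomputable section

namespace Fermat.Agent.Lib.S17

open IsLocalRing Fermat.Agent.Lib.S19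

section general

/-- dependent choice with an invariant depending on the index. -/
theorem s17y_exists_seq {X : Type*} (P : ℕ → X → Prop) (R : ℕ → X → X → Prop) (x₀ : X)
    (h₀ : P 0 x₀) (hstep : ∀ n x, P n x → ∃ x', P (n + 1) x' ∧ R n x x') :
    ∃ f : ℕ → X, f 0 = x₀ ∧ (∀ n, P n (f n)) ∧ ∀ n, R n (f n) (f (n + 1)) := by
  classical
  let F : (n : ℕ) → {x : X // P n x} := fun n =>
    Nat.rec (motive := fun n => {x : X // P n x}) ⟨x₀, h₀⟩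
      (fun n x => ⟨Classical.choose (hstep n x.1 x.2),
        (Classical.choose_spec (hstep n x.1 x.2)).1⟩) n
  refine ⟨fun n => (F n).1, rfl, fun n => (F n).2, fun n => ?_⟩
  exact (Classical.choose_spec (hstep n (F n).1 (F n).2)).2

/-- in a local ring, an element congruent to a unit modulo the maximal ideal is a unit. -/
theorem s17y_isUnit_of_sub_mem {A : Type*} [CommRing A] [IsLocalRing A] {x u : A} (hu : IsUnit u)
    (h : x - u ∈ maximalIdeal A) : IsUnit x := by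
  by_contra hx
  have hx' : x ∈ maximalIdeal A := (IsLocalRing.mem_maximalIdeal x).mpr hx
  have : u ∈ maximalIdeal A := by
    have : u = x - (x - u) := by ring
    rw [this]
    exact Ideal.sub_mem _ hx' h
  exact ((IsLocalRing.mem_maximalIdeal u).mp this) hu

/-- determinants of matrices congruent modulo an ideal are congruent. -/
theorem s17y_det_sub_mem {A : Type*} [CommRing A] {n : Type*} [Fintype n] [DecidableEq n]
    (I : Ideal A) (M N : Matrix n n A) (h : ∀ i j, M i j - N i j ∈ I) : M.det - N.det ∈ I := by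
  rw [← Ideal.Quotient.eq, RingHom.map_det, RingHom.map_det]
  congr 1
  ext i j
  simp only [RingHom.mapMatrix_apply, Matrix.map_apply]
  exact Ideal.Quotient.eq.mpr (h i j)

end general

variable {A : Type*} [CommRing A] [IsLocalRing A] {W : Subring A}
  {ι : Type*} [Fintype ι] [DecidableEq ι]
  {G : ι → Type*} [∀ i, CommRing (G i)] [∀ i, Algebra A (G i)] (D : ∀ i, s19_Disc A W (G i))
  (ψ0 : ∀ i, G i) (ψ : ι → ∀ i, G i)

/-- the function `Ψ_i(c) = ψ0 i + Σ_k c_k ψ k i` on the disc `i`. -/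
def s17y_Psi (c : ι → A) (i : ι) : G i := ψ0 i + ∑ k, algebraMap A (G i) (c k) * ψ k i

/-- the value of `Ψ_i(c)` at `q i`. -/
def s17y_E0 (c : ι → A) (q : ι → ↥(maximalIdeal A)) (i : ι) : A :=
  (D i).ev (q i) (s17y_Psi ψ0 ψ c i)

/-- the derivative of `Ψ_i(c)` at `q i`. -/
def s17y_E1 (c : ι → A) (q : ι → ↥(maximalIdeal A)) (i : ι) : A :=
  s17y_t1 (D i) (q i) (s17y_Psi ψ0 ψ c i)

lemma s17y_Psi_add (c γ : ι → A) (i : ι) :
    s17y_Psi ψ0 ψ (c + γ) i = s17y_Psi ψ0 ψ c i + ∑ k, algebraMap A (G i) (γ k) * ψ k i := by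
  unfold s17y_Psi
  simp only [Pi.add_apply, map_add, add_mul, Finset.sum_add_distrib]
  ring

lemma s17y_ev_Psi (c : ι → A) (a : ↥(maximalIdeal A)) (i : ι) :
    (D i).ev a (s17y_Psi ψ0 ψ c i) = (D i).ev a (ψ0 i) + ∑ k, c k * (D i).ev a (ψ k i) := by
  unfold s17y_Psi
  rw [map_add, map_sum]
  simp only [s17y_ev_smul]

lemma s17y_t1_Psi (c : ι → A) (a : ↥(maximalIdeal A)) (i : ι) :
    s17y_t1 (D i) a (s17y_Psi ψ0 ψ c i) =
      s17y_t1 (D i) a (ψ0 i) + ∑ k, c k * s17y_t1 (D i) a (ψ k i) := by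
  unfold s17y_Psi
  rw [s17y_t1_add, s17y_t1_sum]
  simp only [s17y_t1_smul]

lemma s17y_ev_sum_smul (γ : ι → A) (a : ↥(maximalIdeal A)) (i : ι) :
    (D i).ev a (∑ k, algebraMap A (G i) (γ k) * ψ k i) = ∑ k, γ k * (D i).ev a (ψ k i) := by
  rw [map_sum]
  simp only [s17y_ev_smul]

lemma s17y_t1_sum_smul (γ : ι → A) (a : ↥(maximalIdeal A)) (i : ι) :
    s17y_t1 (D i) a (∑ k, algebraMap A (G i) (γ k) * ψ k i) =
      ∑ k, γ k * s17y_t1 (D i) a (ψ k i) := by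
  rw [s17y_t1_sum]
  simp only [s17y_t1_smul]

lemma s17y_Psi_sub_mem (c : ι → A) (hc : ∀ k, c k ∈ maximalIdeal A) (i : ι) :
    s17y_Psi ψ0 ψ c i - ψ0 i ∈ s19d_mG A (G i) := by
  unfold s17y_Psi
  rw [add_sub_cancel_left]
  exact Submodule.sum_mem _ fun k _ => s19d_smul_mem_mG (hc k) _

/-- the matrix of values `(ψ k i)(q i)` is invertible. -/
lemma s17y_isUnit_det_ev
    (hdet : IsUnit (Matrix.det (Matrix.of fun i k => s19_tay (D i) 0 (ψ k i))))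
    (q : ι → ↥(maximalIdeal A)) :
    IsUnit (Matrix.det (Matrix.of fun i k => (D i).ev (q i) (ψ k i))) := by
  refine s17y_isUnit_of_sub_mem hdet (s17y_det_sub_mem _ _ _ fun i k => ?_)
  simp only [Matrix.of_apply]
  exact s17y_ev_congr (D i) (q i) (ψ k i)

/-- the second derivative of `Ψ_i(c)` at `q i` is a unit. -/
lemma s17y_isUnit_two_t2 (h2 : IsUnit (2 : A)) (hu : ∀ i, IsUnit (s19_tay (D i) 2 (ψ0 i)))
    (c : ι → A) (hc : ∀ k, c k ∈ maximalIdeal A) (q : ι → ↥(maximalIdeal A)) (i : ι) :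
    IsUnit (2 * s17y_t2 (D i) (q i) (s17y_Psi ψ0 ψ c i)) :=
  h2.mul (s17y_isUnit_of_sub_mem (hu i)
    (s17y_t2_congr (D i) (q i) (s17y_Psi_sub_mem ψ0 ψ c hc i)))

/-- **the Newton step.** -/
theorem s17y_newton_step (h2 : IsUnit (2 : A))
    (hu : ∀ i, IsUnit (s19_tay (D i) 2 (ψ0 i)))
    (hdet : IsUnit (Matrix.det (Matrix.of fun i k => s19_tay (D i) 0 (ψ k i))))
    (c : ι → A) (hc : ∀ k, c k ∈ maximalIdeal A) (q : ι → ↥(maximalIdeal A))
    (d : A) (hd : d ∈ maximalIdeal A)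
    (hE0 : ∀ i, d ∣ s17y_E0 D ψ0 ψ c q i) (hE1 : ∀ i, d ∣ s17y_E1 D ψ0 ψ c q i) :
    ∃ (c' : ι → A) (q' : ι → ↥(maximalIdeal A)), (∀ k, c' k ∈ maximalIdeal A) ∧
      (∀ k, d ∣ c' k - c k) ∧ (∀ i, d ∣ ((q' i : ↥(maximalIdeal A)) : A) - (q i : A)) ∧
      (∀ i, d ^ 2 ∣ s17y_E0 D ψ0 ψ c' q' i) ∧ (∀ i, d ^ 2 ∣ s17y_E1 D ψ0 ψ c' q' i) := by
  classical
  set M : Matrix ι ι A := Matrix.of fun i k => (D i).ev (q i) (ψ k i) with hM
  have hMdet : IsUnit M.det := s17y_isUnit_det_ev D ψ hdet q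
  choose e0 he0 using hE0
  choose e1 he1 using hE1
  -- the correction of `c`
  set γ' : ι → A := fun k => -(M⁻¹.mulVec e0) k with hγ'
  set γ : ι → A := fun k => d * γ' k with hγ
  have hMγ : ∀ i, ∑ k, M i k * γ k = -s17y_E0 D ψ0 ψ c q i := by
    intro i
    have h1 : M.mulVec (M⁻¹.mulVec e0) = e0 := by
      rw [Matrix.mulVec_mulVec, Matrix.mul_nonsing_inv M hMdet, Matrix.one_mulVec]
    have h2 : ∑ k, M i k * (M⁻¹.mulVec e0) k = e0 i := by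
      have := congrFun h1 i
      simpa [Matrix.mulVec, dotProduct] using this
    rw [he0 i, ← h2, Finset.mul_sum, ← Finset.sum_neg_distrib]
    refine Finset.sum_congr rfl fun k _ => ?_
    simp only [hγ, hγ']
    ring
  -- the correction of `q`
  have hunit : ∀ i, IsUnit (2 * s17y_t2 (D i) (q i) (s17y_Psi ψ0 ψ c i)) :=
    s17y_isUnit_two_t2 D ψ0 ψ h2 hu c hc q
  choose v hv using fun i => (hunit i).exists_left_inv
  set w' : ι → A := fun i => -(v i * (e1 i + ∑ k, γ' k * s17y_t1 (D i) (q i) (ψ k i))) with hw'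
  set w : ι → A := fun i => d * w' i with hw
  have hwmem : ∀ i, (q i : A) + w i ∈ maximalIdeal A := fun i =>
    Ideal.add_mem _ (q i).2 (Ideal.mul_mem_right _ _ hd)
  set q' : ι → ↥(maximalIdeal A) := fun i => ⟨(q i : A) + w i, hwmem i⟩ with hq'
  have hdiff : ∀ i, ((q' i : ↥(maximalIdeal A)) : A) - (q i : A) = w i := by
    intro i
    simp only [hq']
    ring
  have hwu : ∀ i, w i * (2 * s17y_t2 (D i) (q i) (s17y_Psi ψ0 ψ c i)) =
      -(s17y_E1 D ψ0 ψ c q i + ∑ k, γ k * s17y_t1 (D i) (q i) (ψ k i)) := by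
    intro i
    have hsum : ∑ k, γ k * s17y_t1 (D i) (q i) (ψ k i) =
        d * ∑ k, γ' k * s17y_t1 (D i) (q i) (ψ k i) := by
      rw [Finset.mul_sum]
      refine Finset.sum_congr rfl fun k _ => ?_
      simp only [hγ]
      ring
    rw [hsum, he1 i]
    simp only [hw, hw']
    have := hv i
    linear_combination (-(d * (e1 i + ∑ k, γ' k * s17y_t1 (D i) (q i) (ψ k i)))) * this
  refine ⟨c + γ, q', fun k => ?_, fun k => ?_, fun i => ?_, fun i => ?_, fun i => ?_⟩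
  · exact Ideal.add_mem _ (hc k) (Ideal.mul_mem_right _ _ hd)
  · exact ⟨γ' k, by simp only [Pi.add_apply, hγ]; ring⟩
  · exact ⟨w' i, by rw [hdiff i]⟩
  · -- the new value
    unfold s17y_E0
    rw [s17y_Psi_add, map_add, s17y_ev_sum_smul]
    have hA := s17y_ev_exp2 (D i) (q' i) (q i) (s17y_Psi ψ0 ψ c i)
    rw [hdiff i] at hA
    choose ρ hρ using fun k => s17y_ev_exp1 (D i) (q' i) (q i) (ψ k i)
    have hB : ∑ k, γ k * (D i).ev (q' i) (ψ k i) =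
        ∑ k, M i k * γ k + d ^ 2 * (w' i * ∑ k, γ' k * ρ k) := by
      rw [Finset.mul_sum, Finset.mul_sum, ← Finset.sum_add_distrib]
      refine Finset.sum_congr rfl fun k _ => ?_
      have := hρ k
      rw [hdiff i] at this
      have h3 : (D i).ev (q' i) (ψ k i) = (D i).ev (q i) (ψ k i) + w i * ρ k := by
        linear_combination this
      rw [h3]
      simp only [hM, Matrix.of_apply, hγ, hw]
      ring
    rw [hA, hB, hMγ i]
    refine ⟨w' i * e1 i + w' i ^ 2 * (D i).ev (q' i)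
      ((D i).dq (q i) ((D i).dq (q i) (s17y_Psi ψ0 ψ c i))) + w' i * ∑ k, γ' k * ρ k, ?_⟩
    have h5 : s17y_t1 (D i) (q i) (s17y_Psi ψ0 ψ c i) = d * e1 i := he1 i
    rw [h5]
    unfold s17y_E0
    simp only [hw]
    ring
  · -- the new derivative
    unfold s17y_E1
    rw [s17y_Psi_add, s17y_t1_add, s17y_t1_sum_smul]
    obtain ⟨ρ0, hρ0⟩ := s17y_t1_exp2 (D i) (q' i) (q i) (s17y_Psi ψ0 ψ c i)
    rw [hdiff i] at hρ0
    choose ρ hρ using fun k => s17y_t1_dvd (D i) (q' i) (q i) (ψ k i)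
    have hB : ∑ k, γ k * s17y_t1 (D i) (q' i) (ψ k i) =
        ∑ k, γ k * s17y_t1 (D i) (q i) (ψ k i) + d ^ 2 * (w' i * ∑ k, γ' k * ρ k) := by
      rw [Finset.mul_sum, Finset.mul_sum, ← Finset.sum_add_distrib]
      refine Finset.sum_congr rfl fun k _ => ?_
      have := hρ k
      rw [hdiff i] at this
      have h3 : s17y_t1 (D i) (q' i) (ψ k i) = s17y_t1 (D i) (q i) (ψ k i) + w i * ρ k := by
        linear_combination this
      rw [h3]
      simp only [hγ, hw]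
      ring
    rw [hρ0, hB]
    refine ⟨w' i ^ 2 * ρ0 + w' i * ∑ k, γ' k * ρ k, ?_⟩
    have h6 := hwu i
    unfold s17y_E1 at h6
    simp only [hw] at h6 ⊢
    linear_combination h6

lemma s17y_Psi_zero (i : ι) : s17y_Psi ψ0 ψ (0 : ι → A) i = ψ0 i := by
  unfold s17y_Psi
  simp

/-- **the Newton sequence.** -/
theorem s17y_newton_seq (h2 : IsUnit (2 : A))
    (hu : ∀ i, IsUnit (s19_tay (D i) 2 (ψ0 i)))
    (hdet : IsUnit (Matrix.det (Matrix.of fun i k => s19_tay (D i) 0 (ψ k i))))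
    (d₀ : A) (hd₀ : d₀ ∈ maximalIdeal A)
    (h0 : ∀ i, d₀ ∣ s19_tay (D i) 0 (ψ0 i)) (h1 : ∀ i, d₀ ∣ s19_tay (D i) 1 (ψ0 i)) :
    ∃ (c : ℕ → ι → A) (q : ℕ → ι → ↥(maximalIdeal A)),
      (∀ n k, c n k ∈ maximalIdeal A) ∧
      (∀ n k, d₀ ^ 2 ^ n ∣ c (n + 1) k - c n k) ∧
      (∀ n i, d₀ ^ 2 ^ n ∣ ((q (n + 1) i : ↥(maximalIdeal A)) : A) - (q n i : A)) ∧
      (∀ n i, d₀ ^ 2 ^ n ∣ s17y_E0 D ψ0 ψ (c n) (q n) i) ∧
      (∀ n i, d₀ ^ 2 ^ n ∣ s17y_E1 D ψ0 ψ (c n) (q n) i) := by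
  classical
  have hstart : (∀ k, ((0 : ι → A), (0 : ι → ↥(maximalIdeal A))).1 k ∈ maximalIdeal A) ∧
      (∀ i, d₀ ^ 2 ^ 0 ∣ s17y_E0 D ψ0 ψ (0 : ι → A) (0 : ι → ↥(maximalIdeal A)) i) ∧
      (∀ i, d₀ ^ 2 ^ 0 ∣ s17y_E1 D ψ0 ψ (0 : ι → A) (0 : ι → ↥(maximalIdeal A)) i) := by
    refine ⟨fun k => Ideal.zero_mem _, fun i => ?_, fun i => ?_⟩
    · simp only [pow_zero, pow_one]
      unfold s17y_E0
      rw [s17y_Psi_zero]
      exact h0 i
    · simp only [pow_zero, pow_one]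
      unfold s17y_E1
      rw [s17y_Psi_zero]
      exact h1 i
  have hstep : ∀ (n : ℕ) (x : (ι → A) × (ι → ↥(maximalIdeal A))),
      ((∀ k, x.1 k ∈ maximalIdeal A) ∧
        (∀ i, d₀ ^ 2 ^ n ∣ s17y_E0 D ψ0 ψ x.1 x.2 i) ∧
        (∀ i, d₀ ^ 2 ^ n ∣ s17y_E1 D ψ0 ψ x.1 x.2 i)) →
      ∃ x' : (ι → A) × (ι → ↥(maximalIdeal A)),
        ((∀ k, x'.1 k ∈ maximalIdeal A) ∧
          (∀ i, d₀ ^ 2 ^ (n + 1) ∣ s17y_E0 D ψ0 ψ x'.1 x'.2 i) ∧
          (∀ i, d₀ ^ 2 ^ (n + 1) ∣ s17y_E1 D ψ0 ψ x'.1 x'.2 i)) ∧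
        ((∀ k, d₀ ^ 2 ^ n ∣ x'.1 k - x.1 k) ∧
          (∀ i, d₀ ^ 2 ^ n ∣ ((x'.2 i : ↥(maximalIdeal A)) : A) - (x.2 i : A))) := by
    rintro n ⟨c, q⟩ ⟨hc, hE0, hE1⟩
    have hd : d₀ ^ 2 ^ n ∈ maximalIdeal A :=
      Ideal.pow_mem_of_mem _ hd₀ _ (Nat.pos_of_ne_zero (by positivity))
    obtain ⟨c', q', hc', h3, h4, h5, h6⟩ :=
      s17y_newton_step D ψ0 ψ h2 hu hdet c hc q (d₀ ^ 2 ^ n) hd hE0 hE1
    have hpow : (d₀ ^ 2 ^ n) ^ 2 = d₀ ^ 2 ^ (n + 1) := by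
      rw [← pow_mul, pow_succ]
    rw [hpow] at h5 h6
    exact ⟨(c', q'), ⟨hc', h5, h6⟩, h3, h4⟩
  obtain ⟨f, -, hP, hR⟩ := s17y_exists_seq
    (X := (ι → A) × (ι → ↥(maximalIdeal A)))
    (fun n x => (∀ k, x.1 k ∈ maximalIdeal A) ∧
      (∀ i, d₀ ^ 2 ^ n ∣ s17y_E0 D ψ0 ψ x.1 x.2 i) ∧
      (∀ i, d₀ ^ 2 ^ n ∣ s17y_E1 D ψ0 ψ x.1 x.2 i))
    (fun n x x' => (∀ k, d₀ ^ 2 ^ n ∣ x'.1 k - x.1 k) ∧
      (∀ i, d₀ ^ 2 ^ n ∣ ((x'.2 i : ↥(maximalIdeal A)) : A) - (x.2 i : A)))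
    (0, 0) hstart hstep
  exact ⟨fun n => (f n).1, fun n => (f n).2, fun n k => (hP n).1 k, fun n k => (hR n).1 k,
    fun n i => (hR n).2 i, fun n i => (hP n).2.1 i, fun n i => (hP n).2.2 i⟩

end Fermat.Agent.Lib.S17
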