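/-
Programme MW (S17), brick [W1′], abstract part [AH] (helper7, prefix `s17y_`), file 4:
THE ALGEBRAICITY STEP.

`s17y_Limit` = the data produced by the analytic part (YLimit): a field `L ⊇ K`, limit coefficients
`chat k ∈ L`, for every disc a ring homomorphism `e i : G i →+* L` ("evaluation at the limit point")
and a derivation `d i : G i → L` along it ("derivative at the limit point"), the limit equations,
and for every disc the dichotomy "the limit point is transcendental over `K`" / "it is a point
`q ∈ 𝔪` of the disc".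

`s17y_exact_of_limit`: from such a package (K algebraically closed of characteristic zero, the
`G i` domains, algebraic over `A[t_i]`), exact solutions in `A`.
Stage 1: every `K`-derivation kills `chat` (chain rule `D(e h) = d h • D(e t)` by uniqueness of
derivations on algebraic extensions; differentiate the FIRST equation, the bracket in front of
`D(e t)` is the SECOND equation), hence `chat k ∈ K` by YKaehler.
Stage 2: `Ψ_i(c)` is killed by `e i` and `d i`; either `e i` is injective (then `Ψ_i(c) = 0`) or the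
limit point is a point `q` of the disc and `Ψ_i(c) = (t - q)²·g'` (YDisc).
-/
import Fermat.Agent.Lib.S17.YNewton
import Fermat.Agent.Lib.S17.YKaehler

set_option autoImplicit false
set_option linter.unusedSectionVars false
set_option linter.unusedVariables false

noncomputable section

namespace Fermat.Agent.Lib.S17

open IsLocalRing Fermat.Agent.Lib.S19 Polynomial

section uniq

variable {G L V A₀ : Type*} [CommRing G] [Field L] [AddCommGroup V] [Module L V]
  [CommRing A₀] [Algebra A₀ G] (e : G →+* L) (Δ : G →+ V)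

/-- chain rule for polynomial expressions with "constant" coefficients. -/
theorem s17y_delta_aeval (hΔ : ∀ g h, Δ (g * h) = e g • Δ h + e h • Δ g) (R₀ : Subalgebra A₀ G)
    (h0 : ∀ r : ↥R₀, Δ (r : G) = 0) (P : Polynomial ↥R₀) (h : G) :
    Δ (aeval h P) = e (aeval h (derivative P)) • Δ h := by
  induction P using Polynomial.induction_on with
  | C a =>
    rw [aeval_C, derivative_C, map_zero, map_zero, zero_smul]
    exact h0 a
  | add p q hp hq =>
    rw [map_add, map_add, hp, hq, derivative_add, map_add, map_add, add_smul]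
  | monomial n a ih =>
    have h1 : (C a * X ^ (n + 1) : Polynomial ↥R₀) = C a * X ^ n * X := by ring
    rw [h1]
    generalize (C a * X ^ n : Polynomial ↥R₀) = p at ih ⊢
    have hd : derivative (p * X) = derivative p * X + p := by
      rw [derivative_mul, derivative_X, mul_one]
    rw [hd, map_mul (aeval h) p X, aeval_X, hΔ, ih, map_add (aeval h), map_mul (aeval h) _ X, aeval_X,
      map_add e, map_mul e, add_smul, mul_smul, add_comm,
      smul_comm (e h) (e ((aeval h) (derivative p)))]

/-- uniqueness of derivations on algebraic extensions (characteristic zero). -/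
theorem s17y_delta_eq_zero [IsDomain G] [CharZero L]
    (hΔ : ∀ g h, Δ (g * h) = e g • Δ h + e h • Δ g) (he : Function.Injective e)
    (R₀ : Subalgebra A₀ G) (h0 : ∀ r : ↥R₀, Δ (r : G) = 0)
    (halg : ∀ h : G, IsAlgebraic ↥R₀ h) (h : G) : Δ h = 0 := by
  classical
  have : CharZero G := RingHom.charZero e
  have : CharZero ↥R₀ := RingHom.charZero (R₀.val : ↥R₀ →+* G)
  -- an annihilating polynomial of minimal degree
  have hex : ∃ n : ℕ, ∃ P : Polynomial ↥R₀, P ≠ 0 ∧ aeval h P = 0 ∧ P.natDegree = n := by
    obtain ⟨P, hP0, hP⟩ := halg h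
    exact ⟨_, P, hP0, hP, rfl⟩
  obtain ⟨P, hP0, hP, hPn⟩ := Nat.find_spec hex
  have hmin : ∀ Q : Polynomial ↥R₀, Q ≠ 0 → aeval h Q = 0 → P.natDegree ≤ Q.natDegree := by
    intro Q hQ0 hQ
    rw [hPn]
    exact Nat.find_min' hex ⟨Q, hQ0, hQ, rfl⟩
  have hdeg : P.natDegree ≠ 0 := by
    intro hd
    rw [eq_C_of_natDegree_eq_zero hd, aeval_C] at hP
    have h1 : P.coeff 0 = 0 := by
      apply Subtype.ext
      simpa using hP
    apply hP0
    rw [eq_C_of_natDegree_eq_zero hd, h1, C_0]
  have hder : derivative P ≠ 0 := derivative_ne_zero.mpr hdeg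
  have hlt : (derivative P).natDegree < P.natDegree := natDegree_derivative_lt hdeg
  have hne : aeval h (derivative P) ≠ 0 := by
    intro h1
    have := hmin _ hder h1
    omega
  have h2 := s17y_delta_aeval e Δ hΔ R₀ h0 P h
  rw [hP, map_zero] at h2
  have h3 : e (aeval h (derivative P)) ≠ 0 := fun h4 =>
    hne ((injective_iff_map_eq_zero e).mp he _ h4)
  exact (smul_eq_zero.mp h2.symm).resolve_left h3

end uniq

section inj

variable {K L : Type*} [Field K] [Field L] [Algebra K L] (A : ValuationSubring K)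
  {G : Type*} [CommRing G] [IsDomain G] [Algebra ↥A G]

/-- the image of a polynomial expression `p(t)` under a ring homomorphism compatible with the
constants. -/
theorem s17y_e_aeval (t : G) (e : G →+* L)
    (he : ∀ a : ↥A, e (algebraMap ↥A G a) = algebraMap K L (a : K)) (p : Polynomial ↥A) :
    e (aeval t p) = aeval (e t) (p.map (algebraMap ↥A K)) := by
  rw [aeval_map_algebraMap, aeval_def, aeval_def, hom_eval₂]
  congr 1
  ext a
  simp only [RingHom.coe_comp, Function.comp_apply]
  rw [he]
  rfl

/-- if the limit point is transcendental, the evaluation is injective. -/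
theorem s17y_injective_of_transcendental (t : G) (e : G →+* L)
    (he : ∀ a : ↥A, e (algebraMap ↥A G a) = algebraMap K L (a : K))
    (htr : Transcendental K (e t))
    (halg : ∀ h : G, IsAlgebraic ↥(Algebra.adjoin ↥A {t}) h) : Function.Injective e := by
  rw [injective_iff_map_eq_zero]
  intro h heh
  by_contra hh
  obtain ⟨s, -, r, hr, hsr⟩ := (halg h).exists_nonzero_eq_adjoin_mul
    (mem_nonZeroDivisors_of_ne_zero hh)
  have h1 : e (algebraMap ↥(Algebra.adjoin ↥A {t}) G r) = 0 := by
    rw [← hsr, map_mul, heh, zero_mul]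
  have hr' : (r : G) ∈ (aeval (R := ↥A) t).range := by
    rw [← Algebra.adjoin_singleton_eq_range_aeval]
    exact r.2
  obtain ⟨p, hp⟩ := hr'
  have hp0 : p ≠ 0 := by
    rintro rfl
    apply hr
    apply Subtype.ext
    rw [← hp]
    simp
  have h2 : e (aeval t p) = 0 := by
    have : aeval t p = algebraMap ↥(Algebra.adjoin ↥A {t}) G r := hp
    rw [this]
    exact h1
  rw [s17y_e_aeval A t e he p] at h2
  have h3 : p.map (algebraMap ↥A K) ≠ 0 := by
    rw [Ne, Polynomial.map_eq_zero_iff (FaithfulSMul.algebraMap_injective ↥A K)]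
    exact hp0
  exact htr ⟨_, h3, h2⟩

end inj

section main

variable {K : Type*} [Field K] (A : ValuationSubring K) {W : Subring ↥A}
  {ι : Type*} [Fintype ι] [DecidableEq ι]
  {G : ι → Type*} [∀ i, CommRing (G i)] [∀ i, Algebra ↥A (G i)] (D : ∀ i, s19_Disc ↥A W (G i))
  (ψ0 : ∀ i, G i) (ψ : ι → ∀ i, G i)

/-- **the limit package** produced by the analytic part. -/
structure s17y_Limit (L : Type*) [Field L] [Algebra K L] where
  /-- the limit coefficients -/
  chat : ι → L
  /-- evaluation at the limit point of the disc `i` -/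
  e : ∀ i, G i →+* L
  /-- derivative at the limit point of the disc `i` -/
  d : ∀ i, G i →+ L
  e_const : ∀ i (a : ↥A), e i (algebraMap ↥A (G i) a) = algebraMap K L (a : K)
  d_mul : ∀ i (g h : G i), d i (g * h) = e i g * d i h + e i h * d i g
  d_const : ∀ i (a : ↥A), d i (algebraMap ↥A (G i) a) = 0
  d_t : ∀ i, d i (D i).t = 1
  eq0 : ∀ i, e i (ψ0 i) + ∑ k, chat k * e i (ψ k i) = 0
  eq1 : ∀ i, d i (ψ0 i) + ∑ k, chat k * d i (ψ k i) = 0
  det_ne : Matrix.det (Matrix.of fun i k => e i (ψ k i)) ≠ 0
  dich : ∀ i, Transcendental K (e i (D i).t) ∨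
    ∃ q : ↥(maximalIdeal ↥A), (∀ h, e i h = algebraMap K L (((D i).ev q h : ↥A) : K)) ∧
      ∀ h, d i h = algebraMap K L ((s17y_t1 (D i) q h : ↥A) : K)
  c_mem : ∀ c : ι → K, (∀ k, chat k = algebraMap K L (c k)) →
    ∀ k, ∃ hc : c k ∈ A, (⟨c k, hc⟩ : ↥A) ∈ maximalIdeal ↥A

variable {A D ψ0 ψ}

/-- the chain rule at the limit point. -/
theorem s17y_chain [CharZero K] [∀ i, IsDomain (G i)]
    (halg : ∀ i (h : G i), IsAlgebraic ↥(Algebra.adjoin ↥A {(D i).t}) h)
    {L : Type*} [Field L] [Algebra K L] (P : s17y_Limit A D ψ0 ψ L) (i : ι) (h : G i) :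
    KaehlerDifferential.D K L (P.e i h) =
      P.d i h • KaehlerDifferential.D K L (P.e i (D i).t) := by
  have : CharZero L := charZero_of_injective_algebraMap (algebraMap K L).injective
  rcases P.dich i with htr | ⟨q, hq1, hq2⟩
  · -- transcendental limit point
    set dL := KaehlerDifferential.D K L with hdL
    let Δ : G i →+ Ω[L⁄K] := AddMonoidHom.mk' (fun h => dL (P.e i h) - P.d i h • dL (P.e i (D i).t))
      (fun g h => by
        simp only [map_add, add_smul]
        abel)
    have hΔapp : ∀ h, Δ h = dL (P.e i h) - P.d i h • dL (P.e i (D i).t) := fun h => rfl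
    have hΔ : ∀ g h, Δ (g * h) = P.e i g • Δ h + P.e i h • Δ g := by
      intro g h
      simp only [hΔapp, map_mul, Derivation.leibniz, P.d_mul, add_smul, mul_smul, smul_sub]
      abel
    have hinj := s17y_injective_of_transcendental A (D i).t (P.e i) (P.e_const i) htr (halg i)
    have h0 : ∀ r : ↥(Algebra.adjoin ↥A {(D i).t}), Δ (r : G i) = 0 := by
      rintro ⟨r, hr⟩
      refine Algebra.adjoin_induction (hx := hr) ?_ ?_ ?_ ?_
      · intro x hx
        rw [Set.mem_singleton_iff] at hx
        subst hx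
        rw [hΔapp, P.d_t, one_smul, sub_self]
      · intro a
        rw [hΔapp, P.e_const, P.d_const, zero_smul, sub_zero]
        exact Derivation.map_algebraMap _ _
      · intro x y _ _ hx hy
        rw [map_add, hx, hy, add_zero]
      · intro x y _ _ hx hy
        rw [hΔ, hx, hy, smul_zero, smul_zero, add_zero]
    have := s17y_delta_eq_zero (P.e i) Δ hΔ hinj _ h0 (halg i) h
    rw [hΔapp, sub_eq_zero] at this
    exact this
  · -- the limit point is in `K`
    rw [hq1 h, hq1 (D i).t, Derivation.map_algebraMap, Derivation.map_algebraMap, smul_zero]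

/-- Stage 1: every `K`-derivation kills the limit coefficients. -/
theorem s17y_D_chat [CharZero K] [∀ i, IsDomain (G i)]
    (halg : ∀ i (h : G i), IsAlgebraic ↥(Algebra.adjoin ↥A {(D i).t}) h)
    {L : Type*} [Field L] [Algebra K L] (P : s17y_Limit A D ψ0 ψ L) (k₀ : ι) :
    KaehlerDifferential.D K L (P.chat k₀) = 0 := by
  classical
  set dL := KaehlerDifferential.D K L with hdL
  set M : Matrix ι ι L := Matrix.of fun i k => P.e i (ψ k i) with hM
  -- the differentiated first equation
  have hrow : ∀ i, ∑ k, M i k • dL (P.chat k) = 0 := by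
    intro i
    have h1 := congrArg dL (P.eq0 i)
    rw [map_zero, map_add, map_sum] at h1
    simp only [Derivation.leibniz] at h1
    rw [Finset.sum_add_distrib] at h1
    have hchain : ∀ h : G i, dL (P.e i h) = P.d i h • dL (P.e i (D i).t) := s17y_chain halg P i
    have hsum : ∑ k, P.chat k • dL (P.e i (ψ k i)) =
        ∑ k, P.chat k • P.d i (ψ k i) • dL (P.e i (D i).t) :=
      Finset.sum_congr rfl fun k _ => by rw [hchain (ψ k i)]
    rw [hchain (ψ0 i), hsum] at h1
    have h2 : P.d i (ψ0 i) • dL (P.e i (D i).t) +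
        ∑ k, P.chat k • P.d i (ψ k i) • dL (P.e i (D i).t) =
        (P.d i (ψ0 i) + ∑ k, P.chat k * P.d i (ψ k i)) • dL (P.e i (D i).t) := by
      rw [add_smul, Finset.sum_smul]
      simp only [mul_smul]
    have h3 : P.d i (ψ0 i) • dL (P.e i (D i).t) +
        (∑ k, P.chat k • P.d i (ψ k i) • dL (P.e i (D i).t) +
          ∑ k, P.e i (ψ k i) • dL (P.chat k)) = 0 := h1
    rw [← add_assoc, h2, P.eq1 i, zero_smul, zero_add] at h3
    exact h3
  -- invert the matrix
  have hMdet : IsUnit M.det := isUnit_iff_ne_zero.mpr P.det_ne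
  have hinv : M⁻¹ * M = 1 := Matrix.nonsing_inv_mul M hMdet
  have h4 : ∑ i, M⁻¹ k₀ i • ∑ k, M i k • dL (P.chat k) = dL (P.chat k₀) := by
    simp only [Finset.smul_sum, smul_smul]
    rw [Finset.sum_comm]
    simp only [← Finset.sum_smul]
    have h5 : ∀ k, ∑ i, M⁻¹ k₀ i * M i k = (1 : Matrix ι ι L) k₀ k := by
      intro k
      rw [← hinv, Matrix.mul_apply]
    simp only [h5, Matrix.one_apply, ite_smul, one_smul, zero_smul]
    rw [Finset.sum_ite_eq]
    simp
  rw [← h4]
  simp only [hrow, smul_zero, Finset.sum_const_zero]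

/-- an algebraic element of an extension of an algebraically closed field lies in the field. -/
theorem s17y_mem_range_of_isAlgebraic [IsAlgClosed K] {L : Type*} [Field L] [Algebra K L] {x : L}
    (hx : IsAlgebraic K x) : ∃ c : K, x = algebraMap K L c := by
  have h1 : (minpoly K x).degree = 1 :=
    IsAlgClosed.degree_eq_one_of_irreducible K (minpoly.irreducible hx.isIntegral)
  obtain ⟨c, hc⟩ := minpoly.mem_range_of_degree_eq_one K x h1
  exact ⟨c, hc.symm⟩

/-- **the algebraicity step**: a limit package gives an exact solution. -/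
theorem s17y_exact_of_limit [IsAlgClosed K] [CharZero K] [∀ i, IsDomain (G i)]
    (halg : ∀ i (h : G i), IsAlgebraic ↥(Algebra.adjoin ↥A {(D i).t}) h)
    {L : Type*} [Field L] [Algebra K L] (P : s17y_Limit A D ψ0 ψ L) :
    ∃ (c q : ι → ↥(maximalIdeal ↥A)), ∀ i, ∃ g' : G i,
      ψ0 i + ∑ k, algebraMap ↥A (G i) (c k : ↥A) * ψ k i =
        ((D i).t - algebraMap ↥A (G i) (q i : ↥A)) ^ 2 * g' := by
  classical
  -- Stage 1
  choose cK hcK using fun k => s17y_mem_range_of_isAlgebraic
    (s17y_isAlgebraic_of_D_eq_zero (P.chat k) (s17y_D_chat halg P k))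
  choose hcA hcm using P.c_mem cK hcK
  set c : ι → ↥(maximalIdeal ↥A) := fun k => ⟨⟨cK k, hcA k⟩, hcm k⟩ with hc
  have hchat : ∀ k, P.chat k = algebraMap K L (((c k : ↥(maximalIdeal ↥A)) : ↥A) : K) := hcK
  -- Stage 2
  set Ψ : ∀ i, G i := fun i => ψ0 i + ∑ k, algebraMap ↥A (G i) (c k : ↥A) * ψ k i with hΨ
  have he : ∀ i, P.e i (Ψ i) = 0 := by
    intro i
    simp only [hΨ, map_add, map_sum, map_mul, P.e_const, ← hchat]
    exact P.eq0 i
  have hd : ∀ i, P.d i (Ψ i) = 0 := by
    intro i
    simp only [hΨ, map_add, map_sum, P.d_mul, P.d_const, P.e_const, ← hchat, mul_zero, add_zero]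
    exact P.eq1 i
  have key : ∀ i, ∃ (q : ↥(maximalIdeal ↥A)) (g' : G i),
      Ψ i = ((D i).t - algebraMap ↥A (G i) (q : ↥A)) ^ 2 * g' := by
    intro i
    rcases P.dich i with htr | ⟨q, hq1, hq2⟩
    · have hinj := s17y_injective_of_transcendental A (D i).t (P.e i) (P.e_const i) htr (halg i)
      have h0 : Ψ i = 0 := (injective_iff_map_eq_zero (P.e i)).mp hinj _ (he i)
      exact ⟨0, 0, by rw [h0, mul_zero]⟩
    · have hinjK : Function.Injective (algebraMap K L) := (algebraMap K L).injective
      have h1 : (D i).ev q (Ψ i) = 0 := by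
        have := he i
        rw [hq1, ← map_zero (algebraMap K L)] at this
        exact Subtype.ext (hinjK this)
      have h2 : s17y_t1 (D i) q (Ψ i) = 0 := by
        have := hd i
        rw [hq2, ← map_zero (algebraMap K L)] at this
        exact Subtype.ext (hinjK this)
      exact ⟨q, _, s17y_sq_dvd (D i) q (Ψ i) h1 h2⟩
  choose q g' hq using key
  exact ⟨c, q, fun i => ⟨g' i, hq i⟩⟩

end main

end Fermat.Agent.Lib.S17
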