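/-
Programme MW (S17), brick [W1′], abstract part [AH] (helper7, prefix `s17y_`), file 5:
THE LIMIT PACKAGE.  `K` a field with a non-archimedean real absolute value `abv`, `A` its unit ball.
From the Newton sequence of YNewton we build, in the Cauchy completion
`L = CauSeq.Completion.Cauchy abv` (a field), the limit package `s17y_Limit` of YAlg.
-/
import Fermat.Agent.Lib.S17.YAlg

set_option autoImplicit false
set_option linter.unusedSectionVars false
set_option linter.unusedVariables false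

noncomputable section

namespace Fermat.Agent.Lib.S17

open IsLocalRing Fermat.Agent.Lib.S19 CauSeq CauSeq.Completion

universe u

section abv

variable {K : Type*} [Field K] (A : ValuationSubring K) (abv : AbsoluteValue K ℝ)
  (hna : ∀ x y, abv (x + y) ≤ max (abv x) (abv y)) (hA : ∀ x : K, x ∈ A ↔ abv x ≤ 1)

include hA in
lemma s17y_abv_le_one (a : ↥A) : abv (a : K) ≤ 1 := (hA _).mp a.2

include hA in
lemma s17y_mem_max_iff (a : ↥A) : a ∈ maximalIdeal ↥A ↔ abv (a : K) < 1 := by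
  rw [IsLocalRing.mem_maximalIdeal, mem_nonunits_iff]
  constructor
  · intro hnu
    by_contra hlt
    have h1 : abv (a : K) = 1 := le_antisymm (s17y_abv_le_one A abv hA a) (not_lt.mp hlt)
    have ha0 : (a : K) ≠ 0 := by
      intro h0
      rw [h0, map_zero] at h1
      exact zero_ne_one h1
    have hinv : (a : K)⁻¹ ∈ A := by
      rw [hA, map_inv₀, h1, inv_one]
    apply hnu
    refine ⟨⟨a, ⟨(a : K)⁻¹, hinv⟩, ?_, ?_⟩, rfl⟩
    · exact Subtype.ext (mul_inv_cancel₀ ha0)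
    · exact Subtype.ext (inv_mul_cancel₀ ha0)
  · rintro hlt ⟨u, rfl⟩
    have h1 : abv ((u : ↥A) : K) * abv (((u⁻¹ : (↥A)ˣ) : ↥A) : K) = 1 := by
      rw [← map_mul]
      have : ((u : ↥A) : K) * (((u⁻¹ : (↥A)ˣ) : ↥A) : K) = 1 := by
        have h5 : (((u : ↥A) * ((u⁻¹ : (↥A)ˣ) : ↥A) : ↥A) : K) = ((1 : ↥A) : K) := by
          rw [u.mul_inv]
        exact h5
      rw [this, map_one]
    have h2 := s17y_abv_le_one A abv hA ((u⁻¹ : (↥A)ˣ) : ↥A)
    have h3 : 0 ≤ abv ((u : ↥A) : K) := abv.nonneg _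
    nlinarith

include hA in
lemma s17y_abv_le_of_dvd {d x : ↥A} (h : d ∣ x) : abv (x : K) ≤ abv (d : K) := by
  obtain ⟨y, rfl⟩ := h
  have := s17y_abv_le_one A abv hA y
  have h0 : 0 ≤ abv (d : K) := abv.nonneg _
  calc abv ((d * y : ↥A) : K) = abv (d : K) * abv (y : K) := by
        rw [← map_mul]; rfl
    _ ≤ abv (d : K) * 1 := mul_le_mul_of_nonneg_left this h0
    _ = abv (d : K) := mul_one _

include hna in
lemma s17y_abv_sub_le (x y : K) : abv (x - y) ≤ max (abv x) (abv y) := by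
  have := hna x (-y)
  rwa [← sub_eq_add_neg, map_neg_eq_map] at this

include hna in
/-- a sequence with geometrically small increments is Cauchy. -/
lemma s17y_isCauSeq (s : ℕ → K) (r : ℝ) (hr0 : 0 ≤ r) (hr1 : r < 1)
    (h : ∀ n, abv (s (n + 1) - s n) ≤ r ^ n) : IsCauSeq abv s := by
  have key : ∀ n m, abv (s (n + m) - s n) ≤ r ^ n := by
    intro n m
    induction m with
    | zero => simp [pow_nonneg hr0]
    | succ m ih =>
      have h1 : s (n + (m + 1)) - s n = (s (n + m + 1) - s (n + m)) + (s (n + m) - s n) := by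
        rw [← add_assoc]; ring
      rw [h1]
      refine (hna _ _).trans (max_le ((h (n + m)).trans ?_) ih)
      exact pow_le_pow_of_le_one hr0 hr1.le (Nat.le_add_right n m)
  intro ε hε
  obtain ⟨N, hN⟩ := exists_pow_lt_of_lt_one hε hr1
  refine ⟨N, fun j hj => ?_⟩
  obtain ⟨m, rfl⟩ := Nat.exists_eq_add_of_le hj
  exact (key N m).trans_lt hN

/-- a sequence bounded by a geometric sequence tends to zero. -/
lemma s17y_limZero (f : CauSeq K abv) (r : ℝ) (hr0 : 0 ≤ r) (hr1 : r < 1)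
    (h : ∀ n, abv (f n) ≤ r ^ n) : f.LimZero := by
  intro ε hε
  obtain ⟨N, hN⟩ := exists_pow_lt_of_lt_one hε hr1
  refine ⟨N, fun j hj => ?_⟩
  exact ((h j).trans (pow_le_pow_of_le_one hr0 hr1.le hj)).trans_lt hN

/-- the class map as a ring homomorphism. -/
def s17y_mkHom : CauSeq K abv →+* Cauchy abv where
  toFun := mk
  map_one' := rfl
  map_mul' f g := (mk_mul f g).symm
  map_zero' := rfl
  map_add' f g := (mk_add f g).symm

@[simp] lemma s17y_mkHom_apply (f : CauSeq K abv) : s17y_mkHom abv f = mk f := rfl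

/-- evaluation of a Cauchy sequence at an index, as a ring homomorphism. -/
def s17y_evalHom (n : ℕ) : CauSeq K abv →+* K where
  toFun f := f n
  map_one' := rfl
  map_mul' f g := rfl
  map_zero' := rfl
  map_add' f g := rfl

@[simp] lemma s17y_evalHom_apply (n : ℕ) (f : CauSeq K abv) : s17y_evalHom abv n f = f n := rfl

/-- the `K`-algebra structure of the completion. -/
abbrev s17y_algebra : Algebra K (Cauchy abv) := (ofRatRingHom : K →+* Cauchy abv).toAlgebra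

lemma s17y_algebraMap_apply (x : K) :
    @algebraMap K (Cauchy abv) _ _ (s17y_algebra abv) x = mk (const abv x) := rfl

end abv

section seq

variable {K : Type u} [Field K] (A : ValuationSubring K) (abv : AbsoluteValue K ℝ)
  (hna : ∀ x y, abv (x + y) ≤ max (abv x) (abv y)) (hA : ∀ x : K, x ∈ A ↔ abv x ≤ 1)
  {W : Subring ↥A} {ι : Type*} [Fintype ι] [DecidableEq ι]
  {G : ι → Type*} [∀ i, CommRing (G i)] [∀ i, Algebra ↥A (G i)] (D : ∀ i, s19_Disc ↥A W (G i))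
  (ψ0 : ∀ i, G i) (ψ : ι → ∀ i, G i)

/-- the output of the Newton iteration. -/
structure s17y_NSeq (d₀ : ↥A) (c : ℕ → ι → ↥A) (q : ℕ → ι → ↥(maximalIdeal ↥A)) : Prop where
  d_mem : d₀ ∈ maximalIdeal ↥A
  c_mem : ∀ n k, c n k ∈ maximalIdeal ↥A
  c_step : ∀ n k, d₀ ^ 2 ^ n ∣ c (n + 1) k - c n k
  q_step : ∀ n i, d₀ ^ 2 ^ n ∣ ((q (n + 1) i : ↥(maximalIdeal ↥A)) : ↥A) - (q n i : ↥A)
  e0 : ∀ n i, d₀ ^ 2 ^ n ∣ s17y_E0 D ψ0 ψ (c n) (q n) i
  e1 : ∀ n i, d₀ ^ 2 ^ n ∣ s17y_E1 D ψ0 ψ (c n) (q n) i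

/-- a sequence of `A` whose `n`-th increment is divisible by `d₀ ^ 2 ^ n`. -/
def s17y_Fast (d₀ : ↥A) (s : ℕ → ↥A) : Prop := ∀ n, d₀ ^ 2 ^ n ∣ s (n + 1) - s n

variable {A} {d₀ : ↥A}

include hA in
lemma s17y_abv_pow_le (hd : d₀ ∈ maximalIdeal ↥A) (n : ℕ) {x : ↥A} (hx : d₀ ^ 2 ^ n ∣ x) :
    abv (x : K) ≤ abv (d₀ : K) ^ n := by
  have h1 := s17y_abv_le_of_dvd A abv hA hx
  have h2 : abv ((d₀ ^ 2 ^ n : ↥A) : K) = abv (d₀ : K) ^ 2 ^ n := by
    rw [← map_pow]; rfl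
  rw [h2] at h1
  refine h1.trans (pow_le_pow_of_le_one (abv.nonneg _) (s17y_abv_le_one A abv hA d₀) ?_)
  exact Nat.lt_two_pow_self.le

include hna hA in
lemma s17y_fast_isCauSeq (hd : d₀ ∈ maximalIdeal ↥A) {s : ℕ → ↥A} (hs : s17y_Fast A d₀ s) :
    IsCauSeq abv fun n => ((s n : ↥A) : K) := by
  refine s17y_isCauSeq abv hna _ (abv (d₀ : K)) (abv.nonneg _)
    ((s17y_mem_max_iff A abv hA d₀).mp hd) fun n => ?_
  have := s17y_abv_pow_le abv hA hd n (hs n)
  exact this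

/-- the Cauchy sequence attached to a fast sequence. -/
def s17y_cau (hd : d₀ ∈ maximalIdeal ↥A) (s : ℕ → ↥A) (hs : s17y_Fast A d₀ s) : CauSeq K abv :=
  ⟨fun n => ((s n : ↥A) : K), s17y_fast_isCauSeq abv hna hA hd hs⟩

@[simp] lemma s17y_cau_apply (hd : d₀ ∈ maximalIdeal ↥A) (s : ℕ → ↥A) (hs : s17y_Fast A d₀ s)
    (n : ℕ) : s17y_cau abv hna hA hd s hs n = ((s n : ↥A) : K) := rfl

include hA in
/-- a fast sequence with `s n ≡ 0 mod d₀ ^ 2 ^ n` tends to zero. -/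
lemma s17y_cau_limZero (hd : d₀ ∈ maximalIdeal ↥A) (f : CauSeq K abv) (s : ℕ → ↥A)
    (hf : ∀ n, f n = ((s n : ↥A) : K)) (h0 : ∀ n, d₀ ^ 2 ^ n ∣ s n) : f.LimZero := by
  refine s17y_limZero abv f (abv (d₀ : K)) (abv.nonneg _)
    ((s17y_mem_max_iff A abv hA d₀).mp hd) fun n => ?_
  rw [hf]
  exact s17y_abv_pow_le abv hA hd n (h0 n)

include hna hA in
/-- the limit of a sequence of the maximal ideal, if it lies in `K`, lies in the maximal ideal. -/
lemma s17y_lim_mem (f : CauSeq K abv) (s : ℕ → ↥A) (hf : ∀ n, f n = ((s n : ↥A) : K))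
    (hs : ∀ n, s n ∈ maximalIdeal ↥A) (x : K) (hx : (f - const abv x).LimZero) :
    ∃ hxA : x ∈ A, (⟨x, hxA⟩ : ↥A) ∈ maximalIdeal ↥A := by
  obtain ⟨n, hn⟩ := hx 1 one_pos
  have h1 := hn n le_rfl
  rw [CauSeq.sub_apply, CauSeq.const_apply, hf] at h1
  have h2 : abv ((s n : ↥A) : K) < 1 := (s17y_mem_max_iff A abv hA (s n)).mp (hs n)
  have h3 : abv x < 1 := by
    have h4 : x = ((s n : ↥A) : K) - (((s n : ↥A) : K) - x) := by ring
    rw [h4]
    exact (s17y_abv_sub_le abv hna _ _).trans_lt (max_lt h2 h1)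
  have hxA : x ∈ A := (hA x).mpr h3.le
  exact ⟨hxA, (s17y_mem_max_iff A abv hA ⟨x, hxA⟩).mpr h3⟩

/-- domination of null sequences. -/
lemma s17y_limZero_of_le (f g : CauSeq K abv) (hf : f.LimZero) (h : ∀ n, abv (g n) ≤ abv (f n)) :
    g.LimZero := by
  intro ε hε
  obtain ⟨n, hn⟩ := hf ε hε
  exact ⟨n, fun j hj => (h j).trans_lt (hn j hj)⟩

variable {c : ℕ → ι → ↥A} {q : ℕ → ι → ↥(maximalIdeal ↥A)} (N : s17y_NSeq A D ψ0 ψ d₀ c q)

include N in
lemma s17y_fast_c (k : ι) : s17y_Fast A d₀ fun n => c n k := fun n => N.c_step n k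

include N in
lemma s17y_fast_ev (i : ι) (h : G i) : s17y_Fast A d₀ fun n => (D i).ev (q n i) h := fun n =>
  (N.q_step n i).trans (s17y_ev_exp1 (D i) (q (n + 1) i) (q n i) h)

include N in
lemma s17y_fast_t1 (i : ι) (h : G i) : s17y_Fast A d₀ fun n => s17y_t1 (D i) (q n i) h := fun n =>
  (N.q_step n i).trans (s17y_t1_dvd (D i) (q (n + 1) i) (q n i) h)

/-- the sequence of coefficients `c n k`. -/
def s17y_cSeq (k : ι) : CauSeq K abv :=
  s17y_cau abv hna hA N.d_mem _ (s17y_fast_c D ψ0 ψ N k)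

/-- the sequence of values `h (q n i)`, as a ring homomorphism. -/
def s17y_eSeq (i : ι) : G i →+* CauSeq K abv where
  toFun h := s17y_cau abv hna hA N.d_mem _ (s17y_fast_ev D ψ0 ψ N i h)
  map_one' := CauSeq.ext fun n => by simp
  map_mul' g h := CauSeq.ext fun n => by simp
  map_zero' := CauSeq.ext fun n => by simp
  map_add' g h := CauSeq.ext fun n => by simp

/-- the sequence of derivatives `h' (q n i)`, as an additive map. -/
def s17y_dSeq (i : ι) : G i →+ CauSeq K abv where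
  toFun h := s17y_cau abv hna hA N.d_mem _ (s17y_fast_t1 D ψ0 ψ N i h)
  map_zero' := CauSeq.ext fun n => by
    have : s17y_t1 (D i) (q n i) (0 : G i) = 0 := by
      simpa using s17y_t1_const (D i) (q n i) 0
    simp [this]
  map_add' g h := CauSeq.ext fun n => by simp [s17y_t1_add]

@[simp] lemma s17y_cSeq_apply (k : ι) (n : ℕ) :
    s17y_cSeq abv hna hA D ψ0 ψ N k n = ((c n k : ↥A) : K) := rfl

@[simp] lemma s17y_eSeq_apply (i : ι) (h : G i) (n : ℕ) :
    s17y_eSeq abv hna hA D ψ0 ψ N i h n = (((D i).ev (q n i) h : ↥A) : K) := rfl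

@[simp] lemma s17y_dSeq_apply (i : ι) (h : G i) (n : ℕ) :
    s17y_dSeq abv hna hA D ψ0 ψ N i h n = ((s17y_t1 (D i) (q n i) h : ↥A) : K) := rfl

/-- the limit coefficient. -/
def s17y_cL (k : ι) : Cauchy abv := mk (s17y_cSeq abv hna hA D ψ0 ψ N k)

/-- evaluation at the limit point. -/
def s17y_eL (i : ι) : G i →+* Cauchy abv :=
  (s17y_mkHom abv).comp (s17y_eSeq abv hna hA D ψ0 ψ N i)

/-- derivative at the limit point. -/
def s17y_dL (i : ι) : G i →+ Cauchy abv :=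
  (s17y_mkHom abv).toAddMonoidHom.comp (s17y_dSeq abv hna hA D ψ0 ψ N i)

lemma s17y_eL_apply (i : ι) (h : G i) :
    s17y_eL abv hna hA D ψ0 ψ N i h = mk (s17y_eSeq abv hna hA D ψ0 ψ N i h) := rfl

lemma s17y_dL_apply (i : ι) (h : G i) :
    s17y_dL abv hna hA D ψ0 ψ N i h = mk (s17y_dSeq abv hna hA D ψ0 ψ N i h) := rfl

lemma s17y_eL_const (i : ι) (a : ↥A) :
    s17y_eL abv hna hA D ψ0 ψ N i (algebraMap ↥A (G i) a) = mk (const abv (a : K)) := by
  rw [s17y_eL_apply]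
  congr 1
  exact CauSeq.ext fun n => by simp

lemma s17y_dL_mul (i : ι) (g h : G i) :
    s17y_dL abv hna hA D ψ0 ψ N i (g * h) =
      s17y_eL abv hna hA D ψ0 ψ N i g * s17y_dL abv hna hA D ψ0 ψ N i h +
        s17y_eL abv hna hA D ψ0 ψ N i h * s17y_dL abv hna hA D ψ0 ψ N i g := by
  simp only [s17y_eL_apply, s17y_dL_apply, mk_mul, mk_add]
  congr 1
  refine CauSeq.ext fun n => ?_
  simp only [s17y_dSeq_apply, s17y_eSeq_apply, CauSeq.add_apply, CauSeq.mul_apply, s17y_t1_mul]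
  push_cast
  ring

lemma s17y_dL_const (i : ι) (a : ↥A) :
    s17y_dL abv hna hA D ψ0 ψ N i (algebraMap ↥A (G i) a) = 0 := by
  rw [s17y_dL_apply]
  have : s17y_dSeq abv hna hA D ψ0 ψ N i (algebraMap ↥A (G i) a) = 0 :=
    CauSeq.ext fun n => by simp [s17y_t1_const]
  rw [this]
  rfl

lemma s17y_dL_t (i : ι) : s17y_dL abv hna hA D ψ0 ψ N i (D i).t = 1 := by
  rw [s17y_dL_apply]
  have : s17y_dSeq abv hna hA D ψ0 ψ N i (D i).t = 1 :=
    CauSeq.ext fun n => by simp [s17y_t1_t]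
  rw [this]
  rfl

lemma s17y_eL_eq0 (i : ι) :
    s17y_eL abv hna hA D ψ0 ψ N i (ψ0 i) +
      ∑ k, s17y_cL abv hna hA D ψ0 ψ N k * s17y_eL abv hna hA D ψ0 ψ N i (ψ k i) = 0 := by
  set X : CauSeq K abv := s17y_eSeq abv hna hA D ψ0 ψ N i (ψ0 i) +
    ∑ k, s17y_cSeq abv hna hA D ψ0 ψ N k * s17y_eSeq abv hna hA D ψ0 ψ N i (ψ k i) with hX
  have h1 : s17y_eL abv hna hA D ψ0 ψ N i (ψ0 i) +
      ∑ k, s17y_cL abv hna hA D ψ0 ψ N k * s17y_eL abv hna hA D ψ0 ψ N i (ψ k i) =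
      s17y_mkHom abv X := by
    rw [hX, map_add, map_sum]
    simp only [map_mul]
    rfl
  rw [h1, s17y_mkHom_apply, mk_eq_zero]
  refine s17y_cau_limZero abv hA N.d_mem X (fun n => s17y_E0 D ψ0 ψ (c n) (q n) i) (fun n => ?_)
    (fun n => N.e0 n i)
  have h2 : X n = s17y_evalHom abv n X := rfl
  rw [h2, hX, map_add, map_sum]
  simp only [map_mul, s17y_evalHom_apply, s17y_eSeq_apply, s17y_cSeq_apply]
  unfold s17y_E0
  rw [s17y_ev_Psi]
  push_cast
  rfl

lemma s17y_dL_eq1 (i : ι) :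
    s17y_dL abv hna hA D ψ0 ψ N i (ψ0 i) +
      ∑ k, s17y_cL abv hna hA D ψ0 ψ N k * s17y_dL abv hna hA D ψ0 ψ N i (ψ k i) = 0 := by
  set X : CauSeq K abv := s17y_dSeq abv hna hA D ψ0 ψ N i (ψ0 i) +
    ∑ k, s17y_cSeq abv hna hA D ψ0 ψ N k * s17y_dSeq abv hna hA D ψ0 ψ N i (ψ k i) with hX
  have h1 : s17y_dL abv hna hA D ψ0 ψ N i (ψ0 i) +
      ∑ k, s17y_cL abv hna hA D ψ0 ψ N k * s17y_dL abv hna hA D ψ0 ψ N i (ψ k i) =
      s17y_mkHom abv X := by
    rw [hX, map_add, map_sum]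
    simp only [map_mul]
    rfl
  rw [h1, s17y_mkHom_apply, mk_eq_zero]
  refine s17y_cau_limZero abv hA N.d_mem X (fun n => s17y_E1 D ψ0 ψ (c n) (q n) i) (fun n => ?_)
    (fun n => N.e1 n i)
  have h2 : X n = s17y_evalHom abv n X := rfl
  rw [h2, hX, map_add, map_sum]
  simp only [map_mul, s17y_evalHom_apply, s17y_dSeq_apply, s17y_cSeq_apply]
  unfold s17y_E1
  rw [s17y_t1_Psi]
  push_cast
  rfl

include hA in
lemma s17y_abv_unit {a : ↥A} (ha : IsUnit a) : ¬ abv (a : K) < 1 := fun h =>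
  ((IsLocalRing.mem_maximalIdeal a).mp ((s17y_mem_max_iff A abv hA a).mpr h)) ha

lemma s17y_eL_det_ne
    (hdet : IsUnit (Matrix.det (Matrix.of fun i k => s19_tay (D i) 0 (ψ k i)))) :
    Matrix.det (Matrix.of fun i k => s17y_eL abv hna hA D ψ0 ψ N i (ψ k i)) ≠ 0 := by
  set MS : Matrix ι ι (CauSeq K abv) :=
    Matrix.of fun i k => s17y_eSeq abv hna hA D ψ0 ψ N i (ψ k i) with hMS
  have h1 : Matrix.det (Matrix.of fun i k => s17y_eL abv hna hA D ψ0 ψ N i (ψ k i)) =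
      s17y_mkHom abv MS.det := by
    rw [RingHom.map_det]
    congr 1
  rw [h1, s17y_mkHom_apply, Ne, mk_eq_zero]
  intro hlim
  obtain ⟨n, hn⟩ := hlim 1 one_pos
  have h2 := hn n le_rfl
  have h3 : MS.det n = ((Matrix.det (Matrix.of fun i k => (D i).ev (q n i) (ψ k i)) : ↥A) : K) := by
    have h4 : MS.det n = s17y_evalHom abv n MS.det := rfl
    rw [h4, RingHom.map_det]
    have h5 : ((Matrix.det (Matrix.of fun i k => (D i).ev (q n i) (ψ k i)) : ↥A) : K) =
        A.subtype (Matrix.det (Matrix.of fun i k => (D i).ev (q n i) (ψ k i))) := rfl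
    rw [h5, RingHom.map_det]
    congr 1
  rw [h3] at h2
  exact s17y_abv_unit abv hA (s17y_isUnit_det_ev D ψ hdet (q n)) h2

include N in
lemma s17y_cL_mem (c' : ι → K)
    (hc' : ∀ k, s17y_cL abv hna hA D ψ0 ψ N k = mk (const abv (c' k))) (k : ι) :
    ∃ hc : c' k ∈ A, (⟨c' k, hc⟩ : ↥A) ∈ maximalIdeal ↥A := by
  have h1 := hc' k
  unfold s17y_cL at h1
  rw [mk_eq] at h1
  exact s17y_lim_mem abv hna hA _ (fun n => c n k) (fun n => rfl) (fun n => N.c_mem n k) _ h1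

/-- if the limit point lies in `K`, it is a point of the disc and the limit evaluation and
derivative are the evaluation and the derivative at this point. -/
lemma s17y_eL_alg (i : ι) (x : K)
    (hx : s17y_eL abv hna hA D ψ0 ψ N i (D i).t = mk (const abv x)) :
    ∃ qq : ↥(maximalIdeal ↥A),
      (∀ h, s17y_eL abv hna hA D ψ0 ψ N i h = mk (const abv (((D i).ev qq h : ↥A) : K))) ∧
      ∀ h, s17y_dL abv hna hA D ψ0 ψ N i h = mk (const abv ((s17y_t1 (D i) qq h : ↥A) : K)) := by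
  rw [s17y_eL_apply, mk_eq] at hx
  have hev : ∀ n, s17y_eSeq abv hna hA D ψ0 ψ N i (D i).t n = (((q n i : ↥(maximalIdeal ↥A)) : ↥A) : K) := by
    intro n
    rw [s17y_eSeq_apply, (D i).ev_t]
  obtain ⟨hxA, hxm⟩ := s17y_lim_mem abv hna hA _ (fun n => ((q n i : ↥(maximalIdeal ↥A)) : ↥A))
    hev (fun n => (q n i).2) x hx
  set qq : ↥(maximalIdeal ↥A) := ⟨⟨x, hxA⟩, hxm⟩ with hqq
  refine ⟨qq, fun h => ?_, fun h => ?_⟩
  · rw [s17y_eL_apply, mk_eq]
    refine s17y_limZero_of_le abv _ _ hx fun n => ?_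
    rw [CauSeq.sub_apply, CauSeq.sub_apply, CauSeq.const_apply, CauSeq.const_apply, hev,
      s17y_eSeq_apply]
    have h1 := s17y_abv_le_of_dvd A abv hA (s17y_ev_exp1 (D i) (q n i) qq h)
    exact h1
  · rw [s17y_dL_apply, mk_eq]
    refine s17y_limZero_of_le abv _ _ hx fun n => ?_
    rw [CauSeq.sub_apply, CauSeq.sub_apply, CauSeq.const_apply, CauSeq.const_apply, hev,
      s17y_dSeq_apply]
    have h1 := s17y_abv_le_of_dvd A abv hA (s17y_t1_dvd (D i) (q n i) qq h)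
    exact h1

include hna hA N in
/-- **the limit package exists.** -/
theorem s17y_exists_limit [IsAlgClosed K]
    (hdet : IsUnit (Matrix.det (Matrix.of fun i k => s19_tay (D i) 0 (ψ k i)))) :
    ∃ (L : Type u) (_ : Field L) (_ : Algebra K L), Nonempty (s17y_Limit A D ψ0 ψ L) := by
  classical
  let _ : Algebra K (Cauchy abv) := s17y_algebra abv
  refine ⟨Cauchy abv, inferInstance, s17y_algebra abv, ⟨?_⟩⟩
  exact
    { chat := s17y_cL abv hna hA D ψ0 ψ N
      e := s17y_eL abv hna hA D ψ0 ψ N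
      d := s17y_dL abv hna hA D ψ0 ψ N
      e_const := fun i a => s17y_eL_const abv hna hA D ψ0 ψ N i a
      d_mul := fun i g h => s17y_dL_mul abv hna hA D ψ0 ψ N i g h
      d_const := fun i a => s17y_dL_const abv hna hA D ψ0 ψ N i a
      d_t := fun i => s17y_dL_t abv hna hA D ψ0 ψ N i
      eq0 := fun i => s17y_eL_eq0 abv hna hA D ψ0 ψ N i
      eq1 := fun i => s17y_dL_eq1 abv hna hA D ψ0 ψ N i
      det_ne := s17y_eL_det_ne abv hna hA D ψ0 ψ N hdet
      dich := fun i => by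
        by_cases htr : Transcendental K (s17y_eL abv hna hA D ψ0 ψ N i (D i).t)
        · exact Or.inl htr
        · right
          have halg : IsAlgebraic K (s17y_eL abv hna hA D ψ0 ψ N i (D i).t) := not_not.mp htr
          obtain ⟨x, hx⟩ := s17y_mem_range_of_isAlgebraic halg
          exact s17y_eL_alg abv hna hA D ψ0 ψ N i x hx
      c_mem := fun c' hc' k => s17y_cL_mem abv hna hA D ψ0 ψ N c' hc' k }

end seq

end Fermat.Agent.Lib.S17
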