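/-
Programme MW (S17), brick [W1′], abstract part [AH] (helper7, prefix `s17y_`), file 6:
**[AH] EXACT DOUBLE ZEROS ON A FAMILY OF DISCS** (`s17y_double_zeros`).

`K` algebraically closed of characteristic zero with a non-archimedean real absolute value `abv`,
`A` = its unit ball, `2 ∈ A^×`; discs `D i : s19_Disc A W (G i)` (landed `Lib/S19/IfaceAlg`) whose
function rings are domains, algebraic over `A[t_i]`; functions `ψ0 i, ψ k i ∈ G i` such that
`ψ0 i` has a non-degenerate double zero at the centre modulo `𝔪` and the matrix of the values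
`(ψ k i)(0)` is invertible.  Then there are `c, q ∈ 𝔪^ι` with
`ψ0 i + Σ_k c_k ψ k i = (t_i - q_i)² · g'_i` for all `i`.

Proof = YNewton (quadratic Newton iteration in `A`) + YLimit (limit package in the Cauchy
completion) + YAlg/YKaehler (algebraicity of the limit by derivations).
-/
import Fermat.Agent.Lib.S17.YLimit

set_option autoImplicit false

noncomputable section

namespace Fermat.Agent.Lib.S17

open IsLocalRing Fermat.Agent.Lib.S19

/-- in a valuation ring finitely many elements of the maximal ideal have a common divisor in the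
maximal ideal. -/
theorem s17y_exists_common_dvd {R : Type*} [CommRing R] [IsDomain R] [ValuationRing R]
    (S : Finset R) (hS : ∀ x ∈ S, x ∈ maximalIdeal R) :
    ∃ d ∈ maximalIdeal R, ∀ x ∈ S, d ∣ x := by
  classical
  induction S using Finset.induction_on with
  | empty => exact ⟨0, Ideal.zero_mem _, fun x hx => absurd hx (Finset.notMem_empty x)⟩
  | insert a S ha ih =>
    obtain ⟨d, hd, hdS⟩ := ih fun x hx => hS x (Finset.mem_insert_of_mem hx)
    rcases ValuationRing.dvd_total a d with h | h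
    · refine ⟨a, hS a (Finset.mem_insert_self a S), fun x hx => ?_⟩
      rcases Finset.mem_insert.mp hx with rfl | hx
      · exact dvd_rfl
      · exact h.trans (hdS x hx)
    · refine ⟨d, hd, fun x hx => ?_⟩
      rcases Finset.mem_insert.mp hx with rfl | hx
      · exact h
      · exact hdS x hx

/-- **[AH] exact double zeros on a family of discs.** -/
theorem s17y_double_zeros {K : Type} [Field K] [IsAlgClosed K] [CharZero K] (A : ValuationSubring K)
    (abv : AbsoluteValue K ℝ) (hna : ∀ x y, abv (x + y) ≤ max (abv x) (abv y))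
    (hA : ∀ x : K, x ∈ A ↔ abv x ≤ 1) (h2 : IsUnit (2 : ↥A)) (W : Subring ↥A)
    {ι : Type} [Fintype ι] [DecidableEq ι] (G : ι → Type) [∀ i, CommRing (G i)] [∀ i, IsDomain (G i)]
    [∀ i, Algebra ↥A (G i)] (D : ∀ i, s19_Disc ↥A W (G i))
    (halg : ∀ i (h : G i), IsAlgebraic ↥(Algebra.adjoin ↥A {(D i).t}) h)
    (ψ0 : ∀ i, G i) (ψ : ι → ∀ i, G i)
    (h0 : ∀ i, s19_tay (D i) 0 (ψ0 i) ∈ maximalIdeal ↥A)
    (h1 : ∀ i, s19_tay (D i) 1 (ψ0 i) ∈ maximalIdeal ↥A)
    (hu : ∀ i, IsUnit (s19_tay (D i) 2 (ψ0 i)))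
    (hdet : IsUnit (Matrix.det (Matrix.of fun i k => s19_tay (D i) 0 (ψ k i)))) :
    ∃ (c q : ι → ↥(maximalIdeal ↥A)), ∀ i, ∃ g' : G i,
      ψ0 i + ∑ k, algebraMap ↥A (G i) (c k : ↥A) * ψ k i =
        ((D i).t - algebraMap ↥A (G i) (q i : ↥A)) ^ 2 * g' := by
  classical
  -- a common divisor of the initial defects
  obtain ⟨d₀, hd₀, hd⟩ := s17y_exists_common_dvd
    ((Finset.univ.image fun i => s19_tay (D i) 0 (ψ0 i)) ∪
      (Finset.univ.image fun i => s19_tay (D i) 1 (ψ0 i))) (by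
    intro x hx
    rcases Finset.mem_union.mp hx with hx | hx
    · obtain ⟨i, -, rfl⟩ := Finset.mem_image.mp hx
      exact h0 i
    · obtain ⟨i, -, rfl⟩ := Finset.mem_image.mp hx
      exact h1 i)
  have hd0 : ∀ i, d₀ ∣ s19_tay (D i) 0 (ψ0 i) := fun i =>
    hd _ (Finset.mem_union_left _ (Finset.mem_image_of_mem _ (Finset.mem_univ i)))
  have hd1 : ∀ i, d₀ ∣ s19_tay (D i) 1 (ψ0 i) := fun i =>
    hd _ (Finset.mem_union_right _ (Finset.mem_image_of_mem _ (Finset.mem_univ i)))
  -- Newton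
  obtain ⟨c, q, hc, hcs, hqs, hE0, hE1⟩ := s17y_newton_seq D ψ0 ψ h2 hu hdet d₀ hd₀ hd0 hd1
  have N : s17y_NSeq A D ψ0 ψ d₀ c q := ⟨hd₀, hc, hcs, hqs, hE0, hE1⟩
  -- the limit package and the algebraicity step
  obtain ⟨L, _, _, ⟨P⟩⟩ := s17y_exists_limit abv hna hA D ψ0 ψ N hdet
  exact s17y_exact_of_limit halg P

end Fermat.Agent.Lib.S17
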