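/-
MW programme (S17), brick [W1'] (helper5, prefix `s17z_`), part 7: THE ABSOLUTE VALUE OF A PLACE.

`A` a valuation subring of an algebraic extension `K` of `ℚ` in which the prime `q` is a nonunit.
Then `A` is the unit ball of a non-archimedean absolute value `K → ℝ`
(`|x| = q ^ (- v x)`, `v = ford_vQ` the `ℚ`-valued valuation of `A`, landed `Lib/Frey/Ord`).
-/
import Fermat.Agent.Lib.Frey.Ord

set_option autoImplicit false

noncomputable section

namespace Fermat.Agent.Lib.S17

open Fermat.Agent.Lib.Frey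

variable {K : Type*} [Field K] [CharZero K] [Algebra ℚ K] [Algebra.IsAlgebraic ℚ K]
  (A : ValuationSubring K) {q : ℕ} (hq : q.Prime) (hA : (q : K) ∈ A.nonunits)

/-- the rational valuation of a non-zero element. -/
def s17z_w (x : K) : ℚ := (ford_vQ A hq hA x).untopD 0

theorem s17z_v_eq {x : K} (hx : x ≠ 0) : ford_vQ A hq hA x = ((s17z_w A hq hA x : ℚ) : WithTop ℚ) := by
  have hne : ford_vQ A hq hA x ≠ ⊤ := fun h => hx ((AddValuation.top_iff _).mp h)
  obtain ⟨w, hw⟩ := WithTop.ne_top_iff_exists.mp hne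
  unfold s17z_w
  rw [← hw, WithTop.untopD_coe]

theorem s17z_w_mul {x y : K} (hx : x ≠ 0) (hy : y ≠ 0) :
    s17z_w A hq hA (x * y) = s17z_w A hq hA x + s17z_w A hq hA y := by
  have h := AddValuation.map_mul (ford_vQ A hq hA) x y
  rw [s17z_v_eq A hq hA hx, s17z_v_eq A hq hA hy, s17z_v_eq A hq hA (mul_ne_zero hx hy),
    ← WithTop.coe_add] at h
  exact WithTop.coe_injective h

theorem s17z_w_add {x y : K} (hx : x ≠ 0) (hy : y ≠ 0) (hxy : x + y ≠ 0) :
    min (s17z_w A hq hA x) (s17z_w A hq hA y) ≤ s17z_w A hq hA (x + y) := by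
  have h := AddValuation.map_add (ford_vQ A hq hA) x y
  rw [s17z_v_eq A hq hA hx, s17z_v_eq A hq hA hy, s17z_v_eq A hq hA hxy, ← WithTop.coe_min,
    WithTop.coe_le_coe] at h
  exact h

theorem s17z_w_nonneg_iff {x : K} (hx : x ≠ 0) : 0 ≤ s17z_w A hq hA x ↔ x ∈ A := by
  rw [← ford_vQ_nonneg_iff hq hA x, s17z_v_eq A hq hA hx, ← WithTop.coe_zero, WithTop.coe_le_coe]

open Classical in
/-- the absolute value, as a function. -/
def s17z_absFun (x : K) : ℝ := if x = 0 then 0 else (q : ℝ) ^ (-(s17z_w A hq hA x : ℝ))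

theorem s17z_absFun_zero : s17z_absFun A hq hA 0 = 0 := if_pos rfl

theorem s17z_absFun_of_ne {x : K} (hx : x ≠ 0) :
    s17z_absFun A hq hA x = (q : ℝ) ^ (-(s17z_w A hq hA x : ℝ)) := if_neg hx

include hq in
theorem s17z_q_pos : (0 : ℝ) < (q : ℝ) := by exact_mod_cast hq.pos

include hq in
theorem s17z_one_lt_q : (1 : ℝ) < (q : ℝ) := by exact_mod_cast hq.one_lt

theorem s17z_absFun_nonneg (x : K) : 0 ≤ s17z_absFun A hq hA x := by
  by_cases hx : x = 0
  · rw [hx, s17z_absFun_zero]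
  · rw [s17z_absFun_of_ne A hq hA hx]
    exact (Real.rpow_pos_of_pos (s17z_q_pos hq) _).le

theorem s17z_absFun_mul (x y : K) :
    s17z_absFun A hq hA (x * y) = s17z_absFun A hq hA x * s17z_absFun A hq hA y := by
  by_cases hx : x = 0
  · rw [hx, zero_mul, s17z_absFun_zero, zero_mul]
  by_cases hy : y = 0
  · rw [hy, mul_zero, s17z_absFun_zero, mul_zero]
  rw [s17z_absFun_of_ne A hq hA hx, s17z_absFun_of_ne A hq hA hy,
    s17z_absFun_of_ne A hq hA (mul_ne_zero hx hy), s17z_w_mul A hq hA hx hy,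
    ← Real.rpow_add (s17z_q_pos hq)]
  congr 1
  push_cast
  ring

theorem s17z_absFun_ultra (x y : K) :
    s17z_absFun A hq hA (x + y) ≤ max (s17z_absFun A hq hA x) (s17z_absFun A hq hA y) := by
  by_cases hx : x = 0
  · rw [hx, zero_add]; exact le_max_right _ _
  by_cases hy : y = 0
  · rw [hy, add_zero]; exact le_max_left _ _
  by_cases hxy : x + y = 0
  · rw [hxy, s17z_absFun_zero]
    exact le_max_of_le_left (s17z_absFun_nonneg A hq hA x)
  rw [s17z_absFun_of_ne A hq hA hx, s17z_absFun_of_ne A hq hA hy, s17z_absFun_of_ne A hq hA hxy]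
  have h := s17z_w_add A hq hA hx hy hxy
  have h1 : (1 : ℝ) ≤ (q : ℝ) := (s17z_one_lt_q hq).le
  rcases min_le_iff.mp h with h2 | h2
  · refine le_max_of_le_left (Real.rpow_le_rpow_of_exponent_le h1 ?_)
    have : (s17z_w A hq hA x : ℝ) ≤ (s17z_w A hq hA (x + y) : ℝ) := by exact_mod_cast h2
    linarith
  · refine le_max_of_le_right (Real.rpow_le_rpow_of_exponent_le h1 ?_)
    have : (s17z_w A hq hA y : ℝ) ≤ (s17z_w A hq hA (x + y) : ℝ) := by exact_mod_cast h2
    linarith

/-- **the absolute value of the place `A`.** -/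
def s17z_abs : AbsoluteValue K ℝ where
  toFun := s17z_absFun A hq hA
  map_mul' := s17z_absFun_mul A hq hA
  nonneg' := s17z_absFun_nonneg A hq hA
  eq_zero' := fun x => by
    constructor
    · intro h
      by_contra hx
      rw [s17z_absFun_of_ne A hq hA hx] at h
      exact (Real.rpow_pos_of_pos (s17z_q_pos hq) _).ne' h
    · intro h
      rw [h, s17z_absFun_zero]
  add_le' := fun x y =>
    (s17z_absFun_ultra A hq hA x y).trans
      (max_le (le_add_of_nonneg_right (s17z_absFun_nonneg A hq hA y))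
        (le_add_of_nonneg_left (s17z_absFun_nonneg A hq hA x)))

theorem s17z_abs_apply (x : K) : s17z_abs A hq hA x = s17z_absFun A hq hA x := rfl

theorem s17z_abs_ultra (x y : K) :
    s17z_abs A hq hA (x + y) ≤ max (s17z_abs A hq hA x) (s17z_abs A hq hA y) :=
  s17z_absFun_ultra A hq hA x y

theorem s17z_mem_iff_abs_le_one (x : K) : x ∈ A ↔ s17z_abs A hq hA x ≤ 1 := by
  rw [s17z_abs_apply]
  by_cases hx : x = 0
  · rw [hx, s17z_absFun_zero]
    exact ⟨fun _ => zero_le_one, fun _ => A.zero_mem⟩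
  rw [s17z_absFun_of_ne A hq hA hx, ← s17z_w_nonneg_iff A hq hA hx]
  have h1 := s17z_one_lt_q hq
  rw [← Real.rpow_zero (q : ℝ), Real.rpow_le_rpow_left_iff h1, neg_nonpos]
  exact_mod_cast Iff.rfl

include hq hA in
/-- **[ABV]** a place of an algebraic extension of `ℚ` over a prime is the unit ball of a
non-archimedean absolute value. -/
theorem s17z_abv_exists : ∃ abv : AbsoluteValue K ℝ,
    (∀ x y, abv (x + y) ≤ max (abv x) (abv y)) ∧ ∀ x : K, x ∈ A ↔ abv x ≤ 1 :=
  ⟨s17z_abs A hq hA, s17z_abs_ultra A hq hA, s17z_mem_iff_abs_le_one A hq hA⟩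

end Fermat.Agent.Lib.S17
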