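/-
MW programme (S17), brick [W1'] curve side [HALF] (helper5, prefix `s17z_`), part 4:
THE REDUCED SYSTEM IS NON-DEGENERATE.

`β 0 = 1, β 1, …, β g ∈ L(divS b + divS 0) ∩ O` with independent reductions;
`ψ j i = t_i (t_i − b_i) β j ∈ G(Q_i)`.  The matrix of the values of `ψ (k+1) i` at the centres
is invertible over `A`: a kernel vector of its reduction gives a function of
`L_k(Σ Q_i) = k` (non-speciality), a dependence between the reductions.
-/
import Fermat.Agent.Lib.S17.ZBasis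

set_option autoImplicit false
set_option linter.unusedSectionVars false
set_option linter.unusedVariables false
set_option linter.style.haveILetI false

noncomputable section

namespace Fermat.Agent.Lib.S17

open AlgebraicCurve Fermat.Agent.Lib.FF Fermat.Agent.Lib.S37 Fermat.Agent.Lib.S19 IsLocalRing

section Sys

variable {K F k Fb : Type} [Field K] [Field F] [Algebra K F] [IsAlgClosed K] [Field k] [Field Fb]
  [Algebra k Fb] {x : F} [FFGen K x] {A : ValuationSubring K} {π : ↥A →+* k}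
  {O : ValuationSubring F} {red : ↥O →+* Fb} {r : Place K F → Place k Fb} {FW : Subring F}
  {l : ↥A} {g : ℕ} (hC : s19_Curve x A π O red r FW l g) (𝔰 : s19_Sys red r FW g)
  (b : Fin g → ↥(maximalIdeal ↥A)) (β : Fin (g + 1) → F) (hβO : ∀ j, β j ∈ O)
  (hβE : ∀ j, β j ∈ riemannRochSpace (s19_divS hC 𝔰 b + s19_divS hC 𝔰 0))

/-- `ψ j i = t_i (t_i − b_i) β j` as an element of `G(Q_i)`. -/
def s17z_psi (j : Fin (g + 1)) (i : Fin g) : ↥(s19a_G O r (𝔰.Q i)) :=
  ⟨s17z_mu 𝔰 b i * β j, s17z_mu_mul_mem hC 𝔰 b i (hβO j) (hβE j)⟩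

theorem s17z_psi_coe (j : Fin (g + 1)) (i : Fin g) :
    ((s17z_psi hC 𝔰 b β hβO hβE j i : ↥(s19a_G O r (𝔰.Q i))) : F) = s17z_mu 𝔰 b i * β j := rfl

theorem s17z_psi_zero (hβ0 : β 0 = 1) (i : Fin g) :
    letI := s19a_algebraG hC.rd (𝔰.Q i)
    s17z_psi hC 𝔰 b β hβO hβE 0 i = (s17z_D hC 𝔰 i).t *
      ((s17z_D hC 𝔰 i).t - algebraMap ↥A ↥(s19a_G O r (𝔰.Q i)) ((b i : ↥(maximalIdeal ↥A)) : ↥A)) := by
  letI := s19a_algebraG hC.rd (𝔰.Q i)
  apply Subtype.ext
  rw [s17z_psi_coe, hβ0, mul_one]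
  rfl

/-- **the reduced system is non-degenerate.** -/
theorem s17z_hdet (hβ0 : β 0 = 1) (hβli : LinearIndependent k fun j => red ⟨β j, hβO j⟩) :
    letI : ∀ i, Algebra ↥A ↥(s19a_G O r (𝔰.Q i)) := fun i => s19a_algebraG hC.rd (𝔰.Q i)
    IsUnit (Matrix.det (Matrix.of fun (i k : Fin g) =>
      s19_tay (s17z_D hC 𝔰 i) 0 (s17z_psi hC 𝔰 b β hβO hβE k.succ i))) := by
  letI : ∀ i, Algebra ↥A ↥(s19a_G O r (𝔰.Q i)) := fun i => s19a_algebraG hC.rd (𝔰.Q i)
  classical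
  set M : Matrix (Fin g) (Fin g) ↥A := Matrix.of fun (i k : Fin g) =>
    s19_tay (s17z_D hC 𝔰 i) 0 (s17z_psi hC 𝔰 b β hβO hβE k.succ i) with hM
  by_contra hnu
  have hπ : π (Matrix.det M) = 0 :=
    (s19a_pi_eq_zero_iff hC.rd _).mpr ((mem_maximalIdeal _).mpr hnu)
  rw [RingHom.map_det] at hπ
  obtain ⟨v, hv0, hv⟩ := Matrix.exists_mulVec_eq_zero_iff.mpr hπ
  have hrow : ∀ i, ∑ k, v k * π (M i k) = 0 := by
    intro i
    have h1 := congrFun hv i
    rw [Matrix.mulVec, dotProduct, Pi.zero_apply] at h1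
    rw [← h1]
    refine Finset.sum_congr rfl fun k _ => ?_
    rw [mul_comm]
    rfl
  choose lam hlam using fun j => hC.pi_surj (v j)
  set E : Divisor K F := s19_divS hC 𝔰 b + s19_divS hC 𝔰 0 with hE
  set f : F := ∑ j : Fin g, algebraMap K F ((lam j : ↥A) : K) * β j.succ with hf
  have hfO : f ∈ O :=
    sum_mem fun j _ => O.mul_mem _ _ (hC.rd.const_mem (lam j)) (hβO j.succ)
  have hfE : f ∈ riemannRochSpace E := by
    refine Submodule.sum_mem _ fun j _ => ?_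
    rw [← Algebra.smul_def]
    exact Submodule.smul_mem _ _ (hβE j.succ)
  have hredf : red ⟨f, hfO⟩ = ∑ j : Fin g, v j • red ⟨β j.succ, hβO j.succ⟩ := by
    have := s17z_red_comb hC.rd (fun j : Fin g => β j.succ) (fun j => hβO j.succ) lam hfO
    rw [this]
    exact Finset.sum_congr rfl fun j _ => by rw [hlam j]
  -- the reduction of `f` lies in `L_k(Σ Q_i)`
  have hmem : red ⟨f, hfO⟩ ∈ riemannRochSpace (∑ i, Finsupp.single (𝔰.Q i) (1 : ℤ)) := by
    rw [mem_riemannRochSpace_iff]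
    intro Q₀
    by_cases hred0 : red ⟨f, hfO⟩ = 0
    · exact Or.inl hred0
    right
    by_cases hex : ∃ i, 𝔰.Q i = Q₀
    · obtain ⟨i, rfl⟩ := hex
      rw [s19f_D0_apply_self hC 𝔰 i]
      set fG : ↥(s19a_G O r (𝔰.Q i)) := ∑ j : Fin g,
        algebraMap ↥A ↥(s19a_G O r (𝔰.Q i)) (lam j) *
          s17z_psi hC 𝔰 b β hβO hβE j.succ i with hfG
      have hfGcoe : (fG : F) = s17z_mu 𝔰 b i * f := by
        rw [hfG, AddSubmonoidClass.coe_finsetSum, hf, Finset.mul_sum]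
        refine Finset.sum_congr rfl fun j _ => ?_
        show algebraMap K F ((lam j : ↥A) : K) * (s17z_mu 𝔰 b i * β j.succ) = _
        ring
      have htay : ∀ s < 1, s19_tay (s17z_D hC 𝔰 i) s fG ∈ maximalIdeal ↥A := by
        intro s hs
        obtain rfl : s = 0 := by omega
        rw [← s19a_pi_eq_zero_iff hC.rd, hfG, s19e_tay_sum, map_sum, ← hrow i]
        refine Finset.sum_congr rfl fun j _ => ?_
        rw [map_mul, hlam j]
        rfl
      obtain ⟨h', hh'⟩ := s19e_bridge x hC.rd (𝔰.param i) FW hC.fw_inv (𝔰.rat i)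
        (hC.ratc (𝔰.Q i) (𝔰.t i) (𝔰.param i) (𝔰.rat i)) 1 fG htay
      set tb : Fb := red ⟨𝔰.t i, (s19a_mem_G.mp (𝔰.param i).mem).1⟩ with htb
      have htb0 : tb ≠ 0 := s19a_param_red_ne_zero (𝔰.param i)
      have htO : 𝔰.t i ∈ O := (s19a_mem_G.mp (𝔰.param i).mem).1
      have hsubO : 𝔰.t i - algebraMap K F (((b i : ↥(maximalIdeal ↥A)) : ↥A) : K) ∈ O :=
        sub_mem htO (hC.rd.const_mem (b i : ↥A))
      have hredsub : red ⟨𝔰.t i - algebraMap K F (((b i : ↥(maximalIdeal ↥A)) : ↥A) : K),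
          hsubO⟩ = tb :=
        s19a_red_t_sub hC.rd (𝔰.param i) (b i : ↥A)
          ((s19a_pi_eq_zero_iff hC.rd _).mpr (b i).2)
      have hredG : s19e_redG red r (𝔰.Q i) fG = tb * tb * red ⟨f, hfO⟩ := by
        rw [s19e_redG_apply]
        have : (⟨(fG : F), s19a_memO fG⟩ : ↥O) =
            ⟨𝔰.t i, htO⟩ * ⟨𝔰.t i - algebraMap K F (((b i : ↥(maximalIdeal ↥A)) : ↥A) : K),
              hsubO⟩ * ⟨f, hfO⟩ := Subtype.ext hfGcoe
        rw [this, map_mul, map_mul, hredsub]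
      rw [hredG, pow_one] at hh'
      have hlhs0 : tb * tb * red ⟨f, hfO⟩ ≠ 0 := mul_ne_zero (mul_ne_zero htb0 htb0) hred0
      have hh'0 : s19e_redG red r (𝔰.Q i) h' ≠ 0 := by
        intro h0
        rw [h0, mul_zero] at hh'
        exact hlhs0 hh'
      have hord := congrArg (𝔰.Q i).ord hh'
      rw [(𝔰.Q i).ord_mul (mul_ne_zero htb0 htb0) hred0, (𝔰.Q i).ord_mul htb0 htb0,
        (𝔰.Q i).ord_mul htb0 hh'0, htb, (𝔰.param i).ord] at hord
      have := s19e_redG_ord_nonneg x hC.rd (𝔰.param i) h' hh'0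
      linarith
    · push Not at hex
      rw [s19f_D0_apply_other hC 𝔰 Q₀ hex]
      have h1 := s19l_red_mem hC.rd E hfO hfE
      rw [hE, Finsupp.mapDomain_add, s19f_divS_map, s19f_divS_map, mem_riemannRochSpace_iff] at h1
      have h2 := (h1 Q₀).resolve_left hred0
      rw [Finsupp.add_apply, s19f_D0_apply_other hC 𝔰 Q₀ hex] at h2
      simpa using h2
  -- `L_k(Σ Q_i)` is the line of constants
  have hone : (1 : Fb) ∈ riemannRochSpace (∑ i, Finsupp.single (𝔰.Q i) (1 : ℤ)) :=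
    s19n_one_mem (s19f_D0_nonneg hC 𝔰)
  obtain ⟨c, hc⟩ : ∃ c : k, c • (1 : Fb) = red ⟨f, hfO⟩ := by
    have hnz : (⟨1, hone⟩ : ↥(riemannRochSpace (∑ i, Finsupp.single (𝔰.Q i) (1 : ℤ)))) ≠ 0 := by
      intro h0
      exact one_ne_zero (congrArg Subtype.val h0)
    obtain ⟨c, hc⟩ := (finrank_eq_one_iff_of_nonzero' _ hnz).mp 𝔰.nonsp ⟨red ⟨f, hfO⟩, hmem⟩
    exact ⟨c, congrArg Subtype.val hc⟩
  -- a dependence between the reductions
  have hred0 : red ⟨β 0, hβO 0⟩ = 1 := by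
    have : (⟨β 0, hβO 0⟩ : ↥O) = 1 := Subtype.ext hβ0
    rw [this, map_one]
  have hdep : ∑ j : Fin (g + 1), (Fin.cons (-c) v : Fin (g + 1) → k) j • red ⟨β j, hβO j⟩ = 0 := by
    rw [Fin.sum_univ_succ]
    simp only [Fin.cons_zero, Fin.cons_succ]
    rw [hred0, ← hredf, ← hc, neg_smul, neg_add_cancel]
  have hall := Fintype.linearIndependent_iff.mp hβli _ hdep
  apply hv0
  funext j
  have := hall j.succ
  rwa [Fin.cons_succ] at this

end Sys

end Fermat.Agent.Lib.S17
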