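/-
MW programme (S17), brick [W1'] curve side [HALF] (helper5, prefix `s17z_`), part 5:
SOUNDNESS AND ASSEMBLY.

* `s17z_div_of_double`: a non-zero `f ∈ L(divS b + divS 0)` such that `t_i (t_i − b_i) f` is
  divisible by `(t_i − q_i)²` in `G(Q_i)` for every `i` has divisor
  `2·divS q − divS b − divS 0` (degree count);
* `s17z_half : s17z_AH → s17z_Half`: the kernel of specialization is 2-divisible.
-/
import Fermat.Agent.Lib.S17.ZDet
import Fermat.Agent.Lib.S17.ZIface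

set_option autoImplicit false
set_option linter.unusedSectionVars false
set_option linter.unusedVariables false
set_option linter.style.haveILetI false

noncomputable section

namespace Fermat.Agent.Lib.S17

open AlgebraicCurve Fermat.Agent.Lib.FF Fermat.Agent.Lib.S37 Fermat.Agent.Lib.S19 IsLocalRing

section Sys

variable {K F k Fb : Type} [Field K] [Field F] [Algebra K F] [IsAlgClosed K] [Field k] [Field Fb]
  [Algebra k Fb] {x : F} [FFGen K x] {A : ValuationSubring K} {π : ↥A →+* k}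
  {O : ValuationSubring F} {red : ↥O →+* Fb} {r : Place K F → Place k Fb} {FW : Subring F}
  {l : ↥A} {g : ℕ} (hC : s19_Curve x A π O red r FW l g) (𝔰 : s19_Sys red r FW g)

/-- **soundness**: the divisor of a function with double zeros on the discs. -/
theorem s17z_div_of_double (b q : Fin g → ↥(maximalIdeal ↥A)) (f : F) (hf0 : f ≠ 0)
    (hfE : f ∈ riemannRochSpace (s19_divS hC 𝔰 b + s19_divS hC 𝔰 0))
    (hfac : ∀ i, ∃ g' : ↥(s19a_G O r (𝔰.Q i)), s17z_mu 𝔰 b i * f =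
      (𝔰.t i - algebraMap K F (((q i : ↥(maximalIdeal ↥A)) : ↥A) : K)) ^ 2 * (g' : F))
    (P : Place K F) :
    P.ord f = (s19_divS hC 𝔰 q P + s19_divS hC 𝔰 q P) -
      (s19_divS hC 𝔰 b P + s19_divS hC 𝔰 0 P) := by
  classical
  obtain ⟨Dv, hDv, hDvdeg⟩ := hC.pdF.exists_divisor f hf0
  set E : Divisor K F := s19_divS hC 𝔰 b + s19_divS hC 𝔰 0 with hE
  set Z : Divisor K F := s19_divS hC 𝔰 q + s19_divS hC 𝔰 q with hZ
  set Wd : Divisor K F := Dv + E - Z with hWd
  have hW0 : ∀ P', 0 ≤ Wd P' := by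
    intro P'
    rw [hWd, Finsupp.sub_apply, Finsupp.add_apply, hDv P']
    by_cases hex : ∃ i, r P' = 𝔰.Q i
    · obtain ⟨i, hi⟩ := hex
      obtain ⟨g', hg'⟩ := hfac i
      have hmu0 := s17z_mu_ne_zero hC 𝔰 b i
      have hsub0 := s19a_t_sub_ne_zero x hC.rd (𝔰.param i) (q i)
      have hlhs0 : s17z_mu 𝔰 b i * f ≠ 0 := mul_ne_zero hmu0 hf0
      have hg'0 : (g' : F) ≠ 0 := by
        intro h0
        rw [h0, mul_zero] at hg'
        exact hlhs0 hg'
      have hord := congrArg P'.ord hg'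
      rw [P'.ord_mul hmu0 hf0, P'.ord_mul (pow_ne_zero 2 hsub0) hg'0, s19e_ord_pow,
        s17z_mu_ord hC 𝔰 b i P' hi, s19e_ord_t_sub x hC.rd (𝔰.param i) (q i) P' hi] at hord
      have hg'nn : 0 ≤ P'.ord (g' : F) :=
        (ff_mem_iff_ord_nonneg P' hg'0).mp (s19a_memP g' P' hi)
      have hZP : Z P' = 2 * (if P' = s19a_pt x hC.rd (𝔰.param i) (q i) then (1 : ℤ) else 0) := by
        rw [hZ, Finsupp.add_apply, s17z_divS_apply hC 𝔰 q i P' hi]
        unfold s19_ptS
        ring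
      rw [hZP, hE, Finsupp.add_apply]
      push_cast at hord
      linarith
    · push Not at hex
      have hZ0 : Z P' = 0 := by
        rw [hZ, Finsupp.add_apply, s17z_divS_apply_off hC 𝔰 q P' hex, add_zero]
      rw [hZ0]
      have := (mem_riemannRochSpace_iff.mp hfE P').resolve_left hf0
      linarith
  have hWdeg : Divisor.degree Wd = 0 := by
    rw [hWd, map_sub, map_add, hDvdeg, hE, hZ, map_add, map_add, s19f_divS_degree,
      s19f_divS_degree, s19f_divS_degree]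
    ring
  have hW := s19e_eq_zero_of_degree hC.degF Wd hW0 hWdeg
  have := congrArg (fun D : Divisor K F => D P) hW
  simp only [hWd, hE, hZ, Finsupp.sub_apply, Finsupp.add_apply, Finsupp.zero_apply, hDv P] at this
  linarith

end Sys

/-- **[HALF]** the kernel of specialization is 2-divisible. -/
theorem s17z_half : s17z_AH → s17z_Half := by
  intro hAH K F k Fb _ _ _ _ _ _ _ _ x _ A π O red r FW l g hC 𝔰 abv hna hA h2 y hy
  classical
  letI : ∀ i, Algebra ↥A ↥(s19a_G O r (𝔰.Q i)) := fun i => s19a_algebraG hC.rd (𝔰.Q i)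
  obtain ⟨b, rfl⟩ := s19j_cls_surj hC 𝔰 y hy
  set E : Divisor K F := s19_divS hC 𝔰 b + s19_divS hC 𝔰 0 with hE
  have hEnn : ∀ P, 0 ≤ E P := fun P => by
    rw [hE, Finsupp.add_apply]
    exact add_nonneg (s19f_divS_nonneg hC 𝔰 b P) (s19f_divS_nonneg hC 𝔰 0 P)
  have hEdeg : Divisor.degree E = 2 * (g : ℤ) := by
    rw [hE, map_add, s19f_divS_degree, s19f_divS_degree]
    ring
  have hdim : g + 1 ≤ Module.finrank K ↥(riemannRochSpace E) := by
    have h1 := hC.rrF.ineq E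
    rw [hEdeg] at h1
    have h2 : ((g : ℤ) + 1) ≤ (Module.finrank K ↥(riemannRochSpace E) : ℤ) := by linarith
    exact_mod_cast h2
  obtain ⟨β, hβO, hβ0, hβE, hβli⟩ := s17z_basis_one hC E hEnn g hdim
  -- the abstract theorem
  obtain ⟨c, q, hcq⟩ := hAH A abv hna hA h2 (s19a_W A FW)
    (fun i : Fin g => ↥(s19a_G O r (𝔰.Q i))) (s17z_D hC 𝔰) (s17z_halg hC 𝔰)
    (fun i => s17z_psi hC 𝔰 b β hβO hβE 0 i) (fun k i => s17z_psi hC 𝔰 b β hβO hβE k.succ i)
    (fun i => by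
      rw [s17z_psi_zero hC 𝔰 b β hβO hβE hβ0 i, s17z_tay0_mu]
      exact Ideal.zero_mem _)
    (fun i => by
      rw [s17z_psi_zero hC 𝔰 b β hβO hβE hβ0 i, s17z_tay1_mu]
      exact neg_mem (b i).2)
    (fun i => by
      rw [s17z_psi_zero hC 𝔰 b β hβO hβE hβ0 i, s17z_tay2_mu]
      exact isUnit_one)
    (s17z_hdet hC 𝔰 b β hβO hβE hβ0 hβli)
  -- the function
  set f : F := β 0 + ∑ j : Fin g, algebraMap K F (((c j : ↥(maximalIdeal ↥A)) : ↥A) : K) * β j.succ
    with hf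
  have hfE : f ∈ riemannRochSpace E := by
    refine Submodule.add_mem _ (hβE 0) (Submodule.sum_mem _ fun j _ => ?_)
    rw [← Algebra.smul_def]
    exact Submodule.smul_mem _ _ (hβE j.succ)
  -- `f ≠ 0`
  set c' : Fin (g + 1) → ↥A := Fin.cons 1 (fun j => ((c j : ↥(maximalIdeal ↥A)) : ↥A)) with hc'
  have hfsum : ∑ j, algebraMap K F ((c' j : ↥A) : K) * β j = f := by
    rw [Fin.sum_univ_succ, hf]
    simp only [hc', Fin.cons_zero, Fin.cons_succ]
    congr 1
    show algebraMap K F (1 : K) * β 0 = β 0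
    rw [map_one, one_mul]
  have hf0 : f ≠ 0 := by
    intro h0
    have hfO : ∑ j, algebraMap K F ((c' j : ↥A) : K) * β j ∈ O := by
      rw [hfsum, h0]; exact O.zero_mem
    have h1 := s17z_red_comb hC.rd β hβO c' hfO
    have h2 : red ⟨∑ j, algebraMap K F ((c' j : ↥A) : K) * β j, hfO⟩ = 0 := by
      have : (⟨∑ j, algebraMap K F ((c' j : ↥A) : K) * β j, hfO⟩ : ↥O) = 0 :=
        Subtype.ext (hfsum.trans h0)
      rw [this, map_zero]
    rw [h2] at h1
    have h3 := Fintype.linearIndependent_iff.mp hβli (fun j => π (c' j)) h1.symm 0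
    simp only [hc', Fin.cons_zero, map_one] at h3
    exact one_ne_zero h3
  -- the factorizations
  have hfac : ∀ i, ∃ g' : ↥(s19a_G O r (𝔰.Q i)), s17z_mu 𝔰 b i * f =
      (𝔰.t i - algebraMap K F (((q i : ↥(maximalIdeal ↥A)) : ↥A) : K)) ^ 2 * (g' : F) := by
    intro i
    obtain ⟨g', hg'⟩ := hcq i
    refine ⟨g', ?_⟩
    have h1 := congrArg (Subtype.val : ↥(s19a_G O r (𝔰.Q i)) → F) hg'
    rw [Subring.coe_add, AddSubmonoidClass.coe_finsetSum] at h1
    rw [hf, mul_add, Finset.mul_sum]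
    have h2 : ∀ j : Fin g, s17z_mu 𝔰 b i *
        (algebraMap K F (((c j : ↥(maximalIdeal ↥A)) : ↥A) : K) * β j.succ) =
        ((algebraMap ↥A ↥(s19a_G O r (𝔰.Q i)) ((c j : ↥(maximalIdeal ↥A)) : ↥A) *
          s17z_psi hC 𝔰 b β hβO hβE j.succ i : ↥(s19a_G O r (𝔰.Q i))) : F) := by
      intro j
      show _ = algebraMap K F (((c j : ↥(maximalIdeal ↥A)) : ↥A) : K) *
        (s17z_mu 𝔰 b i * β j.succ)
      ring
    rw [Finset.sum_congr rfl fun j _ => h2 j]
    exact h1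
  have hdiv := s17z_div_of_double hC 𝔰 b q f hf0 hfE hfac
  -- conclusion
  refine ⟨s19j_cls hC 𝔰 q, s19j_cls_mem hC 𝔰 q, ?_⟩
  rw [two_nsmul]
  unfold s19j_cls
  rw [← Pic0.mk_add, s19j_mk_eq_mk_iff]
  refine ⟨f, hf0, fun P => ?_⟩
  rw [hdiv P]
  show ((s19_divS hC 𝔰 q - s19_divS hC 𝔰 0) + (s19_divS hC 𝔰 q - s19_divS hC 𝔰 0) -
    (s19_divS hC 𝔰 b - s19_divS hC 𝔰 0)) P = _
  simp only [Finsupp.sub_apply, Finsupp.add_apply]
  ring

end Fermat.Agent.Lib.S17
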