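/-
MW programme (S17), brick [W1'] (helper5, prefix `s17z_`), part 6: [W1'-TOP], THE MODULAR CURVE.

`s17z_w1`: for a good level `(ℓ, N)` with `ℓ ≠ 2`, a place `A` of `ℚ̄` over `ℓ` which is the unit
ball of a non-archimedean absolute value, every point of `J₀(N)(ℚ̄)` with trivial reduction at
`A` is divisible by `2` in `J₀(N)(ℚ̄)` (even inside the kernel of reduction).
Inputs: [AH] (`s17z_AH`), the modular curve at a good level is an abstract curve with good
reduction (`s19m_curveExists`, landed), uniqueness of the place reduction (`s37u_unique_modL`).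
-/
import Fermat.Agent.Lib.S17.ZHalf
import Fermat.Agent.Lib.S19.Final

set_option autoImplicit false
set_option linter.unusedSectionVars false
set_option linter.unusedVariables false
set_option linter.style.haveILetI false
set_option synthInstance.maxHeartbeats 400000
set_option maxHeartbeats 1600000

noncomputable section

namespace Fermat.Agent.Lib.S17

open ModularCurve HahnSeries AlgebraicCurve Fermat.Agent.Lib.S18 Fermat.Agent.Lib.S37
  Fermat.Agent.Lib.FF Fermat.Agent.Lib.S19 IsLocalRing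

local notation "Qbar" => AlgebraicClosure ℚ

/-- `2` is a unit of a valuation ring of odd residue characteristic. -/
theorem s17z_isUnit_two (A : ValuationSubring Qbar) {ℓ : ℕ} (hℓ : ℓ.Prime) (hA : A.LiesOverPrime ℓ)
    (hℓ2 : ℓ ≠ 2) : IsUnit (2 : ↥A) := by
  haveI : CharP (ResidueField ↥A) ℓ := s18x_charP_residueField A hℓ hA
  by_contra hnu
  have h1 : residue ↥A (2 : ↥A) = 0 := by
    rw [residue_eq_zero_iff, mem_maximalIdeal, mem_nonunits_iff]
    exact hnu
  have h2 : ((2 : ℕ) : ResidueField ↥A) = 0 := by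
    rw [← h1, map_ofNat]
    norm_num
  have h3 := (CharP.cast_eq_zero_iff (ResidueField ↥A) ℓ 2).mp h2
  have h4 := (Nat.prime_dvd_prime_iff_eq hℓ Nat.prime_two).mp h3
  exact hℓ2 h4

/-- the kernel of the reduction map is the kernel of specialization of the abstract curve. -/
theorem s17z_mem_J1 (N : ℕ) [NeZero N] {ℓ : ℕ} [Fact ℓ.Prime] (hℓN : ¬ ℓ ∣ N)
    (A : ValuationSubring Qbar) (hA : A.LiesOverPrime ℓ)
    (r : Place Qbar ↥(modularFunctionFieldBar N) →
      Place (ResidueField ↥A) ↥(modularFunctionFieldFullC (ResidueField ↥A) N))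
    (hr : IsPlaceReductionModL A N r) (x : JZero N) (hx : reductionModL A N x = 0) :
    x ∈ s19j_J1 (K := Qbar) (F := ↥(modularFunctionFieldBar N)) r := by
  have hgen := s37g_principalGenerated N hℓN A hA
  have h : ReductionInputsModL A N := ⟨r, hr, hgen⟩
  have hrr : placeReductionModL h = r :=
    s37u_unique_modL N A (Fact.out : ℓ.Prime) hA hℓN (isPlaceReductionModL_placeReductionModL h)
      hr hgen
  obtain ⟨D, rfl⟩ := Pic0.mk_surjective x
  rw [reductionModL_mk h D] at hx
  refine ⟨D, rfl, ?_⟩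
  have h1 := (QuotientAddGroup.eq_zero_iff _).mp hx
  rw [AddSubgroup.mem_addSubgroupOf, coe_reductionDegZeroAlong, hrr] at h1
  exact h1

/-- **[W1']** for the modular curve at a good level. -/
theorem s17z_w1 (hAH : s17z_AH) (N : ℕ) [NeZero N] (ℓ : ℕ) [Fact ℓ.Prime]
    (hgood : s18_GoodLevel ℓ N) (hℓ2 : ℓ ≠ 2) (A : ValuationSubring Qbar)
    (hA : A.LiesOverPrime ℓ) (abv : AbsoluteValue Qbar ℝ)
    (hna : ∀ x y, abv (x + y) ≤ max (abv x) (abv y)) (hAabv : ∀ x : Qbar, x ∈ A ↔ abv x ≤ 1)
    (x : JZero N) (hx : reductionModL A N x = 0) :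
    ∃ y : JZero N, reductionModL A N y = 0 ∧ 2 • y = x := by
  haveI : FFGen Qbar (ffd_jBar N) := s18r_ffGen N
  obtain ⟨r, l, g, hr, hl, hC⟩ :=
    (s19m_curveExists s19_gauss_final s19_rr_final s19e_baseA) N ℓ hgood A hA
  -- a non-special system
  obtain ⟨Q, hQinj, -, hns⟩ := s19n_nonSp_curve hC ∅
  let 𝔰 : s19_Sys (s37r_redF A N hA hgood.1) r (s19_FW A N) g :=
    ⟨Q, fun i => Classical.choose (hC.param (Q i)), hQinj,
      fun i => (Classical.choose_spec (hC.param (Q i))).2,
      fun i => (Classical.choose_spec (hC.param (Q i))).1, hns⟩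
  have h2 : IsUnit (2 : ↥A) := s17z_isUnit_two A (Fact.out : ℓ.Prime) hA hℓ2
  have hxJ := s17z_mem_J1 N hgood.1 A hA r hr x hx
  obtain ⟨y, hyJ, hy⟩ := s17z_half hAH (ffd_jBar N) A (residue ↥A) (s37r_OF A N hA)
    (s37r_redF A N hA hgood.1) r (s19_FW A N) l g hC 𝔰 abv hna hAabv h2 x hxJ
  refine ⟨y, ?_, hy⟩
  -- `y` has trivial reduction
  obtain ⟨D, rfl, hD⟩ := hyJ
  have hgen := s37g_principalGenerated N hgood.1 A hA
  have h : ReductionInputsModL A N := ⟨r, hr, hgen⟩
  have hrr : placeReductionModL h = r :=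
    s37u_unique_modL N A (Fact.out : ℓ.Prime) hA hgood.1
      (isPlaceReductionModL_placeReductionModL h) hr hgen
  rw [reductionModL_mk h D]
  apply (QuotientAddGroup.eq_zero_iff _).mpr
  rw [AddSubgroup.mem_addSubgroupOf, coe_reductionDegZeroAlong, hrr]
  exact hD

end Fermat.Agent.Lib.S17
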