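/-
MW programme (S17), brick [W1'] (helper5, prefix `s17z_`), part 8: [W1'] FROM [AH] ALONE.

`s17z_w1_closed`: for a good level `(ℓ, N)` with `ℓ ≠ 2` and a place `A` of `ℚ̄` over `ℓ`, every
point of `J₀(N)(ℚ̄)` with trivial reduction at `A` is divisible by `2`.  The only remaining input
is the abstract theorem [AH] (`s17z_AH`, helper7).
-/
import Fermat.Agent.Lib.S17.ZTop
import Fermat.Agent.Lib.S17.ZAbv

set_option autoImplicit false
set_option linter.unusedSectionVars false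
set_option linter.unusedVariables false
set_option synthInstance.maxHeartbeats 400000

noncomputable section

namespace Fermat.Agent.Lib.S17

open ModularCurve AlgebraicCurve Fermat.Agent.Lib.S18

local notation "Qbar" => AlgebraicClosure ℚ

/-- **[W1'] from [AH]**, good level, `ℓ ≠ 2`. -/
theorem s17z_w1_closed (hAH : s17z_AH) (N : ℕ) [NeZero N] (ℓ : ℕ) [Fact ℓ.Prime]
    (hgood : s18_GoodLevel ℓ N) (hℓ2 : ℓ ≠ 2) (A : ValuationSubring Qbar)
    (hA : A.LiesOverPrime ℓ) (x : JZero N) (hx : reductionModL A N x = 0) :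
    ∃ y : JZero N, 2 • y = x := by
  obtain ⟨abv, hna, hAabv⟩ := s17z_abv_exists A (Fact.out : ℓ.Prime) hA
  obtain ⟨y, -, hy⟩ := s17z_w1 hAH N ℓ hgood hℓ2 A hA abv hna hAabv x hx
  exact ⟨y, hy⟩

/-- **[W1'] from [AH]** for `5 ≤ ℓ`, `ℓ ∤ N` (the shape of `s17_W1 N A`, with the Galois
hypothesis dropped). -/
theorem s17z_w1_of_five_le (hAH : s17z_AH) (N : ℕ) [NeZero N] (ℓ : ℕ) [Fact ℓ.Prime]
    (hℓN : ¬ ℓ ∣ N) (hℓ5 : 5 ≤ ℓ) (A : ValuationSubring Qbar) (hA : A.LiesOverPrime ℓ)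
    (x : JZero N) (hx : reductionModL A N x = 0) : ∃ y : JZero N, 2 • y = x :=
  s17z_w1_closed hAH N ℓ ⟨hℓN, Or.inl hℓ5⟩ (by omega) A hA x hx

end Fermat.Agent.Lib.S17
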