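/-
MW programme (S17), brick [W1'] (helper5, prefix `s17z_`), part 9: [W1'] CLOSED.

[AH] = `s17y_double_zeros` (helper7, `YMain.lean`) discharges the contract `s17z_AH`; hence
`s17z_w1_final`: for `5 ≤ ℓ`, `ℓ ∤ N` and a place `A` of `ℚ̄` over `ℓ`, every point of `J₀(N)(ℚ̄)`
with trivial reduction at `A` is divisible by `2` in `J₀(N)(ℚ̄)`.
-/
import Fermat.Agent.Lib.S17.ZW1
import Fermat.Agent.Lib.S17.YMain

set_option autoImplicit false
set_option linter.unusedSectionVars false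
set_option linter.unusedVariables false
set_option synthInstance.maxHeartbeats 400000

noncomputable section

namespace Fermat.Agent.Lib.S17

open ModularCurve AlgebraicCurve Fermat.Agent.Lib.S18

local notation "Qbar" => AlgebraicClosure ℚ

/-- [AH], closed (helper7). -/
theorem s17z_ah : s17z_AH := by
  intro K _ _ _ A abv hna hA h2 W ι _ _ G _ _ _ D halg ψ0 ψ h0 h1 hu hdet
  exact s17y_double_zeros A abv hna hA h2 W G D halg ψ0 ψ h0 h1 hu hdet

/-- **[W1'], closed**: `5 ≤ ℓ`, `ℓ ∤ N`. -/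
theorem s17z_w1_final (N : ℕ) [NeZero N] (ℓ : ℕ) [Fact ℓ.Prime] (hℓN : ¬ ℓ ∣ N) (hℓ5 : 5 ≤ ℓ)
    (A : ValuationSubring Qbar) (hA : A.LiesOverPrime ℓ)
    (x : JZero N) (hx : reductionModL A N x = 0) : ∃ y : JZero N, 2 • y = x :=
  s17z_w1_of_five_le s17z_ah N ℓ hℓN hℓ5 A hA x hx

end Fermat.Agent.Lib.S17
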