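/-
MW programme (S17), weak Mordell–Weil half CLOSED (helper5, prefix `s17z_`; QA assembly):
`s17z_wmwn`: for a prime level `N ≥ 5`, `2·J₀(N)(ℚ)` has finite index in `J₀(N)(ℚ)`
(`s17_WMWn N`, helper3's `WIface`), from [FCG] (helper9), [W2] + glue (helper3), the Selmer
finiteness (helper4), [AH] (helper7) and [HALF]/[TOP]/[ABV] (helper5).
-/
import Fermat.Agent.Lib.S17.ZFinal
import Fermat.Agent.Lib.S17.WFinal

set_option autoImplicit false
set_option linter.unusedSectionVars false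
set_option linter.unusedVariables false
set_option synthInstance.maxHeartbeats 400000

noncomputable section

namespace Fermat.Agent.Lib.S17

open ModularCurve AlgebraicCurve

local notation "Qbar" => AlgebraicClosure ℚ

/-- [W1'] in the contract form of `WIface`. -/
theorem s17z_W1 (N : ℕ) [NeZero N] (ℓ : ℕ) [Fact ℓ.Prime] (hℓN : ¬ ℓ ∣ N) (hℓ5 : 5 ≤ ℓ)
    (A : ValuationSubring Qbar) (hA : A.LiesOverPrime ℓ) : s17_W1 N A :=
  fun x _ hx => s17z_w1_final N ℓ hℓN hℓ5 A hA x hx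

/-- a good auxiliary prime for a prime level. -/
theorem s17z_exists_aux_prime (N : ℕ) (hN : N.Prime) :
    ∃ ℓ : ℕ, ℓ.Prime ∧ 5 ≤ ℓ ∧ ¬ ℓ ∣ N := by
  by_cases h5 : N = 5
  · refine ⟨7, by norm_num, by norm_num, ?_⟩
    rw [h5]
    norm_num
  · refine ⟨5, by norm_num, le_refl 5, ?_⟩
    intro hdvd
    exact h5 ((Nat.prime_dvd_prime_iff_eq (by norm_num) hN).mp hdvd).symm

/-- **weak Mordell–Weil** (`nsmul` form) for a prime level. -/
theorem s17z_wmwn (N : ℕ) [NeZero N] (hN : N.Prime) : s17_WMWn N := by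
  obtain ⟨ℓ, hℓ, hℓ5, hℓN⟩ := s17z_exists_aux_prime N hN
  have : Fact ℓ.Prime := ⟨hℓ⟩
  obtain ⟨A, hA⟩ := Fermat.Agent.Lib.Frobenius.exists_liesOverPrime ℓ hℓ
  exact s17w_wmwn N A ℓ hA hℓN (s17z_W1 N ℓ hℓN hℓ5 A hA)

/-- **weak Mordell–Weil** (`zsmul` form) for a prime level. -/
theorem s17z_wmwz (N : ℕ) [NeZero N] (hN : N.Prime) : s17_WMWz N := by
  obtain ⟨ℓ, hℓ, hℓ5, hℓN⟩ := s17z_exists_aux_prime N hN
  have : Fact ℓ.Prime := ⟨hℓ⟩
  obtain ⟨A, hA⟩ := Fermat.Agent.Lib.Frobenius.exists_liesOverPrime ℓ hℓ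
  exact s17w_wmwz N A ℓ hA hℓN (s17z_W1 N ℓ hℓN hℓ5 A hA)

end Fermat.Agent.Lib.S17
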