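/-
Programme MW (S17): THE FINAL ASSEMBLY (helper6): all contracts of `Iface.lean` / `CIface.lean`
are discharged by the bricks of the team; the target follows.
-/
import Fermat.Agent.Lib.S17.HMain
import Fermat.Agent.Lib.S17.HSpan
import Fermat.Agent.Lib.S17.CGlue
import Fermat.Agent.Lib.S17.DExp
import Fermat.Agent.Lib.S17.PFC5
import Fermat.Agent.Lib.S17.PGenus0
import Fermat.Agent.Lib.S17.RRep
import Fermat.Agent.Lib.S17.GFinal
import Fermat.Agent.Lib.S17.VCLv
import Fermat.Agent.Lib.S17.MModel
import Fermat.Agent.Lib.S17.MLin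
import Fermat.Agent.Lib.S17.CDD
import Fermat.Agent.Lib.S17.IInst
import Fermat.Agent.Lib.S17.IFinal
import Fermat.Agent.Lib.S17.ZWMW

set_option autoImplicit false

namespace Fermat.Agent.Lib.S17

/-- weak Mordell–Weil in the shape of the interface. -/
theorem s17h_wmw : s17_WMW := fun N _ hN _ => s17z_wmwn N hN

theorem s17h_cl : s17_CL := s17c_cl_of s17m_modelExists s17c_dd s17v_clv

theorem s17h_lin : s17_LIN := s17c_lin_of s17m_modelExists s17c_dd s17m_linv

/-- the height theorem. -/
theorem s17h_ht_final : s17_HT :=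
  s17h_ht s17d_chartsExist s17p_fc (s17a_av s17d_wr) (s17a_inj s17d_wr) s17h_lvl
    (s17h_span s17h_lin) s17r_ratRep s17g_galVal s17h_cl

/-- **Mordell–Weil for `J₀(N)(ℚ)`.** -/
theorem s17h_target : s17_Target :=
  s17i_target s17h_ht_final s17h_wmw s17i_inst s17p_genus0

end Fermat.Agent.Lib.S17
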