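/-
Programme MW (S17), contract [WR] `s17_WR` (Iface.lean): the confluent determinant of a basis of
`L(D)`, `ℓ(D) = m`, at a tuple `A` of `m` places is non-zero iff `L(D - A) = 0`
(helper1, prefix `s17d_`).

Proof: the confluent matrix is the matrix (in the basis `φ`) of the JET MAP
`f ↦ (coeff_{-D(A i) + r_i} (exp_{A i} f))_i`, `r_i` = number of earlier occurrences of `A i`;
for `f ∈ L(D)` all jets vanish iff `ord_P f ≥ -D(P) + n_P` at every place (`n_P` = multiplicity of
`P` in `A`), i.e. iff `f ∈ L(D - A)`.  Only `exp_alg` and `exp_ord` of the chart system are used.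
-/
import Fermat.Agent.Lib.S17.Iface
import Fermat.Agent.Lib.FF.FFBasicPlace

set_option autoImplicit false
set_option linter.unusedSectionVars false
set_option linter.unusedVariables false

noncomputable section

namespace Fermat.Agent.Lib.S17

open AlgebraicCurve Fermat.Agent.Lib.S19 Fermat.Agent.Lib.FF

variable {K F : Type} [Field K] [Field F] [Algebra K F]

/-! ### the chart: linearity of coefficients, vanishing of low coefficients -/

theorem s17d_exp_ne_zero (X : s17_Charts K F) (P : Place K F) {f : F} (hf : f ≠ 0) :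
    X.exp P f ≠ 0 :=
  (map_ne_zero_iff _ (X.exp P).injective).mpr hf

/-- coefficients are `K`-linear. -/
theorem s17d_coeff_sum (X : s17_Charts K F) (P : Place K F) {m : ℕ} (v : Fin m → K)
    (φ : Fin m → F) (n : ℤ) :
    (X.exp P (∑ k, v k • φ k)).coeff n = ∑ k, (X.exp P (φ k)).coeff n * v k := by
  rw [map_sum, HahnSeries.coeff_sum]
  refine Finset.sum_congr rfl fun k _ => ?_
  rw [Algebra.smul_def, map_mul, X.exp_alg, HahnSeries.C_mul_eq_smul, HahnSeries.coeff_smul,
    smul_eq_mul, mul_comm]

/-- for `f ≠ 0` with `n ≤ ord_P f`: the `N` coefficients from `n` on vanish iff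
`n + N ≤ ord_P f`. -/
theorem s17d_coeff_vanish_iff (X : s17_Charts K F) (P : Place K F) {f : F} (hf : f ≠ 0) (n : ℤ)
    (hn : n ≤ P.ord f) (N : ℕ) :
    (∀ r : ℕ, r < N → (X.exp P f).coeff (n + r) = 0) ↔ n + N ≤ P.ord f := by
  have ho := X.exp_ord P f hf
  constructor
  · intro h
    by_contra hlt
    rw [not_le] at hlt
    obtain ⟨r, hr⟩ : ∃ r : ℕ, P.ord f = n + r := ⟨(P.ord f - n).toNat, by omega⟩
    have hrN : r < N := by omega
    have h0 := h r hrN
    rw [← hr, ← ho, HahnSeries.coeff_order_eq_zero] at h0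
    exact s17d_exp_ne_zero X P hf h0
  · intro h r hr
    apply HahnSeries.coeff_eq_zero_of_lt_order
    rw [ho]; omega

/-! ### ranks in a tuple -/

open Classical in
/-- the multiplicity of `P` in the tuple `A`. -/
def s17d_mult {m : ℕ} (A : Fin m → Place K F) (P : Place K F) : ℕ :=
  (Finset.univ.filter fun i : Fin m => A i = P).card

theorem s17d_div_apply {m : ℕ} (A : Fin m → Place K F) (P : Place K F) :
    (s17_div A) P = (s17d_mult A P : ℤ) := by
  classical
  unfold s17_div s17d_mult
  rw [Finsupp.finsetSum_apply]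
  simp only [Finsupp.single_apply]
  rw [Finset.sum_ite, Finset.sum_const_zero, add_zero, Finset.sum_const, nsmul_eq_mul, mul_one]

theorem s17d_rank_lt {m : ℕ} (A : Fin m → Place K F) (i : Fin m) :
    s17_rank A i < s17d_mult A (A i) := by
  classical
  unfold s17_rank s17d_mult
  apply Finset.card_lt_card
  refine ⟨fun j hj => ?_, fun h => ?_⟩
  · simp only [Finset.mem_filter, Finset.mem_univ, true_and] at hj ⊢
    exact hj.2
  · have hi : i ∈ Finset.univ.filter fun i' : Fin m => i' < i ∧ A i' = A i :=
      h (by simp)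
    simp at hi

theorem s17d_rank_lt_rank {m : ℕ} (A : Fin m → Place K F) {i j : Fin m} (hij : i < j)
    (hA : A i = A j) : s17_rank A i < s17_rank A j := by
  classical
  unfold s17_rank
  apply Finset.card_lt_card
  refine ⟨fun l hl => ?_, fun h => ?_⟩
  · simp only [Finset.mem_filter, Finset.mem_univ, true_and] at hl ⊢
    exact ⟨hl.1.trans hij, hl.2.trans hA⟩
  · have hi : i ∈ Finset.univ.filter fun i' : Fin m => i' < i ∧ A i' = A i :=
      h (by simp [hij, hA])
    simp at hi

/-- every rank below the multiplicity occurs. -/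
theorem s17d_exists_rank {m : ℕ} (A : Fin m → Place K F) (P : Place K F) (r : ℕ)
    (hr : r < s17d_mult A P) : ∃ i, A i = P ∧ s17_rank A i = r := by
  classical
  set S : Finset (Fin m) := Finset.univ.filter fun i : Fin m => A i = P with hS
  have hinj : Set.InjOn (fun i => s17_rank A i) (S : Set (Fin m)) := by
    intro i hi j hj hij
    simp only [hS, Finset.coe_filter, Finset.mem_univ, true_and, Set.mem_ofPred_eq] at hi hj
    rcases lt_trichotomy i j with h | h | h
    · exact absurd hij (ne_of_lt (s17d_rank_lt_rank A h (hi.trans hj.symm)))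
    · exact h
    · exact absurd hij.symm (ne_of_lt (s17d_rank_lt_rank A h (hj.trans hi.symm)))
  have himg : S.image (fun i => s17_rank A i) = Finset.range (s17d_mult A P) := by
    apply Finset.eq_of_subset_of_card_le
    · intro r' hr'
      obtain ⟨i, hi, rfl⟩ := Finset.mem_image.mp hr'
      simp only [hS, Finset.mem_filter, Finset.mem_univ, true_and] at hi
      rw [Finset.mem_range, ← hi]
      exact s17d_rank_lt A i
    · rw [Finset.card_image_of_injOn hinj, Finset.card_range]
      rfl
  have hmem : r ∈ S.image (fun i => s17_rank A i) := by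
    rw [himg]; exact Finset.mem_range.mpr hr
  obtain ⟨i, hi, hir⟩ := Finset.mem_image.mp hmem
  simp only [hS, Finset.mem_filter, Finset.mem_univ, true_and] at hi
  exact ⟨i, hi, hir⟩

/-! ### the kernel of the jet map -/

theorem s17d_sub_le {m : ℕ} (D : Divisor K F) (A : Fin m → Place K F) :
    riemannRochSpace (D - s17_div A) ≤ riemannRochSpace D := by
  intro f hf
  rw [mem_riemannRochSpace_iff] at hf ⊢
  intro v
  rcases hf v with h | h
  · exact Or.inl h
  · right
    rw [Finsupp.sub_apply, s17d_div_apply] at h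
    have : (0 : ℤ) ≤ (s17d_mult A v : ℤ) := Int.natCast_nonneg _
    omega

/-- **the kernel of the jet map is `L(D - A)`.** -/
theorem s17d_jet_zero_iff (X : s17_Charts K F) {m : ℕ} (D : Divisor K F)
    (A : Fin m → Place K F) {f : F} (hf : f ∈ riemannRochSpace D) :
    (∀ i, (X.exp (A i) f).coeff (-(D (A i)) + (s17_rank A i : ℤ)) = 0) ↔
      f ∈ riemannRochSpace (D - s17_div A) := by
  rcases eq_or_ne f 0 with rfl | hf0
  · simp
  have hD : ∀ v : Place K F, -D v ≤ v.ord f := fun v =>
    ((mem_riemannRochSpace_iff.mp hf) v).resolve_left hf0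
  constructor
  · intro h
    rw [mem_riemannRochSpace_iff]
    intro v
    right
    rw [Finsupp.sub_apply, s17d_div_apply]
    have := (s17d_coeff_vanish_iff X v hf0 (-D v) (hD v) (s17d_mult A v)).mp (by
      intro r hr
      obtain ⟨i, hi, hir⟩ := s17d_exists_rank A v r hr
      have := h i
      rwa [hi, hir] at this)
    omega
  · intro h i
    have hv := ((mem_riemannRochSpace_iff.mp h) (A i)).resolve_left hf0
    rw [Finsupp.sub_apply, s17d_div_apply] at hv
    exact (s17d_coeff_vanish_iff X (A i) hf0 (-D (A i)) (hD (A i)) (s17d_mult A (A i))).mpr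
      (by omega) _ (s17d_rank_lt A i)

/-! ### the contract -/

theorem s17d_wr : s17_WR := by
  intro K F _ _ _ _ g hC X m D A φ hφ hli hfin
  have : Module.Finite K ↥(riemannRochSpace D) := hC.riemann.fin D
  -- the basis inside `L(D)`
  set φ' : Fin m → ↥(riemannRochSpace D) := fun k => ⟨φ k, hφ k⟩ with hφ'
  have hli' : LinearIndependent K φ' := by
    apply LinearIndependent.of_comp (riemannRochSpace D).subtype
    exact hli
  have hspan : Submodule.span K (Set.range φ') = ⊤ :=
    hli'.span_eq_top_of_card_eq_finrank' (by rw [Fintype.card_fin, hfin])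
  -- `conf *ᵥ v` = jets of `∑ v k • φ k`
  have hmv : ∀ (v : Fin m → K) (i : Fin m), (s17_conf X D A φ).mulVec v i =
      (X.exp (A i) (∑ k, v k • φ k)).coeff (-(D (A i)) + (s17_rank A i : ℤ)) := by
    intro v i
    rw [s17d_coeff_sum]
    rfl
  have hsum_mem : ∀ v : Fin m → K, ∑ k, v k • φ k ∈ riemannRochSpace D := fun v =>
    Submodule.sum_mem _ fun k _ => Submodule.smul_mem _ _ (hφ k)
  unfold s17_cdet
  rw [not_iff_comm, ← Matrix.exists_mulVec_eq_zero_iff]
  constructor
  · intro hne
    obtain ⟨f, hf, hf0⟩ := (Submodule.ne_bot_iff _).mp hne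
    have hfD : f ∈ riemannRochSpace D := s17d_sub_le D A hf
    have hmem : (⟨f, hfD⟩ : ↥(riemannRochSpace D)) ∈ Submodule.span K (Set.range φ') := by
      rw [hspan]; trivial
    obtain ⟨v, hv⟩ := (Submodule.mem_span_range_iff_exists_fun K).mp hmem
    have hv' : ∑ k, v k • φ k = f := by
      have := congrArg (fun z : ↥(riemannRochSpace D) => (z : F)) hv
      simpa [hφ'] using this
    refine ⟨v, ?_, ?_⟩
    · rintro rfl
      apply hf0
      rw [← hv']
      simp
    · funext i
      rw [hmv, hv']
      exact (s17d_jet_zero_iff X D A hfD).mpr hf i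
  · rintro ⟨v, hv0, hv⟩
    have hjet : ∀ i, (X.exp (A i) (∑ k, v k • φ k)).coeff
        (-(D (A i)) + (s17_rank A i : ℤ)) = 0 := by
      intro i
      rw [← hmv, hv]; rfl
    have hmem := (s17d_jet_zero_iff X D A (hsum_mem v)).mp hjet
    have hne0 : ∑ k, v k • φ k ≠ 0 := by
      intro h0
      apply hv0
      funext k
      exact (Fintype.linearIndependent_iff.mp hli) v h0 k
    exact (Submodule.ne_bot_iff _).mpr ⟨_, hmem, hne0⟩

end Fermat.Agent.Lib.S17
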