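/-
Programme MW (S17), brick [GP] (helper3), part 1 (Mathlib only): **the weak Nullstellensatz in the
form "a finitely generated domain over an algebraically closed field has a `K`-point at which
finitely many given non-zero elements do not vanish".**
-/
import Mathlib

set_option autoImplicit false
set_option linter.unusedSectionVars false
set_option linter.style.haveILetI false

noncomputable section

namespace Fermat.Agent.Lib.S17

variable {K : Type*} [Field K] [IsAlgClosed K]

/-- one non-zero element. -/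
theorem s17m_exists_point {T : Type*} [CommRing T] [IsDomain T] [Algebra K T]
    [hfg : Algebra.FiniteType K T] (w : T) (hw : w ≠ 0) : ∃ φ : T →ₐ[K] K, φ w ≠ 0 := by
  classical
  obtain ⟨n, π, hπ⟩ := Algebra.FiniteType.iff_quotient_mvPolynomial''.mp hfg
  set I : Ideal (MvPolynomial (Fin n) K) := RingHom.ker π.toRingHom with hI
  have hIprime : I.IsPrime := RingHom.ker_isPrime π.toRingHom
  obtain ⟨p, hp⟩ := hπ w
  have hpI : p ∉ I := by
    intro h
    apply hw
    rw [← hp]
    exact h
  have hrad : I.radical = I := hIprime.isRadical.radical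
  have hnot : p ∉ MvPolynomial.vanishingIdeal K (MvPolynomial.zeroLocus K I) := by
    rw [MvPolynomial.vanishingIdeal_zeroLocus_eq_radical, hrad]
    exact hpI
  rw [MvPolynomial.mem_vanishingIdeal_iff] at hnot
  push Not at hnot
  obtain ⟨x, hx, hxp⟩ := hnot
  rw [MvPolynomial.mem_zeroLocus_iff] at hx
  have hker : RingHom.ker π.toRingHom ≤
      RingHom.ker (MvPolynomial.aeval x : MvPolynomial (Fin n) K →ₐ[K] K).toRingHom := by
    intro q hq
    exact hx q hq
  refine ⟨AlgHom.liftOfSurjective π hπ (MvPolynomial.aeval x) hker, ?_⟩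
  rw [← hp, AlgHom.liftOfSurjective_apply]
  exact hxp

/-- finitely many non-zero elements of a subalgebra of a domain. -/
theorem s17m_exists_point_finset {L : Type*} [CommRing L] [IsDomain L] [Algebra K L]
    (T : Subalgebra K L) (hT : T.FG) (s : Finset L) (hsT : ∀ w ∈ s, w ∈ T)
    (hs0 : ∀ w ∈ s, w ≠ 0) :
    ∃ φ : ↥T →ₐ[K] K, ∀ (w : L) (hw : w ∈ s), φ ⟨w, hsT w hw⟩ ≠ 0 := by
  classical
  haveI : Algebra.FiniteType K ↥T := (Subalgebra.fg_iff_finiteType T).mp hT
  set W : ↥T := ∏ w ∈ s.attach, (⟨w.1, hsT w.1 w.2⟩ : ↥T) with hW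
  have hW0 : W ≠ 0 := by
    rw [hW, Finset.prod_ne_zero_iff]
    intro w _ h
    exact hs0 w.1 w.2 (congrArg Subtype.val h)
  obtain ⟨φ, hφ⟩ := s17m_exists_point (K := K) W hW0
  refine ⟨φ, fun w hw => ?_⟩
  rw [hW, map_prod, Finset.prod_ne_zero_iff] at hφ
  exact hφ ⟨w, hw⟩ (Finset.mem_attach _ _)

end Fermat.Agent.Lib.S17
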