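/-
Programme MW (S17), brick [GP] (helper3; statement of helper2 #2910): **the generic-point lemma.**
A non-zero element `x` of `K(C^m)` is regular with non-zero value at some tuple `A` of distinct
places outside any given finite set.

Proof (Nullstellensatz instead of an induction on the coordinates): `x = u / v` with `u, v` in the
subalgebra `T` generated by `ι_i(Φ)` for a finite `Φ ⊂ F` containing a non-constant function `τ`
and a uniformiser `t_Q` at every `Q ∈ E`; `T` is a finitely generated domain over the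
algebraically closed `K`, so there is a `K`-point `φ` of `T` at which `u`, `v`, the `ι_i(t_Q)` and
the `ι_i τ - ι_j τ` (`i ≠ j`) do not vanish; `φ ∘ ι_i` is a `K`-point of `K[Φ]`, which is the centre
of a valuation ring of `F`, i.e. (field `val` of `s17_Curve`) of a place `A i`; then `ev_A = φ`
on `T`.
-/
import Fermat.Agent.Lib.S17.CVal
import Fermat.Agent.Lib.S17.MNull
import Fermat.Agent.Lib.FF.FFBasicDedekind

set_option autoImplicit false
set_option linter.unusedSectionVars false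
set_option linter.unusedVariables false
set_option linter.style.haveILetI false
set_option maxHeartbeats 800000

noncomputable section

namespace Fermat.Agent.Lib.S17

open AlgebraicCurve Fermat.Agent.Lib.S19 Fermat.Agent.Lib.FF HahnSeries

variable {K F : Type} [Field K] [Field F] [Algebra K F]

/-! ## 1. A place centred at a `K`-point of a subalgebra -/

/-- a `K`-point `ψ` of a subalgebra `S₀ ⊆ F` with non-trivial kernel is the centre of a place. -/
theorem s17m_exists_place {g₀ : ℕ} (hC : s17_Curve K F g₀) (X : s17_Charts K F)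
    (S₀ : Subalgebra K F) (ψ : ↥S₀ →ₐ[K] K) (t : F) (htS : t ∈ S₀) (ht0 : t ≠ 0)
    (htψ : ψ ⟨t, htS⟩ = 0) :
    ∃ P : Place K F, ∃ hle : S₀ ≤ s17_OP P, ∀ s : ↥S₀, s17c_res X P ⟨s, hle s.2⟩ = ψ s := by
  classical
  let ψ' : ↥S₀.toSubring →+* K :=
    { toFun := fun a => ψ ⟨a.1, a.2⟩
      map_one' := map_one ψ
      map_mul' := fun a b => map_mul ψ ⟨a.1, a.2⟩ ⟨b.1, b.2⟩
      map_zero' := map_zero ψ
      map_add' := fun a b => map_add ψ ⟨a.1, a.2⟩ ⟨b.1, b.2⟩ }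
  have hψ' : ∀ (a : F) (ha : a ∈ S₀), ψ' ⟨a, ha⟩ = ψ ⟨a, ha⟩ := fun _ _ => rfl
  set I : Ideal ↥S₀.toSubring := RingHom.ker ψ' with hI
  have hItop : I ≠ ⊤ := RingHom.ker_ne_top ψ'
  obtain ⟨B, hAB, hIB⟩ := Ideal.image_subset_nonunits_valuationSubring I hItop
  have hmemB : ∀ a ∈ S₀, a ∈ B := fun a ha => hAB ha
  have hkerB : ∀ (a : F) (ha : a ∈ S₀), ψ ⟨a, ha⟩ = 0 → a ∈ B.nonunits := by
    intro a ha h0
    apply hIB
    refine ⟨⟨a, ha⟩, ?_, rfl⟩
    show (⟨a, ha⟩ : ↥S₀.toSubring) ∈ RingHom.ker ψ'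
    rw [RingHom.mem_ker, hψ']
    exact h0
  have hK : ∀ a : K, algebraMap K F a ∈ B := fun a => hmemB _ (Subalgebra.algebraMap_mem S₀ a)
  have hBtop : B ≠ ⊤ := by
    intro htop
    have h1 := hkerB t htS htψ
    rw [ValuationSubring.mem_nonunits_iff_or] at h1
    rcases h1 with h1 | h1
    · exact ht0 h1
    · apply h1
      rw [htop]
      exact ValuationSubring.mem_top _
  obtain ⟨P, hP⟩ := hC.val B hK hBtop
  subst hP
  have hle : S₀ ≤ s17_OP P := fun a ha => hmemB a ha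
  refine ⟨P, hle, fun s => ?_⟩
  -- `s - ψ s` lies in the maximal ideal
  set c : K := ψ s with hc
  have hmem : (s : F) - algebraMap K F c ∈ S₀ := S₀.sub_mem s.2 (Subalgebra.algebraMap_mem S₀ c)
  have h0 : ψ ⟨(s : F) - algebraMap K F c, hmem⟩ = 0 := by
    have : (⟨(s : F) - algebraMap K F c, hmem⟩ : ↥S₀) = s - algebraMap K ↥S₀ c := rfl
    rw [this, map_sub, AlgHom.commutes, Algebra.algebraMap_self_apply, hc, sub_self]
  have h1 := hkerB _ hmem h0
  have hres0 : s17c_res X P ⟨(s : F) - algebraMap K F c, hle hmem⟩ = 0 := by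
    by_cases hz : (s : F) - algebraMap K F c = 0
    · have : (⟨(s : F) - algebraMap K F c, hle hmem⟩ : ↥(s17_OP P)) = 0 := Subtype.ext hz
      rw [this, map_zero]
    · rw [s17c_res_eq_zero_iff X P _ hz, ff_ord_pos_iff P hz]
      rw [ValuationSubring.mem_nonunits_iff_or] at h1
      rcases h1 with h1 | h1
      · exact absurd h1 hz
      · exact ⟨hle hmem, h1⟩
  have hsplit : (⟨(s : F) - algebraMap K F c, hle hmem⟩ : ↥(s17_OP P)) =
      ⟨s, hle s.2⟩ - algebraMap K ↥(s17_OP P) c := rfl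
  rw [hsplit, map_sub, AlgHom.commutes, Algebra.algebraMap_self_apply, sub_eq_zero] at hres0
  exact hres0

/-! ## 2. Finitely many generators -/

variable {m : ℕ} (M : s17_Model K F m)

open Classical in
/-- the generators `ι_i f`, `f ∈ Φ`. -/
def s17m_G (Φ : Finset F) : Finset M.FF :=
  (Finset.univ ×ˢ Φ).image fun p : Fin m × F => M.ι p.1 p.2

theorem s17m_mem_G {Φ : Finset F} {x : M.FF} :
    x ∈ s17m_G M Φ ↔ ∃ i, ∃ f ∈ Φ, M.ι i f = x := by
  classical
  unfold s17m_G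
  rw [Finset.mem_image]
  constructor
  · rintro ⟨⟨i, f⟩, hp, rfl⟩
    rw [Finset.mem_product] at hp
    exact ⟨i, f, hp.2, rfl⟩
  · rintro ⟨i, f, hf, rfl⟩
    exact ⟨(i, f), Finset.mem_product.mpr ⟨Finset.mem_univ _, hf⟩, rfl⟩

theorem s17m_G_mono {Φ Φ' : Finset F} (h : Φ ⊆ Φ') : s17m_G M Φ ⊆ s17m_G M Φ' := by
  intro x hx
  rw [s17m_mem_G] at hx ⊢
  obtain ⟨i, f, hf, rfl⟩ := hx
  exact ⟨i, f, h hf, rfl⟩

/-- the subalgebra generated by the `ι_i f`, `f ∈ Φ`. -/
abbrev s17m_TPhi (Φ : Finset F) : Subalgebra K M.FF :=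
  Algebra.adjoin K (s17m_G M Φ : Set M.FF)

theorem s17m_TPhi_mono {Φ Φ' : Finset F} (h : Φ ⊆ Φ') : s17m_TPhi M Φ ≤ s17m_TPhi M Φ' :=
  Algebra.adjoin_mono (Finset.coe_subset.mpr (s17m_G_mono M h))

theorem s17m_iota_mem_TPhi {Φ : Finset F} (i : Fin m) {f : F} (hf : f ∈ Φ) :
    M.ι i f ∈ s17m_TPhi M Φ :=
  Algebra.subset_adjoin (Finset.mem_coe.mpr ((s17m_mem_G M).mpr ⟨i, f, hf, rfl⟩))

theorem s17m_TPhi_fg (Φ : Finset F) : (s17m_TPhi M Φ).FG :=
  Subalgebra.fg_adjoin_finset _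

/-- every element of the subalgebra generated by all coordinates involves finitely many
functions. -/
theorem s17m_exists_finset (u : M.FF) (hu : u ∈ ⨆ i, (⊤ : Subalgebra K F).map (M.ι i)) :
    ∃ Φ : Finset F, u ∈ s17m_TPhi M Φ := by
  classical
  refine Algebra.iSup_induction (fun i => (⊤ : Subalgebra K F).map (M.ι i))
    (motive := fun u => ∃ Φ : Finset F, u ∈ s17m_TPhi M Φ) hu ?_ ?_ ?_ ?_
  · rintro i a ⟨f, -, rfl⟩
    exact ⟨{f}, s17m_iota_mem_TPhi M i (Finset.mem_singleton_self f)⟩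
  · rintro a b ⟨Φ, ha⟩ ⟨Φ', hb⟩
    exact ⟨Φ ∪ Φ', add_mem (s17m_TPhi_mono M Finset.subset_union_left ha)
      (s17m_TPhi_mono M Finset.subset_union_right hb)⟩
  · rintro a b ⟨Φ, ha⟩ ⟨Φ', hb⟩
    exact ⟨Φ ∪ Φ', mul_mem (s17m_TPhi_mono M Finset.subset_union_left ha)
      (s17m_TPhi_mono M Finset.subset_union_right hb)⟩
  · intro r
    exact ⟨∅, Subalgebra.algebraMap_mem _ r⟩

/-- the `i`-th coordinate on `K[Φ]`, with values in `T_Φ`. -/
def s17m_rho (Φ : Finset F) (i : Fin m) :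
    ↥(Algebra.adjoin K (Φ : Set F)) →ₐ[K] ↥(s17m_TPhi M Φ) :=
  ((M.ι i).comp (Algebra.adjoin K (Φ : Set F)).val).codRestrict (s17m_TPhi M Φ) (by
    intro s
    have h1 : (Algebra.adjoin K (Φ : Set F)).map (M.ι i) ≤ s17m_TPhi M Φ := by
      rw [AlgHom.map_adjoin]
      refine Algebra.adjoin_le ?_
      rintro _ ⟨f, hf, rfl⟩
      exact s17m_iota_mem_TPhi M i (Finset.mem_coe.mp hf)
    exact h1 ⟨s, s.2, rfl⟩)

theorem s17m_rho_coe (Φ : Finset F) (i : Fin m) (s : ↥(Algebra.adjoin K (Φ : Set F))) :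
    ((s17m_rho M Φ i s : ↥(s17m_TPhi M Φ)) : M.FF) = M.ι i (s : F) := rfl

/-- two algebra maps on `T_Φ` which agree on the generators are equal. -/
theorem s17m_algHom_ext_TPhi (Φ : Finset F) {R : Type} [CommRing R] [Algebra K R]
    (f g : ↥(s17m_TPhi M Φ) →ₐ[K] R)
    (h : ∀ (i : Fin m) (f' : F) (hf : f' ∈ Φ),
      f ⟨M.ι i f', s17m_iota_mem_TPhi M i hf⟩ = g ⟨M.ι i f', s17m_iota_mem_TPhi M i hf⟩) :
    f = g := by
  refine AlgHom.ext_of_adjoin_eq_top (R := K)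
    (s := (Subtype.val ⁻¹' (s17m_G M Φ : Set M.FF) : Set ↥(s17m_TPhi M Φ)))
    Algebra.adjoin_adjoin_coe_preimage ?_
  rintro ⟨y, hyT⟩ hy
  obtain ⟨i, f', hf, rfl⟩ := (s17m_mem_G M).mp (Finset.mem_coe.mp hy)
  exact h i f' hf

/-! ## 3. The generic-point lemma -/

/-- the two coordinates `i ≠ j` of a non-constant function are different elements of `K(C^m)`. -/
theorem s17m_iota_sub_ne_zero (X : s17_Charts K F) {i j : Fin m} (hij : i ≠ j)
    (P₁ P₂ : Place K F) (τ : F) (h1 : P₁.ord τ = 1) (h2 : P₂.ord τ = 0) :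
    M.ι i τ - M.ι j τ ≠ 0 := by
  classical
  have hτ0 : τ ≠ 0 := by
    intro h
    rw [h, Place.ord_zero] at h1
    exact zero_ne_one h1
  have hm1 : τ ∈ s17_OP P₁ := by
    rw [s17c_mem_OP, ff_mem_iff_ord_nonneg P₁ hτ0, h1]
    exact zero_le_one
  have hm2 : τ ∈ s17_OP P₂ := by
    rw [s17c_mem_OP, ff_mem_iff_ord_nonneg P₂ hτ0, h2]
  set A : Fin m → Place K F := fun k => if k = j then P₂ else P₁ with hA
  have hAi : A i = P₁ := if_neg hij
  have hAj : A j = P₂ := if_pos rfl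
  have hmi : τ ∈ s17_OP (A i) := by rw [hAi]; exact hm1
  have hmj : τ ∈ s17_OP (A j) := by rw [hAj]; exact hm2
  set e : ↥(s17_TA M A) :=
    ⟨M.ι i τ, s17c_mem_TA M A i τ hmi⟩ - ⟨M.ι j τ, s17c_mem_TA M A j τ hmj⟩ with he
  have hev : s17c_ev M X A e ≠ 0 := by
    rw [he, map_sub, s17c_ev_iota M X A i τ hmi, s17c_ev_iota M X A j τ hmj]
    have e1 : (X.exp (A i) τ).coeff 0 = 0 := by
      rw [hAi]
      apply HahnSeries.coeff_eq_zero_of_lt_order
      rw [X.exp_ord P₁ τ hτ0, h1]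
      exact zero_lt_one
    have e2 : (X.exp (A j) τ).coeff 0 ≠ 0 := by
      rw [hAj]
      have hne : X.exp P₂ τ ≠ 0 := (map_ne_zero _).mpr hτ0
      have h3 := (HahnSeries.leadingCoeff_eq (x := X.exp P₂ τ) ▸
        HahnSeries.leadingCoeff_ne_zero.mpr hne)
      rwa [X.exp_ord P₂ τ hτ0, h2] at h3
    rw [e1, zero_sub]
    exact neg_ne_zero.mpr e2
  have := s17c_ne_zero_of_ev_ne_zero M X A hev
  exact this

/-- **[GP] the generic-point lemma.** -/
theorem s17m_generic [IsAlgClosed K] {g₀ : ℕ} (hC : s17_Curve K F g₀) (M : s17_Model K F m)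
    (X : s17_Charts K F) (x : M.FF) (hx : x ≠ 0) (E : Finset (Place K F)) :
    ∃ A : Fin m → Place K F, Function.Injective A ∧ (∀ i, A i ∉ E) ∧
      ∃ c : K, c ≠ 0 ∧ s17_HasVal M X A x c := by
  classical
  haveI := hC.inf
  haveI := hC.pd
  -- `x = u / v`
  obtain ⟨u, v, hu, hv, hv0, hxv⟩ := M.gen x
  have hu0 : u ≠ 0 := by
    rw [← hxv]
    exact mul_ne_zero hx hv0
  obtain ⟨Φu, hΦu⟩ := s17m_exists_finset M u hu
  obtain ⟨Φv, hΦv⟩ := s17m_exists_finset M v hv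
  -- a non-constant function and two places separating it
  obtain ⟨P₁⟩ : Nonempty (Place K F) := inferInstance
  obtain ⟨τ, hτ1, -⟩ := s17c_exists_unif X P₁
  have hτ0 : τ ≠ 0 := by
    intro h
    rw [h, Place.ord_zero] at hτ1
    exact zero_ne_one hτ1
  obtain ⟨D, hD, -⟩ := HasPrincipalDivisors.exists_divisor (K := K) τ hτ0
  obtain ⟨P₂, hP₂⟩ := Infinite.exists_notMem_finset D.support
  have hτ2 : P₂.ord τ = 0 := by
    rw [← hD P₂]
    exact Finsupp.notMem_support_iff.mp hP₂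
  -- uniformisers at all places
  have hunif : ∀ Q : Place K F, ∃ t : F, Q.ord t = 1 := fun Q =>
    (s17c_exists_unif X Q).imp fun t ht => ht.1
  choose tE htE using hunif
  -- the finite set of functions
  set Φ : Finset F := Φu ∪ Φv ∪ {τ} ∪ E.image tE with hΦ
  have hΦu' : Φu ⊆ Φ := fun f hf =>
    Finset.mem_union_left _ (Finset.mem_union_left _ (Finset.mem_union_left _ hf))
  have hΦv' : Φv ⊆ Φ := fun f hf =>
    Finset.mem_union_left _ (Finset.mem_union_left _ (Finset.mem_union_right _ hf))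
  have hτΦ : τ ∈ Φ :=
    Finset.mem_union_left _ (Finset.mem_union_right _ (Finset.mem_singleton_self τ))
  have htΦ : ∀ Q ∈ E, tE Q ∈ Φ := fun Q hQ =>
    Finset.mem_union_right _ (Finset.mem_image_of_mem tE hQ)
  set T : Subalgebra K M.FF := s17m_TPhi M Φ with hT
  have huT : u ∈ T := s17m_TPhi_mono M hΦu' hΦu
  have hvT : v ∈ T := s17m_TPhi_mono M hΦv' hΦv
  -- the non-zero elements
  set s : Finset M.FF :=
    ({u, v} : Finset M.FF) ∪
      ((Finset.univ ×ˢ E).image fun p : Fin m × Place K F => M.ι p.1 (tE p.2)) ∪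
      (((Finset.univ ×ˢ Finset.univ).filter fun p : Fin m × Fin m => p.1 ≠ p.2).image
        fun p : Fin m × Fin m => M.ι p.1 τ - M.ι p.2 τ) with hs
  have hs_u : u ∈ s :=
    Finset.mem_union_left _ (Finset.mem_union_left _ (Finset.mem_insert_self u _))
  have hs_v : v ∈ s :=
    Finset.mem_union_left _ (Finset.mem_union_left _
      (Finset.mem_insert_of_mem (Finset.mem_singleton_self v)))
  have hs_t : ∀ (i : Fin m) (Q : Place K F), Q ∈ E → M.ι i (tE Q) ∈ s := fun i Q hQ =>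
    Finset.mem_union_left _ (Finset.mem_union_right _ (Finset.mem_image.mpr
      ⟨(i, Q), Finset.mem_product.mpr ⟨Finset.mem_univ _, hQ⟩, rfl⟩))
  have hs_d : ∀ i j : Fin m, i ≠ j → M.ι i τ - M.ι j τ ∈ s := fun i j hij =>
    Finset.mem_union_right _ (Finset.mem_image.mpr
      ⟨(i, j), Finset.mem_filter.mpr
        ⟨Finset.mem_product.mpr ⟨Finset.mem_univ _, Finset.mem_univ _⟩, hij⟩, rfl⟩)
  have hsT : ∀ w ∈ s, w ∈ T := by
    intro w hw
    rw [hs, Finset.mem_union, Finset.mem_union] at hw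
    rcases hw with (hw | hw) | hw
    · rw [Finset.mem_insert, Finset.mem_singleton] at hw
      rcases hw with rfl | rfl
      · exact huT
      · exact hvT
    · obtain ⟨⟨i, Q⟩, hp, rfl⟩ := Finset.mem_image.mp hw
      exact s17m_iota_mem_TPhi M i (htΦ Q (Finset.mem_product.mp hp).2)
    · obtain ⟨⟨i, j⟩, -, rfl⟩ := Finset.mem_image.mp hw
      exact sub_mem (s17m_iota_mem_TPhi M i hτΦ) (s17m_iota_mem_TPhi M j hτΦ)
  have hs0 : ∀ w ∈ s, w ≠ 0 := by
    intro w hw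
    rw [hs, Finset.mem_union, Finset.mem_union] at hw
    rcases hw with (hw | hw) | hw
    · rw [Finset.mem_insert, Finset.mem_singleton] at hw
      rcases hw with rfl | rfl
      · exact hu0
      · exact hv0
    · obtain ⟨⟨i, Q⟩, hp, rfl⟩ := Finset.mem_image.mp hw
      have ht0 : tE Q ≠ 0 := by
        intro h
        have := htE Q
        rw [h, Place.ord_zero] at this
        exact zero_ne_one this
      exact (map_ne_zero (M.ι i)).mpr ht0
    · obtain ⟨⟨i, j⟩, hp, rfl⟩ := Finset.mem_image.mp hw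
      exact s17m_iota_sub_ne_zero M X (Finset.mem_filter.mp hp).2 P₁ P₂ τ hτ1 hτ2
  -- the `K`-point
  obtain ⟨φ, hφ⟩ := s17m_exists_point_finset T (s17m_TPhi_fg M Φ) s hsT hs0
  -- the places
  set S₀ : Subalgebra K F := Algebra.adjoin K (Φ : Set F) with hS₀
  have hΦS : ∀ f ∈ Φ, f ∈ S₀ := fun f hf => Algebra.subset_adjoin (Finset.mem_coe.mpr hf)
  have hτS : τ ∈ S₀ := hΦS τ hτΦ
  have hplace : ∀ i : Fin m, ∃ P : Place K F, ∃ hle : S₀ ≤ s17_OP P,
      ∀ y : ↥S₀, s17c_res X P ⟨y, hle y.2⟩ = φ (s17m_rho M Φ i y) := by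
    intro i
    set c : K := φ (s17m_rho M Φ i ⟨τ, hτS⟩) with hc
    have hmem : τ - algebraMap K F c ∈ S₀ := S₀.sub_mem hτS (Subalgebra.algebraMap_mem S₀ c)
    have hne : τ - algebraMap K F c ≠ 0 := by
      intro h
      have hτc : τ = algebraMap K F c := sub_eq_zero.mp h
      by_cases hc0 : c = 0
      · rw [hc0, map_zero] at hτc
        exact hτ0 hτc
      · have := s17c_ord_const X P₁ hc0
        rw [← hτc, hτ1] at this
        exact one_ne_zero this
    refine s17m_exists_place hC X S₀ (φ.comp (s17m_rho M Φ i)) (τ - algebraMap K F c) hmem hne ?_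
    have : (⟨τ - algebraMap K F c, hmem⟩ : ↥S₀) = ⟨τ, hτS⟩ - algebraMap K ↥S₀ c := rfl
    rw [this, map_sub, AlgHom.commutes, Algebra.algebraMap_self_apply, AlgHom.comp_apply, ← hc,
      sub_self]
  choose A hle hres using hplace
  -- `T ⊆ T_A`
  have hTA : T ≤ s17_TA M A := by
    refine Algebra.adjoin_le ?_
    intro y hy
    obtain ⟨i, f, hf, rfl⟩ := (s17m_mem_G M).mp (Finset.mem_coe.mp hy)
    exact s17c_mem_TA M A i f (hle i (hΦS f hf))
  -- `ev_A = φ` on `T`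
  have hev : ∀ y : ↥T, s17c_ev M X A (Subalgebra.inclusion hTA y) = φ y := by
    have hcomp : (s17c_ev M X A).comp (Subalgebra.inclusion hTA) = φ := by
      refine s17m_algHom_ext_TPhi M Φ _ _ fun i f hf => ?_
      have hfS : f ∈ S₀ := hΦS f hf
      have e1 : ((s17c_ev M X A).comp (Subalgebra.inclusion hTA))
          ⟨M.ι i f, s17m_iota_mem_TPhi M i hf⟩ =
          s17c_ev M X A ⟨M.ι i f, s17c_mem_TA M A i f (hle i hfS)⟩ := rfl
      rw [e1, s17c_ev_iota M X A i f (hle i hfS), ← s17c_res_apply X (A i) ⟨f, hle i hfS⟩]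
      have e2 := hres i ⟨f, hfS⟩
      rw [e2]
      rfl
    intro y
    rw [← hcomp]
    rfl
  have hφval : ∀ (i : Fin m) (f : F) (hf : f ∈ Φ),
      φ ⟨M.ι i f, s17m_iota_mem_TPhi M i hf⟩ = (X.exp (A i) f).coeff 0 := by
    intro i f hf
    have e2 := hres i ⟨f, hΦS f hf⟩
    rw [s17c_res_apply] at e2
    rw [e2]
    rfl
  refine ⟨A, ?_, ?_, ?_⟩
  · -- injectivity
    intro i j hij
    by_contra hne
    have h1 := hφ _ (hs_d i j hne)
    apply h1
    have e1 : (⟨M.ι i τ - M.ι j τ, hsT _ (hs_d i j hne)⟩ : ↥T) =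
        ⟨M.ι i τ, s17m_iota_mem_TPhi M i hτΦ⟩ - ⟨M.ι j τ, s17m_iota_mem_TPhi M j hτΦ⟩ := rfl
    rw [e1, map_sub, hφval i τ hτΦ, hφval j τ hτΦ, hij, sub_self]
  · -- avoidance
    intro i hi
    have h1 := hφ _ (hs_t i (A i) hi)
    apply h1
    have e1 : (⟨M.ι i (tE (A i)), hsT _ (hs_t i (A i) hi)⟩ : ↥T) =
        ⟨M.ι i (tE (A i)), s17m_iota_mem_TPhi M i (htΦ (A i) hi)⟩ := rfl
    rw [e1, hφval i (tE (A i)) (htΦ (A i) hi)]
    have ht0 : tE (A i) ≠ 0 := by
      intro h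
      have := htE (A i)
      rw [h, Place.ord_zero] at this
      exact zero_ne_one this
    apply HahnSeries.coeff_eq_zero_of_lt_order
    rw [X.exp_ord (A i) _ ht0, htE (A i)]
    exact zero_lt_one
  · -- the value
    have hφu : φ ⟨u, huT⟩ ≠ 0 := hφ u hs_u
    have hφv : φ ⟨v, hvT⟩ ≠ 0 := hφ v hs_v
    refine ⟨φ ⟨u, huT⟩ / φ ⟨v, hvT⟩, div_ne_zero hφu hφv, ?_⟩
    rw [s17c_hasVal_iff]
    refine ⟨Subalgebra.inclusion hTA ⟨u, huT⟩, Subalgebra.inclusion hTA ⟨v, hvT⟩, ?_, hxv, ?_⟩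
    · rw [hev]
      exact hφv
    · rw [hev, hev, div_mul_cancel₀ _ hφv]

end Fermat.Agent.Lib.S17
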