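/-
Programme MW (S17), brick [LINv] (helper3): **density** — a linear combination of elements of
`K(C^m)` whose values vanish at all generic points is zero, hence its values vanish at all points.
From the generic-point lemma `s17m_generic` and helper2's `HasVal` API.
-/
import Fermat.Agent.Lib.S17.MGen

set_option autoImplicit false
set_option linter.unusedSectionVars false
set_option linter.unusedVariables false
set_option linter.style.haveILetI false

noncomputable section

namespace Fermat.Agent.Lib.S17

open AlgebraicCurve Fermat.Agent.Lib.S19 Fermat.Agent.Lib.FF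

/-- **[LINv]** -/
theorem s17m_linv : s17_LINv := by
  intro K F _ _ _ _ g hC X m M ι _ r U γ E₀ hγ0 hγgen hval c E hgen
  classical
  -- the linear combination
  set R : M.FF := ∑ a, algebraMap K M.FF (c a) * r a with hR
  have hsum : ∀ A : Fin m → Place K F,
      s17_HasVal M X A (R / γ A) (∑ a, c a * U A a) := by
    intro A
    have h1 : R / γ A = ∑ a, algebraMap K M.FF (c a) * (r a / γ A) := by
      rw [hR, Finset.sum_div]
      exact Finset.sum_congr rfl fun a _ => by rw [mul_div_assoc]
    rw [h1]
    exact s17c_hasVal_finset_sum Finset.univ _ _ fun a _ =>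
      s17c_hasVal_mul (s17c_hasVal_const M X A (c a)) (hval A a)
  have hR0 : R = 0 := by
    by_contra hne
    obtain ⟨A, hinj, havoid, c', hc', hRval⟩ := s17m_generic hC M X R hne (E ∪ E₀)
    have hE : ∀ i, A i ∉ E := fun i h => havoid i (Finset.mem_union_left _ h)
    have hE₀ : ∀ i, A i ∉ E₀ := fun i h => havoid i (Finset.mem_union_right _ h)
    obtain ⟨c₀, hc₀, hγval⟩ := hγgen A hinj hE₀
    have h1 := hsum A
    rw [hgen A hinj hE] at h1
    have h2 := s17c_hasVal_div hRval hγval hc₀
    have h3 := s17c_hasVal_unique h1 h2
    exact (div_ne_zero hc' hc₀) h3.symm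
  intro A
  have h1 := hsum A
  rw [hR0, zero_div] at h1
  exact s17c_hasVal_unique h1 (s17c_hasVal_zero M X A)

end Fermat.Agent.Lib.S17
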