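/-
Programme MW (S17), brick (FC) — part 1: the abstract LATTICE LEMMA (helper8).

`F/K` a function field, `𝕜 ⊆ F` a subfield over which `F` has degree `n` (think `𝕜 = K(u)`),
`S` a finite set of places (the fibre of `u` over one point of `ℙ¹`), `Z` the fibre divisor
(`Z v > 0` on `S`).  `s17p_loc S D` = the semilocal lattice `{f : ord_v f ≥ -D v, v ∈ S}`.
The structure `s17p_Fib` says that `𝕜` sees the fibre as ONE point: every `r ∈ 𝕜ˣ` is
`(local equation of Z)^k · unit` (`unif`), and an integral `r ∈ 𝕜` is congruent to a constant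
modulo the fibre (`res`).

Main results: `s17p_coord_int` / `s17p_linearIndependent` (Nakayama without finiteness: `n`
elements of `loc S D` whose classes mod `loc S (D - Z)` are `K`-independent form a `𝕜`-basis of `F`
and an `R`-basis of the lattice, `R = s17p_R`), the residue homomorphism `s17p_rho : R →+* K`,
and the transition statement `s17p_transition`.
-/
import Mathlib
import Fermat.Prelude.Def_AlgebraicCurve_Repartitions

set_option autoImplicit false

noncomputable section

open AlgebraicCurve WithZero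

namespace Fermat.Agent.Lib.S17

variable {K F : Type*} [Field K] [Field F] [Algebra K F]

/-- the semilocal lattice of functions with poles bounded by `D` at the places of `S`. -/
def s17p_loc (S : Finset (Place K F)) (D : Divisor K F) : Submodule K F where
  carrier := {f | ∀ v ∈ S, v.adicValuation f ≤ exp (D v)}
  zero_mem' := by
    intro v _
    simp
  add_mem' := by
    intro f g hf hg v hv
    exact (Valuation.map_add _ _ _).trans (max_le (hf v hv) (hg v hv))
  smul_mem' := by
    intro c f hf v hv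
    show v.adicValuation (c • f) ≤ exp (D v)
    rw [Algebra.smul_def, map_mul]
    exact (mul_le_of_le_one_left' (v.adicValuation_algebraMap_le_one c)).trans (hf v hv)

theorem s17p_mem_loc {S : Finset (Place K F)} {D : Divisor K F} {f : F} :
    f ∈ s17p_loc S D ↔ ∀ v ∈ S, v.adicValuation f ≤ exp (D v) := Iff.rfl

theorem s17p_rr_le_loc (S : Finset (Place K F)) (D : Divisor K F) :
    riemannRochSpace D ≤ s17p_loc S D := fun _ hf v _ => hf v

theorem s17p_loc_mul {S : Finset (Place K F)} {D D' : Divisor K F} {f g : F}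
    (hf : f ∈ s17p_loc S D) (hg : g ∈ s17p_loc S D') : f * g ∈ s17p_loc S (D + D') := by
  intro v hv
  rw [map_mul, Finsupp.add_apply, WithZero.exp_add]
  exact mul_le_mul' (hf v hv) (hg v hv)

theorem s17p_loc_mono {S : Finset (Place K F)} {D D' : Divisor K F}
    (h : ∀ v ∈ S, D v ≤ D' v) : s17p_loc S D ≤ s17p_loc S D' := fun _ hf v hv =>
  (hf v hv).trans (exp_le_exp.mpr (h v hv))

theorem s17p_adicValuation_algebraMap (v : Place K F) {a : K} (ha : a ≠ 0) :
    v.adicValuation (algebraMap K F a) = 1 := by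
  apply le_antisymm (v.adicValuation_algebraMap_le_one a)
  have h1 := v.adicValuation_algebraMap_le_one a⁻¹
  have h2 : v.adicValuation (algebraMap K F a) * v.adicValuation (algebraMap K F a⁻¹) = 1 := by
    rw [← map_mul, ← map_mul, mul_inv_cancel₀ ha, map_one, map_one]
  calc (1 : ℤᵐ⁰) = v.adicValuation (algebraMap K F a) * v.adicValuation (algebraMap K F a⁻¹) :=
        h2.symm
    _ ≤ v.adicValuation (algebraMap K F a) * 1 := mul_le_mul' le_rfl h1
    _ = _ := mul_one _

/-- the fibre datum: `𝕜` sees the places of `S` as one point with local equation of divisor `Z`. -/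
structure s17p_Fib (𝕜 : IntermediateField K F) (S : Finset (Place K F)) (Z : Divisor K F)
    (n : ℕ) : Prop where
  ne : S.Nonempty
  pos : ∀ v ∈ S, 0 < Z v
  rank : Module.finrank 𝕜 F = n
  npos : 0 < n
  unif : ∀ r : 𝕜, r ≠ 0 → ∃ k : ℤ, ∀ v ∈ S, v.adicValuation (r : F) = exp (-(k * Z v))
  res : ∀ r : 𝕜, (r : F) ∈ s17p_loc S 0 → ∃ a : K, (r : F) - algebraMap K F a ∈ s17p_loc S (-Z)

variable {𝕜 : IntermediateField K F} {S : Finset (Place K F)} {Z : Divisor K F} {n : ℕ}

theorem s17p_Fib.finiteDimensional (h : s17p_Fib 𝕜 S Z n) : FiniteDimensional 𝕜 F :=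
  Module.finite_of_finrank_pos (by rw [h.rank]; exact h.npos)

/-- a constant lying in `loc S (-Z)` is zero. -/
theorem s17p_const_eq_zero (h : s17p_Fib 𝕜 S Z n) {a : K}
    (ha : algebraMap K F a ∈ s17p_loc S (-Z)) : a = 0 := by
  by_contra h0
  obtain ⟨v, hv⟩ := h.ne
  have h1 := ha v hv
  rw [s17p_adicValuation_algebraMap v h0, Finsupp.neg_apply, ← WithZero.exp_zero,
    exp_le_exp] at h1
  have := h.pos v hv
  omega

theorem s17p_res_unique (h : s17p_Fib 𝕜 S Z n) {f : F} {a a' : K}
    (ha : f - algebraMap K F a ∈ s17p_loc S (-Z)) (ha' : f - algebraMap K F a' ∈ s17p_loc S (-Z)) :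
    a = a' := by
  have h1 : algebraMap K F (a' - a) ∈ s17p_loc S (-Z) := by
    have := (s17p_loc S (-Z)).sub_mem ha ha'
    rw [map_sub]
    convert this using 1
    ring
  have := s17p_const_eq_zero h h1
  exact (sub_eq_zero.mp this).symm

theorem s17p_loc_neg_le (h : s17p_Fib 𝕜 S Z n) (D : Divisor K F) :
    s17p_loc S (D - Z) ≤ s17p_loc S D := s17p_loc_mono fun v hv => by
  have := h.pos v hv
  rw [Finsupp.sub_apply]
  omega

/-- core: a non-trivial family of coefficients in `𝕜`, normalised at a coefficient of maximal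
valuation. -/
theorem s17p_core (h : s17p_Fib 𝕜 S Z n) (r : Fin n → 𝕜) (hr : r ≠ 0) :
    ∃ (i₀ : Fin n) (a : Fin n → K), r i₀ ≠ 0 ∧ a i₀ = 1 ∧
      (∀ i, ((r i / r i₀ : 𝕜) : F) - algebraMap K F (a i) ∈ s17p_loc S (-Z)) ∧
      (∀ i, ((r i / r i₀ : 𝕜) : F) ∈ s17p_loc S 0) ∧
      ((∃ i, (r i : F) ∉ s17p_loc S 0) → (((r i₀)⁻¹ : 𝕜) : F) ∈ s17p_loc S (-Z)) := by
  classical
  obtain ⟨v₀, hv₀⟩ := h.ne
  have hZ₀ := h.pos v₀ hv₀
  obtain ⟨j, hj⟩ : ∃ j, r j ≠ 0 := by
    by_contra hcon
    push Not at hcon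
    exact hr (funext hcon)
  have : Nonempty (Fin n) := ⟨j⟩
  obtain ⟨i₀, -, hi₀⟩ := Finset.exists_max_image Finset.univ
    (fun i => v₀.adicValuation ((r i : 𝕜) : F)) Finset.univ_nonempty
  have hne : r i₀ ≠ 0 := by
    intro h0
    have h1 := hi₀ j (Finset.mem_univ j)
    rw [h0] at h1
    simp only [ZeroMemClass.coe_zero, map_zero, le_zero_iff, map_eq_zero,
      ZeroMemClass.coe_eq_zero] at h1
    exact hj h1
  obtain ⟨k₀, hk₀⟩ := h.unif (r i₀) hne
  -- the exponent of each nonzero coefficient is at least `k₀`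
  have hk : ∀ i, r i ≠ 0 → ∀ k : ℤ, (∀ v ∈ S, v.adicValuation ((r i : 𝕜) : F) = exp (-(k * Z v))) →
      k₀ ≤ k := by
    intro i _ k hkv
    have h1 := hi₀ i (Finset.mem_univ i)
    rw [hkv v₀ hv₀, hk₀ v₀ hv₀, exp_le_exp] at h1
    by_contra hlt
    push Not at hlt
    have : k * Z v₀ < k₀ * Z v₀ := mul_lt_mul_of_pos_right hlt hZ₀
    omega
  have hint : ∀ i, ((r i / r i₀ : 𝕜) : F) ∈ s17p_loc S 0 := by
    intro i v hv
    rcases eq_or_ne (r i) 0 with h0 | h0
    · rw [h0, zero_div]; simp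
    obtain ⟨k, hkv⟩ := h.unif (r i) h0
    have hle := hk i h0 k hkv
    have hZ := h.pos v hv
    have : ((r i / r i₀ : 𝕜) : F) = (r i : F) / (r i₀ : F) := by push_cast; rfl
    rw [this, map_div₀, hkv v hv, hk₀ v hv, ← WithZero.exp_sub, Finsupp.zero_apply, exp_le_exp]
    have : k₀ * Z v ≤ k * Z v := mul_le_mul_of_nonneg_right hle hZ.le
    omega
  choose a' ha' using fun i => h.res _ (hint i)
  refine ⟨i₀, fun i => if i = i₀ then 1 else a' i, hne, if_pos rfl, ?_, hint, ?_⟩
  · intro i
    by_cases hi : i = i₀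
    · subst hi
      simp only [if_true]
      rw [div_self hne]
      simp
    · simp only [if_neg hi]
      exact ha' i
  · rintro ⟨i, hi⟩
    have h0 : r i ≠ 0 := by
      rintro h0
      apply hi
      rw [h0]
      exact (s17p_loc S 0).zero_mem
    obtain ⟨k, hkv⟩ := h.unif (r i) h0
    have hle := hk i h0 k hkv
    have hkneg : k < 0 := by
      by_contra hk0
      push Not at hk0
      apply hi
      intro v hv
      rw [hkv v hv, Finsupp.zero_apply, exp_le_exp]
      have := mul_nonneg hk0 (h.pos v hv).le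
      omega
    intro v hv
    have hZ := h.pos v hv
    have : (((r i₀)⁻¹ : 𝕜) : F) = ((r i₀ : 𝕜) : F)⁻¹ := by push_cast; rfl
    rw [this, map_inv₀, hk₀ v hv, ← WithZero.exp_neg, Finsupp.neg_apply, exp_le_exp]
    have : k₀ * Z v ≤ (-1) * Z v := mul_le_mul_of_nonneg_right (by omega) hZ.le
    omega

/-- **Nakayama without finiteness**: coordinates of an element of the lattice `loc S D` with respect
to `n` elements of it that are `K`-independent modulo the fibre are integral at the fibre. -/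
theorem s17p_coord_int (h : s17p_Fib 𝕜 S Z n) {D : Divisor K F} (b : Fin n → F)
    (hb : ∀ i, b i ∈ s17p_loc S D)
    (hind : ∀ c : Fin n → K, (∑ i, c i • b i) ∈ s17p_loc S (D - Z) → c = 0)
    (r : Fin n → 𝕜) (hf : (∑ i, (r i : F) * b i) ∈ s17p_loc S D) :
    ∀ i, (r i : F) ∈ s17p_loc S 0 := by
  by_contra hcon
  push Not at hcon
  have hr : r ≠ 0 := by
    rintro rfl
    obtain ⟨i, hi⟩ := hcon
    exact hi (s17p_loc S 0).zero_mem
  obtain ⟨i₀, a, hne, ha₀, hres, hint, hinv⟩ := s17p_core h r hr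
  have hinv' := hinv hcon
  have hsum : (∑ i, a i • b i) ∈ s17p_loc S (D - Z) := by
    have e : (∑ i, a i • b i) = (∑ i, (algebraMap K F (a i) - ((r i / r i₀ : 𝕜) : F)) * b i)
        + (((r i₀)⁻¹ : 𝕜) : F) * ∑ i, (r i : F) * b i := by
      rw [Finset.mul_sum, ← Finset.sum_add_distrib]
      refine Finset.sum_congr rfl fun i _ => ?_
      rw [Algebra.smul_def]
      have : ((r i / r i₀ : 𝕜) : F) = (r i : F) * (((r i₀)⁻¹ : 𝕜) : F) := by
        rw [div_eq_mul_inv]; push_cast; rfl
      rw [this]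
      ring
    rw [e]
    refine (s17p_loc S (D - Z)).add_mem ((s17p_loc S (D - Z)).sum_mem fun i _ => ?_) ?_
    · have h1 : algebraMap K F (a i) - ((r i / r i₀ : 𝕜) : F) ∈ s17p_loc S (-Z) := by
        have := (s17p_loc S (-Z)).neg_mem (hres i)
        rwa [neg_sub] at this
      have := s17p_loc_mul h1 (hb i)
      rwa [neg_add_eq_sub] at this
    · have := s17p_loc_mul hinv' hf
      rwa [neg_add_eq_sub] at this
  have := hind a hsum
  rw [this] at ha₀
  exact zero_ne_one ha₀

theorem s17p_linearIndependent (h : s17p_Fib 𝕜 S Z n) {D : Divisor K F} (b : Fin n → F)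
    (hb : ∀ i, b i ∈ s17p_loc S D)
    (hind : ∀ c : Fin n → K, (∑ i, c i • b i) ∈ s17p_loc S (D - Z) → c = 0) :
    LinearIndependent 𝕜 b := by
  rw [Fintype.linearIndependent_iff]
  intro r hr0
  by_contra hcon
  push Not at hcon
  have hr : r ≠ 0 := by
    rintro rfl
    obtain ⟨i, hi⟩ := hcon
    exact hi rfl
  obtain ⟨i₀, a, hne, ha₀, hres, hint, -⟩ := s17p_core h r hr
  have hr0' : (∑ i, (r i : F) * b i) = 0 := by
    rw [← hr0]
    exact Finset.sum_congr rfl fun i _ => (IntermediateField.smul_def (r i) (b i)).symm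
  have hsum : (∑ i, a i • b i) ∈ s17p_loc S (D - Z) := by
    have e : (∑ i, a i • b i) = (∑ i, (algebraMap K F (a i) - ((r i / r i₀ : 𝕜) : F)) * b i)
        + (((r i₀)⁻¹ : 𝕜) : F) * ∑ i, (r i : F) * b i := by
      rw [Finset.mul_sum, ← Finset.sum_add_distrib]
      refine Finset.sum_congr rfl fun i _ => ?_
      rw [Algebra.smul_def]
      have : ((r i / r i₀ : 𝕜) : F) = (r i : F) * (((r i₀)⁻¹ : 𝕜) : F) := by
        rw [div_eq_mul_inv]; push_cast; rfl
      rw [this]
      ring
    rw [e, hr0', mul_zero, add_zero]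
    refine (s17p_loc S (D - Z)).sum_mem fun i _ => ?_
    have h1 : algebraMap K F (a i) - ((r i / r i₀ : 𝕜) : F) ∈ s17p_loc S (-Z) := by
      have := (s17p_loc S (-Z)).neg_mem (hres i)
      rwa [neg_sub] at this
    have := s17p_loc_mul h1 (hb i)
    rwa [neg_add_eq_sub] at this
  have := hind a hsum
  rw [this] at ha₀
  exact zero_ne_one ha₀

end Fermat.Agent.Lib.S17
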