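/-
Programme MW (S17), brick (FC) — part 2 (helper8): the ring `R = s17p_R` of elements of `𝕜`
integral at the fibre, the residue homomorphism `s17p_rho : R →+* K`, and the TRANSITION statement:
two systems `(D₁, b₁)`, `(D₂, b₂)` that are `K`-independent modulo the fibre, and `g` with
`ord_v g = -(D₂ - D₁) v` on the fibre, are related by a matrix `T ∈ GL_n(R)`:
`b₂ = T · (g b₁)`; moreover `det_{b₁}(b₂) = N_{F/𝕜}(g) · det T`.
-/
import Fermat.Agent.Lib.S17.PLat

set_option autoImplicit false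

noncomputable section

open AlgebraicCurve WithZero

namespace Fermat.Agent.Lib.S17

variable {K F : Type*} [Field K] [Field F] [Algebra K F]
variable {𝕜 : IntermediateField K F} {S : Finset (Place K F)} {Z : Divisor K F} {n : ℕ}

/-- the elements of `𝕜` integral at all places of `S`. -/
def s17p_R (𝕜 : IntermediateField K F) (S : Finset (Place K F)) : Subring 𝕜 where
  carrier := {r | (r : F) ∈ s17p_loc S 0}
  mul_mem' := by
    intro a b ha hb
    have := s17p_loc_mul ha hb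
    rw [add_zero] at this
    exact this
  one_mem' := by
    intro v _
    simp
  add_mem' := by
    intro a b ha hb
    exact (s17p_loc S 0).add_mem ha hb
  zero_mem' := (s17p_loc S 0).zero_mem
  neg_mem' := by
    intro a ha
    exact (s17p_loc S 0).neg_mem ha

theorem s17p_mem_R {r : 𝕜} : r ∈ s17p_R 𝕜 S ↔ (r : F) ∈ s17p_loc S 0 := Iff.rfl

/-- the residue of an integral element of `𝕜` at the fibre. -/
def s17p_rhoFun (h : s17p_Fib 𝕜 S Z n) (r : s17p_R 𝕜 S) : K := (h.res r.1 r.2).choose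

theorem s17p_rhoFun_spec (h : s17p_Fib 𝕜 S Z n) (r : s17p_R 𝕜 S) :
    ((r : 𝕜) : F) - algebraMap K F (s17p_rhoFun h r) ∈ s17p_loc S (-Z) :=
  (h.res r.1 r.2).choose_spec

theorem s17p_rhoFun_eq (h : s17p_Fib 𝕜 S Z n) (r : s17p_R 𝕜 S) {a : K}
    (ha : ((r : 𝕜) : F) - algebraMap K F a ∈ s17p_loc S (-Z)) : s17p_rhoFun h r = a :=
  s17p_res_unique h (s17p_rhoFun_spec h r) ha

/-- the residue homomorphism `R → K`. -/
def s17p_rho (h : s17p_Fib 𝕜 S Z n) : s17p_R 𝕜 S →+* K where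
  toFun := s17p_rhoFun h
  map_one' := s17p_rhoFun_eq h 1 (by simp)
  map_zero' := s17p_rhoFun_eq h 0 (by simp)
  map_mul' := by
    intro r s
    apply s17p_rhoFun_eq h
    have e : (((r * s : s17p_R 𝕜 S) : 𝕜) : F)
        - algebraMap K F (s17p_rhoFun h r * s17p_rhoFun h s)
        = (((r : 𝕜) : F) - algebraMap K F (s17p_rhoFun h r)) * ((s : 𝕜) : F)
          + s17p_rhoFun h r • (((s : 𝕜) : F) - algebraMap K F (s17p_rhoFun h s)) := by
      rw [Algebra.smul_def, map_mul]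
      push_cast
      ring
    rw [e]
    refine (s17p_loc S (-Z)).add_mem ?_ ((s17p_loc S (-Z)).smul_mem _ (s17p_rhoFun_spec h s))
    have := s17p_loc_mul (s17p_rhoFun_spec h r) s.2
    rwa [add_zero] at this
  map_add' := by
    intro r s
    apply s17p_rhoFun_eq h
    have e : (((r + s : s17p_R 𝕜 S) : 𝕜) : F)
        - algebraMap K F (s17p_rhoFun h r + s17p_rhoFun h s)
        = (((r : 𝕜) : F) - algebraMap K F (s17p_rhoFun h r))
          + (((s : 𝕜) : F) - algebraMap K F (s17p_rhoFun h s)) := by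
      rw [map_add]
      push_cast
      ring
    rw [e]
    exact (s17p_loc S (-Z)).add_mem (s17p_rhoFun_spec h r) (s17p_rhoFun_spec h s)

theorem s17p_rho_spec (h : s17p_Fib 𝕜 S Z n) (r : s17p_R 𝕜 S) :
    ((r : 𝕜) : F) - algebraMap K F (s17p_rho h r) ∈ s17p_loc S (-Z) :=
  s17p_rhoFun_spec h r

/-- the residue of a constant is the constant. -/
theorem s17p_rho_const (h : s17p_Fib 𝕜 S Z n) (r : s17p_R 𝕜 S) (a : K)
    (ha : ((r : 𝕜) : F) = algebraMap K F a) : s17p_rho h r = a :=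
  s17p_rhoFun_eq h r (by rw [ha, sub_self]; exact (s17p_loc S (-Z)).zero_mem)

/-- a unit of `R` has valuation one at every place of the fibre. -/
theorem s17p_unit_val (u : (s17p_R 𝕜 S)ˣ) {v : Place K F} (hv : v ∈ S) :
    v.adicValuation (((u : s17p_R 𝕜 S) : 𝕜) : F) = 1 := by
  have h1 := (u : s17p_R 𝕜 S).2 v hv
  have h2 := ((u⁻¹ : (s17p_R 𝕜 S)ˣ) : s17p_R 𝕜 S).2 v hv
  rw [Finsupp.zero_apply, WithZero.exp_zero] at h1 h2
  have h3 : ((((u : s17p_R 𝕜 S) : 𝕜) : F)) * (((((u⁻¹ : (s17p_R 𝕜 S)ˣ) : s17p_R 𝕜 S) : 𝕜) : F)) = 1 := by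
    have h5 : ((u : s17p_R 𝕜 S)) * ((u⁻¹ : (s17p_R 𝕜 S)ˣ) : s17p_R 𝕜 S) = 1 := u.mul_inv
    have h6 := congrArg (fun x : s17p_R 𝕜 S => ((x : 𝕜) : F)) h5
    simp only [Subring.coe_mul, IntermediateField.coe_mul, Subring.coe_one,
      IntermediateField.coe_one] at h6
    exact h6
  have h4 := congrArg v.adicValuation h3
  rw [map_mul, map_one] at h4
  apply le_antisymm h1
  calc (1 : ℤᵐ⁰) = _ := h4.symm
    _ ≤ v.adicValuation (((u : s17p_R 𝕜 S) : 𝕜) : F) * 1 := mul_le_mul' le_rfl h2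
    _ = _ := mul_one _

end Fermat.Agent.Lib.S17
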