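/-
Programme MW (S17), brick (FC) — part 3 (helper8): systems and the TRANSITION statement.
A system `s17p_Sys S Z D b` = `n` elements of the lattice `loc S D`, `K`-independent modulo the
fibre.  Two systems `(D₁, b₁)`, `(D₂, b₂)` and `g` with `ord_v g = -(D₂ - D₁) v` on the fibre are
related by `T ∈ GL_n(R)`: `b₂ = T · (g b₁)`, and `det_{b₁}(b₂) = N_{F/𝕜}(g) · det T`.
-/
import Fermat.Agent.Lib.S17.PRes

set_option autoImplicit false

noncomputable section

open AlgebraicCurve WithZero Module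

namespace Fermat.Agent.Lib.S17

variable {K F : Type*} [Field K] [Field F] [Algebra K F]
variable {𝕜 : IntermediateField K F} {S : Finset (Place K F)} {Z : Divisor K F} {n : ℕ}

/-- a system: `n` elements of `loc S D`, `K`-linearly independent modulo `loc S (D - Z)`. -/
structure s17p_Sys (S : Finset (Place K F)) (Z : Divisor K F) (D : Divisor K F) {n : ℕ}
    (b : Fin n → F) : Prop where
  mem : ∀ i, b i ∈ s17p_loc S D
  ind : ∀ c : Fin n → K, (∑ i, c i • b i) ∈ s17p_loc S (D - Z) → c = 0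

theorem s17p_ne_zero_of_val (h : s17p_Fib 𝕜 S Z n) {g : F} {E : Divisor K F}
    (hg : ∀ v ∈ S, v.adicValuation g = exp (E v)) : g ≠ 0 := by
  obtain ⟨v, hv⟩ := h.ne
  rintro rfl
  have := hg v hv
  rw [map_zero] at this
  exact WithZero.exp_ne_zero this.symm

theorem s17p_Sys.mul (h : s17p_Fib 𝕜 S Z n) {D₁ D₂ : Divisor K F} {b : Fin n → F}
    (hs : s17p_Sys S Z D₁ b) {g : F} (hg : ∀ v ∈ S, v.adicValuation g = exp ((D₂ - D₁) v)) :
    s17p_Sys S Z D₂ (fun i => g * b i) := by
  have hg0 := s17p_ne_zero_of_val h hg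
  have hgm : g ∈ s17p_loc S (D₂ - D₁) := fun v hv => (hg v hv).le
  have hgi : g⁻¹ ∈ s17p_loc S (D₁ - D₂) := by
    intro v hv
    rw [map_inv₀, hg v hv, ← WithZero.exp_neg, ← Finsupp.neg_apply, neg_sub]
  refine ⟨fun i => ?_, fun c hc => hs.ind c ?_⟩
  · have := s17p_loc_mul hgm (hs.mem i)
    rwa [sub_add_cancel] at this
  · have e : (∑ i, c i • b i) = g⁻¹ * ∑ i, c i • (g * b i) := by
      rw [Finset.mul_sum]
      refine Finset.sum_congr rfl fun i _ => ?_
      rw [Algebra.smul_def, Algebra.smul_def]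
      field_simp
    rw [e]
    have := s17p_loc_mul hgi hc
    have e2 : D₁ - D₂ + (D₂ - Z) = D₁ - Z := by abel
    rwa [e2] at this

/-- the `𝕜`-basis of `F` given by a system. -/
def s17p_basis (h : s17p_Fib 𝕜 S Z n) {D : Divisor K F} {b : Fin n → F}
    (hs : s17p_Sys S Z D b) : Basis (Fin n) 𝕜 F :=
  haveI := h.finiteDimensional
  haveI : Nonempty (Fin n) := ⟨⟨0, h.npos⟩⟩
  basisOfLinearIndependentOfCardEqFinrank (s17p_linearIndependent h b hs.mem hs.ind)
    (by rw [Fintype.card_fin, h.rank])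

@[simp]
theorem s17p_basis_apply (h : s17p_Fib 𝕜 S Z n) {D : Divisor K F} {b : Fin n → F}
    (hs : s17p_Sys S Z D b) (i : Fin n) : s17p_basis h hs i = b i := by
  have := h.finiteDimensional
  have : Nonempty (Fin n) := ⟨⟨0, h.npos⟩⟩
  rw [s17p_basis, coe_basisOfLinearIndependentOfCardEqFinrank]

theorem s17p_coe_basis (h : s17p_Fib 𝕜 S Z n) {D : Divisor K F} {b : Fin n → F}
    (hs : s17p_Sys S Z D b) : ⇑(s17p_basis h hs) = b := funext (s17p_basis_apply h hs)

/-- coordinates of a lattice element with respect to a system are integral at the fibre. -/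
theorem s17p_repr_mem (h : s17p_Fib 𝕜 S Z n) {D : Divisor K F} {b : Fin n → F}
    (hs : s17p_Sys S Z D b) {f : F} (hf : f ∈ s17p_loc S D) (i : Fin n) :
    (s17p_basis h hs).repr f i ∈ s17p_R 𝕜 S := by
  refine s17p_coord_int h b hs.mem hs.ind (fun i => (s17p_basis h hs).repr f i) ?_ i
  have := (s17p_basis h hs).sum_repr f
  have e : (∑ i, (((s17p_basis h hs).repr f i : 𝕜) : F) * b i) = f := by
    conv_rhs => rw [← this]
    refine Finset.sum_congr rfl fun i _ => ?_
    rw [s17p_basis_apply, IntermediateField.smul_def, smul_eq_mul]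
  rw [e]
  exact hf

/-- **transition between two systems**. -/
theorem s17p_transition (h : s17p_Fib 𝕜 S Z n) {D₁ D₂ : Divisor K F} {b₁ b₂ : Fin n → F}
    (hs₁ : s17p_Sys S Z D₁ b₁) (hs₂ : s17p_Sys S Z D₂ b₂) {g : F}
    (hg : ∀ v ∈ S, v.adicValuation g = exp ((D₂ - D₁) v)) :
    ∃ T : Matrix (Fin n) (Fin n) (s17p_R 𝕜 S),
      (∀ k, b₂ k = ∑ l, (((T k l : s17p_R 𝕜 S) : 𝕜) : F) * (g * b₁ l)) ∧ IsUnit T.det ∧
      (s17p_basis h hs₁).det b₂ = Algebra.norm 𝕜 g * ((T.det : s17p_R 𝕜 S) : 𝕜) := by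
  classical
  have := h.finiteDimensional
  have hs' := hs₁.mul h hg
  set B₁ := s17p_basis h hs₁ with hB₁
  set B' := s17p_basis h hs' with hB'
  set B₂ := s17p_basis h hs₂ with hB₂
  let T : Matrix (Fin n) (Fin n) (s17p_R 𝕜 S) :=
    fun k l => ⟨B'.repr (b₂ k) l, s17p_repr_mem h hs' (hs₂.mem k) l⟩
  let T' : Matrix (Fin n) (Fin n) (s17p_R 𝕜 S) :=
    fun k l => ⟨B₂.repr (g * b₁ k) l, s17p_repr_mem h hs₂ (hs'.mem k) l⟩
  have hTmap : T.map (s17p_R 𝕜 S).subtype = (B'.toMatrix b₂).transpose := by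
    ext k l
    simp only [Matrix.map_apply, Matrix.transpose_apply, Basis.toMatrix_apply]
    rfl
  have hT'map : T'.map (s17p_R 𝕜 S).subtype = (B₂.toMatrix B').transpose := by
    ext k l
    simp only [Matrix.map_apply, Matrix.transpose_apply, Basis.toMatrix_apply, hB',
      s17p_basis_apply]
    rfl
  have hdetT : (s17p_R 𝕜 S).subtype T.det = (B'.toMatrix b₂).det := by
    rw [RingHom.map_det, RingHom.mapMatrix_apply, hTmap, Matrix.det_transpose]
  have hdetT' : (s17p_R 𝕜 S).subtype T'.det = (B₂.toMatrix B').det := by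
    rw [RingHom.map_det, RingHom.mapMatrix_apply, hT'map, Matrix.det_transpose]
  refine ⟨T, fun k => ?_, ?_, ?_⟩
  · have := B'.sum_repr (b₂ k)
    conv_lhs => rw [← this]
    refine Finset.sum_congr rfl fun l _ => ?_
    rw [hB', s17p_basis_apply, IntermediateField.smul_def, smul_eq_mul]
  · apply IsUnit.of_mul_eq_one T'.det
    apply (s17p_R 𝕜 S).subtype_injective
    rw [map_mul, hdetT, hdetT', ← Matrix.det_mul, map_one]
    have e : b₂ = ⇑B₂ := (s17p_coe_basis h hs₂).symm
    rw [e, Basis.toMatrix_mul_toMatrix_flip, Matrix.det_one]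
  · have e1 : B₁.toMatrix b₂ = B₁.toMatrix B' * B'.toMatrix b₂ :=
      (Basis.toMatrix_mul_toMatrix B₁ B' b₂).symm
    have e2 : (B₁.toMatrix B').det = Algebra.norm 𝕜 g := by
      rw [← Basis.det_apply]
      have : ⇑B' = (Algebra.lmul 𝕜 F g) ∘ ⇑B₁ := by
        funext i
        simp [hB', hB₁, s17p_basis_apply]
      rw [this, Basis.det_comp, Basis.det_self, mul_one, Algebra.norm_apply]
    rw [Basis.det_apply, e1, Matrix.det_mul, e2]
    congr 1
    exact hdetT.symm

end Fermat.Agent.Lib.S17
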