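/-
MW programme (S17), brick [W1'] curve side [HALF] (helper5, prefix `s17z_`), part 1:
ALGEBRAICITY of the functions on a disc over `A[t]`.

`F/K` a function field (`FFGen K x`), `A ⊆ K` a valuation ring, `t ∈ F` transcendental over `K`,
`G ⊆ F` a subring which is an `A`-algebra compatibly with `A ⊆ K ⊆ F` and contains `t`.
Then every `h ∈ G` is algebraic over the `A`-subalgebra `A[t]` of `G`.
-/
import Fermat.Agent.Lib.S19.JOne

set_option autoImplicit false
set_option linter.unusedSectionVars false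
set_option linter.unusedVariables false

noncomputable section

namespace Fermat.Agent.Lib.S17

open AlgebraicCurve Fermat.Agent.Lib.FF Fermat.Agent.Lib.S37 Fermat.Agent.Lib.S19 IsLocalRing
open Polynomial

variable {K F : Type*} [Field K] [Field F] [Algebra K F]

/-- evaluation of an integral polynomial at `t`. -/
def s17z_evT (A : ValuationSubring K) (t : F) : Polynomial ↥A →+* F :=
  Polynomial.eval₂RingHom ((algebraMap K F).comp A.subtype) t

theorem s17z_evT_C (A : ValuationSubring K) (t : F) (a : ↥A) :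
    s17z_evT A t (C a) = algebraMap K F (a : K) := by
  unfold s17z_evT
  rw [Polynomial.coe_eval₂RingHom, Polynomial.eval₂_C]
  rfl

theorem s17z_evT_X (A : ValuationSubring K) (t : F) : s17z_evT A t X = t := by
  unfold s17z_evT
  rw [Polynomial.coe_eval₂RingHom, Polynomial.eval₂_X]

/-- **denominators**: every element of `K[t]` is an integral polynomial in `t` divided by a
non-zero integral constant. -/
theorem s17z_denoms (A : ValuationSubring K) (t : F) (s : F) (hs : s ∈ Algebra.adjoin K {t}) :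
    ∃ d : ↥A, d ≠ 0 ∧ ∃ Q : Polynomial ↥A, algebraMap K F (d : K) * s = s17z_evT A t Q := by
  induction hs using Algebra.adjoin_induction with
  | mem y hy =>
    rw [Set.mem_singleton_iff] at hy
    subst hy
    exact ⟨1, one_ne_zero, X, by rw [s17z_evT_X]; simp⟩
  | algebraMap c =>
    rcases A.mem_or_inv_mem c with hc | hc
    · exact ⟨1, one_ne_zero, C ⟨c, hc⟩, by rw [s17z_evT_C]; simp⟩
    · rcases eq_or_ne c 0 with rfl | hc0
      · exact ⟨1, one_ne_zero, 0, by simp⟩
      · refine ⟨⟨c⁻¹, hc⟩, ?_, C 1, ?_⟩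
        · intro h0
          exact inv_ne_zero hc0 (congrArg Subtype.val h0)
        · rw [s17z_evT_C, ← map_mul]
          show algebraMap K F (c⁻¹ * c) = algebraMap K F ((1 : ↥A) : K)
          rw [inv_mul_cancel₀ hc0]
          rfl
  | add y z _ _ ihy ihz =>
    obtain ⟨d₁, hd₁, Q₁, h₁⟩ := ihy
    obtain ⟨d₂, hd₂, Q₂, h₂⟩ := ihz
    refine ⟨d₁ * d₂, mul_ne_zero hd₁ hd₂, C d₂ * Q₁ + C d₁ * Q₂, ?_⟩
    rw [map_add, map_mul, map_mul, s17z_evT_C, s17z_evT_C, ← h₁, ← h₂]
    show algebraMap K F ((d₁ : K) * (d₂ : K)) * (y + z) = _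
    rw [map_mul]
    ring
  | mul y z _ _ ihy ihz =>
    obtain ⟨d₁, hd₁, Q₁, h₁⟩ := ihy
    obtain ⟨d₂, hd₂, Q₂, h₂⟩ := ihz
    refine ⟨d₁ * d₂, mul_ne_zero hd₁ hd₂, Q₁ * Q₂, ?_⟩
    rw [map_mul, ← h₁, ← h₂]
    show algebraMap K F ((d₁ : K) * (d₂ : K)) * (y * z) = _
    rw [map_mul]
    ring

/-- common denominators for a finite family. -/
theorem s17z_denoms_finset (A : ValuationSubring K) (t : F) {κ : Type*} (T : Finset κ)
    (s : κ → F) (hs : ∀ j ∈ T, s j ∈ Algebra.adjoin K {t}) :
    ∃ d : ↥A, d ≠ 0 ∧ ∃ Q : κ → Polynomial ↥A,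
      ∀ j ∈ T, algebraMap K F (d : K) * s j = s17z_evT A t (Q j) := by
  classical
  induction T using Finset.induction_on with
  | empty => exact ⟨1, one_ne_zero, fun _ => 0, fun j hj => absurd hj (Finset.notMem_empty j)⟩
  | insert a T ha ih =>
    obtain ⟨d, hd, Q, hQ⟩ := ih fun j hj => hs j (Finset.mem_insert_of_mem hj)
    obtain ⟨d', hd', Q', hQ'⟩ := s17z_denoms A t (s a) (hs a (Finset.mem_insert_self a T))
    refine ⟨d * d', mul_ne_zero hd hd', fun j => if j = a then C d * Q' else C d' * Q j, ?_⟩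
    intro j hj
    rw [Finset.mem_insert] at hj
    beta_reduce
    have hmul : algebraMap K F ((d * d' : ↥A) : K) = algebraMap K F (d : K) * algebraMap K F (d' : K) := by
      rw [← map_mul]
      rfl
    by_cases hja : j = a
    · subst hja
      rw [if_pos rfl, map_mul, s17z_evT_C, ← hQ', hmul]
      ring
    · rw [if_neg hja, map_mul, s17z_evT_C, ← hQ j (hj.resolve_left hja), hmul]
      ring

/-- **algebraicity over `A[t]`.** -/
theorem s17z_isAlgebraic_adjoin {x : F} [FFGen K x] (A : ValuationSubring K) (G : Subring F)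
    [Algebra ↥A ↥G] (hcoe : ∀ c : ↥A, ((algebraMap ↥A ↥G c : ↥G) : F) = algebraMap K F (c : K))
    (tG : ↥G) (htr : Transcendental K (tG : F)) (h : ↥G) :
    IsAlgebraic ↥(Algebra.adjoin ↥A {tG}) h := by
  classical
  have : FFGen K (tG : F) := ff_gen_of_transcendental (x := x) htr
  have halg : IsAlgebraic ↥(Algebra.adjoin K {(tG : F)}) (h : F) :=
    (ff_isAlgebraic_adjoin (K := K) (x := (tG : F))).isAlgebraic _
  obtain ⟨p₀, hp₀, hroot⟩ := halg
  obtain ⟨d, hd, Q, hQ⟩ := s17z_denoms_finset A (tG : F) p₀.support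
    (fun j => ((p₀.coeff j : ↥(Algebra.adjoin K {(tG : F)})) : F)) (fun j _ => (p₀.coeff j).2)
  set S : Subalgebra ↥A ↥G := Algebra.adjoin ↥A {tG} with hS
  set tS : ↥S := ⟨tG, Algebra.subset_adjoin (Set.mem_singleton tG)⟩ with htS
  -- the coercion `S → F`
  set ιS : ↥S →+* F := G.subtype.comp (S.val : ↥S →ₐ[↥A] ↥G).toRingHom with hιS
  have hιS_apply : ∀ s : ↥S, ιS s = (((s : ↥S) : ↥G) : F) := fun s => rfl
  have hcomp : ιS.comp (algebraMap ↥A ↥S) = (algebraMap K F).comp A.subtype := by
    ext c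
    exact hcoe c
  have hφ : ∀ q : Polynomial ↥A, ιS (Polynomial.aeval tS q) = s17z_evT A (tG : F) q := by
    intro q
    rw [Polynomial.aeval_def, Polynomial.hom_eval₂, hcomp]
    rfl
  have hιS_inj : Function.Injective ιS := by
    intro a b hab
    rw [hιS_apply, hιS_apply] at hab
    exact Subtype.ext (Subtype.ext hab)
  -- the polynomial
  set p : Polynomial ↥S := ∑ j ∈ p₀.support, Polynomial.monomial j (Polynomial.aeval tS (Q j))
    with hp
  have hd' : algebraMap K F (d : K) ≠ 0 := by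
    intro h0
    apply hd
    have := (map_eq_zero (algebraMap K F)).mp h0
    exact Subtype.ext this
  refine ⟨p, ?_, ?_⟩
  · intro hp0
    obtain ⟨j₀, hj₀⟩ := Polynomial.nonempty_support_iff.mpr hp₀
    have h1 : p.coeff j₀ = Polynomial.aeval tS (Q j₀) := by
      rw [hp, Polynomial.finsetSum_coeff]
      simp only [Polynomial.coeff_monomial]
      rw [Finset.sum_ite_eq' p₀.support j₀, if_pos hj₀]
    rw [hp0, Polynomial.coeff_zero] at h1
    have h2 := congrArg ιS h1
    rw [map_zero, hφ, ← hQ j₀ hj₀] at h2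
    rcases mul_eq_zero.mp h2.symm with h3 | h3
    · exact hd' h3
    · rw [Polynomial.mem_support_iff] at hj₀
      exact hj₀ (Subtype.ext h3)
  · apply Subtype.ext
    show ((Polynomial.aeval h p : ↥G) : F) = 0
    have h1 : ((Polynomial.aeval h p : ↥G) : F) =
        ∑ j ∈ p₀.support, s17z_evT A (tG : F) (Q j) * (h : F) ^ j := by
      rw [hp, map_sum, AddSubmonoidClass.coe_finsetSum]
      refine Finset.sum_congr rfl fun j _ => ?_
      rw [Polynomial.aeval_monomial, ← hφ]
      rfl
    rw [h1]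
    have h2 : ∑ j ∈ p₀.support, s17z_evT A (tG : F) (Q j) * (h : F) ^ j =
        algebraMap K F (d : K) * Polynomial.aeval (h : F) p₀ := by
      rw [Polynomial.aeval_def, Polynomial.eval₂_eq_sum, Polynomial.sum_def, Finset.mul_sum]
      refine Finset.sum_congr rfl fun j hj => ?_
      rw [← hQ j hj, mul_assoc]
      rfl
    rw [h2, hroot, mul_zero]

end Fermat.Agent.Lib.S17
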