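/-
MW programme (S17), brick [W1'] curve side [HALF] (helper5, prefix `s17z_`), part 2:
THE DISCS OF A COORDINATE SYSTEM.

* abstract: Taylor coefficients of `t (t − b)` at the centre;
* a parameter is transcendental, functions on its disc are algebraic over `A[t]` (`s17z_halg`);
* values of `divS a` at the points of the discs;
* `t_i (t_i − b_i) · f ∈ G(Q_i)` for `f ∈ L(divS b + divS 0) ∩ O`.
-/
import Fermat.Agent.Lib.S17.ZAlg
import Fermat.Agent.Lib.S19.EGeoRows
import Fermat.Agent.Lib.S19.DDiffBasic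

set_option autoImplicit false
set_option linter.unusedSectionVars false
set_option linter.unusedVariables false

noncomputable section

namespace Fermat.Agent.Lib.S17

open AlgebraicCurve Fermat.Agent.Lib.FF Fermat.Agent.Lib.S37 Fermat.Agent.Lib.S19 IsLocalRing

/-! ### Abstract Taylor coefficients of `t (t − b)` -/

section Abstract

variable {A : Type*} [CommRing A] [IsLocalRing A] {W : Subring A}
  {G : Type*} [CommRing G] [Algebra A G] (D : s19_Disc A W G)

theorem s17z_tay_zero (g : G) : s19_tay D 0 g = D.ev 0 g := rfl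

theorem s17z_dq_zero_t_mul (u : G) : D.dq 0 (D.t * u) = u := by
  rw [s19d_dq_t_mul]
  have h0 : ((0 : ↥(maximalIdeal A)) : A) = 0 := rfl
  rw [h0, map_zero, zero_mul, add_zero]

theorem s17z_ev_zero_t_mul (u : G) : D.ev 0 (D.t * u) = 0 := by
  rw [s19d_ev_t_mul]
  have h0 : ((0 : ↥(maximalIdeal A)) : A) = 0 := rfl
  rw [h0, zero_mul]

theorem s17z_tay0_mu (b : ↥(maximalIdeal A)) :
    s19_tay D 0 (D.t * (D.t - algebraMap A G (b : A))) = 0 :=
  s17z_ev_zero_t_mul D _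

theorem s17z_tay1_mu (b : ↥(maximalIdeal A)) :
    s19_tay D 1 (D.t * (D.t - algebraMap A G (b : A))) = -(b : A) := by
  rw [s19e_tay_succ, s17z_dq_zero_t_mul, s17z_tay_zero, map_sub, D.ev_t, AlgHom.commutes]
  have h0 : ((0 : ↥(maximalIdeal A)) : A) = 0 := rfl
  rw [h0, zero_sub]
  rfl

theorem s17z_tay2_mu (b : ↥(maximalIdeal A)) :
    s19_tay D 2 (D.t * (D.t - algebraMap A G (b : A))) = 1 := by
  rw [s19e_tay_succ, s17z_dq_zero_t_mul, s19e_tay_succ, s19d_dq_sub, s19d_dq_t, s19d_dq_const,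
    sub_zero, s17z_tay_zero, map_one]

end Abstract

/-! ### Parameters are transcendental -/

section Param

variable {K F : Type*} [Field K] [Field F] [Algebra K F] [IsAlgClosed K]
  {k Fb : Type*} [Field k] [Field Fb] [Algebra k Fb]
  {A : ValuationSubring K} {π : ↥A →+* k} {O : ValuationSubring F} {red : ↥O →+* Fb}
  {r : Place K F → Place k Fb}
  (x : F) [FFGen K x] (h : s19_RD A π O red r)
  {Q : Place k Fb} {t : F} (ht : s19a_IsParam red r Q t)

include x h ht in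
theorem s17z_param_transcendental : Transcendental K t := by
  intro halg
  obtain ⟨a, rfl⟩ := ff_mem_range_of_isAlgebraic halg
  have h1 := s19e_ord_t x h ht (s19a_pt x h ht 0) (s19a_pt_r x h ht 0)
  rw [if_pos rfl, ff_ord_algebraMap] at h1
  exact zero_ne_one h1

include x in
/-- **functions on the disc are algebraic over `A[t]`.** -/
theorem s17z_halg_disc (f : ↥(s19a_G O r Q)) :
    letI := s19a_algebraG h Q
    IsAlgebraic ↥(Algebra.adjoin ↥A {s19a_tG ht}) f := by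
  let _ := s19a_algebraG h Q
  exact s17z_isAlgebraic_adjoin (x := x) A (s19a_G O r Q) (fun c => rfl) (s19a_tG ht)
    (s17z_param_transcendental x h ht) f

end Param

/-! ### The discs of a coordinate system -/

section Sys

variable {K F k Fb : Type} [Field K] [Field F] [Algebra K F] [IsAlgClosed K] [Field k] [Field Fb]
  [Algebra k Fb] {x : F} [FFGen K x] {A : ValuationSubring K} {π : ↥A →+* k}
  {O : ValuationSubring F} {red : ↥O →+* Fb} {r : Place K F → Place k Fb} {FW : Subring F}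
  {l : ↥A} {g : ℕ} (hC : s19_Curve x A π O red r FW l g) (𝔰 : s19_Sys red r FW g)

/-- the abstract disc of the `i`-th place of the system. -/
def s17z_D (i : Fin g) :
    letI := s19a_algebraG hC.rd (𝔰.Q i)
    s19_Disc ↥A (s19a_W A FW) ↥(s19a_G O r (𝔰.Q i)) :=
  s19e_Dd hC 𝔰.Q 𝔰.t 𝔰.param 𝔰.rat i

theorem s17z_halg (i : Fin g) (f : ↥(s19a_G O r (𝔰.Q i))) :
    letI := s19a_algebraG hC.rd (𝔰.Q i)
    IsAlgebraic ↥(Algebra.adjoin ↥A {(s17z_D hC 𝔰 i).t}) f :=
  s17z_halg_disc x hC.rd (𝔰.param i) f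

open Classical in
/-- the value of `divS a` at a point of the `i`-th disc. -/
theorem s17z_divS_apply (a : Fin g → ↥(maximalIdeal ↥A)) (i : Fin g) (P : Place K F)
    (hP : r P = 𝔰.Q i) :
    s19_divS hC 𝔰 a P = if P = s19_ptS hC 𝔰 i (a i) then 1 else 0 := by
  unfold s19_divS
  rw [Finsupp.finsetSum_apply, Finset.sum_eq_single i]
  · rw [Finsupp.single_apply]
    by_cases hPi : P = s19_ptS hC 𝔰 i (a i)
    · rw [if_pos hPi, if_pos hPi.symm]
    · rw [if_neg hPi, if_neg (fun e => hPi e.symm)]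
  · intro j _ hji
    refine Finsupp.single_eq_of_ne ?_
    intro e
    apply hji
    apply 𝔰.inj
    rw [← s19f_ptS_r hC 𝔰 j (a j), ← e, hP]
  · intro hi
    exact absurd (Finset.mem_univ i) hi

/-- `divS a` vanishes off the discs. -/
theorem s17z_divS_apply_off (a : Fin g → ↥(maximalIdeal ↥A)) (P : Place K F)
    (hP : ∀ i, r P ≠ 𝔰.Q i) : s19_divS hC 𝔰 a P = 0 := by
  classical
  unfold s19_divS
  rw [Finsupp.finsetSum_apply]
  refine Finset.sum_eq_zero fun j _ => Finsupp.single_eq_of_ne ?_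
  intro e
  apply hP j
  rw [e]
  exact s19f_ptS_r hC 𝔰 j (a j)

/-- the multiplier `t_i (t_i − b_i)` on the `i`-th disc. -/
def s17z_mu (b : Fin g → ↥(maximalIdeal ↥A)) (i : Fin g) : F :=
  𝔰.t i * (𝔰.t i - algebraMap K F (((b i : ↥(maximalIdeal ↥A)) : ↥A) : K))

include hC in
theorem s17z_mu_ne_zero (b : Fin g → ↥(maximalIdeal ↥A)) (i : Fin g) : s17z_mu 𝔰 b i ≠ 0 :=
  mul_ne_zero (s19e_t_ne_zero x hC.rd (𝔰.param i)) (s19a_t_sub_ne_zero x hC.rd (𝔰.param i) (b i))

open Classical in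
/-- the order of the multiplier at a point of the `i`-th disc. -/
theorem s17z_mu_ord (b : Fin g → ↥(maximalIdeal ↥A)) (i : Fin g) (P : Place K F)
    (hP : r P = 𝔰.Q i) :
    P.ord (s17z_mu 𝔰 b i) = s19_divS hC 𝔰 b P + s19_divS hC 𝔰 0 P := by
  unfold s17z_mu
  rw [P.ord_mul (s19e_t_ne_zero x hC.rd (𝔰.param i))
    (s19a_t_sub_ne_zero x hC.rd (𝔰.param i) (b i)),
    s19e_ord_t x hC.rd (𝔰.param i) P hP, s19e_ord_t_sub x hC.rd (𝔰.param i) (b i) P hP,
    s17z_divS_apply hC 𝔰 b i P hP, s17z_divS_apply hC 𝔰 0 i P hP]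
  unfold s19_ptS
  rw [add_comm]
  rfl

/-- `t_i (t_i − b_i) f ∈ G(Q_i)` for `f ∈ L(divS b + divS 0) ∩ O`. -/
theorem s17z_mu_mul_mem (b : Fin g → ↥(maximalIdeal ↥A)) (i : Fin g) {f : F} (hfO : f ∈ O)
    (hfE : f ∈ riemannRochSpace (s19_divS hC 𝔰 b + s19_divS hC 𝔰 0)) :
    s17z_mu 𝔰 b i * f ∈ s19a_G O r (𝔰.Q i) := by
  have htO : 𝔰.t i ∈ O := (s19a_mem_G.mp (𝔰.param i).mem).1
  have hmuO : s17z_mu 𝔰 b i ∈ O :=
    O.mul_mem _ _ htO (sub_mem htO (hC.rd.const_mem (b i : ↥A)))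
  refine ⟨O.mul_mem _ _ hmuO hfO, fun P hP => ?_⟩
  rcases eq_or_ne f 0 with rfl | hf0
  · rw [mul_zero]; exact P.toValuationSubring.zero_mem
  have hmu0 := s17z_mu_ne_zero hC 𝔰 b i
  rw [ff_mem_iff_ord_nonneg P (mul_ne_zero hmu0 hf0), P.ord_mul hmu0 hf0,
    s17z_mu_ord hC 𝔰 b i P hP]
  have hfP := (mem_riemannRochSpace_iff.mp hfE P).resolve_left hf0
  rw [Finsupp.add_apply] at hfP
  linarith

end Sys

end Fermat.Agent.Lib.S17
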