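/-
MW programme (S17), brick [W1'] curve side [HALF] (helper5, prefix `s17z_`), part 3:
GAUSS-ORTHONORMAL FAMILIES CONTAINING `1`.

* `s17z_coeff_mem`: a Gauss-integral combination of a family with independent reductions has
  integral coefficients;
* `s17z_basis_one`: for an effective divisor `E` with `ℓ(E) ≥ m + 1` there are
  `β 0 = 1, β 1, …, β m ∈ L(E) ∩ O` with independent reductions.
-/
import Fermat.Agent.Lib.S17.ZDisc
import Fermat.Agent.Lib.S19.SGaussAbs
import Fermat.Agent.Lib.S19.LAmb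

set_option autoImplicit false
set_option linter.unusedSectionVars false
set_option linter.unusedVariables false

noncomputable section

namespace Fermat.Agent.Lib.S17

open AlgebraicCurve Fermat.Agent.Lib.FF Fermat.Agent.Lib.S37 Fermat.Agent.Lib.S19 IsLocalRing

section Gauss

variable {K F : Type*} [Field K] [Field F] [Algebra K F] [IsAlgClosed K]
  {k Fb : Type*} [Field k] [Field Fb] [Algebra k Fb]
  {A : ValuationSubring K} {π : ↥A →+* k} {O : ValuationSubring F} {red : ↥O →+* Fb}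
  {r : Place K F → Place k Fb} (h : s19_RD A π O red r)

include h in
/-- the reduction of an integral combination. -/
theorem s17z_red_comb {n : ℕ} (b' : Fin n → F) (hb'O : ∀ j, b' j ∈ O) (c : Fin n → ↥A)
    (hfO : ∑ j, algebraMap K F ((c j : ↥A) : K) * b' j ∈ O) :
    red ⟨∑ j, algebraMap K F ((c j : ↥A) : K) * b' j, hfO⟩ =
      ∑ j, π (c j) • red ⟨b' j, hb'O j⟩ := by
  have hsub : (⟨∑ j, algebraMap K F ((c j : ↥A) : K) * b' j, hfO⟩ : ↥O) =
      ∑ j, (⟨algebraMap K F ((c j : ↥A) : K), h.const_mem (c j)⟩ : ↥O) * ⟨b' j, hb'O j⟩ := by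
    apply Subtype.ext
    rw [AddSubmonoidClass.coe_finsetSum]
    rfl
  rw [hsub, map_sum]
  refine Finset.sum_congr rfl fun j _ => ?_
  rw [map_mul, h.red_const, Algebra.smul_def]

include h in
/-- **Gauss**: a Gauss-integral combination of a family with independent reductions has integral
coefficients. -/
theorem s17z_coeff_mem {n : ℕ} (b' : Fin n → F) (hb'O : ∀ j, b' j ∈ O)
    (hli : LinearIndependent k fun j => red ⟨b' j, hb'O j⟩) (c : Fin n → K)
    (hfO : ∑ j, algebraMap K F (c j) * b' j ∈ O) : ∀ j, c j ∈ A := by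
  classical
  by_contra hcon
  push Not at hcon
  obtain ⟨j₁, hj₁⟩ := hcon
  have hc0 : c ≠ 0 := by
    intro h0
    apply hj₁
    rw [h0]
    exact A.zero_mem
  obtain ⟨j₀, hj₀, hmax⟩ := s19s_exists_max_coord A c hc0
  have hj₀A : c j₀ ∉ A := by
    intro hmem
    apply hj₁
    have : c j₁ = c j₁ / c j₀ * c j₀ := by field_simp
    rw [this]
    exact A.mul_mem _ _ (hmax j₁) hmem
  have hinvA : (c j₀)⁻¹ ∈ A := (A.mem_or_inv_mem (c j₀)).resolve_left hj₀A
  have hπ : π ⟨(c j₀)⁻¹, hinvA⟩ = 0 := s19a_pi_eq_zero h _ hinvA (by rwa [inv_inv])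
  set e : Fin n → ↥A := fun j => ⟨c j / c j₀, hmax j⟩ with he
  have hsum : ∑ j, algebraMap K F ((e j : ↥A) : K) * b' j =
      algebraMap K F (c j₀)⁻¹ * ∑ j, algebraMap K F (c j) * b' j := by
    rw [Finset.mul_sum]
    refine Finset.sum_congr rfl fun j _ => ?_
    show algebraMap K F (c j / c j₀) * b' j = _
    rw [div_eq_mul_inv, map_mul]
    ring
  have heO : ∑ j, algebraMap K F ((e j : ↥A) : K) * b' j ∈ O := by
    rw [hsum]
    exact O.mul_mem _ _ (h.const_mem ⟨(c j₀)⁻¹, hinvA⟩) hfO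
  have h1 := s17z_red_comb h b' hb'O e heO
  have h2 : red ⟨∑ j, algebraMap K F ((e j : ↥A) : K) * b' j, heO⟩ = 0 := by
    have : (⟨∑ j, algebraMap K F ((e j : ↥A) : K) * b' j, heO⟩ : ↥O) =
        ⟨algebraMap K F (c j₀)⁻¹, h.const_mem ⟨(c j₀)⁻¹, hinvA⟩⟩ *
          ⟨∑ j, algebraMap K F (c j) * b' j, hfO⟩ := Subtype.ext hsum
    rw [this, map_mul, h.red_const ⟨(c j₀)⁻¹, hinvA⟩, hπ, map_zero, zero_mul]
  rw [h2] at h1
  have h3 := Fintype.linearIndependent_iff.mp hli (fun j => π (e j)) h1.symm j₀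
  have h4 : e j₀ = 1 := Subtype.ext (div_self hj₀)
  rw [h4, map_one] at h3
  exact one_ne_zero h3

end Gauss

section Basis

variable {K F k Fb : Type} [Field K] [Field F] [Algebra K F] [IsAlgClosed K] [Field k] [Field Fb]
  [Algebra k Fb] {x : F} [FFGen K x] {A : ValuationSubring K} {π : ↥A →+* k}
  {O : ValuationSubring F} {red : ↥O →+* Fb} {r : Place K F → Place k Fb} {FW : Subring F}
  {l : ↥A} {g : ℕ} (hC : s19_Curve x A π O red r FW l g)

include hC in
/-- the exchange: a Gauss-orthonormal family whose span contains `1` can be modified to contain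
`1`. -/
theorem s17z_exchange (E : Divisor K F) (hE : ∀ P, 0 ≤ E P) (m n : ℕ) (hm : m + 1 ≤ n)
    (b' : Fin n → F) (hb'O : ∀ i, b' i ∈ O) (hb'E : ∀ i, b' i ∈ riemannRochSpace E)
    (hb'li : LinearIndependent k fun i => red ⟨b' i, hb'O i⟩)
    (h1mem : (1 : F) ∈ Submodule.span K (Set.range b')) :
    ∃ (β : Fin (m + 1) → F) (hβO : ∀ j, β j ∈ O), β 0 = 1 ∧
      (∀ j, β j ∈ riemannRochSpace E) ∧ LinearIndependent k fun j => red ⟨β j, hβO j⟩ := by
  classical
  rw [Submodule.mem_span_range_iff_exists_fun] at h1mem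
  obtain ⟨c, hc⟩ := h1mem
  have hc' : ∑ j, algebraMap K F (c j) * b' j = 1 := by
    rw [← hc]
    exact Finset.sum_congr rfl fun j _ => (Algebra.smul_def _ _).symm
  have hcA : ∀ j, c j ∈ A :=
    s17z_coeff_mem hC.rd b' hb'O hb'li c (by rw [hc']; exact O.one_mem)
  set v : Fin n → Fb := fun i => red ⟨b' i, hb'O i⟩ with hv
  set cb : Fin n → k := fun j => π ⟨c j, hcA j⟩ with hcbdef
  have hcb : ∑ j, cb j • v j = 1 := by
    have hfO : ∑ j, algebraMap K F (((⟨c j, hcA j⟩ : ↥A) : ↥A) : K) * b' j ∈ O := by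
      show ∑ j, algebraMap K F (c j) * b' j ∈ O
      rw [hc']; exact O.one_mem
    have h2 := s17z_red_comb hC.rd b' hb'O (fun j => ⟨c j, hcA j⟩) hfO
    rw [← h2]
    have : (⟨∑ j, algebraMap K F (((⟨c j, hcA j⟩ : ↥A) : ↥A) : K) * b' j, hfO⟩ : ↥O) = 1 :=
      Subtype.ext hc'
    rw [this, map_one]
  obtain ⟨i₀, hi₀⟩ : ∃ i₀, cb i₀ ≠ 0 := by
    by_contra hcon
    have hall : ∀ i, cb i = 0 := fun i => by
      by_contra hi
      exact hcon ⟨i, hi⟩
    apply one_ne_zero (α := Fb)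
    rw [← hcb]
    exact Finset.sum_eq_zero fun i _ => by rw [hall i, zero_smul]
  obtain ⟨N, rfl⟩ : ∃ N, n = N + 1 := ⟨n - 1, by have := i₀.pos; omega⟩
  -- the exchange
  have hnot : (1 : Fb) ∉ Submodule.span k (Set.range (v ∘ i₀.succAbove)) := by
    intro h1
    have hrange : Set.range (v ∘ i₀.succAbove) = v '' {i₀}ᶜ := by
      rw [Set.range_comp, Fin.range_succAbove]
    rw [hrange] at h1
    have hmemj : ∀ j, v (i₀.succAbove j) ∈ Submodule.span k (v '' {i₀}ᶜ) := fun j =>
      Submodule.subset_span ⟨i₀.succAbove j, Fin.succAbove_ne i₀ j, rfl⟩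
    have h2 : cb i₀ • v i₀ ∈ Submodule.span k (v '' {i₀}ᶜ) := by
      have h3 : cb i₀ • v i₀ = 1 - ∑ j, cb (i₀.succAbove j) • v (i₀.succAbove j) := by
        rw [← hcb, Fin.sum_univ_succAbove _ i₀, add_sub_cancel_right]
      rw [h3]
      exact Submodule.sub_mem _ h1
        (Submodule.sum_mem _ fun j _ => Submodule.smul_mem _ _ (hmemj j))
    have h4 : v i₀ ∈ Submodule.span k (v '' {i₀}ᶜ) := by
      have := Submodule.smul_mem _ (cb i₀)⁻¹ h2
      rwa [smul_smul, inv_mul_cancel₀ hi₀, one_smul] at this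
    exact hb'li.notMem_span_image (s := {i₀}ᶜ) (x := i₀) (by simp) h4
  have hli' : LinearIndependent k (Fin.cons (1 : Fb) (v ∘ i₀.succAbove) : Fin (N + 1) → Fb) :=
    linearIndependent_finCons.mpr ⟨hb'li.comp _ Fin.succAbove_right_injective, hnot⟩
  -- the new family
  set β' : Fin (N + 1) → F := Fin.cons 1 (b' ∘ i₀.succAbove) with hβ'def
  have hβ'O : ∀ i, β' i ∈ O := by
    intro i
    refine Fin.cases ?_ (fun j => ?_) i
    · rw [hβ'def, Fin.cons_zero]; exact O.one_mem
    · rw [hβ'def, Fin.cons_succ]; exact hb'O _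
  have hβ'E : ∀ i, β' i ∈ riemannRochSpace E := by
    intro i
    refine Fin.cases ?_ (fun j => ?_) i
    · rw [hβ'def, Fin.cons_zero]; exact s19l_one_mem hE
    · rw [hβ'def, Fin.cons_succ]; exact hb'E _
  have hfun : (fun i => red ⟨β' i, hβ'O i⟩) =
      (Fin.cons (1 : Fb) (v ∘ i₀.succAbove) : Fin (N + 1) → Fb) := by
    funext i
    refine Fin.cases ?_ (fun j => ?_) i
    · rw [Fin.cons_zero]
      have : (⟨β' 0, hβ'O 0⟩ : ↥O) = 1 := Subtype.ext (by
        show β' 0 = (1 : F)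
        rw [hβ'def, Fin.cons_zero])
      rw [this, map_one]
    · rw [Fin.cons_succ]
      have : (⟨β' j.succ, hβ'O j.succ⟩ : ↥O) = ⟨b' (i₀.succAbove j), hb'O _⟩ :=
        Subtype.ext (by
          show β' j.succ = b' (i₀.succAbove j)
          rw [hβ'def, Fin.cons_succ]; rfl)
      rw [this]
      rfl
  have hβ'li : LinearIndependent k fun i => red ⟨β' i, hβ'O i⟩ := by
    rw [hfun]; exact hli'
  -- restriction to the first `m + 1` indices
  refine ⟨β' ∘ Fin.castLE hm, fun j => hβ'O _, ?_, fun j => hβ'E _, ?_⟩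
  · show β' (Fin.castLE hm 0) = 1
    rw [Fin.castLE_zero, hβ'def, Fin.cons_zero]
  · exact hβ'li.comp (Fin.castLE hm) (Fin.castLE_injective hm)

include hC in
/-- **Gauss-orthonormal families containing `1`.** -/
theorem s17z_basis_one (E : Divisor K F) (hE : ∀ P, 0 ≤ E P) (m : ℕ)
    (hm : m + 1 ≤ Module.finrank K ↥(riemannRochSpace E)) :
    ∃ (β : Fin (m + 1) → F) (hβO : ∀ j, β j ∈ O), β 0 = 1 ∧
      (∀ j, β j ∈ riemannRochSpace E) ∧ LinearIndependent k fun j => red ⟨β j, hβO j⟩ := by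
  classical
  have := hC.rrF.fin E
  let B := Module.finBasis K ↥(riemannRochSpace E)
  let b₀ : Fin (Module.finrank K ↥(riemannRochSpace E)) → F := fun i => (B i : F)
  have hli₀ : LinearIndependent K b₀ :=
    B.linearIndependent.map' (Submodule.subtype _) (Submodule.ker_subtype _)
  have hspan₀ : Submodule.span K (Set.range b₀) = riemannRochSpace E := by
    have h1 : Set.range b₀ = (riemannRochSpace E).subtype '' Set.range B := by
      rw [← Set.range_comp]; rfl
    rw [h1, ← Submodule.map_span, B.span_eq, Submodule.map_subtype_top]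
  obtain ⟨b', hspan, hb'O, hb'li⟩ := hC.sc _ b₀ hli₀
  have hspanE : Submodule.span K (Set.range b') = riemannRochSpace E := hspan.trans hspan₀
  have hb'E : ∀ i, b' i ∈ riemannRochSpace E := fun i => by
    rw [← hspanE]; exact Submodule.subset_span ⟨i, rfl⟩
  have h1mem : (1 : F) ∈ Submodule.span K (Set.range b') := by
    rw [hspanE]; exact s19l_one_mem hE
  exact s17z_exchange hC E hE m _ hm b' hb'O hb'E hb'li h1mem

end Basis

end Fermat.Agent.Lib.S17
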