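/-
MW programme (S17), brick [W1'] "the kernel of reduction is 2-divisible", curve side [HALF]
(helper5, prefix `s17z_`): INTERFACE.

* `s17z_AH`: the abstract algebraicity theorem [AH] (owner: helper7) as a closed `Prop`:
  on finitely many abstract discs `D i` (functions algebraic over `A[t_i]`), the system
  "`ψ0 i + Σ_k c_k ψ k i` has a double zero at the point of parameter `q_i`, for every `i`"
  has a solution `(c, q)` with entries in the maximal ideal of `A`, as soon as the reduced
  system is non-degenerate (`h0 h1 hu hdet`).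
* `s17z_Half`: the target of [HALF]: on an abstract curve with good reduction, residue
  characteristic `≠ 2`, the kernel of specialization `J¹` is 2-divisible.
-/
import Fermat.Agent.Lib.S19.JOne

set_option autoImplicit false
set_option linter.unusedSectionVars false
set_option linter.unusedVariables false

noncomputable section

namespace Fermat.Agent.Lib.S17

open AlgebraicCurve Fermat.Agent.Lib.FF Fermat.Agent.Lib.S37 Fermat.Agent.Lib.S19 IsLocalRing

/-- [AH] **double zeros on discs** (abstract algebraicity + Newton). -/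
def s17z_AH : Prop :=
  ∀ {K : Type} [Field K] [IsAlgClosed K] [CharZero K] (A : ValuationSubring K)
    (abv : AbsoluteValue K ℝ) (_ : ∀ x y, abv (x + y) ≤ max (abv x) (abv y))
    (_ : ∀ x : K, x ∈ A ↔ abv x ≤ 1) (_ : IsUnit (2 : ↥A)) (W : Subring ↥A)
    {ι : Type} [Fintype ι] [DecidableEq ι] (G : ι → Type) [∀ i, CommRing (G i)]
    [∀ i, IsDomain (G i)] [∀ i, Algebra ↥A (G i)] (D : ∀ i, s19_Disc ↥A W (G i))
    (_ : ∀ i (h : G i), IsAlgebraic ↥(Algebra.adjoin ↥A {(D i).t}) h)
    (ψ0 : ∀ i, G i) (ψ : ι → ∀ i, G i)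
    (_ : ∀ i, s19_tay (D i) 0 (ψ0 i) ∈ maximalIdeal ↥A)
    (_ : ∀ i, s19_tay (D i) 1 (ψ0 i) ∈ maximalIdeal ↥A)
    (_ : ∀ i, IsUnit (s19_tay (D i) 2 (ψ0 i)))
    (_ : IsUnit (Matrix.det (Matrix.of fun i k => s19_tay (D i) 0 (ψ k i)))),
    ∃ (c q : ι → ↥(maximalIdeal ↥A)), ∀ i, ∃ g' : G i,
      ψ0 i + ∑ k, algebraMap ↥A (G i) (c k : ↥A) * ψ k i =
        ((D i).t - algebraMap ↥A (G i) (q i : ↥A)) ^ 2 * g'

/-- [HALF] **the kernel of specialization is 2-divisible** (abstract curve with good reduction,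
residue characteristic different from `2`, `A` the unit ball of a non-archimedean absolute
value). -/
def s17z_Half : Prop :=
  ∀ {K F k Fb : Type} [Field K] [Field F] [Algebra K F] [IsAlgClosed K] [CharZero K] [Field k]
    [Field Fb] [Algebra k Fb] (x : F) [FFGen K x] (A : ValuationSubring K) (π : ↥A →+* k)
    (O : ValuationSubring F) (red : ↥O →+* Fb) (r : Place K F → Place k Fb) (FW : Subring F)
    (l : ↥A) (g : ℕ) (_ : s19_Curve x A π O red r FW l g) (_ : s19_Sys red r FW g)
    (abv : AbsoluteValue K ℝ) (_ : ∀ x y, abv (x + y) ≤ max (abv x) (abv y))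
    (_ : ∀ x : K, x ∈ A ↔ abv x ≤ 1) (_ : IsUnit (2 : ↥A)),
    ∀ y ∈ s19j_J1 (K := K) (F := F) r, ∃ y' ∈ s19j_J1 (K := K) (F := F) r, 2 • y' = y

end Fermat.Agent.Lib.S17
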